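import Fermat.Agent.Modular.CorrFacts
import Fermat.Agent.Igusa.MonoSwap
import Fermat.Agent.Galois.TransferHecke

/-!
# The degeneracy push-forwards `J₀(M') → J₀(M)` and the Hecke and Galois actions

`degPush d h` is the norm along `f(τ) ↦ f(dτ)` for `M d ∣ M'`. It commutes with Galois; for
`d = 1`, and for `d = q` with `M' = q M`, `q ∤ M` prime, it commutes with `T ℓ`, `ℓ ∤ M'`.
-/

set_option autoImplicit false
set_option linter.style.haveILetI false
set_option synthInstance.maxHeartbeats 200000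

noncomputable section

open AlgebraicCurve ModularCurve
open FermatLib.Modular FermatLib.Modular.Corr

namespace FermatLib.MazurP

section General

variable {K F F' : Type*} [Field K] [Field F] [Field F'] [Algebra K F] [Algebra K F']

/-- The push-forward of divisor classes along an embedding. -/
def picPush (φ : F →ₐ[K] F') (hfin : FiniteAlong K φ) (hN : NormFormulaAlong K φ hfin) :
    Pic0 K F' →+ Pic0 K F :=
  QuotientAddGroup.map _ _
    (((Divisor.pushforwardAlong φ (finiteAlong_isIntegral hfin)).domRestrict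
      (Divisor.degZero (K := K) (F := F'))).codRestrict _
      fun D => Divisor.pushforwardAlong_mem_degZero φ (finiteAlong_isIntegral hfin) D.2)
    (by
      rintro ⟨D, hD0⟩ hD
      simp only [AddSubgroup.mem_addSubgroupOf] at hD ⊢
      exact Divisor.isPrincipal_pushforwardAlong φ (finiteAlong_isIntegral hfin) hfin hN hD)

theorem picPush_mk (φ : F →ₐ[K] F') (hfin : FiniteAlong K φ) (hN : NormFormulaAlong K φ hfin)
    (D : Divisor.degZero (K := K) (F := F')) :
    picPush φ hfin hN (Pic0.mk D) =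
      Pic0.mk ⟨Divisor.pushforwardAlong φ (finiteAlong_isIntegral hfin) D,
        Divisor.pushforwardAlong_mem_degZero φ _ D.2⟩ :=
  rfl

/-- Composing with an automorphism does not change the degree. -/
theorem finrankAlong_equiv_comp {F'' : Type*} [Field F''] [Algebra K F''] (e : F' ≃ₐ[K] F'')
    (φ : F →ₐ[K] F') : finrankAlong K (e.toAlgHom.comp φ) = finrankAlong K φ := by
  letI := algebraAlong φ
  letI := algebraAlong (e.toAlgHom.comp φ)
  exact (Algebra.finrank_eq_of_equiv_equiv (RingEquiv.refl F) e.toRingEquiv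
    (RingHom.ext fun _ => rfl)).symm

end General

local notation "Qbar" => AlgebraicClosure ℚ
local notation "Γℚ" => (AlgebraicClosure ℚ ≃ₐ[ℚ] AlgebraicClosure ℚ)

/-- The push-forward `J₀(M') → J₀(M)` along `f(τ) ↦ f(dτ)`. -/
def degPush {M M' : ℕ} [NeZero M] [NeZero M'] (d : ℕ) [NeZero d] (h : M * d ∣ M') :
    JZero M' →+ JZero M :=
  picPush (barBeta Qbar d h) (finiteAlong_barBeta (levelFacts Qbar) d h)
    ((curveFacts Qbar).normFormula M M' _ _)

theorem degPush_mk {M M' : ℕ} [NeZero M] [NeZero M'] (d : ℕ) [NeZero d] (h : M * d ∣ M')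
    (D : Divisor.degZero (K := Qbar) (F := fieldBar Qbar M')) :
    degPush d h (Pic0.mk D) =
      Pic0.mk ⟨Divisor.pushforwardAlong (barBeta Qbar d h)
          (finiteAlong_isIntegral (finiteAlong_barBeta (levelFacts Qbar) d h)) D,
        Divisor.pushforwardAlong_mem_degZero _ _ D.2⟩ :=
  rfl

/-- The push-forwards commute with Galois. -/
theorem degPush_smul {M M' : ℕ} [NeZero M] [NeZero M'] (d : ℕ) [NeZero d] (h : M * d ∣ M')
    (σ : Γℚ) (x : JZero M') : degPush d h (σ • x) = σ • degPush d h x := by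
  obtain ⟨D, rfl⟩ := Pic0.mk_surjective x
  show degPush d h (arithmeticGalois (modularFunctionFieldFull M') σ • Pic0.mk D) =
    arithmeticGalois (modularFunctionFieldFull M) σ • degPush d h (Pic0.mk D)
  rw [SemilinearAut.pic0_smul_mk, degPush_mk, degPush_mk, SemilinearAut.pic0_smul_mk]
  refine congrArg Pic0.mk (Subtype.ext ?_)
  simp only [SemilinearAut.coe_degZeroSMulHom]
  refine pushforwardAlong_smul (intertwinesAlong_of_coe _ _ _ fun y => ?_) _
    ((curveFacts Qbar).deg_eq_one M') _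
  rw [coe_arithmeticGalois_smul, coe_barBeta, coe_barBeta, coe_arithmeticGalois_smul]
  exact ModularCurve.coeffMap_qExpand _ d _

/-- `T ℓ` on a divisor class, with the upper level named. -/
theorem heckeOperatorBar_mk (N : ℕ) [NeZero N] (ℓ : Nat.Primes) [NeZero (ℓ : ℕ)] {N' : ℕ}
    [NeZero N'] [HasPrincipalDivisors Qbar (fieldBar Qbar N')] (hN' : N * ℓ = N')
    (D : Divisor.degZero (K := Qbar) (F := fieldBar Qbar N)) :
    ∃ E : Divisor.degZero (K := Qbar) (F := fieldBar Qbar N),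
      (E : Divisor Qbar (fieldBar Qbar N)) =
        Divisor.correspondence (barBeta Qbar ℓ (dvd_of_eq hN'))
          (barIncl Qbar ((dvd_mul_right N ℓ).trans (dvd_of_eq hN')))
          (isIntegral_barBeta (levelFacts Qbar) ℓ _) (isIntegral_barIncl (levelFacts Qbar) _) D ∧
      heckeOperatorBar N ℓ (Pic0.mk D) = Pic0.mk E := by
  subst hN'
  obtain ⟨E, hE, hTE⟩ := heckeOperatorAlong_mk (levelFacts Qbar) (curveFacts Qbar) N ℓ D
  exact ⟨E, hE, hTE⟩

/-- Push-forward commutes with `T ℓ` as soon as the square of degeneracy maps is cocartesian. -/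
theorem degPush_hecke_of_isCocartesian {M M' : ℕ} [NeZero M] [NeZero M'] (d : ℕ) [NeZero d]
    (h : M * d ∣ M') (ℓ : Nat.Primes) [NeZero (ℓ : ℕ)] [NeZero (M * (ℓ : ℕ))] {N' : ℕ} [NeZero N']
    (hN' : M' * ℓ = N') (h' : M * ℓ * d ∣ N')
    (H : IsCocartesian (barBeta Qbar d h) (barBeta Qbar ℓ (dvd_refl (M * ℓ)))
      (barBeta Qbar ℓ (dvd_of_eq hN')) (barBeta Qbar d h'))
    (x : JZero M') :
    degPush d h (heckeOperatorBar M' ℓ x) = heckeOperatorBar M ℓ (degPush d h x) := by
  have hL := levelFacts Qbar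
  have hC := curveFacts Qbar
  haveI := hC.hasPrincipalDivisors M'
  haveI := hC.hasPrincipalDivisors N'
  haveI := hC.hasPrincipalDivisors (M * ℓ)
  obtain ⟨D, rfl⟩ := Pic0.mk_surjective x
  obtain ⟨E, hE, hTE⟩ := heckeOperatorBar_mk M' ℓ hN' D
  obtain ⟨E', hE', hTE'⟩ := heckeOperatorBar_mk M ℓ rfl
    ⟨Divisor.pushforwardAlong (barBeta Qbar d h)
      (finiteAlong_isIntegral (finiteAlong_barBeta hL d h)) D,
      Divisor.pushforwardAlong_mem_degZero _ _ D.2⟩
  rw [hTE, degPush_mk, degPush_mk, hTE']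
  refine congrArg Pic0.mk (Subtype.ext ?_)
  show Divisor.pushforwardAlong _ _ (E : Divisor Qbar (fieldBar Qbar M')) = _
  rw [hE, hE', Divisor.correspondence_apply, Divisor.correspondence_apply]
  set α := barIncl Qbar (dvd_mul_right M (ℓ : ℕ)) with hα
  set α' := barIncl Qbar ((dvd_mul_right M' (ℓ : ℕ)).trans (dvd_of_eq hN')) with hα'
  set φ := barBeta Qbar d h with hφ
  set φ' := barBeta Qbar d h' with hφ'
  have e : α'.comp φ = φ'.comp α := comp_eq_comp_of_coe _ _ _ _ fun y => by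
    rw [hα', hφ, hφ', hα, coe_barIncl, coe_barBeta, coe_barBeta, coe_barIncl]
  have iφ : φ.toRingHom.IsIntegral := isIntegral_barBeta hL d h
  have iφ' : φ'.toRingHom.IsIntegral := isIntegral_barBeta hL d h'
  have iα : α.toRingHom.IsIntegral := isIntegral_barIncl hL _
  have iα' : α'.toRingHom.IsIntegral := isIntegral_barIncl hL _
  have i1 : (α'.comp φ).toRingHom.IsIntegral := RingHom.IsIntegral.trans _ _ iφ iα'
  have i2 : (φ'.comp α).toRingHom.IsIntegral := RingHom.IsIntegral.trans _ _ iα iφ'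
  rw [pushforwardAlong_pushforwardAlong iφ iα' i1 (hC.deg_eq_one _) (hC.deg_eq_one _),
    pushforwardAlong_congr e i1 i2,
    ← pushforwardAlong_pushforwardAlong iα iφ' i2 (hC.deg_eq_one _) (hC.deg_eq_one _),
    H.pullback_pushforward (isIntegral_barBeta hL ℓ _) (isIntegral_barBeta hL ℓ _) iφ iφ'
      (hC.normFormula _ _ _ _) (hC.normFormula _ _ _ _)]

/-- Two maps on `ℚ̄(X₀(N))` agreeing on the `j(eτ)`, `e ∣ N`, are equal. -/
theorem fieldBar_algHom_ext (N : ℕ) [NeZero N] {E : Type*} [Field E] [Algebra Qbar E]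
    {f g : fieldBar Qbar N →ₐ[Qbar] E}
    (h : ∀ (x : fieldBar Qbar N) (e : ℕ) (_ : NeZero e), e ∣ N →
      (x : LaurentSeries Qbar) = qExpand Qbar e (jqModC Qbar) → f x = g x) : f = g := by
  refine IntermediateField.algHom_ext_of_eq_adjoin Qbar (Igusa.laurentBaseChange_full_eq Qbar N) ?_
  rintro x ⟨e, hne, he, rfl⟩
  exact h _ e hne he rfl

/-- `F_{M'ℓ}` is generated by the images of `F_{Mℓ}` and of `F_{M'}`. -/
theorem closure_range_barBeta_one {A B N' l : ℕ} [NeZero A] [NeZero B] [NeZero N'] [NeZero l]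
    (hA : A * 1 ∣ N') (hB : B * l = N') :
    Subfield.closure (Set.range (barBeta Qbar 1 hA) ∪
      Set.range (barBeta Qbar l (dvd_of_eq hB))) = ⊤ := by
  refine closure_range_union_eq_top
    (fieldBar_eq_adjoin_pair N' ((levelFacts Qbar).generation N')) _ _
    ⟨⟨jBar Qbar, jBar_mem_fieldBar _⟩, ?_⟩
    ⟨⟨qExpand Qbar B (jBar Qbar), qExpand_jBar_mem_fieldBar dvd_rfl⟩, ?_⟩
  · rw [coe_barBeta, qExpand_one_apply]
  · rw [coe_barBeta, qExpand_qExpand]
    exact qExpand_congr (by rw [← hB, mul_comm]) _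

theorem barBeta_one {A B : ℕ} [NeZero A] [NeZero B] (h : A * 1 ∣ B) :
    barBeta Qbar 1 h = barIncl Qbar ((mul_one A).symm.dvd.trans h) :=
  AlgHom.ext fun x => Subtype.ext (by rw [coe_barBeta, coe_barIncl, qExpand_one_apply])

theorem finrankAlong_barBeta_one {M M' l : ℕ} [NeZero M] [NeZero M'] [NeZero l] [NeZero (M * l)]
    (hl : l.Prime) (hlM : ¬ l ∣ M') {N' : ℕ} [NeZero N'] (hN' : M' * l = N') (h : M * 1 ∣ M')
    (h' : M * l * 1 ∣ N') :
    finrankAlong Qbar (barBeta Qbar 1 h') = finrankAlong Qbar (barBeta Qbar 1 h) := by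
  subst hN'
  rw [barBeta_one, barBeta_one]
  have h1 := finrankAlong_barIncl_mul (levelFacts Qbar) ((mul_one M).symm.dvd.trans h)
  have h2 := finrankAlong_barIncl_mul (levelFacts Qbar) ((mul_one (M * l)).symm.dvd.trans h')
  rw [dedekindPsi_mul_prime M hl, dedekindPsi_mul_prime M' hl, if_neg hlM,
    if_neg fun hl' => hlM (hl'.trans ((mul_one M).symm.dvd.trans h)), ← h1] at h2
  exact Nat.eq_of_mul_eq_mul_right (Nat.mul_pos l.succ_pos (dedekindPsi_pos' M))
    (h2.trans (mul_left_comm _ _ _))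

/-- The square for `d = 1`. -/
theorem isCocartesian_barBeta_one {M M' : ℕ} [NeZero M] [NeZero M'] (h : M * 1 ∣ M')
    {l : ℕ} [NeZero l] [NeZero (M * l)] (hl : l.Prime) (hlM : ¬ l ∣ M') {N' : ℕ} [NeZero N']
    (hN' : M' * l = N') (h' : M * l * 1 ∣ N') :
    IsCocartesian (barBeta Qbar 1 h) (barBeta Qbar l (dvd_refl (M * l)))
      (barBeta Qbar l (dvd_of_eq hN')) (barBeta Qbar 1 h') where
  comm := comp_eq_comp_of_coe _ _ _ _ fun x => by
    rw [coe_barBeta, coe_barBeta, coe_barBeta, coe_barBeta, qExpand_one_apply, qExpand_one_apply]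
  finite_left := finiteAlong_barBeta (levelFacts Qbar) 1 h
  finite_right := finiteAlong_barBeta (levelFacts Qbar) 1 h'
  finrank_eq := finrankAlong_barBeta_one hl hlM hN' h h'
  generate := closure_range_barBeta_one h' hN'

/-- `π_{1*}` commutes with `T ℓ`, `ℓ ∤ M'`. -/
theorem degPush_one_hecke {M M' : ℕ} [NeZero M] [NeZero M'] (h : M * 1 ∣ M') (ℓ : Nat.Primes)
    (hℓ : ¬ (ℓ : ℕ) ∣ M') (x : JZero M') :
    degPush 1 h (heckeOperatorBar M' ℓ x) = heckeOperatorBar M ℓ (degPush 1 h x) := by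
  haveI : NeZero (ℓ : ℕ) := ⟨ℓ.2.ne_zero⟩
  haveI := Corr.neZero_mul' M ℓ
  haveI := Corr.neZero_mul' M' ℓ
  have h' : M * ℓ * 1 ∣ M' * ℓ :=
    (mul_one _).dvd.trans (mul_dvd_mul_right ((mul_one M).symm.dvd.trans h) _)
  exact degPush_hecke_of_isCocartesian 1 h ℓ rfl h'
    (isCocartesian_barBeta_one h ℓ.2 hℓ rfl h') x

section Swap

open FermatLib.Igusa.Mono

variable {q : ℕ} [Fact q.Prime] {M : ℕ} [NeZero M]

/-- `π₂ = w_q ∘ π₁`. -/
theorem barBeta_eq_monoSwap_comp (hqM : ¬ q ∣ M) [NeZero q] [NeZero (q * M)]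
    (h : M * q ∣ q * M) (h₁ : M * 1 ∣ q * M) :
    barBeta Qbar q h = (monoSwap hqM).toAlgHom.comp (barBeta Qbar 1 h₁) := by
  refine fieldBar_algHom_ext M fun x e _ he hx => Subtype.ext ?_
  let E : LevelDiv q M := ⟨e, Nat.mem_divisors.mpr ⟨he.trans (dvd_mul_left M q), monoLevel_ne_zero⟩⟩
  have hE : ((swapDiv hqM E : LevelDiv q M) : ℕ) = q * e := if_neg fun hqe => hqM (hqe.trans he)
  show (barBeta Qbar q h x : LaurentSeries Qbar) = monoSwap hqM (barBeta Qbar 1 h₁ x)
  rw [coe_monoSwap_of_eq hqM (e := E) (by rw [coe_barBeta, qExpand_one_apply, hx]; rfl),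
    coe_barBeta, hx, qExpand_qExpand]
  exact qExpand_congr hE.symm _

/-- `w_q` commutes with `f(τ) ↦ f(ℓτ)`, `ℓ` prime to `q`. -/
theorem monoSwap_barBeta (hqM : ¬ q ∣ M) [NeZero (q * M)] {l : ℕ} [NeZero l] [NeZero (M * l)]
    (hqMl : ¬ q ∣ M * l) [NeZero (q * (M * l))] (h : q * M * l ∣ q * (M * l))
    (x : modularFunctionFieldBar (q * M)) :
    monoSwap hqMl (barBeta Qbar l h x) = barBeta Qbar l h (monoSwap hqM x) := by
  suffices H : (monoSwap hqMl).toAlgHom.comp (barBeta Qbar l h) =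
      (barBeta Qbar l h).comp (monoSwap hqM).toAlgHom from DFunLike.congr_fun H x
  refine fieldBar_algHom_ext (q * M) fun y e _ he hy => Subtype.ext ?_
  have hq := (Fact.out : q.Prime)
  have hql : ¬ q ∣ l := fun hd => hqMl (hd.trans (dvd_mul_left l M))
  let e' : LevelDiv q M := ⟨e, Nat.mem_divisors.mpr ⟨he, monoLevel_ne_zero⟩⟩
  let E : LevelDiv q (M * l) := ⟨l * e, Nat.mem_divisors.mpr ⟨by
    rw [← mul_assoc, mul_comm (q * M) l]
    exact mul_dvd_mul_left l he, monoLevel_ne_zero⟩⟩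
  have hs : ((swapDiv hqMl E : LevelDiv q (M * l)) : ℕ) = l * (swapDiv hqM e' : LevelDiv q M) := by
    show (if q ∣ l * e then l * e / q else q * (l * e)) = l * (if q ∣ e then e / q else q * e)
    by_cases hqe : q ∣ e
    · rw [if_pos hqe, if_pos (hqe.mul_left l), Nat.mul_div_assoc l hqe]
    · rw [if_neg hqe, if_neg fun hd => (hq.dvd_mul.mp hd).elim hql hqe]
      ring
  show (monoSwap hqMl (barBeta Qbar l h y) : LaurentSeries Qbar) =
    barBeta Qbar l h (monoSwap hqM y)
  rw [coe_monoSwap_of_eq hqMl (e := E) (by rw [coe_barBeta, hy, qExpand_qExpand]; rfl),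
    coe_barBeta, coe_monoSwap_of_eq hqM (e := e') hy, levelGen, levelGen, qExpand_qExpand]
  exact qExpand_congr hs _

/-- The square for `d = q`, `M' = q M`. -/
theorem isCocartesian_barBeta_swap (hqM : ¬ q ∣ M) [NeZero q] [NeZero (q * M)] {l : ℕ} [NeZero l]
    [NeZero (M * l)] [NeZero (q * (M * l))] (hl : l.Prime) (hlM : ¬ l ∣ q * M)
    (h : M * q ∣ q * M) (h' : M * l * q ∣ q * (M * l)) (hN' : q * M * l = q * (M * l)) :
    IsCocartesian (barBeta Qbar q h) (barBeta Qbar l (dvd_refl (M * l)))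
      (barBeta Qbar l (dvd_of_eq hN')) (barBeta Qbar q h') := by
  have hqMl : ¬ q ∣ M * l := fun hd => by
    rcases (Fact.out : q.Prime).dvd_mul.mp hd with hd | hd
    · exact hqM hd
    · exact hlM (((Nat.prime_dvd_prime_iff_eq Fact.out hl).mp hd) ▸ dvd_mul_right q M)
  have h₁ : M * 1 ∣ q * M := (mul_one M).dvd.trans (dvd_mul_left M q)
  have h₁' : M * l * 1 ∣ q * (M * l) := (mul_one _).dvd.trans (dvd_mul_left _ q)
  refine ⟨comp_eq_comp_of_coe _ _ _ _ fun x => ?_, finiteAlong_barBeta (levelFacts Qbar) q h,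
    finiteAlong_barBeta (levelFacts Qbar) q h', ?_, ?_⟩
  · rw [coe_barBeta, coe_barBeta, coe_barBeta, coe_barBeta, qExpand_qExpand, qExpand_qExpand]
    exact qExpand_congr (mul_comm l q) _
  · rw [barBeta_eq_monoSwap_comp hqM h h₁, barBeta_eq_monoSwap_comp hqMl h' h₁',
      finrankAlong_equiv_comp, finrankAlong_equiv_comp]
    exact finrankAlong_barBeta_one hl hlM hN' h₁ h₁'
  · have hw : Function.Surjective (monoSwap hqM).toAlgHom := (monoSwap hqM).surjective
    have hw' : Function.Surjective (monoSwap hqMl).toAlgHom := (monoSwap hqMl).surjective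
    have hb : Set.range (barBeta Qbar q h') =
        monoSwap hqMl '' Set.range (barBeta Qbar 1 h₁') := by
      rw [← Set.range_comp, barBeta_eq_monoSwap_comp hqMl h' h₁']
      rfl
    have hu : Set.range (barBeta Qbar l (dvd_of_eq hN')) =
        monoSwap hqMl '' Set.range (barBeta Qbar l (dvd_of_eq hN')) := by
      rw [← Set.range_comp]
      refine Eq.trans ?_ (congrArg Set.range (funext fun x =>
        (monoSwap_barBeta hqM hqMl (dvd_of_eq hN') x).symm))
      exact (hw.range_comp _).symm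
    rw [hb, hu, ← Set.image_union]
    have hmap := RingHom.map_field_closure (monoSwap hqMl).toAlgHom.toRingHom
      (Set.range (barBeta Qbar 1 h₁') ∪ Set.range (barBeta Qbar l (dvd_of_eq hN')))
    rw [closure_range_barBeta_one h₁' hN'] at hmap
    refine hmap.symm.trans (eq_top_iff.mpr fun y _ => ?_)
    obtain ⟨z, hz⟩ := hw' y
    exact ⟨z, Subfield.mem_top z, hz⟩

/-- `π_{q*}` commutes with `T ℓ`, `ℓ ∤ q M`. -/
theorem degPush_prime_hecke (hqM : ¬ q ∣ M) [NeZero q] [NeZero (q * M)] (h : M * q ∣ q * M)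
    (ℓ : Nat.Primes) (hℓ : ¬ (ℓ : ℕ) ∣ q * M) (x : JZero (q * M)) :
    degPush q h (heckeOperatorBar (q * M) ℓ x) = heckeOperatorBar M ℓ (degPush q h x) := by
  haveI : NeZero (ℓ : ℕ) := ⟨ℓ.2.ne_zero⟩
  haveI := Corr.neZero_mul' M ℓ
  haveI := Corr.neZero_mul' q (M * ℓ)
  have h' : M * ℓ * q ∣ q * (M * ℓ) := dvd_of_eq (mul_comm _ _)
  exact degPush_hecke_of_isCocartesian q h ℓ (mul_assoc q M ℓ) h'
    (isCocartesian_barBeta_swap hqM ℓ.2 hℓ h h' (mul_assoc q M ℓ)) x

end Swap

/-- A map commuting with the `T ℓ`, `ℓ ∉ S`, commutes with the Hecke polynomials away from `S`. -/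
theorem map_heckeModuleBar_smul {N N' : ℕ} [NeZero N] [NeZero N'] (f : JZero N' →+ JZero N)
    {S : Set ℕ}
    (hf : ∀ ℓ : Nat.Primes, (ℓ : ℕ) ∉ S → ∀ x,
      f (heckeOperatorBar N' ℓ x) = heckeOperatorBar N ℓ (f x))
    {t : HeckeAlg} (ht : t ∈ Galois.awayHeckeAlg S) (x : JZero N') :
    f (letI := heckeModuleBar N'; t • x) = (letI := heckeModuleBar N; t • f x) := by
  have hc := Modular.heckeOperatorsCommuteBar N
  have hc' := Modular.heckeOperatorsCommuteBar N'
  rw [heckeModuleBar_smul_def hc', heckeModuleBar_smul_def hc]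
  induction ht using Algebra.adjoin_induction generalizing x with
  | mem t ht =>
    obtain ⟨ℓ, hℓ, rfl⟩ := ht
    rw [heckeEvalBar_heckeGen, heckeEvalBar_heckeGen, hf ℓ hℓ]
  | algebraMap r =>
    rw [← RingHom.comp_apply, ← RingHom.comp_apply, eq_intCast, eq_intCast,
      Module.End.intCast_apply, Module.End.intCast_apply, map_zsmul]
  | add a b _ _ ha hb =>
    rw [map_add, map_add, LinearMap.add_apply, LinearMap.add_apply, map_add, ha, hb]
  | mul a b _ _ ha hb =>
    rw [map_mul, map_mul, Module.End.mul_apply, Module.End.mul_apply, ha, hb]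

/-- `π_{1*}` commutes with the Hecke polynomials away from the level. -/
theorem degPush_one_hecke_smul {M M' : ℕ} [NeZero M] [NeZero M'] (h : M * 1 ∣ M') {t : HeckeAlg}
    (ht : t ∈ Galois.awayHeckeAlg {r : ℕ | r ∣ M'}) (x : JZero M') :
    degPush 1 h (letI := heckeModuleBar M'; t • x) =
      (letI := heckeModuleBar M; t • degPush 1 h x) :=
  map_heckeModuleBar_smul _ (fun ℓ hℓ => degPush_one_hecke h ℓ hℓ) ht x

/-- `π_{q*}` commutes with the Hecke polynomials away from the level. -/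
theorem degPush_prime_hecke_smul {q : ℕ} [Fact q.Prime] {M : ℕ} [NeZero M] (hqM : ¬ q ∣ M)
    [NeZero q] [NeZero (q * M)] (h : M * q ∣ q * M) {t : HeckeAlg}
    (ht : t ∈ Galois.awayHeckeAlg {r : ℕ | r ∣ q * M}) (x : JZero (q * M)) :
    degPush q h (letI := heckeModuleBar (q * M); t • x) =
      (letI := heckeModuleBar M; t • degPush q h x) :=
  map_heckeModuleBar_smul _ (fun ℓ hℓ => degPush_prime_hecke hqM h ℓ hℓ) ht x

end FermatLib.MazurP
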