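import Fermat.Agent.Galois.MazurP.WildPoint
import Fermat.Agent.EC.Frey05Frey
import Fermat.Agent.Basic.FreyCurveFacts
import Fermat.Prelude.Def_FLTPrelim_FreyPackage
import Fermat.Prelude.Def_FLTPrelim_GaloisRep

/-!
# The local input of the Mazur principle at `p` for the Frey curve
-/

set_option autoImplicit false

noncomputable section

open WeierstrassCurve WeierstrassCurve.Affine
open FermatLib.EC FermatLib.EC.Frey05
open scoped WeierstrassCurve.Affine

namespace FermatLib.MazurP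

local notation "Qbar" => AlgebraicClosure ℚ

/-- The local input, given the shift to the standard model at `p`. -/
theorem exists_peuPoint_frey_of_data (P : FreyPackage) (A : ValuationSubring Qbar)
    (hA : A.LiesOverPrime P.p) (D U R δ : ℤ)
    (e₂ : -(D + U) = P.b ^ P.p - P.a ^ P.p + 3 * R)
    (e₄ : D * U = -(P.a ^ P.p * P.b ^ P.p) + 2 * R * (P.b ^ P.p - P.a ^ P.p) + 3 * R ^ 2)
    (e₆ : R ^ 3 + (P.b ^ P.p - P.a ^ P.p) * R ^ 2 - P.a ^ P.p * P.b ^ P.p * R = 0)
    (hD : D ≠ 0) (hU : U ≠ 0) (hDU : D ≠ U) (hpU : ¬ (P.p : ℤ) ∣ U) (hpD : (P.p : ℤ) ∣ D)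
    (hδ : D = δ ^ P.p) :
    ∃ y : Submodule.torsionBy ℤ (P.freyCurve⁄Qbar).Point P.p, y ≠ 0 ∧ PeuPoint A P.p y := by
  have hS : IsShift (P.freyCurve⁄Qbar) ((stdCurve D U)⁄Qbar) ((D : Qbar) / 4) ((U : Qbar) / 4)
      ((R : Qbar) / 4) := by
    have f₂ : -((D : Qbar) + U) = (P.b : Qbar) ^ P.p - (P.a : Qbar) ^ P.p + 3 * R := by
      have := congrArg (Int.cast : ℤ → Qbar) e₂
      push_cast at this
      exact this
    have f₄ : (D : Qbar) * U = -((P.a : Qbar) ^ P.p * (P.b : Qbar) ^ P.p) +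
        2 * R * ((P.b : Qbar) ^ P.p - (P.a : Qbar) ^ P.p) + 3 * (R : Qbar) ^ 2 := by
      have := congrArg (Int.cast : ℤ → Qbar) e₄
      push_cast at this
      exact this
    have f₆ : (R : Qbar) ^ 3 + ((P.b : Qbar) ^ P.p - (P.a : Qbar) ^ P.p) * (R : Qbar) ^ 2
        - (P.a : Qbar) ^ P.p * (P.b : Qbar) ^ P.p * R = 0 := by
      have := congrArg (Int.cast : ℤ → Qbar) e₆
      push_cast at this
      exact this
    refine ⟨⟨?_, ?_, ?_, ?_, ?_⟩, ?_, ?_, ?_, ?_, ?_, two_ne_zero, ?_, ?_, ?_⟩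
    all_goals
      try simp only [WeierstrassCurve.baseChange, WeierstrassCurve.map, stdCurve,
        FreyPackage.freyCurve, map_neg, map_add, map_sub, map_mul, map_div₀, map_pow, map_zero,
        map_one, map_intCast, map_ofNat]
    · linear_combination f₂ / 4
    · linear_combination f₄ / 16
    · linear_combination f₆ / 64
    · exact div_ne_zero (Int.cast_ne_zero.2 hD) (by norm_num)
    · exact div_ne_zero (Int.cast_ne_zero.2 hU) (by norm_num)
    · intro h
      exact hDU (Int.cast_injective (α := Qbar) ((div_left_inj' (by norm_num)).1 h))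
  have hp5 := P.hp5
  set v := A.valuation
  have h2 : v (2 : Qbar) = 1 := by
    have : ¬ (P.p : ℤ) ∣ 2 := fun h => by
      have := Int.le_of_dvd two_pos h
      omega
    simpa using valuation_intCast_eq_one A P.pp hA this
  have h4 : v (4 : Qbar) = 1 := by
    rw [show (4 : Qbar) = 2 * 2 by norm_num, map_mul, h2, one_mul]
  have hM : IsMult v ((stdCurve D U)⁄Qbar) ((D : Qbar) / 4) ((U : Qbar) / 4) := by
    refine ⟨hS.std, h2, ?_, ?_, hS.d0⟩
    · rw [map_div₀, h4, div_one]; exact valuation_intCast_lt_one A hA hpD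
    · rw [map_div₀, valuation_intCast_eq_one A P.pp hA hpU, h4, div_one]
  have hK : ∀ n : ℤ, (n : Qbar) / 4 ∈ inertiaField A := fun n =>
    div_mem (intCast_mem _ n) (by simpa using intCast_mem (inertiaField A) 4)
  have hcomm : ∀ (σ : Qbar ≃ₐ[ℚ] Qbar) (Q : (P.freyCurve⁄Qbar).Point),
      hS.hom (σ • Q) = σ • hS.hom Q := by
    rintro σ (_ | ⟨x, y, h⟩)
    · rfl
    · change Point.some _ _ _ = Point.some _ _ _
      simp only [Point.some.injEq]
      constructor <;> simp [map_ofNat, map_intCast, map_div₀]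
  obtain ⟨T, hT0, hT, hpeu⟩ := exists_peuPoint_of_isMult P.pp hp5 hA hM (hK D) (hK U)
    (δ := (δ : Qbar)) (by rw [map_div₀, h4, div_one, hδ, Int.cast_pow, map_pow])
    (intCast_mem _ δ)
  -- pull the point back along the change of coordinates
  have := FermatLib.Basic.Frey.freyCurve_isElliptic P
  have hp0 : (P.p : Qbar) ≠ 0 := Nat.cast_ne_zero.mpr P.pp.ne_zero
  have : ((stdCurve D U)⁄Qbar).IsElliptic := ⟨isUnit_iff_ne_zero.mpr (Δ_ne_zero_of_isMult hM)⟩
  have hmem : ∀ Q : Submodule.torsionBy ℤ (P.freyCurve⁄Qbar).Point (P.p : ℤ),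
      hS.hom Q.1 ∈ Submodule.torsionBy ℤ ((stdCurve D U)⁄Qbar).Point (P.p : ℤ) := fun Q => by
    rw [Submodule.mem_torsionBy_iff, ← map_zsmul, (Submodule.mem_torsionBy_iff _ _).1 Q.2,
      map_zero]
  let f : Submodule.torsionBy ℤ (P.freyCurve⁄Qbar).Point (P.p : ℤ) →
      Submodule.torsionBy ℤ ((stdCurve D U)⁄Qbar).Point (P.p : ℤ) := fun Q => ⟨hS.hom Q.1, hmem Q⟩
  have : Finite (Submodule.torsionBy ℤ ((stdCurve D U)⁄Qbar).Point (P.p : ℤ)) :=
    finite_torsionBy ((stdCurve D U)⁄Qbar) P.pp.ne_zero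
  have hbij : Function.Bijective f := by
    refine (Nat.bijective_iff_injective_and_card f).mpr ⟨fun Q Q' h => Subtype.ext
      (hS.hom_injective (congrArg Subtype.val h)), ?_⟩
    rw [natCard_torsionBy_baseChange P.freyCurve hp0, natCard_torsionBy ((stdCurve D U)⁄Qbar) hp0]
  obtain ⟨y, hy⟩ := hbij.2 ⟨T, (Submodule.mem_torsionBy_iff _ _).2 (by rw [natCast_zsmul, hT])⟩
  have hyT : hS.hom y.1 = T := congrArg Subtype.val hy
  refine ⟨y, fun h => hT0 (by rw [← hyT, h]; rfl), ?_⟩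
  have hback : ∀ σ : Qbar ≃ₐ[ℚ] Qbar, σ • T = T → σ • y = y := fun σ h =>
    Subtype.ext (hS.hom_injective ((hcomm σ y.1).trans (by rw [hyT, h])))
  exact hpeu.imp (fun h σ hσ => hback σ (h σ hσ))
    fun ⟨π, hπ, h⟩ => ⟨π, hπ, fun σ hσ hfix => hback σ (h σ hσ hfix)⟩

/-- At a place over `p`, when `p ∣ abc`, some nonzero `p`-torsion point of the Frey curve is
`PeuPoint`. -/
theorem exists_peuPoint_frey (P : FreyPackage) (hpabc : (P.p : ℤ) ∣ P.a * P.b * P.c)
    (A : ValuationSubring Qbar) (hA : A.LiesOverPrime P.p) :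
    ∃ y : Submodule.torsionBy ℤ (P.freyCurve⁄Qbar).Point P.p, y ≠ 0 ∧ PeuPoint A P.p y := by
  have hpI : Prime (P.p : ℤ) := Nat.prime_iff_prime_int.1 P.pp
  have hF := P.hFLT
  have hp0 := P.hp0
  have hAne : P.a ^ P.p ≠ 0 := pow_ne_zero _ P.ha0
  have hBne : P.b ^ P.p ≠ 0 := pow_ne_zero _ P.hb0
  have hCne : P.c ^ P.p ≠ 0 := pow_ne_zero _ P.hc0
  have hco : ∀ {x y : ℤ}, gcd x y = 1 → (P.p : ℤ) ∣ x → ¬ (P.p : ℤ) ∣ y := fun hxy hx hy =>
    hpI.not_isUnit (isUnit_of_dvd_one (hxy ▸ dvd_gcd hx hy))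
  have hpow : ∀ {x : ℤ}, (P.p : ℤ) ∣ x ^ P.p ↔ (P.p : ℤ) ∣ x := fun {x} =>
    ⟨hpI.dvd_of_dvd_pow, fun h => dvd_pow h hp0⟩
  rcases hpI.dvd_or_dvd hpabc with hab | hc
  · rcases hpI.dvd_or_dvd hab with ha | hb
    · refine exists_peuPoint_frey_of_data P A hA (P.a ^ P.p) (-P.b ^ P.p) 0 P.a
        (by ring) (by ring) (by ring) hAne (neg_ne_zero.2 hBne)
        (fun h => hCne (by linear_combination h - hF)) ?_ (dvd_pow ha hp0) rfl
      rw [dvd_neg, hpow]
      exact hco P.hgcdab ha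
    · refine exists_peuPoint_frey_of_data P A hA (-P.b ^ P.p) (P.a ^ P.p) 0 (-P.b)
        (by ring) (by ring) (by ring) (neg_ne_zero.2 hBne) hAne
        (fun h => hCne (by linear_combination -h - hF)) ?_ ?_ (by rw [P.hp_odd.neg_pow])
      · rw [hpow]; exact fun h => hco P.hgcdab h hb
      · rw [dvd_neg, hpow]; exact hb
  · refine exists_peuPoint_frey_of_data P A hA (-P.c ^ P.p) (-P.a ^ P.p) (P.a ^ P.p) (-P.c)
      (by linear_combination -hF) (by linear_combination (-P.a ^ P.p) * hF) (by ring)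
      (neg_ne_zero.2 hCne) (neg_ne_zero.2 hAne)
      (fun h => hBne (by linear_combination hF - h)) ?_ ?_ (by rw [P.hp_odd.neg_pow])
    · rw [dvd_neg, hpow]; exact fun h => hco P.hgcdac h hc
    · rw [dvd_neg, hpow]; exact hc

end FermatLib.MazurP

end
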