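import Fermat.Agent.Galois.MazurP.GaloisSide
import Fermat.Agent.Galois.MazurP.LocalEC
import Fermat.Agent.MLT.ModTransfer.Residual
import Fermat.Agent.Basic.FreyLevelLowering
import Fermat.Agent.Basic.FrobeniusExists

/-!
# The Mazur principle at `p` for the Frey curve from its core on torsion points
-/

set_option autoImplicit false

noncomputable section

open scoped WeierstrassCurve.Affine

namespace FermatLib.MazurP

open ModularCurve ModularFormClass FermatLib.Galois FermatLib.Galois.Attach FermatLib.AtP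

local notation "Qbar" => AlgebraicClosure ℚ
local notation "Γℚ" => (AlgebraicClosure ℚ ≃ₐ[ℚ] AlgebraicClosure ℚ)

variable {p : ℕ} [Fact p.Prime] {W : WeierstrassCurve ℤ}

theorem trace_residualMat_frobenius (hΔ : W.Δ ≠ 0) {ℓ : ℕ} (hℓ : ℓ.Prime)
    (hg : W.IsGoodPrimeFor ℓ) (hℓp : ℓ ≠ p) {A : ValuationSubring Qbar} (hA : A.LiesOverPrime ℓ)
    {σ : Γℚ} (hσ : A.IsFrobeniusAt σ ℓ) :
    (residualMat (MLT.curveResidualRep W hΔ p) σ).trace = ((W.apOfModel ℓ : ℤ) : ZMod p) := by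
  show (repMatrix _ _ σ).trace = _
  rw [trace_repMatrix]
  exact MLT.galoisTrace_of_isFrobeniusAt hℓ hg hℓp hA hσ

theorem det_residualMat_frobenius (hΔ : W.Δ ≠ 0) {ℓ : ℕ} (hℓ : ℓ.Prime) (hℓp : ℓ ≠ p)
    {A : ValuationSubring Qbar} (hA : A.LiesOverPrime ℓ) {σ : Γℚ} (hσ : A.IsFrobeniusAt σ ℓ) :
    (residualMat (MLT.curveResidualRep W hΔ p) σ).det = ((ℓ : ℕ) : ZMod p) := by
  show (repMatrix _ _ σ).det = _
  rw [det_repMatrix, MLT.curveResidualRep_det]
  exact MLT.cycloChar_of_isFrobeniusAt hℓ hℓp hA hσ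

/-- An irreducible `E[p]` is not Eisenstein. -/
theorem notEisenstein_of_irreducible (hΔ : W.Δ ≠ 0) (hp2 : p ≠ 2) (hirr : W.ModRepIsIrreducible p)
    (S : Finset ℕ) (hpS : p ∈ S) (hSΔ : ∀ q : ℕ, q.Prime → (q : ℤ) ∣ W.Δ → q ∈ S) :
    NotEisenstein p S fun ℓ => W.apOfModel ℓ := by
  by_contra hcon
  simp only [NotEisenstein, not_exists, not_and, not_not] at hcon
  let ρ := MLT.curveResidualRep W hΔ p
  let r := residualMat ρ
  have hfull := (isAbsolutelyIrreducible_iff_hasFullSpan ρ).mp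
    (MLT.curveResidualRep_isAbsolutelyIrreducible W hΔ p hp2 hirr)
  obtain ⟨L, hL, hfix⟩ := ρ.factorsThroughFiniteLevel
  have htr : ∀ g, (r g).trace = 1 + (r g).det := by
    refine forall_of_forall_isFrobeniusAt (P := fun g => (r g).trace = 1 + (r g).det) S L ?_ ?_ ?_
    · intro g h hgh hg
      have h2 : r (g⁻¹ * h) = 1 := by
        show repMatrix _ _ _ = 1
        rw [repMatrix_apply, hfix _ fun x hx => by
          rw [AlgEquiv.mul_apply, ← hgh x hx, ← AlgEquiv.mul_apply, inv_mul_cancel,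
            AlgEquiv.one_apply]]
        exact LinearMap.toMatrix_one _
      rw [show h = g * (g⁻¹ * h) by rw [mul_inv_cancel_left], map_mul, h2, mul_one]
      exact hg
    · intro σ b hσ
      let D : Matrix (Fin 2) (Fin 2) (ZMod p) := Matrix.diagonal ![1, (r σ).det]
      have h1 : D.trace = (r σ).trace := by
        rw [hσ]; simp [D]
      have h2 : D.det = (r σ).det := by simp [D, Matrix.det_fin_two]
      rw [map_pow, trace_pow_eq_lucasTrace, ← h1, ← h2, ← trace_pow_eq_lucasTrace,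
        Matrix.det_pow, ← h2, Matrix.diagonal_pow, ← Matrix.det_pow, Matrix.diagonal_pow]
      simp [Matrix.det_fin_two]
    · intro ℓ hℓ hℓS A hA σ hσ
      have hℓp : ℓ ≠ p := fun h => hℓS (h ▸ hpS)
      rw [trace_residualMat_frobenius hΔ hℓ (fun h => hℓS (hSΔ ℓ hℓ h)) hℓp hA hσ,
        det_residualMat_frobenius hΔ hℓ hℓp hA hσ, ← sub_eq_zero]
      have h := (ZMod.intCast_zmod_eq_zero_iff_dvd _ p).mpr (hcon ℓ hℓ hℓS)
      push_cast at h
      rw [← h]
      ring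
  let r' : Γℚ →* Matrix (Fin 2) (Fin 2) (ZMod p) :=
    { toFun := fun g => Matrix.diagonal ![1, (r g).det]
      map_one' := by
        rw [map_one, Matrix.det_one]
        ext i j; fin_cases i <;> fin_cases j <;> simp
      map_mul' := fun g h => by
        rw [map_mul, Matrix.det_mul, Matrix.diagonal_mul_diagonal]
        ext i j; fin_cases i <;> fin_cases j <;> simp }
  have hspan := (hfull.of_trace_eq (ρ₂ := r') fun g => by
    show (r g).trace = _
    rw [htr g]; simp [r']).span_range_eq_top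
  have hle : Submodule.span (ZMod p) (Set.range r') ≤
      LinearMap.ker (Matrix.entryLinearMap (ZMod p) (ZMod p) (0 : Fin 2) (1 : Fin 2)) := by
    rw [Submodule.span_le]
    rintro _ ⟨g, rfl⟩
    simp [r']
  have h01 := hle (hspan ▸ Submodule.mem_top :
    (!![0, 1; 0, 0] : Matrix (Fin 2) (Fin 2) (ZMod p)) ∈ _)
  simp at h01

/-- The Mazur principle at `p` for the Frey curve. -/
theorem mazurLoweringAtP_of_principle (h : PrincipleAtP)
    (hS37 : ∀ (N p : ℕ) [NeZero N], p.Prime → SpecializationInput N p) :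
    FermatLib.Basic.MazurLoweringAtP := by
  intro P hirr M hcond hpM hmod
  obtain ⟨f, 𝔪, hf, hmax, hpm, hcong⟩ := hmod
  obtain ⟨M', rfl⟩ := hpM
  have hM' : ¬ P.p ∣ M' := fun hd => hcond.sq_not_dvd P.pp (by
    rw [pow_two]; exact Nat.mul_dvd_mul_left _ hd)
  have hM0 : 0 < M' := Nat.pos_of_ne_zero fun e => hM' (e ▸ dvd_zero _)
  have : Fact P.p.Prime := ⟨P.pp⟩
  have : NeZero (P.p * M') := ⟨hcond.pos.ne'⟩
  set W := P.freyCurveInt with hW
  have hΔ : W.Δ ≠ 0 := Basic.Frey.freyCurveInt_Δ_ne_zero P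
  have hp5 := P.hp5
  set S := (P.p * M' * W.Δ.natAbs).primeFactors
  have hne : P.p * M' * W.Δ.natAbs ≠ 0 :=
    Nat.mul_ne_zero hcond.pos.ne' (Int.natAbs_ne_zero.mpr hΔ)
  have hS : ∀ q : ℕ, q.Prime → (q ∣ P.p * M' ∨ (q : ℤ) ∣ W.Δ) → q ∈ S := fun q hq hd =>
    Nat.mem_primeFactors.mpr ⟨hq, hd.elim (fun h => h.mul_right _)
      (fun h => (Int.natCast_dvd.mp h).mul_left _), hne⟩
  have hpS : P.p ∈ S := hS _ P.pp (Or.inl (dvd_mul_right _ _))
  obtain ⟨ι, hinj, heq, heig⟩ := exists_eigen_embedding (N := P.p * M') (W := W)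
    (hS37 _ _ P.pp) hΔ (by omega) hirr S hpS (fun q hq hd => hS q hq (Or.inl hd))
    (fun q hq hd => hS q hq (Or.inr hd)) hf hmax hpm fun ℓ hℓ hℓS =>
      hcong ℓ hℓ (fun hd => hℓS (hS ℓ hℓ (Or.inr hd))) (fun hd => hℓS (hS ℓ hℓ (Or.inl hd)))
        fun e => hℓS (e ▸ hpS)
  obtain ⟨A, hA⟩ := FermatLib.Basic.exists_liesOverPrime P.pp
  have hloc := exists_peuPoint_frey P (hcond.p_dvd_abc (dvd_mul_right _ _)) A hA
  rw [← Basic.Frey.map_freyCurveInt P] at hloc
  obtain ⟨y, hy0, hy⟩ := hloc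
  obtain ⟨g, 𝔫, hg, hmax', hp', hcong'⟩ := h P.p M' P.pp hp5 hM' hM0 S
    (fun ℓ hℓ hd => hS ℓ hℓ (Or.inl hd)) (fun ℓ => W.apOfModel ℓ) (ι y) (heig y hy0)
    (notEisenstein_of_irreducible hΔ (by omega) hirr S hpS fun q hq hd => hS q hq (Or.inr hd))
    A hA (hy.map ι heq)
  refine ⟨M', dvd_mul_left _ _, hM', ?_⟩
  exact MLT.isResiduallyModularOfLevel_of_forall_notMem
    (padicAttachment_of_equiv (fun N p _ hp => FermatLib.Modular.kummerHeckeEquiv N p hp) hS37)
    P.pp hΔ hg hmax' hp' S fun ℓ hℓ _ _ _ hℓS => hcong' ℓ hℓ hℓS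

/-- The shape of S44. -/
theorem levelLoweringAtP_of_principle (h : PrincipleAtP)
    (hS37 : ∀ (N p : ℕ) [NeZero N], p.Prime → SpecializationInput N p) (P : FreyPackage) {N : ℕ}
    (hcond : P.IsConductorLevel N) (hpN : P.p ∣ N)
    (hirr : WeierstrassCurve.Affine.Point.GaloisRepIsIrreducible (K := AlgebraicClosure ℚ) ℚ
      P.freyCurve P.p)
    (hmod : P.ModularRepOfLevel N) : ∃ M : ℕ, M ∣ N ∧ ¬ P.p ∣ M ∧ P.ModularRepOfLevel M := by
  have hattach := padicAttachment_of_equiv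
    (fun N p _ hp => FermatLib.Modular.kummerHeckeEquiv N p hp) hS37
  obtain ⟨M, hMN, hpM, hM⟩ := mazurLoweringAtP_of_principle h hS37 P
    (Basic.modRepIsIrreducible_freyCurveInt P hirr) N hcond hpN
    ((MLT.modularRepOfLevel_iff hattach P N).mp hmod)
  exact ⟨M, hMN, hpM, Basic.modularRepOfLevel_of_freyResModular P hM⟩

end FermatLib.MazurP

end
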