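import Fermat.Agent.Galois.MazurP.InstanceAtP
import Fermat.Agent.Galois.MazurP.GaloisSideMain
import Fermat.Agent.Igusa.MonoModularDatum
import Fermat.Agent.Modular.CorrFacts
import Fermat.Agent.S37

/-!
# The Mazur principle at `p`
-/

set_option autoImplicit false
set_option linter.style.haveILetI false
set_option synthInstance.maxHeartbeats 400000

noncomputable section

open ModularCurve FermatLib.Igusa.Mono

namespace FermatLib.MazurP

/-- The modular two-sheet datum exists. -/
theorem modularDatumInput : ModularDatumInput := fun q _ M _ hqM A hA => by
  haveI : NeZero q := ⟨(Fact.out : q.Prime).ne_zero⟩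
  obtain ⟨MD, h₁, h₂, hx, -⟩ := exists_monoDatum_sheets' hqM hA
  exact ⟨MD, h₁, h₂, hx⟩

/-- **The Mazur principle at `p` on torsion points.** -/
theorem principleAtP : PrincipleAtP := principleAtP_of_modularDatum modularDatumInput

/-- S37 in the shape used by the Galois side. -/
theorem atPSpecializationInput (N p : ℕ) [NeZero N] (_ : p.Prime) :
    Galois.Attach.SpecializationInput N p :=
  fun hsc => Fermat.Agent.S37.result N p (Modular.heckeOperatorsCommuteBar N) hsc

/-- **Lowering at `p` for Frey curves.** -/
theorem mazurLoweringAtP : FermatLib.Basic.MazurLoweringAtP :=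
  mazurLoweringAtP_of_principle principleAtP atPSpecializationInput

end FermatLib.MazurP

end
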