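import Fermat.Agent.MLT.Odd.Inputs
import Fermat.Agent.MLT.Odd.HeckeRepDescentPrep
import Fermat.Agent.Galois.FrobeniusElement

/-!
# The local input of the Mazur principle at `q ≠ p` for a residual representation

If `ρbar` of cyclotomic determinant is unramified at `q` and it is not the case that
`q ≡ 1 (mod p)` with scalar decomposition group, then no Frobenius at `q` is a scalar `c` with
`c ^ 2 = q ^ 2`, as it would be on the toric part.
-/

set_option autoImplicit false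

noncomputable section

namespace FermatLib.MazurP

local notation "Qbar" => AlgebraicClosure ℚ
local notation "Γℚ" => (AlgebraicClosure ℚ ≃ₐ[ℚ] AlgebraicClosure ℚ)

variable {k : Type} [Field k] {p q : ℕ} {ρbar : ResidualGaloisRep k} {A : ValuationSubring Qbar}

/-- The determinant of a Frobenius at `q ≠ p`. -/
theorem det_residual_frobenius (hp : p.Prime)
    (hdet : (GaloisRepAdic.ofResidualGaloisRep ρbar).DetIsCyclotomic p) (hq : q.Prime)
    (hqp : q ≠ p) (hA : A.LiesOverPrime q) {F : Γℚ} (hF : A.IsFrobeniusAt F q) :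
    LinearMap.det (ρbar.ρ F) = (q : k) :=
  FermatLib.MLT.HeckeRep.det_frobenius (GaloisRepAdic.ofResidualGaloisRep ρbar) hp hdet hq hqp
    hA hF

/-- One scalar Frobenius and trivial inertia make the decomposition groups scalar. -/
theorem isScalarAt_of_frobenius (hq : q.Prime) (hA : A.LiesOverPrime q)
    (hunr : ρbar.IsUnramifiedAt q) {F : Γℚ} (hF : A.IsFrobeniusAt F q) {c : k}
    (hc : ρbar.ρ F = c • 1) : FermatLib.MLT.Odd.IsScalarAt ρbar q := by
  intro A' hA' σ hσ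
  obtain ⟨g, rfl⟩ := FermatLib.Galois.exists_smul_place_eq hq hA hA'
  obtain ⟨L, hL, hL1⟩ := ρbar.factorsThroughFiniteLevel
  have hσ' : g⁻¹ * σ * g ∈ A.decompositionSubgroup ℚ :=
    FermatLib.Galois.mem_decompositionSubgroup_smul.mp hσ
  obtain ⟨n, τ, hτ, hστ⟩ :=
    FermatLib.Galois.exists_frobenius_pow_mul_inertia hq hA L hF hσ'
  have hfix : ρbar.ρ ((F ^ n * τ)⁻¹ * (g⁻¹ * σ * g)) = 1 := hL1 _ fun x hx => by
    rw [AlgEquiv.mul_apply, hστ x hx, ← AlgEquiv.mul_apply, inv_mul_cancel, AlgEquiv.one_apply]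
  have h1 : ρbar.ρ (g⁻¹ * σ * g) = c ^ n • 1 := by
    calc ρbar.ρ (g⁻¹ * σ * g)
        = ρbar.ρ (F ^ n * τ) * ρbar.ρ ((F ^ n * τ)⁻¹ * (g⁻¹ * σ * g)) := by
          rw [← map_mul, mul_inv_cancel_left]
      _ = c ^ n • 1 := by
          rw [hfix, mul_one, map_mul, map_pow, hunr A hA τ hτ, mul_one, hc, smul_pow, one_pow]
  refine ⟨c ^ n, ?_⟩
  calc ρbar.ρ σ = ρbar.ρ g * ρbar.ρ (g⁻¹ * σ * g) * ρbar.ρ g⁻¹ := by
        rw [← map_mul, ← map_mul]; group
    _ = c ^ n • 1 := by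
        rw [h1, mul_smul_comm, mul_one, smul_mul_assoc, ← map_mul, mul_inv_cancel, map_one]

/-- Frobenius is not a toric scalar. -/
theorem frobenius_ne_toric [CharP k p] (hp : p.Prime)
    (hdet : (GaloisRepAdic.ofResidualGaloisRep ρbar).DetIsCyclotomic p) (hq : q.Prime)
    (hqp : q ≠ p) (hunr : ρbar.IsUnramifiedAt q)
    (hns : ¬ (q ≡ 1 [MOD p] ∧ FermatLib.MLT.Odd.IsScalarAt ρbar q)) (hA : A.LiesOverPrime q)
    {F : Γℚ} (hF : A.IsFrobeniusAt F q) {c : k} (hc : c ^ 2 = (q : k) ^ 2) :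
    ρbar.ρ F ≠ c • 1 := by
  intro hFc
  refine hns ⟨?_, isScalarAt_of_frobenius hq hA hunr hF hFc⟩
  have h1 := det_residual_frobenius hp hdet hq hqp hA hF
  rw [hFc, LinearMap.det_smul, ρbar.finrank_eq, map_one, mul_one, hc] at h1
  have hq0 : (q : k) ≠ 0 := by
    rw [Ne, CharP.cast_eq_zero_iff k p]
    exact fun h => hqp ((Nat.prime_dvd_prime_iff_eq hp hq).mp h).symm
  refine (CharP.natCast_eq_natCast k p).mp ?_
  rw [Nat.cast_one]
  exact mul_left_cancel₀ hq0 (by rw [mul_one, ← pow_two]; exact h1)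

/-- A vector moved away from every toric scalar multiple of itself. -/
theorem exists_frobenius_ne_toric_smul [CharP k p] (hp : p.Prime)
    (hdet : (GaloisRepAdic.ofResidualGaloisRep ρbar).DetIsCyclotomic p) (hq : q.Prime)
    (hqp : q ≠ p) (hunr : ρbar.IsUnramifiedAt q)
    (hns : ¬ (q ≡ 1 [MOD p] ∧ FermatLib.MLT.Odd.IsScalarAt ρbar q)) (hA : A.LiesOverPrime q)
    {F : Γℚ} (hF : A.IsFrobeniusAt F q) {c : ℤ} (hc : (p : ℤ) ∣ c ^ 2 - (q : ℤ) ^ 2) :
    ∃ v : ρbar.V, ρbar.ρ F v ≠ c • v := by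
  by_contra! h
  refine frobenius_ne_toric hp hdet hq hqp hunr hns hA hF (c := (c : k)) ?_
    (LinearMap.ext fun v => ?_)
  · have h0 : ((c ^ 2 - (q : ℤ) ^ 2 : ℤ) : k) = 0 := by
      rw [CharP.intCast_eq_zero_iff k p]; exact hc
    push_cast at h0
    exact sub_eq_zero.mp h0
  · rw [h v, LinearMap.smul_apply, Module.End.one_apply, Int.cast_smul_eq_zsmul]

end FermatLib.MazurP

end
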