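import Fermat.Agent.Galois.MazurP.GaloisSideAlg
import Mathlib.LinearAlgebra.Basis.VectorSpace

/-!
# Modules over a subfield killed by the characteristic polynomials of a plane representation

`V` is a space over `k₀ ⊆ k` with an action of `G` in which every `g` is killed by
`X² - t g X + d g`, where `t, d` are the trace and determinant of an absolutely irreducible
`r : G →* M₂(k)`.  Then `r g = 1` forces `g` to act trivially on `V`, and an element acting as a
scalar on a nonzero stable subspace is that scalar in `r`.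
-/

set_option autoImplicit false

noncomputable section

namespace FermatLib.MazurP

open Matrix

local notation "M₂" k:max => Matrix (Fin 2) (Fin 2) k

variable {k₀ k : Type*} [Field k₀] [Field k] [Algebra k₀ k]

/-- A `k₀`-space of matrices spanning `M₂(k)` has an element with `det (f x) ≠ 0`, for any linear
`f` with some `det (f X) ≠ 0`. -/
theorem exists_mem_det_ne_zero (h2 : (2 : k) ≠ 0) (R₀ : Submodule k₀ (M₂ k))
    (hspan : Submodule.span k (R₀ : Set (M₂ k)) = ⊤) (f : M₂ k →ₗ[k] M₂ k) {X : M₂ k}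
    (hX : (f X).det ≠ 0) : ∃ x ∈ R₀, (f x).det ≠ 0 := by
  by_contra! h
  let b : M₂ k → M₂ k → k := fun x y =>
    f x 0 0 * f y 1 1 + f x 1 1 * f y 0 0 - f x 0 1 * f y 1 0 - f x 1 0 * f y 0 1
  have hb : ∀ x y, b x y = (f (x + y)).det - (f x).det - (f y).det := fun x y => by
    simp only [b, map_add, det_fin_two, Matrix.add_apply]; ring
  have hsymm : ∀ x y, b x y = b y x := fun x y => by simp only [b]; ring
  have hext : ∀ x, (∀ y ∈ R₀, b x y = 0) → ∀ y, b x y = 0 := fun x hx y => by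
    have hy : y ∈ Submodule.span k (R₀ : Set (M₂ k)) := hspan ▸ Submodule.mem_top
    induction hy using Submodule.span_induction with
    | mem y hy => exact hx y hy
    | zero => simp [b]
    | add y y' _ _ h1 h1' =>
      simp only [b, map_add, Matrix.add_apply] at h1 h1' ⊢
      linear_combination h1 + h1'
    | smul c y _ h1 =>
      simp only [b, map_smul, Matrix.smul_apply, smul_eq_mul] at h1 ⊢
      linear_combination c * h1
  have h1 : ∀ x ∈ R₀, ∀ y, b x y = 0 := fun x hx => hext x fun y hy => by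
    rw [hb, h _ (add_mem hx hy), h x hx, h y hy, sub_zero, sub_zero]
  have h3 := hext X fun y hy => by rw [hsymm]; exact h1 y hy X
  refine hX ((mul_eq_zero.mp ?_).resolve_left h2)
  rw [← h3 X, det_fin_two]
  simp only [b]
  ring

/-- A nonzero matrix generates `M₂(k)` as a two-sided ideal. -/
theorem eq_top_of_ne_zero_mem (J : Submodule k (M₂ k)) (hl : ∀ X, ∀ Z ∈ J, X * Z ∈ J)
    (hr : ∀ Z ∈ J, ∀ X, Z * X ∈ J) {Z : M₂ k} (hZ : Z ∈ J) (hZ0 : Z ≠ 0) : J = ⊤ := by
  obtain ⟨i, j, hij⟩ : ∃ i j, Z i j ≠ 0 := by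
    by_contra! h
    exact hZ0 (Matrix.ext h)
  rw [eq_top_iff]
  rintro X -
  rw [matrix_eq_sum_single X]
  refine Submodule.sum_mem _ fun a _ => Submodule.sum_mem _ fun c _ => ?_
  have := hr _ (hl (single a i (X a c * (Z i j)⁻¹)) Z hZ) (single j c 1)
  rwa [single_mul_mul_single, mul_one, inv_mul_cancel_right₀ hij] at this

variable {G V : Type*} [Group G] [AddCommGroup V] [Module k₀ V]

/-- The span of the pairs `(Φ g, r g)`. -/
def pairSpan (Φ : G →* Module.End k₀ V) (r : G →* M₂ k) :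
    Submodule k₀ (Module.End k₀ V × M₂ k) :=
  Submodule.span k₀ (Set.range (Φ.prod r))

variable {Φ : G →* Module.End k₀ V} {r : G →* M₂ k}

theorem mul_mem_pairSpan {x y : Module.End k₀ V × M₂ k} (hx : x ∈ pairSpan Φ r)
    (hy : y ∈ pairSpan Φ r) : x * y ∈ pairSpan Φ r := by
  induction hx, hy using Submodule.span_induction₂ with
  | mem_mem x y hx hy =>
    obtain ⟨g, rfl⟩ := hx
    obtain ⟨h, rfl⟩ := hy
    rw [← map_mul]
    exact Submodule.subset_span ⟨_, rfl⟩
  | zero_left y _ => simp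
  | zero_right x _ => simp
  | add_left x x' y _ _ _ h1 h1' => rw [add_mul]; exact add_mem h1 h1'
  | add_right x y y' _ _ _ h1 h1' => rw [mul_add]; exact add_mem h1 h1'
  | smul_left c x y _ _ h1 => rw [smul_mul_assoc]; exact Submodule.smul_mem _ c h1
  | smul_right c x y _ _ h1 => rw [mul_smul_comm]; exact Submodule.smul_mem _ c h1

theorem span_map_pairSpan (hspan : Submodule.span k (Set.range r) = ⊤) :
    Submodule.span k (((pairSpan Φ r).map (LinearMap.snd k₀ (Module.End k₀ V) (M₂ k))) :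
      Set (M₂ k)) = ⊤ := by
  rw [eq_top_iff, ← hspan]
  refine Submodule.span_mono ?_
  rintro _ ⟨g, rfl⟩
  exact Submodule.mem_map.mpr ⟨Φ.prod r g, Submodule.subset_span ⟨g, rfl⟩, rfl⟩

variable {t d : G → k₀}

/-- On the pairs, the conjugation is an anti-involution, whose fixed points are scalars. -/
theorem exists_pairConj (h2 : (2 : k) ≠ 0) (ht : ∀ g, algebraMap k₀ k (t g) = (r g).trace)
    (hd : ∀ g, algebraMap k₀ k (d g) = (r g).det)
    (hquad : ∀ g, Φ g * Φ g - t g • Φ g + d g • 1 = 0) :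
    ∃ S : (Module.End k₀ V × M₂ k) → Module.End k₀ V × M₂ k,
      (∀ x ∈ pairSpan Φ r, ∀ y ∈ pairSpan Φ r, S (x * y) = S y * S x) ∧
      (∀ z ∈ pairSpan Φ r, z.2 = 0 → S z = -z) ∧
      ∀ z ∈ pairSpan Φ r, z.2.det ≠ 0 →
        ∃ s : k₀, s ≠ 0 ∧ S z * z = s • (1 : Module.End k₀ V × M₂ k) := by
  obtain ⟨π, hπ⟩ := LinearMap.exists_leftInverse_of_injective (Algebra.linearMap k₀ k)
    (LinearMap.ker_eq_bot.mpr (FaithfulSMul.algebraMap_injective k₀ k))
  have hπa : ∀ c : k₀, π (algebraMap k₀ k c) = c := fun c => DFunLike.congr_fun hπ c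
  let ψ := Φ.prod r
  let τ : (Module.End k₀ V × M₂ k) →ₗ[k₀] k₀ :=
    π.comp (((Matrix.traceLinearMap (Fin 2) k k).restrictScalars k₀).comp
      (LinearMap.snd k₀ (Module.End k₀ V) (M₂ k)))
  let S : (Module.End k₀ V × M₂ k) →ₗ[k₀] Module.End k₀ V × M₂ k :=
    τ.smulRight 1 - LinearMap.id
  have hτ : ∀ z : Module.End k₀ V × M₂ k, τ z = π z.2.trace := fun _ => rfl
  have hS : ∀ z, S z = τ z • 1 - z := fun _ => rfl
  -- traces of the pairs lie in `k₀`
  have hτB : ∀ z ∈ pairSpan Φ r, algebraMap k₀ k (τ z) = z.2.trace := by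
    intro z hz
    induction hz using Submodule.span_induction with
    | mem z hz =>
      obtain ⟨g, rfl⟩ := hz
      rw [hτ, show (Φ.prod r g).2 = r g from rfl, ← ht, hπa]
    | zero => simp
    | add z z' _ _ h h' => rw [map_add, map_add, h, h', Prod.snd_add, trace_add]
    | smul c z _ h =>
      rw [map_smul, smul_eq_mul, map_mul, h, Prod.smul_snd, trace_smul, Algebra.smul_def]
  have hSψ : ∀ g, S (ψ g) = d g • ψ g⁻¹ := fun g => by
    have hτg : τ (ψ g) = t g := by rw [hτ, show (ψ g).2 = r g from rfl, ← ht, hπa]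
    rw [hS, hτg]
    refine Prod.ext ?_ ?_
    · exact smul_one_sub_eq_of_quadratic (u := Φ g) (u' := Φ g⁻¹)
        (by rw [← map_mul, inv_mul_cancel, map_one]) (hquad g)
    · have h := smul_one_sub_eq_of_quadratic (u := r g) (u' := r g⁻¹)
        (by rw [← map_mul, inv_mul_cancel, map_one]) (quadratic_fin_two (r g))
      rw [← ht, ← hd, algebraMap_smul, algebraMap_smul] at h
      exact h
  have hdmul : ∀ g h, d (g * h) = d g * d h := fun g h => (FaithfulSMul.algebraMap_injective k₀ k) (by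
    rw [map_mul, hd, hd, hd, map_mul, det_mul])
  have hanti : ∀ x ∈ pairSpan Φ r, ∀ y ∈ pairSpan Φ r, S (x * y) = S y * S x := by
    intro x hx y hy
    induction hx, hy using Submodule.span_induction₂ with
    | mem_mem x y hx hy =>
      obtain ⟨g, rfl⟩ := hx
      obtain ⟨h, rfl⟩ := hy
      rw [← map_mul, hSψ, hSψ, hSψ, smul_mul_smul_comm, ← map_mul ψ, mul_inv_rev, hdmul,
        mul_comm]
    | zero_left y _ => simp
    | zero_right x _ => simp
    | add_left x x' y _ _ _ h1 h1' => rw [add_mul, map_add, map_add, mul_add, h1, h1']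
    | add_right x y y' _ _ _ h1 h1' => rw [mul_add, map_add, map_add, add_mul, h1, h1']
    | smul_left c x y _ _ h1 => rw [smul_mul_assoc, map_smul, map_smul, mul_smul_comm, h1]
    | smul_right c x y _ _ h1 => rw [mul_smul_comm, map_smul, map_smul, smul_mul_assoc, h1]
  have hSB : ∀ z ∈ pairSpan Φ r, S z ∈ pairSpan Φ r := by
    intro z hz
    refine (Submodule.span_le.mpr ?_ : pairSpan Φ r ≤ (pairSpan Φ r).comap S) hz
    rintro _ ⟨g, rfl⟩
    show S (ψ g) ∈ pairSpan Φ r
    rw [hSψ]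
    exact Submodule.smul_mem _ _ (Submodule.subset_span ⟨_, rfl⟩)
  refine ⟨S, hanti, fun z _ hz => by rw [hS, hτ, hz, trace_zero, map_zero, zero_smul, zero_sub],
    fun z hz hdet => ?_⟩
  have h20 : (2 : k₀) ≠ 0 := fun e => h2 (by rw [← map_ofNat (algebraMap k₀ k) 2, e, map_zero])
  have hu2 : (S z * z).2 = z.2.det • 1 := by
    rw [Prod.snd_mul, hS, Prod.snd_sub, Prod.smul_snd, Prod.snd_one, ← algebraMap_smul k,
      hτB z hz, sub_mul, smul_one_mul, ← sub_eq_zero, ← neg_eq_zero, ← quadratic_fin_two z.2]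
    abel
  have hSS : S (S z) = z := by
    have h1 : τ (S z) = τ z := by
      rw [hS, map_sub, map_smul, hτ 1, Prod.snd_one, trace_one, Fintype.card_fin,
        show ((2 : ℕ) : k) = algebraMap k₀ k 2 by simp [map_ofNat], hπa, smul_eq_mul]
      ring
    rw [hS (S z), h1, hS]
    abel
  set u := S z * z with hu
  have hSu : S u = u := by rw [hu, hanti _ (hSB z hz) z hz, hSS]
  refine ⟨τ u / 2, fun h0 => ?_, ?_⟩
  · have h1 : algebraMap k₀ k (τ u) = u.2.trace := hτB u (mul_mem_pairSpan (hSB z hz) hz)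
    rw [(div_eq_zero_iff.mp h0).resolve_right h20, map_zero, hu2, trace_smul, trace_one,
      Fintype.card_fin, smul_eq_mul] at h1
    push_cast at h1
    exact mul_ne_zero hdet h2 h1.symm
  · rw [hS, sub_eq_iff_eq_add] at hSu
    refine smul_right_injective _ h20 ?_
    show (2 : k₀) • u = (2 : k₀) • ((τ u / 2) • (1 : Module.End k₀ V × M₂ k))
    rw [smul_smul, mul_div_cancel₀ _ h20, two_smul, ← hSu]

/-- The projection of the pairs to `M₂(k)` is injective. -/
theorem pairKernel_trivial (h2 : (2 : k) ≠ 0) (hspan : Submodule.span k (Set.range r) = ⊤)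
    (ht : ∀ g, algebraMap k₀ k (t g) = (r g).trace)
    (hd : ∀ g, algebraMap k₀ k (d g) = (r g).det)
    (hquad : ∀ g, Φ g * Φ g - t g • Φ g + d g • 1 = 0) {z : Module.End k₀ V × M₂ k}
    (hz : z ∈ pairSpan Φ r) (hz2 : z.2 = 0) : z = 0 := by
  obtain ⟨S, hanti, hneg, hinv⟩ := exists_pairConj h2 ht hd hquad
  have hcomm : ∀ x ∈ pairSpan Φ r, x * z = z * S x := fun x hx => by
    have h1 := hanti x hx z hz
    rw [hneg (x * z) (mul_mem_pairSpan hx hz) (by rw [Prod.snd_mul, hz2, mul_zero]),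
      hneg z hz hz2, neg_mul, neg_inj] at h1
    exact h1
  have htop := span_map_pairSpan (Φ := Φ) hspan
  -- two pairs whose commutator is invertible
  obtain ⟨_, hX, hdx⟩ := exists_mem_det_ne_zero h2 _ htop
    (LinearMap.mulRight k (!![0, 0; 1, 0] : M₂ k) - LinearMap.mulLeft k !![0, 0; 1, 0])
    (X := !![0, 1; 0, 0]) (by simp [det_fin_two])
  obtain ⟨x, hx, rfl⟩ := Submodule.mem_map.mp hX
  obtain ⟨_, hY, hdy⟩ := exists_mem_det_ne_zero h2 _ htop
    (LinearMap.mulLeft k x.2 - LinearMap.mulRight k x.2) (X := !![0, 0; 1, 0]) (by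
      simpa using hdx)
  obtain ⟨y, hy, rfl⟩ := Submodule.mem_map.mp hY
  have hw : x * y - y * x ∈ pairSpan Φ r :=
    sub_mem (mul_mem_pairSpan hx hy) (mul_mem_pairSpan hy hx)
  obtain ⟨s, hs, hsw⟩ := hinv _ hw (by simpa using hdy)
  have hwz : (x * y - y * x) * z = 0 := by
    rw [sub_mul, sub_eq_zero, hcomm _ (mul_mem_pairSpan hx hy), hanti x hx y hy, ← mul_assoc,
      ← hcomm y hy, mul_assoc, ← hcomm x hx, ← mul_assoc]
  refine smul_right_injective _ hs ?_
  show s • z = s • (0 : Module.End k₀ V × M₂ k)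
  rw [smul_zero, ← smul_one_mul s z, ← hsw, mul_assoc, hwz, mul_zero]

/-- An element killed by `r` acts trivially on all of `V`. -/
theorem eq_one_of_rep_eq_one (h2 : (2 : k) ≠ 0) (hspan : Submodule.span k (Set.range r) = ⊤)
    (ht : ∀ g, algebraMap k₀ k (t g) = (r g).trace)
    (hd : ∀ g, algebraMap k₀ k (d g) = (r g).det)
    (hquad : ∀ g, Φ g * Φ g - t g • Φ g + d g • 1 = 0) {g : G} (hg : r g = 1) : Φ g = 1 := by
  have h := pairKernel_trivial h2 hspan ht hd hquad (z := Φ.prod r g - Φ.prod r 1)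
    (sub_mem (Submodule.subset_span ⟨g, rfl⟩) (Submodule.subset_span ⟨1, rfl⟩))
    (by simp [hg])
  simpa [sub_eq_zero] using congrArg Prod.fst h

/-- An element acting as the scalar `c` on a nonzero stable subspace is `c` in `r`. -/
theorem rep_eq_smul_of_forall_eq_smul (h2 : (2 : k) ≠ 0)
    (hspan : Submodule.span k (Set.range r) = ⊤)
    (ht : ∀ g, algebraMap k₀ k (t g) = (r g).trace)
    (hd : ∀ g, algebraMap k₀ k (d g) = (r g).det)
    (hquad : ∀ g, Φ g * Φ g - t g • Φ g + d g • 1 = 0) (V' : Submodule k₀ V) (hV' : V' ≠ ⊥)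
    (hstab : ∀ g, ∀ x ∈ V', Φ g x ∈ V') {F : G} {c : k₀} (hF : ∀ x ∈ V', Φ F x = c • x) :
    r F = algebraMap k₀ k c • 1 := by
  obtain ⟨S, -, -, hinv⟩ := exists_pairConj h2 ht hd hquad
  -- the pairs killing `V'`
  let I : Submodule k₀ (Module.End k₀ V × M₂ k) :=
    { carrier := {z | z ∈ pairSpan Φ r ∧ ∀ x ∈ V', z.1 x = 0}
      add_mem' := fun hz hz' => ⟨add_mem hz.1 hz'.1, fun x hx => by
        rw [Prod.fst_add, LinearMap.add_apply, hz.2 x hx, hz'.2 x hx, add_zero]⟩
      zero_mem' := ⟨zero_mem _, fun x _ => rfl⟩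
      smul_mem' := fun a z hz => ⟨Submodule.smul_mem _ a hz.1, fun x hx => by
        rw [Prod.smul_fst, LinearMap.smul_apply, hz.2 x hx, smul_zero]⟩ }
  have hz₀ : Φ.prod r F - c • Φ.prod r 1 ∈ I := by
    refine ⟨sub_mem (Submodule.subset_span ⟨F, rfl⟩)
      (Submodule.smul_mem _ c (Submodule.subset_span ⟨1, rfl⟩)), fun x hx => ?_⟩
    simp [hF x hx]
  by_contra hne
  -- the projection of `I` spans `M₂(k)`
  let J := Submodule.span k (I.map (LinearMap.snd k₀ (Module.End k₀ V) (M₂ k)) : Set (M₂ k))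
  have hJ : ∀ X : M₂ k, ∀ Z ∈ J, X * Z ∈ J ∧ Z * X ∈ J := by
    intro X Z hZ
    have hX : X ∈ Submodule.span k (Set.range r) := hspan ▸ Submodule.mem_top
    induction hX, hZ using Submodule.span_induction₂ with
    | mem_mem X Z hX hZ =>
      obtain ⟨g, rfl⟩ := hX
      obtain ⟨z, ⟨hzB, hz0⟩, rfl⟩ := hZ
      refine ⟨Submodule.subset_span ⟨Φ.prod r g * z, ⟨mul_mem_pairSpan
          (Submodule.subset_span ⟨g, rfl⟩) hzB, fun x hx => ?_⟩, rfl⟩,
        Submodule.subset_span ⟨z * Φ.prod r g, ⟨mul_mem_pairSpan hzB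
          (Submodule.subset_span ⟨g, rfl⟩), fun x hx => ?_⟩, rfl⟩⟩
      · rw [Prod.fst_mul, Module.End.mul_apply, hz0 x hx, map_zero]
      · rw [Prod.fst_mul, Module.End.mul_apply]
        exact hz0 _ (hstab g x hx)
    | zero_left Z _ => simp
    | zero_right X _ => simp
    | add_left X X' Z _ _ _ h1 h1' =>
      exact ⟨by rw [add_mul]; exact add_mem h1.1 h1'.1, by rw [mul_add]; exact add_mem h1.2 h1'.2⟩
    | add_right X Z Z' _ _ _ h1 h1' =>
      exact ⟨by rw [mul_add]; exact add_mem h1.1 h1'.1, by rw [add_mul]; exact add_mem h1.2 h1'.2⟩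
    | smul_left a X Z _ _ h1 =>
      exact ⟨by rw [smul_mul_assoc]; exact J.smul_mem a h1.1,
        by rw [mul_smul_comm]; exact J.smul_mem a h1.2⟩
    | smul_right a X Z _ _ h1 =>
      exact ⟨by rw [mul_smul_comm]; exact J.smul_mem a h1.1,
        by rw [smul_mul_assoc]; exact J.smul_mem a h1.2⟩
  have hJtop : J = ⊤ := eq_top_of_ne_zero_mem J (fun X Z hZ => (hJ X Z hZ).1)
    (fun Z hZ X => (hJ X Z hZ).2) (Submodule.subset_span ⟨_, hz₀, rfl⟩) (by
      simpa [sub_eq_zero] using hne)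
  obtain ⟨_, hmem, hdet⟩ := exists_mem_det_ne_zero h2 _ hJtop LinearMap.id
    (X := (1 : M₂ k)) (by simp)
  obtain ⟨z, ⟨hzB, hz0⟩, rfl⟩ := Submodule.mem_map.mp hmem
  obtain ⟨s, hs, hsz⟩ := hinv z hzB hdet
  obtain ⟨x, hx, hx0⟩ := Submodule.exists_mem_ne_zero_of_ne_bot hV'
  have h := congrArg (fun w => w.1 x) hsz
  simp only [Prod.fst_mul, Module.End.mul_apply, hz0 x hx, map_zero, Prod.smul_fst, Prod.fst_one,
    LinearMap.smul_apply, Module.End.one_apply] at h
  exact (smul_ne_zero hs hx0) h.symm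

end FermatLib.MazurP

end
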