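import Fermat.Agent.Galois.MazurP.AwayEigen
import Fermat.Agent.Galois.MazurP.AwayResidual
import Fermat.Agent.Galois.MazurP.GaloisSideAlgExt
import Fermat.Agent.Galois.RepAdic
import Fermat.Agent.Galois.Chebotarev

/-!
# The Galois side of the Mazur principle at `q ≠ p`

On the eigenspace in `J₀(N)[p]` of a residual Hecke character of `ρbar`, inertia at `q` is trivial
and on no nonzero stable subgroup is a Frobenius at `q` a toric scalar.
-/

set_option autoImplicit false

noncomputable section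

open ModularCurve AlgebraicCurve
open FermatLib.Galois FermatLib.Galois.Attach

namespace FermatLib.MazurP

local notation "Qbar" => AlgebraicClosure ℚ
local notation "Γℚ" => (AlgebraicClosure ℚ ≃ₐ[ℚ] AlgebraicClosure ℚ)

variable {N : ℕ} [NeZero N] {p : ℕ} [Fact p.Prime] {k : Type} [Field k]

/-- The coefficient ring of a residual Hecke character. -/
abbrev charRing {S : Set ℕ} (θ : CuspForm.heckeAlgebra N 2 S →+* k) : Type :=
  awayHeckeAlg S ⧸ RingHom.ker (θ.comp (awayHeckeEval N S))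

variable {S : Set ℕ} {θ : CuspForm.heckeAlgebra N 2 S →+* k}

/-- The Hecke action on the eigenspace. -/
def eigenAct : awayHeckeAlg S →+* AddMonoid.End (heckeEigenTorsion p θ) where
  toFun t := AddMonoidHom.mk' (fun x => ⟨jEval N t x.1, jEval_mem_heckeEigenTorsion t x.2⟩)
    fun x y => Subtype.ext (map_add (jEval N (t : HeckeAlg)) (x : JZero N) y)
  map_zero' := AddMonoidHom.ext fun x => Subtype.ext (by
    show jEval N ((0 : awayHeckeAlg S) : HeckeAlg) x.1 = 0
    rw [ZeroMemClass.coe_zero, map_zero, LinearMap.zero_apply])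
  map_one' := AddMonoidHom.ext fun x => Subtype.ext (by
    show jEval N ((1 : awayHeckeAlg S) : HeckeAlg) x.1 = x.1
    rw [OneMemClass.coe_one, map_one, Module.End.one_apply])
  map_add' s t := AddMonoidHom.ext fun x => Subtype.ext (by
    show jEval N ((s + t : awayHeckeAlg S) : HeckeAlg) x.1 = jEval N s x.1 + jEval N t x.1
    rw [AddMemClass.coe_add, map_add, LinearMap.add_apply])
  map_mul' s t := AddMonoidHom.ext fun x => Subtype.ext (by
    show jEval N ((s * t : awayHeckeAlg S) : HeckeAlg) x.1 = jEval N s (jEval N t x.1)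
    rw [MulMemClass.coe_mul, map_mul, Module.End.mul_apply])

instance : Module (charRing θ) (heckeEigenTorsion p θ) :=
  Module.compHom _ (Ideal.Quotient.lift (RingHom.ker (θ.comp (awayHeckeEval N S)))
    (eigenAct (p := p)) fun t ht => AddMonoidHom.ext fun x => Subtype.ext (x.2.2 t ht))

omit [Fact p.Prime] in
theorem coe_mk_smul_eigen (t : awayHeckeAlg S) (x : heckeEigenTorsion p θ) :
    ((Ideal.Quotient.mk (RingHom.ker (θ.comp (awayHeckeEval N S))) t • x :
      heckeEigenTorsion p θ) : JZero N) = jEval N t x.1 := rfl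

omit [Fact p.Prime] in
theorem galois_smul_jEval (σ : Γℚ) (t : HeckeAlg) (x : JZero N) :
    σ • jEval N t x = jEval N t (σ • x) := by
  let := heckeModuleBar N
  have h := galois_smul_heckeAlg (N := N) σ t x
  rwa [heckeModuleBar_smul_def (FermatLib.Modular.heckeOperatorsCommuteBar N),
    heckeModuleBar_smul_def (FermatLib.Modular.heckeOperatorsCommuteBar N)] at h

omit [Fact p.Prime] in
theorem galois_smul_mem_heckeEigenTorsion (σ : Γℚ) {x : JZero N}
    (hx : x ∈ heckeEigenTorsion p θ) : σ • x ∈ heckeEigenTorsion p θ :=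
  ⟨(map_nsmul (DistribSMul.toAddMonoidHom (JZero N) σ) p x).symm.trans
      ((congrArg (σ • ·) hx.1).trans (map_zero (DistribSMul.toAddMonoidHom (JZero N) σ))),
    fun t ht => by
      rw [← galois_smul_jEval, hx.2 t ht]
      exact map_zero (DistribSMul.toAddMonoidHom (JZero N) σ)⟩

/-- Galois on the eigenspace. -/
def eigenGalois : Γℚ →* Module.End (charRing θ) (heckeEigenTorsion p θ) where
  toFun σ :=
    { toFun := fun x => ⟨σ • x.1, galois_smul_mem_heckeEigenTorsion σ x.2⟩
      map_add' := fun x y =>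
        Subtype.ext (map_add (DistribSMul.toAddMonoidHom (JZero N) σ) (x : JZero N) y)
      map_smul' := fun c x => by
        obtain ⟨t, rfl⟩ := Ideal.Quotient.mk_surjective c
        exact Subtype.ext (galois_smul_jEval σ t x.1) }
  map_one' := LinearMap.ext fun x => Subtype.ext (one_smul Γℚ x.1)
  map_mul' σ τ := LinearMap.ext fun x => Subtype.ext (mul_smul σ τ x.1)

omit [Fact p.Prime] in
theorem coe_eigenGalois (σ : Γℚ) (x : heckeEigenTorsion p θ) :
    ((eigenGalois σ x : heckeEigenTorsion p θ) : JZero N) = σ • x.1 := rfl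

section Residual

variable [CharP k p] {ρbar : ResidualGaloisRep k} {E : Finset ℕ}
  {θE : CuspForm.heckeAlgebra N 2 (E : Set ℕ) →+* k}

/-- Every Galois element satisfies on the eigenspace the characteristic polynomial of `ρbar`. -/
theorem exists_quadratic_data (hS37 : SpecializationInput N p)
    (hdet : (GaloisRepAdic.ofResidualGaloisRep ρbar).DetIsCyclotomic p)
    (hθ : FermatLib.MLT.Odd.HasResidualTraces p ρbar θE) (g : Γℚ) :
    ∃ t d : charRing θE,
      RingHom.kerLift _ t = (residualMat ρbar g).trace ∧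
      RingHom.kerLift _ d = (residualMat ρbar g).det ∧
      eigenGalois (p := p) (θ := θE) g * eigenGalois g - t • eigenGalois g + d • 1 = 0 := by
  classical
  have hp : p.Prime := Fact.out
  have hfin : {x : JZero N | p • x = 0}.Finite := Set.finite_coe_iff.mp
    (Nat.finite_of_card_ne_zero (α := {x : JZero N // p • x = 0}) (by
      rw [Nat.card_congr (Equiv.subtypeEquivRight (q := fun x : JZero N => p ^ 1 • x = 0)
        fun x => by rw [pow_one]), natCard_torsion_pow (FermatLib.Modular.kummerHeckeEquiv N p hp)]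
      exact pow_ne_zero _ (pow_ne_zero _ hp.ne_zero)))
  obtain ⟨L₁, hL₁, hfix₁⟩ := holdsNearOne_forall_mem hfin.toFinset (fun x σ => σ • x = x)
    fun x _ => holdsNearOne_smul_jzero x
  obtain ⟨L₂, hL₂, hfix₂⟩ := ρbar.factorsThroughFiniteLevel
  have : FiniteDimensional ℚ (L₁ ⊔ L₂ : IntermediateField ℚ Qbar) :=
    IntermediateField.finiteDimensional_sup L₁ L₂
  obtain ⟨ℓ, hℓ, hℓT, A, hA, σ, hσ, hag⟩ :=
    exists_isFrobeniusAt_eqOn (L₁ ⊔ L₂) g (E ∪ (N * p).primeFactors)
  rw [Finset.mem_union, not_or] at hℓT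
  have hℓE : ℓ ∉ (E : Set ℕ) := fun h => hℓT.1 h
  have hℓNp : ¬ ℓ ∣ N * p := fun h => hℓT.2 (Nat.mem_primeFactors.mpr
    ⟨hℓ, h, mul_ne_zero (NeZero.ne N) hp.ne_zero⟩)
  have hℓN : ¬ ℓ ∣ N := fun h => hℓNp (dvd_mul_of_dvd_left h p)
  have hℓp : ℓ ≠ p := fun h => hℓNp (h ▸ dvd_mul_left ℓ N)
  -- `g` and `σ` act in the same way
  have hfix : ∀ x ∈ L₁ ⊔ L₂, (σ⁻¹ * g) x = x := fun x hx => by
    rw [AlgEquiv.mul_apply, ← hag x hx, ← AlgEquiv.mul_apply, inv_mul_cancel, AlgEquiv.one_apply]
  have hg : g = σ * (σ⁻¹ * g) := (mul_inv_cancel_left σ g).symm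
  have hρ : residualMat ρbar g = residualMat ρbar σ := by
    rw [hg, map_mul, show residualMat ρbar (σ⁻¹ * g) = 1 from by
      show repMatrix _ _ _ = 1
      rw [repMatrix_apply, hfix₂ _ fun x hx => hfix x ((le_sup_right : L₂ ≤ L₁ ⊔ L₂) hx)]
      exact LinearMap.toMatrix_one _, mul_one]
  have hΦ : eigenGalois (p := p) (θ := θE) g = eigenGalois σ := by
    rw [hg, map_mul, show eigenGalois (p := p) (θ := θE) (σ⁻¹ * g) = 1 from
      LinearMap.ext fun x => Subtype.ext (hfix₁ _ (fun y hy => hfix y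
        ((le_sup_left : L₁ ≤ L₁ ⊔ L₂) hy)) x.1 (hfin.mem_toFinset.mpr x.2.1)), mul_one]
  refine ⟨Ideal.Quotient.mk _ (awayHeckeGen (E : Set ℕ) ℓ), Ideal.Quotient.mk _ (ℓ : _), ?_, ?_, ?_⟩
  · rw [RingHom.kerLift_mk, RingHom.comp_apply, awayHeckeEval_awayHeckeGen N hℓ hℓN hℓE, hρ,
      residualMat, trace_repMatrix]
    exact (hθ ℓ hℓ hℓN hℓE hℓp A hA σ hσ).symm
  · rw [RingHom.kerLift_mk, RingHom.comp_apply, map_natCast, map_natCast, hρ, residualMat,
      det_repMatrix, det_residual_frobenius hp hdet hℓ hℓp hA hσ]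
  · rw [hΦ]
    refine LinearMap.ext fun x => Subtype.ext ?_
    let := heckeModuleBar N
    have h := frobQuadratic_of_specialization hS37 ℓ hℓ hℓNp A hA σ hσ (x : JZero N)
      ⟨1, by rw [pow_one]; exact x.2.1⟩
    rw [heckeModuleBar_smul_def (FermatLib.Modular.heckeOperatorsCommuteBar N)] at h
    simp only [LinearMap.add_apply, LinearMap.sub_apply, LinearMap.smul_apply,
      Module.End.mul_apply, Module.End.one_apply, LinearMap.zero_apply, AddSubgroup.coe_add,
      AddSubgroupClass.coe_sub, coe_mk_smul_eigen, coe_eigenGalois, coe_awayHeckeGen hℓ hℓE,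
      map_natCast, Nat.cast_smul_eq_nsmul, AddSubgroup.coe_nsmul, AddSubgroup.coe_zero]
    exact h

variable (hS37 : SpecializationInput N p) (hp2 : p ≠ 2)
  (hirr : ρbar.IsAbsolutelyIrreducible)
  (hdet : (GaloisRepAdic.ofResidualGaloisRep ρbar).DetIsCyclotomic p)
  (hθ : FermatLib.MLT.Odd.HasResidualTraces p ρbar θE)

omit [Fact p.Prime] [CharP k p] in
theorem isMaximal_charKer [Finite k] :
    (RingHom.ker (θ.comp (awayHeckeEval N S))).IsMaximal := by
  have : (RingHom.ker (θ.comp (awayHeckeEval N S))).IsPrime := RingHom.ker_isPrime _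
  have : IsDomain (charRing θ) := Ideal.Quotient.isDomain _
  have : Finite (charRing θ) := Finite.of_injective _ (RingHom.kerLift_injective _)
  exact Ideal.Quotient.maximal_of_isField _ (Finite.isField_of_domain (charRing θ))

omit [Fact p.Prime] in
theorem two_ne_zero_of_charP [Fact p.Prime] (hp2 : p ≠ 2) : (2 : k) ≠ 0 := by
  intro h
  have h' : ((2 : ℕ) : k) = 0 := by exact_mod_cast h
  rw [CharP.cast_eq_zero_iff k p] at h'
  exact hp2 ((Nat.prime_dvd_prime_iff_eq Fact.out Nat.prime_two).mp h')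

variable [Finite k]

include hS37 hp2 hirr hdet hθ

/-- What `ρbar` fixes is fixed on the whole eigenspace. -/
theorem smul_eq_self_of_rep_eq_one {g : Γℚ} (hg : ρbar.ρ g = 1) {x : JZero N}
    (hx : x ∈ heckeEigenTorsion p θE) : g • x = x := by
  have := isMaximal_charKer (θ := θE)
  let := Ideal.Quotient.field (RingHom.ker (θE.comp (awayHeckeEval N (E : Set ℕ))))
  let := (RingHom.kerLift (θE.comp (awayHeckeEval N (E : Set ℕ)))).toAlgebra
  choose t d ht hd hquad using exists_quadratic_data (p := p) hS37 hdet hθ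
  have h1 := eq_one_of_rep_eq_one (two_ne_zero_of_charP (k := k) hp2)
    ((isAbsolutelyIrreducible_iff_hasFullSpan ρbar).mp hirr).span_range_eq_top ht hd hquad
    (g := g) (by
      show repMatrix _ _ _ = 1
      rw [repMatrix_apply, hg]
      exact LinearMap.toMatrix_one _)
  exact congrArg Subtype.val (LinearMap.congr_fun h1 ⟨x, hx⟩)

/-- Inertia at a prime where `ρbar` is unramified fixes the eigenspace. -/
theorem inertia_smul_heckeEigenTorsion {q : ℕ} (hunr : ρbar.IsUnramifiedAt q)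
    {A : ValuationSubring Qbar} (hA : A.LiesOverPrime q) {σ : Γℚ}
    (hσ : σ ∈ A.inertiaSubgroupIn ℚ) {x : JZero N} (hx : x ∈ heckeEigenTorsion p θE) :
    σ • x = x :=
  smul_eq_self_of_rep_eq_one hS37 hp2 hirr hdet hθ (hunr A hA σ hσ) hx

/-- On a nonzero stable subgroup of the eigenspace Frobenius at `q` is not a toric scalar. -/
theorem exists_frobenius_ne_toric_eigen {q : ℕ} (hq : q.Prime) (hqp : q ≠ p)
    (hunr : ρbar.IsUnramifiedAt q)
    (hns : ¬ (q ≡ 1 [MOD p] ∧ FermatLib.MLT.Odd.IsScalarAt ρbar q))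
    {A : ValuationSubring Qbar} (hA : A.LiesOverPrime q) {F : Γℚ} (hF : A.IsFrobeniusAt F q)
    {c : ℤ} (hc : (p : ℤ) ∣ c ^ 2 - (q : ℤ) ^ 2) (V : AddSubgroup (JZero N))
    (hV : V ≤ heckeEigenTorsion p θE) (hVgal : ∀ (g : Γℚ), ∀ x ∈ V, g • x ∈ V)
    (hVhecke : ∀ t : awayHeckeAlg (E : Set ℕ), ∀ x ∈ V, jEval N t x ∈ V)
    (hV0 : ∃ x ∈ V, x ≠ 0) :
    ∃ x ∈ V, F • x ≠ c • x := by
  by_contra! hall
  have := isMaximal_charKer (θ := θE)
  let := Ideal.Quotient.field (RingHom.ker (θE.comp (awayHeckeEval N (E : Set ℕ))))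
  let := (RingHom.kerLift (θE.comp (awayHeckeEval N (E : Set ℕ)))).toAlgebra
  choose t d ht hd hquad using exists_quadratic_data (p := p) hS37 hdet hθ
  let V' : Submodule (charRing θE) (heckeEigenTorsion p θE) :=
    { carrier := {x | x.1 ∈ V}
      zero_mem' := V.zero_mem
      add_mem' := fun hx hy => V.add_mem hx hy
      smul_mem' := fun a x hx => by
        obtain ⟨s, rfl⟩ := Ideal.Quotient.mk_surjective a
        exact hVhecke s _ hx }
  obtain ⟨x₀, hx₀, hx₀0⟩ := hV0
  have hV' : V' ≠ ⊥ := fun h => by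
    have hmem : (⟨x₀, hV hx₀⟩ : heckeEigenTorsion p θE) ∈ V' := hx₀
    rw [h, Submodule.mem_bot] at hmem
    exact hx₀0 (congrArg Subtype.val hmem)
  have h1 := rep_eq_smul_of_forall_eq_smul (two_ne_zero_of_charP (k := k) hp2)
    ((isAbsolutelyIrreducible_iff_hasFullSpan ρbar).mp hirr).span_range_eq_top ht hd hquad V' hV'
    (fun g x hx => hVgal g _ hx) (F := F) (c := (c : charRing θE)) fun x hx => Subtype.ext (by
      rw [Int.cast_smul_eq_zsmul, coe_eigenGalois, hall _ hx, AddSubgroup.coe_zsmul])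
  obtain ⟨v, hv⟩ := exists_frobenius_ne_toric_smul Fact.out hdet hq hqp hunr hns hA hF hc
  refine hv ((residualBasis ρbar).repr.injective (Finsupp.ext fun i => ?_))
  have h2 := repMatrix_mulVec (residualBasis ρbar) ρbar.ρ F v
  rw [show repMatrix (residualBasis ρbar) ρbar.ρ F = residualMat ρbar F from rfl, h1, map_intCast,
    Matrix.smul_mulVec, Matrix.one_mulVec] at h2
  rw [← congrFun h2 i, map_zsmul, Pi.smul_apply, Finsupp.smul_apply, smul_eq_mul, zsmul_eq_mul]

end Residual

end FermatLib.MazurP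

end
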