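import Fermat.Agent.Galois.MazurP.Core
import Fermat.Agent.Galois.MazurP.DegeneracyHecke
import Fermat.Agent.Modular.KummerHecke
import Fermat.Agent.Modular.LevelChangeSystem
import Fermat.Agent.Modular.IntStruct

/-!
# The Hecke polynomial separating a system from level `M`

If a system mod `p` does not occur in level `M`, some Hecke polynomial away from `S` is zero on
`S₂(Γ₀(M))` and a unit mod `p` at the system. Such a polynomial kills all torsion of `J₀(M)`, so
an equivariant map to `J₀(M)` kills a `p`-torsion eigenvector.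
-/

set_option autoImplicit false
set_option linter.style.haveILetI false

noncomputable section

open ModularCurve AlgebraicCurve CongruenceSubgroup ModularFormClass

namespace FermatLib.MazurP

local notation "Qbar" => AlgebraicClosure ℚ

/-- The value of a Hecke polynomial at a system of eigenvalues. -/
def systemEval (a : ℕ → ℤ) : HeckeAlg →+* ℤ :=
  MvPolynomial.eval₂Hom (RingHom.id ℤ) fun ℓ => a ℓ

theorem systemEval_heckeGen (a : ℕ → ℤ) (ℓ : Nat.Primes) : systemEval a (heckeGen ℓ) = a ℓ :=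
  MvPolynomial.eval₂Hom_X' _ _ _

/-- A system not occurring in level `M` is separated from it by a Hecke polynomial. -/
theorem exists_kill_of_not_occurs {p M : ℕ} [NeZero M] (hp : p.Prime) {S : Finset ℕ}
    (hS : ∀ ℓ : ℕ, ℓ.Prime → ℓ ∣ M → ℓ ∈ S) {a : ℕ → ℤ} (h : ¬ OccursModP p M S a) :
    ∃ t ∈ Galois.awayHeckeAlg (S : Set ℕ),
      Galois.formsHeckeEval M t = 0 ∧ ¬ (p : ℤ) ∣ systemEval a t := by
  by_contra hcon
  push Not at hcon
  refine h ?_
  haveI : Fact p.Prime := ⟨hp⟩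
  let S' : Set ℕ := (S : Set ℕ)
  let ψ : Galois.awayHeckeAlg S' →+* ZMod p :=
    ((Int.castRingHom (ZMod p)).comp (systemEval a)).comp (Galois.awayHeckeAlg S').val.toRingHom
  have hsurj := Galois.Attach.awayHeckeEval_surjective (N := M) S'
  have hker : RingHom.ker (Galois.awayHeckeEval M S') ≤ RingHom.ker ψ := by
    intro t ht
    rw [RingHom.mem_ker] at ht ⊢
    have h0 : Galois.formsHeckeEval M (t : HeckeAlg) = 0 := by
      rw [← Galois.inclusion_awayHeckeEval, ht, map_zero]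
    exact (ZMod.intCast_zmod_eq_zero_iff_dvd _ _).mpr (hcon _ t.2 h0)
  let φ : CuspForm.heckeAlgebra M 2 S' →+* ZMod p :=
    (Galois.awayHeckeEval M S').liftOfSurjective hsurj ⟨ψ, hker⟩
  have hφ : ∀ t, φ (Galois.awayHeckeEval M S' t) = ψ t := fun t =>
    RingHom.congr_fun ((Galois.awayHeckeEval M S').liftOfRightInverse_comp
      (Function.surjInv hsurj) (Function.rightInverse_surjInv hsurj) ⟨ψ, hker⟩) t
  haveI : (RingHom.ker φ).IsMaximal :=
    RingHom.ker_isMaximal_of_surjective φ (ZMod.ringHom_surjective φ)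
  obtain ⟨f, χ, 𝔪, hf, h𝔪, hcomap, -, hT, -⟩ :=
    Modular.exists_normalizedEigenform_lift_maximal_away
      (Modular.hasIntegralStructure M 2) (RingHom.ker φ)
  have hmem : ∀ u, φ u = 0 → χ u ∈ 𝔪 := fun u hu => by
    rw [← Ideal.mem_comap, hcomap, RingHom.mem_ker, hu]
  refine ⟨f, 𝔪, hf, h𝔪, ?_, fun ℓ hℓ hℓS => ?_⟩
  · have := hmem (p : CuspForm.heckeAlgebra M 2 S') (by rw [map_natCast, ZMod.natCast_self])
    rwa [map_natCast] at this
  · have hℓM : ¬ ℓ ∣ M := fun hd => hℓS (hS ℓ hℓ hd)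
    have hℓS' : ℓ ∉ S' := fun hd => hℓS (Finset.mem_coe.mp hd)
    refine ⟨χ (CuspForm.heckeAlgebra.T hℓ hℓM hℓS'), hT ℓ hℓ hℓM hℓS', ?_⟩
    have hval : φ (CuspForm.heckeAlgebra.T hℓ hℓM hℓS') = ((a ℓ : ℤ) : ZMod p) := by
      rw [← Galois.awayHeckeEval_awayHeckeGen M hℓ hℓM hℓS', hφ]
      show ((systemEval a (Galois.awayHeckeGen S' ℓ : HeckeAlg) : ℤ) : ZMod p) = _
      rw [Galois.coe_awayHeckeGen hℓ hℓS']
      exact congrArg Int.cast (systemEval_heckeGen a (⟨ℓ, hℓ⟩ : Nat.Primes))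
    have := hmem (CuspForm.heckeAlgebra.T hℓ hℓM hℓS' - (a ℓ : CuspForm.heckeAlgebra M 2 S'))
      (by rw [map_sub, map_intCast, hval, sub_self])
    rwa [map_sub, map_intCast] at this

/-- A Hecke polynomial vanishing on `S₂(Γ₀(M))` kills all torsion of `J₀(M)`. -/
theorem smul_eq_zero_of_formsHeckeEval_eq_zero {M : ℕ} [NeZero M] {t : HeckeAlg}
    (ht : Galois.formsHeckeEval M t = 0) {n : ℕ} (hn : n ≠ 0) {x : JZero M} (hx : n • x = 0) :
    (letI := heckeModuleBar M; t • x) = 0 := by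
  have hK : Galois.Attach.KummerHeckeEquiv M n := fun k => by
    haveI : NeZero (n ^ k) := ⟨pow_ne_zero k hn⟩
    exact ⟨Modular.Kummer.muC (n ^ k), inferInstance, Modular.KummerHecke.muCEquiv (n ^ k),
      Modular.KummerHecke.heckeKummerEquiv M (n ^ k),
      Modular.KummerHecke.heckeKummerEquiv_hecke M (n ^ k)⟩
  obtain ⟨ψ, hψ⟩ := Galois.Attach.exists_kummer_zmod hK 1
  have hc := Modular.heckeOperatorsCommuteBar M
  have htop : t ∈ Galois.awayHeckeAlg (∅ : Set ℕ) := by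
    clear ht
    induction t using MvPolynomial.induction_on with
    | C r =>
      rw [← MvPolynomial.algebraMap_eq]
      exact Subalgebra.algebraMap_mem _ r
    | add P Q hP hQ => exact add_mem (hP) (hQ)
    | mul_X P ℓ hP => exact mul_mem hP (Algebra.subset_adjoin ⟨ℓ, Set.notMem_empty _, rfl⟩)
  let x' : Pic0.torsion Qbar (modularFunctionFieldBar M) (n ^ 1) :=
    ⟨x, (Galois.Attach.mem_torsion_iff_pow 1 x).mpr (by rwa [pow_one])⟩
  let y' : Pic0.torsion Qbar (modularFunctionFieldBar M) (n ^ 1) :=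
    ⟨heckeEvalBar hc t x, (Galois.Attach.mem_torsion_iff_pow 1 _).mpr
      (by rw [← map_nsmul, pow_one, hx, map_zero])⟩
  have h := Galois.Attach.kummer_heckeEvalBar hc ψ (fun ℓ _ => hψ ℓ) htop x' y' rfl
  rw [Modular.heckeHomEval_eq_zero (by
    rw [← RingHom.congr_fun Galois.Attach.formsHeckeEval_eq_heckeEvalForms t, ht]) (ψ x').2] at h
  have h' : y' = 0 := ψ.injective (by rw [map_zero]; exact Subtype.ext h)
  rw [heckeModuleBar_smul_def hc]
  exact congrArg Subtype.val h'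

/-- Hecke polynomials act on an eigenvector through their value at its system. -/
theorem smul_eq_systemEval_zsmul {N : ℕ} [NeZero N] {S : Set ℕ} {a : ℕ → ℤ} {x : JZero N}
    (hx : ∀ ℓ : Nat.Primes, (ℓ : ℕ) ∉ S → heckeOperatorBar N ℓ x = a ℓ • x)
    {t : HeckeAlg} (ht : t ∈ Galois.awayHeckeAlg S) :
    (letI := heckeModuleBar N; t • x) = systemEval a t • x := by
  rw [heckeModuleBar_smul_def (Modular.heckeOperatorsCommuteBar N)]
  induction ht using Algebra.adjoin_induction with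
  | mem t ht =>
    obtain ⟨ℓ, hℓ, rfl⟩ := ht
    rw [heckeEvalBar_heckeGen, systemEval_heckeGen, hx ℓ hℓ]
  | algebraMap r =>
    rw [eq_intCast, map_intCast, map_intCast, Module.End.intCast_apply, Int.cast_id]
  | add s t _ _ hs ht => rw [map_add, map_add, LinearMap.add_apply, hs, ht]; exact (add_zsmul _ _ _).symm
  | mul s t _ _ hs ht =>
    rw [map_mul, map_mul, Module.End.mul_apply, ht, map_zsmul, hs, smul_smul,
      mul_comm (systemEval a t)]

/-- An element killed by `p` and by an integer prime to `p` is zero. -/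
theorem eq_zero_of_zsmul_of_not_dvd {G : Type*} [AddCommGroup G] {p : ℕ} (hp : p.Prime) {c : ℤ}
    (hc : ¬ (p : ℤ) ∣ c) {y : G} (hpy : (p : ℤ) • y = 0) (hcy : c • y = 0) : y = 0 := by
  obtain ⟨u, v, huv⟩ := (Nat.prime_iff_prime_int.mp hp).coprime_iff_not_dvd.mpr hc
  rw [← one_smul ℤ y, ← huv, add_smul, mul_smul, mul_smul, hpy, hcy, smul_zero, smul_zero,
    add_zero]

/-- An equivariant map to `J₀(M)` kills an eigenpoint whose system does not occur there. -/
theorem EigenPoint.map_eq_zero {p M N : ℕ} [NeZero M] [NeZero N] (hp : p.Prime) {S : Finset ℕ}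
    (hS : ∀ ℓ : ℕ, ℓ.Prime → ℓ ∣ M → ℓ ∈ S) {a : ℕ → ℤ} {x : JZero N}
    (hx : EigenPoint N p S a x) (h : ¬ OccursModP p M S a) (f : JZero N →+ JZero M)
    (hf : ∀ ℓ : Nat.Primes, (ℓ : ℕ) ∉ S → ∀ y,
      f (heckeOperatorBar N ℓ y) = heckeOperatorBar M ℓ (f y)) :
    f x = 0 := by
  obtain ⟨t, htS, ht0, hta⟩ := exists_kill_of_not_occurs hp hS h
  have hpfx : (p : ℤ) • f x = 0 := by rw [← map_zsmul, hx.torsion, map_zero]
  refine eq_zero_of_zsmul_of_not_dvd hp hta hpfx ?_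
  rw [← map_zsmul, ← smul_eq_systemEval_zsmul (S := (S : Set ℕ))
    (fun ℓ hℓ => hx.eigen ℓ fun h' => hℓ (Finset.mem_coe.mpr h')) htS,
    map_heckeModuleBar_smul f (fun ℓ hℓ => hf ℓ fun h' => hℓ (Finset.mem_coe.mpr h')) htS]
  exact smul_eq_zero_of_formsHeckeEval_eq_zero ht0 hp.ne_zero
    (by rw [← natCast_zsmul]; exact hpfx)

/-- Both degeneracy push-forwards kill an eigenpoint of level `qM` whose system is not of level
`M`. -/
theorem EigenPoint.degPush_eq_zero {p q M : ℕ} [NeZero M] [Fact q.Prime] [NeZero q]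
    [NeZero (q * M)] (hqM : ¬ q ∣ M) (hp : p.Prime) {S : Finset ℕ}
    (hS : ∀ ℓ : ℕ, ℓ.Prime → ℓ ∣ q * M → ℓ ∈ S) {a : ℕ → ℤ} {x : JZero (q * M)}
    (hx : EigenPoint (q * M) p S a x) (h : ¬ OccursModP p M S a)
    (h₁ : M * 1 ∣ q * M) (h₂ : M * q ∣ q * M) :
    degPush 1 h₁ x = 0 ∧ degPush q h₂ x = 0 :=
  ⟨hx.map_eq_zero hp (fun ℓ hℓ hd => hS ℓ hℓ (hd.mul_left q)) h _
      fun ℓ hℓ => degPush_one_hecke h₁ ℓ fun hd => hℓ (hS ℓ ℓ.2 hd),
    hx.map_eq_zero hp (fun ℓ hℓ hd => hS ℓ hℓ (hd.mul_left q)) h _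
      fun ℓ hℓ => degPush_prime_hecke hqM h₂ ℓ fun hd => hℓ (hS ℓ ℓ.2 hd)⟩

end FermatLib.MazurP
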