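import Fermat.Agent.Galois.MazurP.AwayCore
import Fermat.Agent.Galois.MazurP.LevelMKill
import Fermat.Agent.Galois.AttachKummer

/-!
# Field-valued systems of Hecke eigenvalues and level `M`

A character `ψ` of the Hecke polynomials away from a set `S`, the operators `U ℓ` at primes of the
level outside `S` included, either comes from the Hecke algebra of level `M` or is separated from
it by a polynomial killing `S₂(Γ₀(M))`.
-/

set_option autoImplicit false

noncomputable section

open ModularCurve FermatLib.Modular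

namespace FermatLib.MazurP

variable {k : Type*} [Field k] {S : Set ℕ}

/-- A system either comes from level `M` or is separated from it by a Hecke polynomial. -/
theorem exists_factor_or_kill (M : ℕ) [NeZero M] (ψ : Galois.awayHeckeAlg S →+* k) :
    (∃ θ : CuspForm.heckeAlgebra M 2 S →+* k, θ.comp (Galois.awayHeckeEval M S) = ψ) ∨
      ∃ t : Galois.awayHeckeAlg S, Galois.formsHeckeEval M (t : HeckeAlg) = 0 ∧ ψ t ≠ 0 := by
  by_contra hc
  push Not at hc
  have hsurj := Galois.Attach.awayHeckeEval_surjective (N := M) S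
  have hker : RingHom.ker (Galois.awayHeckeEval M S) ≤ RingHom.ker ψ := fun t ht => by
    rw [RingHom.mem_ker] at ht ⊢
    exact hc.2 t (by rw [← Galois.inclusion_awayHeckeEval, ht, map_zero])
  exact hc.1 ((Galois.awayHeckeEval M S).liftOfSurjective hsurj ⟨ψ, hker⟩)
    ((Galois.awayHeckeEval M S).liftOfRightInverse_comp
      (Function.surjInv hsurj) (Function.rightInverse_surjInv hsurj) ⟨ψ, hker⟩)

theorem awayHeckeEval_gen_T (M : ℕ) [NeZero M] {ℓ : ℕ} (hℓ : ℓ.Prime) (hℓM : ¬ ℓ ∣ M) (hℓS : ℓ ∉ S) :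
    Galois.awayHeckeEval M S (Galois.awayHeckeGen S ℓ) = CuspForm.heckeAlgebra.T hℓ hℓM hℓS :=
  Galois.awayHeckeEval_awayHeckeGen M hℓ hℓM hℓS

theorem awayHeckeEval_gen_U (M : ℕ) [NeZero M] {ℓ : ℕ} (hℓ : ℓ.Prime) (hℓM : ℓ ∣ M) (hℓS : ℓ ∉ S) :
    Galois.awayHeckeEval M S (Galois.awayHeckeGen S ℓ) = CuspForm.heckeAlgebra.U hℓ hℓM hℓS := by
  have hgen : Galois.formsHeckeEval M (Galois.awayHeckeGen S ℓ : HeckeAlg) =
      CuspForm.heckeAlgebra.U hℓ hℓM (Set.notMem_empty ℓ) := by
    rw [Galois.coe_awayHeckeGen hℓ hℓS]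
    exact (Galois.formsHeckeEval_heckeGen M _).trans (dif_pos hℓM)
  refine Subtype.ext ?_
  rw [Galois.coe_awayHeckeEval, hgen, CuspForm.heckeAlgebra.coe_U, CuspForm.heckeAlgebra.coe_U]

end FermatLib.MazurP

end
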