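import Fermat.Agent.Galois.MazurP.AwayCore
import Fermat.Agent.Galois.MazurP.AwayGalois
import Fermat.Agent.Galois.MazurP.AwayResidual
import Fermat.Agent.Galois.MazurP.AwayHeckeSystem
import Fermat.Agent.MLT.Odd.Inputs
import Fermat.Agent.Basic.FrobeniusExists

/-!
# The Mazur principle at `q ≠ p` from its core on torsion points

The eigenspace of the system in `J₀(qM)[p]` is nonzero, fixed by inertia at `q` and nowhere toric
(`AwayEigen`, `AwayGalois`), so by the core the system factors through the algebra of level `M`.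
-/

set_option autoImplicit false
set_option synthInstance.maxHeartbeats 400000

noncomputable section

namespace FermatLib.MazurP

open ModularCurve CuspForm FermatLib.Galois FermatLib.Galois.Attach

local notation "Qbar" => AlgebraicClosure ℚ
local notation "Γℚ" => (AlgebraicClosure ℚ ≃ₐ[ℚ] AlgebraicClosure ℚ)

variable {k : Type} [Field k] {ρbar : ResidualGaloisRep k}

theorem residualMat_eq_one_of_eq_one {g : Γℚ} (h : ρbar.ρ g = 1) : residualMat ρbar g = 1 := by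
  show repMatrix _ _ g = 1
  rw [repMatrix_apply, h]
  exact LinearMap.toMatrix_one _

/-- An absolutely irreducible representation is not Eisenstein outside a finite set of primes. -/
theorem exists_prime_trace_ne {p : ℕ} [CharP k p] (hp : p.Prime)
    (habs : ρbar.IsAbsolutelyIrreducible)
    (hdet : (GaloisRepAdic.ofResidualGaloisRep ρbar).DetIsCyclotomic p) (T : Finset ℕ) :
    ∃ ℓ : ℕ, ℓ.Prime ∧ ℓ ∉ T ∧ ℓ ≠ p ∧ ∃ (A : ValuationSubring Qbar) (σ : Γℚ),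
      A.LiesOverPrime ℓ ∧ A.IsFrobeniusAt σ ℓ ∧
        LinearMap.trace k ρbar.V (ρbar.ρ σ) ≠ (ℓ : k) + 1 := by
  classical
  by_contra hcon
  simp only [not_exists, not_and, not_not] at hcon
  let r := residualMat ρbar
  have hfull := (isAbsolutelyIrreducible_iff_hasFullSpan ρbar).mp habs
  obtain ⟨L, hL, hfix⟩ := ρbar.factorsThroughFiniteLevel
  have htr : ∀ g, (r g).trace = 1 + (r g).det := by
    refine forall_of_forall_isFrobeniusAt (P := fun g => (r g).trace = 1 + (r g).det)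
      (insert p T) L ?_ ?_ ?_
    · intro g h hgh hg
      have h2 : r (g⁻¹ * h) = 1 := residualMat_eq_one_of_eq_one (hfix _ fun x hx => by
        rw [AlgEquiv.mul_apply, ← hgh x hx, ← AlgEquiv.mul_apply, inv_mul_cancel,
          AlgEquiv.one_apply])
      rw [show h = g * (g⁻¹ * h) by rw [mul_inv_cancel_left], map_mul, h2, mul_one]
      exact hg
    · intro σ b hσ
      let D : Matrix (Fin 2) (Fin 2) k := Matrix.diagonal ![1, (r σ).det]
      have h1 : D.trace = (r σ).trace := by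
        rw [hσ]; simp [D]
      have h2 : D.det = (r σ).det := by simp [D, Matrix.det_fin_two]
      rw [map_pow, trace_pow_eq_lucasTrace, ← h1, ← h2, ← trace_pow_eq_lucasTrace,
        Matrix.det_pow, ← h2, Matrix.diagonal_pow, ← Matrix.det_pow, Matrix.diagonal_pow]
      simp [Matrix.det_fin_two]
    · intro ℓ hℓ hℓS A hA σ hσ
      have hℓp : ℓ ≠ p := fun h => hℓS (h ▸ Finset.mem_insert_self _ _)
      have h := hcon ℓ hℓ (fun h => hℓS (Finset.mem_insert_of_mem h)) hℓp A σ hA hσ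
      show (repMatrix _ _ σ).trace = 1 + (repMatrix _ _ σ).det
      rw [trace_repMatrix, det_repMatrix, h, det_residual_frobenius hp hdet hℓ hℓp hA hσ]
      ring
  let r' : Γℚ →* Matrix (Fin 2) (Fin 2) k :=
    { toFun := fun g => Matrix.diagonal ![1, (r g).det]
      map_one' := by
        rw [map_one, Matrix.det_one]
        ext i j; fin_cases i <;> fin_cases j <;> simp
      map_mul' := fun g h => by
        rw [map_mul, Matrix.det_mul, Matrix.diagonal_mul_diagonal]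
        ext i j; fin_cases i <;> fin_cases j <;> simp }
  have hspan := (hfull.of_trace_eq (ρ₂ := r') fun g => by
    show (r g).trace = _
    rw [htr g]; simp [r']).span_range_eq_top
  have hle : Submodule.span k (Set.range r') ≤
      LinearMap.ker (Matrix.entryLinearMap k k (0 : Fin 2) (1 : Fin 2)) := by
    rw [Submodule.span_le]
    rintro _ ⟨g, rfl⟩
    simp [r']
  have h01 := hle (hspan ▸ Submodule.mem_top :
    (!![0, 1; 0, 0] : Matrix (Fin 2) (Fin 2) k) ∈ _)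
  simp at h01

variable {p q M N : ℕ} [Fact p.Prime] [CharP k p] [Finite k]

omit [Finite k] in
/-- The eigenspace of a residual character is a group of eigenpoints. -/
theorem heckeEigenTorsion_eigenGroup [NeZero N] {S : Set ℕ} (θ : heckeAlgebra N 2 S →+* k) :
    EigenGroup N p S (θ.comp (awayHeckeEval N S)) (heckeEigenTorsion p θ) where
  ne_bot h := by
    obtain ⟨x, hx, hx0⟩ := exists_ne_zero_mem_heckeEigenTorsion (p := p) θ
    rw [h, AddSubgroup.mem_bot] at hx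
    exact hx0 hx
  torsion _ hx := hx.1
  galois σ _ hx := galois_smul_mem_heckeEigenTorsion σ hx
  hecke t x hx := by
    rw [heckeModuleBar_smul_def (FermatLib.Modular.heckeOperatorsCommuteBar N)]
    exact jEval_mem_heckeEigenTorsion t hx
  eigen t ht x hx := by
    rw [heckeModuleBar_smul_def (FermatLib.Modular.heckeOperatorsCommuteBar N)]
    exact hx.2 t ht

/-- It is fixed by inertia at `q` and is not toric there. -/
theorem heckeEigenTorsion_unrNonToricGroup [NeZero N] (hp2 : p ≠ 2)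
    (hS37 : SpecializationInput N p) (habs : ρbar.IsAbsolutelyIrreducible)
    (hdet : (GaloisRepAdic.ofResidualGaloisRep ρbar).DetIsCyclotomic p)
    (hq : q.Prime) (hqp : q ≠ p) (hunr : ρbar.IsUnramifiedAt q)
    (hns : ¬ (q ≡ 1 [MOD p] ∧ FermatLib.MLT.Odd.IsScalarAt ρbar q)) {S : Finset ℕ}
    (θ : heckeAlgebra N 2 (↑S : Set ℕ) →+* k)
    (hθ : FermatLib.MLT.Odd.HasResidualTraces p ρbar θ) {A : ValuationSubring Qbar}
    (hA : A.LiesOverPrime q) : UnrNonToricGroup A p q (heckeEigenTorsion p θ) := by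
  refine ⟨fun σ hσ x hx => inertia_smul_heckeEigenTorsion hS37 hp2 habs hdet hθ hunr hA hσ hx,
    fun W hWV hW hWst F hF c hc => ?_⟩
  by_contra! hall
  -- the largest Galois stable subgroup on which `F` is `c`; it is Hecke stable
  have hz : ∀ g : Γℚ, g • (0 : JZero N) = 0 := fun g =>
    map_zero (DistribSMul.toAddMonoidHom (JZero N) g)
  have ha : ∀ (g : Γℚ) (x y : JZero N), g • (x + y) = g • x + g • y := fun g x y =>
    map_add (DistribSMul.toAddMonoidHom (JZero N) g) x y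
  have hn : ∀ (g : Γℚ) (x : JZero N), g • (-x) = -(g • x) := fun g x =>
    map_neg (DistribSMul.toAddMonoidHom (JZero N) g) x
  let V : AddSubgroup (JZero N) :=
    { carrier := {x | x ∈ heckeEigenTorsion p θ ∧ ∀ g : Γℚ, F • g • x = c • g • x}
      zero_mem' := ⟨zero_mem _, fun g => by rw [hz g, hz F, zsmul_zero]⟩
      add_mem' := fun {x y} hx hy => ⟨add_mem hx.1 hy.1, fun g => by
        rw [ha g, ha F, hx.2 g, hy.2 g, zsmul_add]⟩
      neg_mem' := fun {x} hx => ⟨neg_mem hx.1, fun g => by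
        rw [hn g, hn F, hx.2 g, zsmul_neg]⟩ }
  obtain ⟨w, hw, hw0⟩ : ∃ w ∈ W, w ≠ 0 := by
    simpa using (AddSubgroup.ne_bot_iff_exists_ne_zero.mp hW)
  obtain ⟨x, hx, hne⟩ := exists_frobenius_ne_toric_eigen hS37 hp2 habs hdet hθ hq hqp hunr hns hA
    hF hc V (fun x hx => hx.1)
    (fun g x hx => ⟨galois_smul_mem_heckeEigenTorsion g hx.1, fun g' => by
      rw [← mul_smul g' g x]; exact hx.2 (g' * g)⟩)
    (fun t x hx => ⟨jEval_mem_heckeEigenTorsion t hx.1, fun g => by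
      rw [galois_smul_jEval, galois_smul_jEval, hx.2 g, map_zsmul]⟩)
    ⟨w, ⟨hWV hw, fun g => hall _ (hWst g w hw)⟩, hw0⟩
  exact hne (by simpa only [one_smul] using hx.2 1)

/-- A prime `ℓ ≡ 2 (mod 3)` with nonzero eigenvalue, at `p = 3`. -/
theorem exists_prime_two_mod_three [NeZero N] (hp : p.Prime) (hp3 : p = 3)
    (hdet : (GaloisRepAdic.ofResidualGaloisRep ρbar).DetIsCyclotomic p) {S₀ : Finset ℕ}
    {θ : heckeAlgebra N 2 (↑S₀ : Set ℕ) →+* k}
    (hθ : FermatLib.MLT.Odd.HasResidualTraces p ρbar θ) {σ₀ : Γℚ}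
    (hdet₀ : LinearMap.det (ρbar.ρ σ₀) = -1) (htr₀ : LinearMap.trace k ρbar.V (ρbar.ρ σ₀) ≠ 0)
    :
    ∃ ℓ : ℕ, ℓ.Prime ∧ ℓ ∉ S₀ ∧ ¬ ℓ ∣ N ∧ ℓ % 3 = 2 ∧
      (θ.comp (awayHeckeEval N (↑S₀ : Set ℕ))) (awayHeckeGen (↑S₀ : Set ℕ) ℓ) ≠ 0 := by
  classical
  obtain ⟨L, hL, hfix⟩ := ρbar.factorsThroughFiniteLevel
  obtain ⟨ℓ, hℓ, hℓT, A, hA, σ, hσ, hag⟩ :=
    exists_isFrobeniusAt_eqOn L σ₀ (S₀ ∪ (N * p).primeFactors)
  simp only [Finset.mem_union, not_or] at hℓT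
  obtain ⟨hℓS, hℓNp⟩ := hℓT
  have hndvd : ¬ ℓ ∣ N * p := fun h =>
    hℓNp (Nat.mem_primeFactors.mpr ⟨hℓ, h, mul_ne_zero (NeZero.ne N) hp.ne_zero⟩)
  have hℓN : ¬ ℓ ∣ N := fun h => hndvd (dvd_mul_of_dvd_left h p)
  have hℓp : ℓ ≠ p := fun h => hndvd (h ▸ dvd_mul_left ℓ N)
  have hℓS' : ℓ ∉ (↑S₀ : Set ℕ) := fun h => hℓS (Finset.mem_coe.mp h)
  have heq : ρbar.ρ σ = ρbar.ρ σ₀ := by
    have h1 : ρbar.ρ (σ⁻¹ * σ₀) = 1 := hfix _ fun x hx => by
      rw [AlgEquiv.mul_apply, ← hag x hx, ← AlgEquiv.mul_apply, inv_mul_cancel,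
        AlgEquiv.one_apply]
    calc ρbar.ρ σ = ρbar.ρ σ * ρbar.ρ (σ⁻¹ * σ₀) := by rw [h1, mul_one]
      _ = ρbar.ρ σ₀ := by rw [← map_mul, mul_inv_cancel_left]
  refine ⟨ℓ, hℓ, hℓS, hℓN, ?_, ?_⟩
  · have h1 := det_residual_frobenius hp hdet hℓ hℓp hA hσ
    rw [heq, hdet₀, eq_comm, ← sub_eq_zero, sub_neg_eq_add, ← Nat.cast_one, ← Nat.cast_add,
      CharP.cast_eq_zero_iff k p, hp3] at h1
    omega
  · rw [RingHom.comp_apply, awayHeckeEval_awayHeckeGen _ hℓ hℓN hℓS',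
      ← hθ ℓ hℓ hℓN hℓS' hℓp A hA σ hσ, heq]
    exact htr₀

/-- The step from level `q * M` to level `M`. -/
theorem exists_lowered_system [NeZero M] [NeZero N] (h : PrincipleAway) (hp2 : p ≠ 2)
    (hS37 : SpecializationInput N p)
    (habs : ρbar.IsAbsolutelyIrreducible)
    (hdet : (GaloisRepAdic.ofResidualGaloisRep ρbar).DetIsCyclotomic p)
    (hN : N = q * M) (hq : q.Prime) (hqM : ¬ q ∣ M) (hqp : q ≠ p)
    (hunr : ρbar.IsUnramifiedAt q)
    (hns : ¬ (q ≡ 1 [MOD p] ∧ FermatLib.MLT.Odd.IsScalarAt ρbar q))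
    (h3 : p = 3 → ∃ σ, LinearMap.det (ρbar.ρ σ) = -1 ∧ LinearMap.trace k ρbar.V (ρbar.ρ σ) ≠ 0)
    {E : Set ℕ} (S : Finset ℕ)
    (hES : E ⊆ (↑S : Set ℕ)) (hqS : q ∈ S) {S' : Set ℕ} (hS' : (↑S : Set ℕ) = S')
    (θ : heckeAlgebra N 2 E →+* k) (hθ : FermatLib.MLT.Odd.HasResidualTraces p ρbar θ) :
    ∃ θ' : heckeAlgebra M 2 S' →+* k,
      (∀ (ℓ : ℕ) (hℓ : ℓ.Prime) (h' : ¬ ℓ ∣ M) (hE' : ℓ ∉ S') (h : ¬ ℓ ∣ N) (hE : ℓ ∉ E),
        θ' (heckeAlgebra.T hℓ h' hE') = θ (heckeAlgebra.T hℓ h hE)) ∧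
      ∀ (ℓ : ℕ) (hℓ : ℓ.Prime) (h' : ℓ ∣ M) (hE' : ℓ ∉ S') (h : ℓ ∣ N) (hE : ℓ ∉ E),
        θ' (heckeAlgebra.U hℓ h' hE') = θ (heckeAlgebra.U hℓ h hE) := by
  subst hS' hN
  have hpp : p.Prime := Fact.out
  let θS : heckeAlgebra (q * M) 2 (↑S : Set ℕ) →+* k :=
    θ.comp (Subalgebra.inclusion (heckeAlgebra_mono hES)).toRingHom
  let ψ := θS.comp (awayHeckeEval (q * M) (↑S : Set ℕ))
  have hθS : FermatLib.MLT.Odd.HasResidualTraces p ρbar θS := fun ℓ hℓ hℓN hℓS hℓp A hA σ hσ =>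
    hθ ℓ hℓ hℓN (fun h => hℓS (hES h)) hℓp A hA σ hσ
  have hne : NotEisensteinSystem (q * M) ψ := fun T => by
    classical
    obtain ⟨ℓ, hℓ, hℓT, hℓp, B, σ, hB, hσ, htr⟩ :=
      exists_prime_trace_ne hpp habs hdet (T ∪ S ∪ (q * M).primeFactors)
    simp only [Finset.mem_union, not_or] at hℓT
    obtain ⟨⟨hℓT, hℓS⟩, hℓN⟩ := hℓT
    have hℓN' : ¬ ℓ ∣ q * M := fun h => hℓN (Nat.mem_primeFactors.mpr ⟨hℓ, h, NeZero.ne _⟩)
    have hℓS' : ℓ ∉ (↑S : Set ℕ) := fun h => hℓS (Finset.mem_coe.mp h)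
    refine ⟨ℓ, hℓ, hℓS', hℓT, hℓN', ?_⟩
    show θS (awayHeckeEval _ _ (awayHeckeGen _ ℓ)) ≠ _
    rw [awayHeckeEval_awayHeckeGen _ hℓ hℓN' hℓS', ← hθS ℓ hℓ hℓN' hℓS' hℓp B hB σ hσ]
    exact htr
  have hne3 : p = 3 → ∃ ℓ : ℕ, ℓ.Prime ∧ ℓ ∉ S ∧ ¬ ℓ ∣ q * M ∧ ℓ % 3 = 2 ∧
      ψ (awayHeckeGen (↑S : Set ℕ) ℓ) ≠ 0 := fun hp3 => by
    obtain ⟨σ₀, hdet₀, htr₀⟩ := h3 hp3
    exact exists_prime_two_mod_three hpp hp3 hdet hθS hdet₀ htr₀
  obtain ⟨A, hA⟩ := FermatLib.Basic.exists_liesOverPrime hq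
  have hocc := h p q M hpp hp2 hq hqp hqM k S hqS ψ hne hne3 _ (heckeEigenTorsion_eigenGroup θS) A hA
    (heckeEigenTorsion_unrNonToricGroup hp2 hS37 habs hdet hq hqp hunr hns θS hθS hA)
  obtain ⟨θ', hθ'⟩ := (exists_factor_or_kill M ψ).resolve_right fun ⟨t, ht, hψt⟩ =>
    hψt (hocc t ht)
  refine ⟨θ', fun ℓ hℓ h' hE' h hE => ?_, fun ℓ hℓ h' hE' h hE => ?_⟩
  · rw [← awayHeckeEval_gen_T M hℓ h' hE', ← RingHom.comp_apply, hθ']
    show θS (awayHeckeEval _ _ (awayHeckeGen _ ℓ)) = _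
    rw [awayHeckeEval_gen_T _ hℓ h hE']
    rfl
  · rw [← awayHeckeEval_gen_U M hℓ h' hE', ← RingHom.comp_apply, hθ']
    show θS (awayHeckeEval _ _ (awayHeckeGen _ ℓ)) = _
    rw [awayHeckeEval_gen_U _ hℓ h hE']
    rfl

/-- **B9**: the Mazur principle at `q ≠ p` from its core on torsion points. -/
theorem mazurNonScalar_of_principle (h : PrincipleAway)
    (hS37 : ∀ (N p : ℕ) [NeZero N], p.Prime → SpecializationInput N p) :
    FermatLib.MLT.Odd.MazurNonScalar := by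
  intro p _ hp2 k _ _ _ ρbar habs hdet h3 N q _ _ hsq hq hqN hqp hunr hns E θ hθ
  classical
  have hN : N = q * (N / q) := (Nat.mul_div_cancel' hqN).symm
  have hqM : ¬ q ∣ N / q := fun hd => hq.ne_one
    (Nat.isUnit_iff.mp (hsq q (hN ▸ Nat.mul_dvd_mul_left q hd)))
  exact exists_lowered_system h hp2 (hS37 N p Fact.out) habs hdet hN hq hqM hqp hunr hns h3
    (insert q E) (by rw [Finset.coe_insert]; exact Set.subset_insert _ _)
    (Finset.mem_insert_self _ _) (Finset.coe_insert q E) θ hθ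

end FermatLib.MazurP

end
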