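import Fermat.Agent.Galois.MazurP.GaussSheet
import Fermat.Agent.Igusa.MonoPushModular

/-!
# `j(τ)` and `j(lτ)` have the same poles in every characteristic
-/

set_option autoImplicit false
set_option linter.style.haveILetI false
set_option synthInstance.maxHeartbeats 400000

noncomputable section

open AlgebraicCurve ModularCurve Polynomial
open FermatLib.Igusa FermatLib.Igusa.Mono FermatLib.Modular.Corr

namespace FermatLib.MazurP

attribute [local instance] neZero_mul'

local notation "Qb" => AlgebraicClosure ℚ

/-- Evaluation of an integer polynomial. -/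
abbrev evalInt {R : Type*} [CommRing R] (x : R) : Polynomial ℤ →+* R :=
  Polynomial.eval₂RingHom (Int.castRingHom R) x

theorem aeval_toRingHom_eq_evalInt {R : Type*} [CommRing R] [Algebra ℤ R] (x : R) :
    (aeval x).toRingHom = evalInt x :=
  Polynomial.ringHom_ext' (Subsingleton.elim _ _) (by simp)

theorem map_eval₂_evalInt {R S : Type*} [CommRing R] [CommRing S] (φ : R →+* S)
    (P : Polynomial (Polynomial ℤ)) (x y : R) :
    φ (P.eval₂ (evalInt x) y) = P.eval₂ (evalInt (φ x)) (φ y) := by
  rw [Polynomial.hom_eval₂]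
  congr 1
  exact Polynomial.ringHom_ext' (Subsingleton.elim _ _) (by simp)

variable (l : ℕ) [Fact l.Prime] [NeZero l]

/-- The modular equation holds in both orders over every ring. -/
theorem modularEquation_series (R : Type*) [CommRing R] :
    (FermatLib.Modular.modularPolynomialData l).Φ.eval₂
        (evalInt (jqModC R)) (qExpand R l (jqModC R)) = 0 ∧
      (FermatLib.Modular.modularPolynomialData l).Φ.eval₂
        (evalInt (qExpand R l (jqModC R))) (jqModC R) = 0 := by
  set Φ := (FermatLib.Modular.modularPolynomialData l).Φ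
  have hl : ¬ l ∣ 1 := (Fact.out : l.Prime).not_dvd_one
  have ha : ((alphaMap l 1 (jBottom 1) : fieldBar Qb (l * 1)) : LaurentSeries Qb) = jqModC Qb :=
    (coe_barIncl _ _).trans jBar_eq_jqModC
  have hb : ((betaMap l 1 (jBottom 1) : fieldBar Qb (l * 1)) : LaurentSeries Qb) =
      qExpand Qb l (jqModC Qb) :=
    (coe_barBeta _ _ _).trans (congrArg _ jBar_eq_jqModC)
  have down : ∀ (x y : LaurentSeries ℤ),
      Φ.eval₂ (evalInt (coeffMap (Int.castRingHom Qb) x))
        (coeffMap (Int.castRingHom Qb) y) = 0 →
      Φ.eval₂ (evalInt (coeffMap (Int.castRingHom R) x))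
        (coeffMap (Int.castRingHom R) y) = 0 := by
    intro x y h
    rw [← map_eval₂_evalInt] at h
    have h0 : Φ.eval₂ (evalInt x) y = 0 := by
      ext i
      have := congrArg (fun z : LaurentSeries Qb => z.coeff i) h
      simpa using this
    rw [← map_eval₂_evalInt, h0, map_zero]
  have e : ∀ (S : Type) [CommRing S], coeffMap (Int.castRingHom S) (jqModC ℤ) = jqModC S :=
    fun S _ => coeffMap_jqModC _
  constructor
  · have h := congrArg (fieldBar Qb (l * 1)).val.toRingHom
      (eval₂_modularPolynomial_eq_zero (q := l) (M := 1))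
    rw [aeval_toRingHom_eq_evalInt] at h
    rw [map_eval₂_evalInt, map_zero] at h
    have h' := down (jqModC ℤ) (qExpand ℤ l (jqModC ℤ)) (by
      rw [coeffMap_qExpand, coeffMap_jqModC, ← hb, ← ha]
      exact h)
    rwa [coeffMap_qExpand, coeffMap_jqModC] at h'
  · have h := congrArg (fieldBar Qb (l * 1)).val.toRingHom
      (eval₂_swap_eq_zero (q := l) (M := 1) hl)
    rw [aeval_toRingHom_eq_evalInt] at h
    rw [map_eval₂_evalInt, map_zero] at h
    have h' := down (qExpand ℤ l (jqModC ℤ)) (jqModC ℤ) (by
      rw [coeffMap_qExpand, coeffMap_jqModC, ← hb, ← ha]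
      exact h)
    rwa [coeffMap_qExpand, coeffMap_jqModC] at h'

omit [Fact l.Prime] in
/-- A root of the modular equation in `t` is regular where `s` is. -/
theorem ord_nonneg_of_modularEquation {K E : Type*} [Field K] [Field E] [Algebra K E]
    (w : Place K E) {s t : E}
    (h : (FermatLib.Modular.modularPolynomialData l).Φ.eval₂ (evalInt s) t = 0)
    (hs : 0 ≤ w.ord s) : 0 ≤ w.ord t := by
  rw [← aeval_toRingHom_eq_evalInt] at h
  set Φ := (FermatLib.Modular.modularPolynomialData l).Φ
  refine ord_nonneg_of_root w ((FermatLib.Modular.modularPolynomialData l).monic.map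
    (aeval s).toRingHom) (fun i => ?_) (by rwa [eval_map])
  rw [coeff_map]
  show aeval s (Φ.coeff i) = 0 ∨ 0 ≤ w.ord (aeval s (Φ.coeff i))
  rw [aeval_def, eval₂_eq_sum_range]
  refine Finset.sum_induction _ (fun f => f = 0 ∨ 0 ≤ w.ord f) (fun f g => ord_add_ge w)
    (Or.inl rfl) fun j _ => ?_
  rcases eq_or_ne s 0 with rfl | hs0
  · rcases Nat.eq_zero_or_pos j with rfl | hj
    · right
      rw [pow_zero, mul_one, eq_intCast, ← map_intCast (algebraMap K E), ord_algebraMap]
    · exact Or.inl (by rw [zero_pow hj.ne', mul_zero])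
  rcases eq_or_ne (algebraMap ℤ E ((Φ.coeff i).coeff j)) 0 with h0 | h0
  · exact Or.inl (by rw [h0, zero_mul])
  right
  rw [w.ord_mul h0 (pow_ne_zero _ hs0), ord_pow, eq_intCast, ← map_intCast (algebraMap K E),
    ord_algebraMap, zero_add]
  positivity

variable {l}

/-- `j(τ)` and `j(lτ)` have the same poles on the special function field of level `M l`. -/
theorem poles_fullAlphaC_iff_fullBetaC {k : Type*} [Field k] {M : ℕ} [NeZero M]
    {x : modularFunctionFieldFullC k M} (hx : (x : LaurentSeries k) = jqModC k)
    (w : Place k (modularFunctionFieldFullC k (M * l))) :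
    0 ≤ w.ord (fullAlphaC k M l x) ↔ 0 ≤ w.ord (fullBetaC k M l x) := by
  have key : ∀ s t : modularFunctionFieldFullC k (M * l),
      (FermatLib.Modular.modularPolynomialData l).Φ.eval₂
        (evalInt (s : LaurentSeries k)) (t : LaurentSeries k) = 0 →
      0 ≤ w.ord s → 0 ≤ w.ord t := fun s t h =>
    ord_nonneg_of_modularEquation l w
      ((modularFunctionFieldFullC k (M * l)).val.toRingHom.injective
        ((map_eval₂_evalInt (modularFunctionFieldFullC k (M * l)).val.toRingHom _ s t).trans
          (h.trans (map_zero _).symm)))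
  constructor
  · refine key _ _ ?_
    rw [coe_fullAlphaC, coe_fullBetaC, hx]
    exact (modularEquation_series l k).1
  · refine key _ _ ?_
    rw [coe_fullAlphaC, coe_fullBetaC, hx]
    exact (modularEquation_series l k).2

end FermatLib.MazurP

end
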