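import Fermat.Agent.Galois.Flat.Ramification
import Mathlib.FieldTheory.Finite.Basic
import Mathlib.FieldTheory.IntermediateField.Adjoin.Basic
import Mathlib.RingTheory.RootsOfUnity.AlgebraicallyClosed
import Mathlib.RingTheory.Valuation.ValuationSubring

/-!
# The fixed field of inertia at a place of `ℚ̄`, and its wild extensions of degree `p`

`inertiaField A` is the fixed field `K₀` of the inertia group of `A`. Its value group is generated
by the value of `p` and its residues exhaust the residue field of `A`; finite extensions are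
discretely valued. `IsWildUniformiser A p π` says that `K₀(π)` has degree `p` with uniformiser `π`
and that some inertia element moves `π` strictly between `|p|^(1/p)` and `1`, relatively.
-/

set_option autoImplicit false

noncomputable section

open Polynomial
open scoped Pointwise IntermediateField

namespace FermatLib.MazurP

local notation "Qbar" => AlgebraicClosure ℚ
local notation "Γℚ" => (AlgebraicClosure ℚ ≃ₐ[ℚ] AlgebraicClosure ℚ)

/-- The fixed field of the inertia subgroup of `A`. -/
def inertiaField (A : ValuationSubring Qbar) : IntermediateField ℚ Qbar :=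
  IntermediateField.fixedField (A.inertiaSubgroupIn ℚ)

variable {A : ValuationSubring Qbar} {p : ℕ}

theorem mem_inertiaField_iff {x : Qbar} :
    x ∈ inertiaField A ↔ ∀ σ ∈ A.inertiaSubgroupIn ℚ, σ x = x :=
  IntermediateField.mem_fixedField_iff _ _

theorem inertia_fix (x : inertiaField A) {σ : Γℚ} (hσ : σ ∈ A.inertiaSubgroupIn ℚ) :
    σ (x : Qbar) = x :=
  mem_inertiaField_iff.mp x.2 σ hσ

/-- The value group of the inertia field is generated by the value of `p`. -/
theorem exists_valuation_eq_zpow_of_mem (hp : p.Prime) (hA : A.LiesOverPrime p) {x : Qbar}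
    (hx : x ∈ inertiaField A) (h0 : x ≠ 0) :
    ∃ k : ℤ, A.valuation x = A.valuation (p : Qbar) ^ k :=
  Galois.Flat.exists_valuation_eq_zpow hp hA h0 (mem_inertiaField_iff.mp hx)

/-- The residue of an element of `A` has finite multiplicative order prime to `p`, or vanishes. -/
theorem exists_valuation_pow_sub_one_lt (hp : p.Prime) (hA : A.LiesOverPrime p) {a : Qbar}
    (ha : A.valuation a = 1) :
    ∃ n : ℕ, ¬ p ∣ n ∧ A.valuation (a ^ n - 1) < 1 := by
  classical
  have haA : a ∈ A := (A.valuation_le_one_iff a).mp ha.le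
  let k := IsLocalRing.ResidueField A
  let φ : A →+* k := IsLocalRing.residue A
  have hφ : ∀ z : A, φ z = 0 ↔ A.valuation (z : Qbar) < 1 := fun z => by
    rw [IsLocalRing.residue_eq_zero_iff]
    exact A.valuation_lt_one_iff z
  have : Fact p.Prime := ⟨hp⟩
  have hp0 : (p : k) = 0 := by
    rw [← map_natCast φ, hφ]
    simpa using Galois.Flat.valuation_prime_lt_one hA
  have : CharP k p := (CharP.charP_iff_prime_eq_zero hp).mpr hp0
  let : Algebra (ZMod p) k := ZMod.algebra k p
  have halg : IsAlgebraic ℤ a := (IsFractionRing.isAlgebraic_iff ℤ ℚ Qbar).mpr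
    ((AlgebraicClosure.isAlgebraic ℚ).isAlgebraic a)
  obtain ⟨P, hP0, hPa⟩ := halg
  have hQa : aeval a P.primPart = 0 := aeval_primPart_eq_zero hP0 hPa
  obtain ⟨i, hi⟩ : ∃ i, ¬ (p : ℤ) ∣ P.primPart.coeff i := by
    by_contra hcon
    push Not at hcon
    exact (Nat.prime_iff_prime_int.mp hp).not_isUnit
      ((P.isPrimitive_primPart) _ (C_dvd_iff_dvd_coeff _ _ |>.mpr hcon))
  have hint : IsIntegral (ZMod p) (φ ⟨a, haA⟩) := by
    refine IsAlgebraic.isIntegral ⟨P.primPart.map (Int.castRingHom (ZMod p)), fun h0 => hi ?_, ?_⟩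
    · have := congrArg (fun f => f.coeff i) h0
      rw [coeff_map, coeff_zero] at this
      exact (ZMod.intCast_zmod_eq_zero_iff_dvd _ p).mp this
    · rw [aeval_def, eval₂_map,
        show (algebraMap (ZMod p) k).comp (Int.castRingHom (ZMod p)) = φ.comp (algebraMap ℤ A) from
          Subsingleton.elim _ _, ← hom_eval₂, ← aeval_def]
      have : aeval (⟨a, haA⟩ : A) P.primPart = 0 := by
        apply Subtype.val_injective
        have e := (hom_eval₂ P.primPart (algebraMap ℤ A) A.subtype ⟨a, haA⟩)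
        rw [show A.subtype.comp (algebraMap ℤ A) = algebraMap ℤ Qbar from Subsingleton.elim _ _,
          ← aeval_def, ← aeval_def] at e
        exact e.trans hQa
      rw [this, map_zero]
  let F : IntermediateField (ZMod p) k := (ZMod p)⟮φ ⟨a, haA⟩⟯
  have : FiniteDimensional (ZMod p) F := IntermediateField.adjoin.finiteDimensional hint
  have : Finite F := Module.finite_of_finite (ZMod p)
  let : Fintype F := Fintype.ofFinite F
  let x : F := ⟨φ ⟨a, haA⟩, IntermediateField.mem_adjoin_simple_self _ _⟩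
  have hx : x ≠ 0 := fun h => ha.not_lt ((hφ ⟨a, haA⟩).mp (congrArg Subtype.val h))
  have : CharP F p := charP_of_injective_algebraMap (algebraMap (ZMod p) F).injective p
  obtain ⟨d, -, hd⟩ := FiniteField.card F p
  refine ⟨Fintype.card F - 1, fun hdvd => ?_, ?_⟩
  · rw [hd] at hdvd
    have h1 : 1 ≤ p ^ (d : ℕ) := Nat.one_le_pow _ _ hp.pos
    have := Nat.dvd_sub (dvd_pow_self p d.pos.ne') hdvd
    rw [Nat.sub_sub_self h1] at this
    exact hp.not_dvd_one this
  · have h := congrArg Subtype.val (FiniteField.pow_card_sub_one_eq_one x hx)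
    change φ ⟨a, haA⟩ ^ _ = (1 : k) at h
    have hz : φ (⟨a, haA⟩ ^ (Fintype.card F - 1) - 1) = 0 := by
      rw [map_sub, map_pow, h, map_one, sub_self]
    simpa using (hφ _).mp hz

/-- Every residue of `A` comes from the inertia field. -/
theorem exists_inertiaField_sub_lt (hp : p.Prime) (hA : A.LiesOverPrime p) {a : Qbar}
    (ha : a ∈ A) :
    ∃ b ∈ inertiaField A, b ∈ A ∧ A.valuation (a - b) < 1 := by
  rcases ((A.valuation_le_one_iff a).mpr ha).lt_or_eq with hlt | heq
  · exact ⟨0, zero_mem _, zero_mem _, by rwa [sub_zero]⟩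
  obtain ⟨n, hn, hlt⟩ := exists_valuation_pow_sub_one_lt hp hA heq
  have hn0 : 0 < n := Nat.pos_of_ne_zero fun h => hn (h ▸ dvd_zero p)
  have : NeZero n := ⟨hn0.ne'⟩
  have : NeZero (n : Qbar) := ⟨Nat.cast_ne_zero.mpr hn0.ne'⟩
  obtain ⟨ζ, hζ⟩ := HasEnoughRootsOfUnity.exists_primitiveRoot Qbar n
  have hprod := congrArg (eval a) (X_pow_sub_one_eq_prod hn0 hζ)
  rw [eval_sub, eval_pow, eval_X, eval_one, eval_prod] at hprod
  simp only [eval_sub, eval_X, eval_C] at hprod
  obtain ⟨η, hη, hηa⟩ : ∃ η ∈ nthRootsFinset n (1 : Qbar), A.valuation (a - η) < 1 := by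
    by_contra hcon
    push Not at hcon
    rw [hprod, map_prod] at hlt
    exact not_le.mpr hlt (Finset.one_le_prod' fun η hη => hcon η hη)
  rw [Polynomial.mem_nthRootsFinset hn0] at hη
  have hvη : A.valuation η = 1 := by
    have h1 := congrArg A.valuation hη
    rw [map_pow, map_one] at h1
    exact (pow_eq_one_iff_of_nonneg zero_le hn0.ne').mp h1
  have hη0 : η ≠ 0 := fun h => by rw [h, map_zero] at hvη; exact zero_ne_one hvη
  refine ⟨η, mem_inertiaField_iff.mpr fun σ hσ => ?_, (A.valuation_le_one_iff η).mp hvη.le, hηa⟩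
  by_contra hne
  set u := σ η / η with hu_def
  have hu1 : A.valuation (u - 1) < 1 := by
    rw [show u - 1 = (σ η - η) / η by rw [hu_def]; field_simp, map_div₀, hvη, div_one]
    exact Galois.Flat.valuation_apply_sub_lt_one hσ ((A.valuation_le_one_iff η).mp hvη.le)
  have hun : u ^ n = 1 := by rw [hu_def, div_pow, ← map_pow, hη, map_one, div_one]
  have hgeom : ∑ i ∈ Finset.range n, u ^ i = 0 := by
    have := geom_sum_mul u n
    rw [hun, sub_self, mul_eq_zero] at this
    refine this.resolve_right fun h => hne ?_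
    rw [sub_eq_zero, hu_def, div_eq_one_iff_eq hη0] at h
    exact h
  have hn1 : A.valuation (n : Qbar) = 1 := Galois.Flat.valuation_natCast_eq_one hp hA hn
  have : (n : Qbar) = -∑ i ∈ Finset.range n, (u ^ i - 1) := by
    rw [Finset.sum_sub_distrib, hgeom]; simp
  rw [this, Valuation.map_neg] at hn1
  refine hn1.not_lt (A.valuation.map_sum_lt one_ne_zero fun i _ => ?_)
  rw [← geom_sum_mul u i, map_mul]
  refine mul_lt_one_of_nonneg_of_lt_one_right ?_ zero_le hu1
  refine A.valuation.map_sum_le fun j _ => ?_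
  rw [map_pow]
  refine pow_le_one' ?_ j
  rw [hu_def, map_div₀, Galois.Flat.valuation_apply_eq
    (Galois.Flat.mem_decomposition_of_mem_inertia hσ), hvη, div_one]

/-- `π` is a uniformiser of a degree `p` extension of the inertia field, moved by some inertia
element with relative distance strictly between `|p|^(1/p)` and `1`. -/
structure IsWildUniformiser (A : ValuationSubring Qbar) (p : ℕ) (π : Qbar) : Prop where
  val_pow : A.valuation π ^ p = A.valuation (p : Qbar)
  degree : (minpoly (inertiaField A) π).natDegree = p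
  moved : ∃ σ ∈ A.inertiaSubgroupIn ℚ, A.valuation (σ π / π - 1) < 1 ∧
    A.valuation (p : Qbar) < A.valuation (σ π / π - 1) ^ p

/-- A point fixed by inertia, or by the inertia elements fixing some wild uniformiser. -/
def PeuPoint (A : ValuationSubring Qbar) (p : ℕ) {J : Type*} [SMul Γℚ J] (x : J) : Prop :=
  (∀ σ ∈ A.inertiaSubgroupIn ℚ, σ • x = x) ∨
    ∃ π : Qbar, IsWildUniformiser A p π ∧ ∀ σ ∈ A.inertiaSubgroupIn ℚ, σ π = π → σ • x = x

theorem PeuPoint.map {J J' : Type*} [SMul Γℚ J] [SMul Γℚ J'] {x : J} (h : PeuPoint A p x)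
    (f : J → J') (hf : ∀ (σ : Γℚ) (y : J), f (σ • y) = σ • f y) : PeuPoint A p (f x) :=
  h.imp (fun h σ hσ => by rw [← hf, h σ hσ])
    (fun ⟨π, hπ, h⟩ => ⟨π, hπ, fun σ hσ hfix => by rw [← hf, h σ hσ hfix]⟩)

section Wild

variable {π : Qbar}

/-- Terms of a `K₀`-combination of `1, π, …, π^(p-1)` have distinct valuations, so the valuation
of the sum is the maximum. -/
theorem valuation_sum_eq_sup (hp : p.Prime) (hA : A.LiesOverPrime p)
    (hπ : A.valuation π ^ p = A.valuation (p : Qbar)) (a : Fin p → inertiaField A) :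
    A.valuation (∑ i, (a i : Qbar) * π ^ (i : ℕ)) =
      Finset.univ.sup fun i : Fin p => A.valuation ((a i : Qbar) * π ^ (i : ℕ)) := by
  classical
  by_cases hall : ∀ i, a i = 0
  · simp [hall, Finset.sup_const ⟨(⟨0, hp.pos⟩ : Fin p), Finset.mem_univ _⟩]
  push Not at hall
  obtain ⟨j, -, hmax⟩ := (Finset.univ : Finset (Fin p)).exists_max_image
    (fun i => A.valuation ((a i : Qbar) * π ^ (i : ℕ))) ⟨⟨0, hp.pos⟩, Finset.mem_univ _⟩
  have hπ0 : π ≠ 0 := fun h => by
    rw [h, map_zero, zero_pow hp.ne_zero] at hπ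
    exact Galois.Flat.valuation_prime_ne_zero hp hπ.symm
  obtain ⟨i0, hi0⟩ := hall
  have hj0 : (a j : Qbar) ≠ 0 := fun h => by
    have := hmax i0 (Finset.mem_univ _)
    rw [h, zero_mul, map_zero] at this
    exact A.valuation.ne_zero_iff.mpr
      (mul_ne_zero (fun e => hi0 (Subtype.ext e)) (pow_ne_zero _ hπ0)) (le_antisymm this zero_le)
  rw [A.valuation.map_sum_eq_of_lt (Finset.mem_univ j) fun i hi => ?_]
  · exact le_antisymm (Finset.le_sup (f := fun i : Fin p => A.valuation ((a i : Qbar) * π ^ (i : ℕ)))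
      (Finset.mem_univ j)) (Finset.sup_le fun i hi => hmax i hi)
  refine lt_of_le_of_ne (hmax i (Finset.mem_univ _)) fun e => ?_
  obtain hij : i ≠ j := (Finset.mem_sdiff.mp hi).2 ∘ Finset.mem_singleton.mpr
  by_cases hi0' : (a i : Qbar) = 0
  · rw [hi0', zero_mul, map_zero] at e
    exact A.valuation.ne_zero_iff.mpr (mul_ne_zero hj0 (pow_ne_zero _ hπ0)) e.symm
  obtain ⟨k, hk⟩ := exists_valuation_eq_zpow_of_mem hp hA (a i).2 hi0'
  obtain ⟨l, hl⟩ := exists_valuation_eq_zpow_of_mem hp hA (a j).2 hj0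
  have hp0 := Galois.Flat.valuation_prime_ne_zero (A := A) hp
  have e' := congrArg (· ^ p) e
  simp only [map_mul, map_pow, hk, hl, mul_pow, ← pow_mul, mul_comm (i : ℕ) p, mul_comm (j : ℕ) p]
    at e'
  rw [pow_mul, pow_mul, hπ, ← zpow_natCast, ← zpow_natCast (A.valuation (p : Qbar)) (i : ℕ),
    ← zpow_natCast _ p, ← zpow_natCast (A.valuation (p : Qbar)) (j : ℕ), ← zpow_mul, ← zpow_mul,
    ← zpow_add₀ hp0, ← zpow_add₀ hp0] at e'
  have h2 : k * p + (i : ℤ) = l * p + (j : ℤ) := Galois.Flat.valuation_zpow_injective hp hA e'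
  refine hij (Fin.ext ?_)
  have hi' := i.2
  have hj' := j.2
  have : ((i : ℕ) : ℤ) % p = ((j : ℕ) : ℤ) % p := by
    have := congrArg (· % (p : ℤ)) h2
    simpa [Int.add_mul_emod_self_right, Int.add_emod, Int.mul_emod_left] using this
  rw [Int.emod_eq_of_lt (by positivity) (by exact_mod_cast hi'),
    Int.emod_eq_of_lt (by positivity) (by exact_mod_cast hj')] at this
  exact_mod_cast this

theorem IsWildUniformiser.finrank (h : IsWildUniformiser A p π) :
    Module.finrank (inertiaField A) (inertiaField A)⟮π⟯ = p := by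
  rw [IntermediateField.adjoin.finrank
    (((AlgebraicClosure.isAlgebraic ℚ).isAlgebraic π).isIntegral.tower_top), h.degree]

/-- Every element of `K₀(π)` is a `K₀`-combination of `1, π, …, π^(p-1)`. -/
theorem IsWildUniformiser.exists_coeffs (h : IsWildUniformiser A p π) {z : Qbar}
    (hz : z ∈ (inertiaField A)⟮π⟯) :
    ∃ a : Fin p → inertiaField A, z = ∑ i, (a i : Qbar) * π ^ (i : ℕ) := by
  have hint : IsIntegral (inertiaField A) π :=
    ((AlgebraicClosure.isAlgebraic ℚ).isAlgebraic π).isIntegral.tower_top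
  rw [← IntermediateField.mem_toSubalgebra,
    IntermediateField.adjoin_simple_toSubalgebra_of_isAlgebraic hint.isAlgebraic,
    Algebra.adjoin_singleton_eq_range_aeval] at hz
  obtain ⟨f, rfl⟩ := hz
  have hm := minpoly.monic hint
  refine ⟨fun i => (f %ₘ minpoly (inertiaField A) π).coeff i, ?_⟩
  have hdeg : (f %ₘ minpoly (inertiaField A) π).natDegree < p := by
    have := natDegree_modByMonic_lt f hm (minpoly.ne_one _ π)
    rwa [h.degree] at this
  change aeval π f = _
  rw [← aeval_modByMonic_eq_self_of_root (minpoly.aeval _ π),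
    aeval_eq_sum_range' hdeg,
    Finset.sum_range fun i => (f %ₘ minpoly (inertiaField A) π).coeff i • π ^ i]
  rfl

/-- `π` is a uniformiser of `K₀(π)`. -/
theorem IsWildUniformiser.exists_valuation_eq_zpow (hp : p.Prime) (hA : A.LiesOverPrime p)
    (h : IsWildUniformiser A p π) {z : Qbar} (hz : z ∈ (inertiaField A)⟮π⟯) (h0 : z ≠ 0) :
    ∃ k : ℤ, A.valuation z = A.valuation π ^ k := by
  obtain ⟨a, rfl⟩ := h.exists_coeffs hz
  have hv := valuation_sum_eq_sup hp hA h.val_pow a
  obtain ⟨i, -, hi⟩ := Finset.exists_mem_eq_sup (Finset.univ : Finset (Fin p))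
    ⟨⟨0, hp.pos⟩, Finset.mem_univ _⟩ (fun i => A.valuation ((a i : Qbar) * π ^ (i : ℕ)))
  rw [hi] at hv
  have ha : (a i : Qbar) ≠ 0 := fun e => by
    rw [e, zero_mul, map_zero, map_eq_zero] at hv
    exact h0 hv
  obtain ⟨k, hk⟩ := exists_valuation_eq_zpow_of_mem hp hA (a i).2 ha
  have hπ0 : A.valuation π ≠ 0 := fun e => by
    have := h.val_pow
    rw [e, zero_pow hp.ne_zero] at this
    exact Galois.Flat.valuation_prime_ne_zero hp this.symm
  refine ⟨k * p + (i : ℕ), hv.trans ?_⟩
  rw [map_mul, map_pow, hk, zpow_add₀ hπ0, zpow_natCast, mul_comm k, zpow_mul, zpow_natCast,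
    h.val_pow]

end Wild

/-- The valuation ring of a finite extension of the inertia field is a discrete valuation ring. -/
theorem isDiscreteValuationRing_comap (hp : p.Prime) (hA : A.LiesOverPrime p)
    (K : IntermediateField (inertiaField A) Qbar) [FiniteDimensional (inertiaField A) K] :
    IsDiscreteValuationRing (A.comap (algebraMap K Qbar)) := by
  classical
  set N := Module.finrank (inertiaField A) K
  set v := A.valuation
  have hvp0 : v (p : Qbar) ≠ 0 := Galois.Flat.valuation_prime_ne_zero hp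
  -- every value has bounded order modulo the value group of the inertia field
  have key : ∀ z : K, z ≠ 0 → ∃ k : ℤ, v (z : Qbar) ^ N.factorial = v (p : Qbar) ^ k := by
    intro z hz
    have hz0 : (z : Qbar) ≠ 0 := fun e => hz (Subtype.ext e)
    have hint : IsIntegral (inertiaField A) z := Algebra.IsIntegral.isIntegral z
    set f := minpoly (inertiaField A) z
    have hne : f.support.Nonempty := support_nonempty.mpr (minpoly.ne_zero hint)
    have hsum : ∑ i ∈ f.support, (f.coeff i : Qbar) * (z : Qbar) ^ i = 0 := by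
      have h1 : aeval (z : Qbar) f = 0 := by
        have h2 := congrArg (algebraMap K Qbar) (minpoly.aeval (inertiaField A) z)
        rwa [← aeval_algebraMap_apply, map_zero] at h2
      rw [aeval_eq_sum_range, ← Finset.sum_subset
        (supp_subset_range (Nat.lt_succ_self f.natDegree))] at h1
      · exact h1
      · intro i _ hi
        rw [notMem_support_iff.mp hi, zero_smul]
    obtain ⟨j, hj, hmax⟩ := f.support.exists_max_image
      (fun i => v ((f.coeff i : Qbar) * (z : Qbar) ^ i)) hne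
    have hcj : (f.coeff j : Qbar) ≠ 0 := fun e => mem_support_iff.mp hj (Subtype.ext e)
    obtain ⟨i, hi, hij, heq⟩ : ∃ i ∈ f.support, i ≠ j ∧ v ((f.coeff i : Qbar) * (z : Qbar) ^ i) =
        v ((f.coeff j : Qbar) * (z : Qbar) ^ j) := by
      by_contra hcon
      push Not at hcon
      have := v.map_sum_eq_of_lt hj fun i hi =>
        lt_of_le_of_ne (hmax i (Finset.mem_sdiff.mp hi).1) (hcon i (Finset.mem_sdiff.mp hi).1
          fun e => (Finset.mem_sdiff.mp hi).2 (Finset.mem_singleton.mpr e))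
      rw [hsum, map_zero] at this
      exact v.ne_zero_iff.mpr (mul_ne_zero hcj (pow_ne_zero _ hz0)) this.symm
    obtain ⟨k, hk⟩ := exists_valuation_eq_zpow_of_mem hp hA (f.coeff i).2
      (fun e => mem_support_iff.mp hi (Subtype.ext e))
    obtain ⟨l, hl⟩ := exists_valuation_eq_zpow_of_mem hp hA (f.coeff j).2 hcj
    rw [map_mul, map_mul, map_pow, map_pow, hk, hl] at heq
    have hvz : v (z : Qbar) ≠ 0 := v.ne_zero_iff.mpr hz0
    have hd : ((i : ℤ) - j).natAbs ∣ N.factorial := by
      have hi' := le_natDegree_of_mem_supp i hi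
      have hj' := le_natDegree_of_mem_supp j hj
      have hN : f.natDegree ≤ N := minpoly.natDegree_le z
      exact Nat.dvd_factorial (by omega) (by omega)
    obtain ⟨c, hc⟩ := Int.natAbs_dvd.mp (Int.natCast_dvd_natCast.mpr hd)
    refine ⟨(l - k) * c, ?_⟩
    have hd' : v (z : Qbar) ^ ((i : ℤ) - j) = v (p : Qbar) ^ (l - k) := by
      rw [zpow_sub₀ hvz, zpow_sub₀ hvp0, zpow_natCast, zpow_natCast,
        div_eq_div_iff (pow_ne_zero _ hvz) (zpow_ne_zero _ hvp0), mul_comm]
      exact heq
    rw [← zpow_natCast, hc, zpow_mul, hd', ← zpow_mul]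
  have hN0 : N.factorial ≠ 0 := (Nat.factorial_pos N).ne'
  have hex : ∃ m : ℕ, 0 < m ∧ ∃ z : K, z ≠ 0 ∧ v (z : Qbar) ^ N.factorial = v (p : Qbar) ^ m :=
    ⟨N.factorial, Nat.factorial_pos N, (p : K), Nat.cast_ne_zero.mpr hp.ne_zero, by
      simp⟩
  obtain ⟨hm0, w, hw0, hw⟩ := Nat.find_spec hex
  set m := Nat.find hex
  have hlt1 := Galois.Flat.valuation_prime_lt_one hA
  have hw1 : v (w : Qbar) < 1 := by
    refine (pow_lt_one_iff_of_nonneg zero_le hN0).mp ?_
    rw [hw]
    exact pow_lt_one₀ zero_le hlt1 hm0.ne'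
  let ϖ : A.comap (algebraMap K Qbar) := ⟨w, (A.valuation_le_one_iff _).mp hw1.le⟩
  have hzinj : Function.Injective fun i : ℤ => v (p : Qbar) ^ i :=
    Galois.Flat.valuation_zpow_injective hp hA
  -- a power of `w` has the value of any given element
  have hdec : ∀ z : K, z ≠ 0 → ∃ q : ℤ, v ((z : Qbar) / (w : Qbar) ^ q) = 1 := by
    intro z hz
    obtain ⟨k, hk⟩ := key z hz
    have hwq : (w : Qbar) ≠ 0 := fun e => hw0 (Subtype.ext e)
    refine ⟨k / m, ?_⟩
    set r := k % (m : ℤ)
    have hr0 : 0 ≤ r := Int.emod_nonneg _ (by omega)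
    have hr1 : r < m := Int.emod_lt_of_pos _ (by omega)
    have hval : v ((z : Qbar) / (w : Qbar) ^ (k / m)) ^ N.factorial = v (p : Qbar) ^ r := by
      rw [map_div₀, map_zpow₀, div_pow, hk,
        ← zpow_natCast (v (w : Qbar) ^ (k / (m : ℤ))) N.factorial, zpow_comm, zpow_natCast, hw,
        ← zpow_natCast _ m, ← zpow_mul, ← zpow_sub₀ hvp0]
      congr 1
      rw [show r = k % (m : ℤ) from rfl, Int.emod_def]
    rcases hr0.eq_or_lt with hr | hr
    · rw [← hr, zpow_zero] at hval
      exact (pow_eq_one_iff_of_nonneg zero_le hN0).mp hval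
    · exfalso
      refine Nat.find_min hex (m := r.toNat) (by omega) ⟨by omega, z / w ^ (k / (m : ℤ)),
        div_ne_zero hz (zpow_ne_zero _ hw0), ?_⟩
      rw [← zpow_natCast _ r.toNat, Int.toNat_of_nonneg hr.le, ← hval]
      exact congrArg (fun t => v t ^ N.factorial) (by
        exact (map_div₀ (algebraMap K Qbar) z _).trans (congrArg _ (map_zpow₀ (algebraMap K Qbar) w _)))
  have hunit : ∀ z : A.comap (algebraMap K Qbar), v ((z : K) : Qbar) = 1 → IsUnit z := by
    intro z hz
    have hz0 : ((z : K) : Qbar) ≠ 0 := fun e => by rw [e, map_zero] at hz; exact zero_ne_one hz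
    refine IsUnit.of_mul_eq_one (⟨(z : K)⁻¹, ?_⟩ : A.comap (algebraMap K Qbar)) (Subtype.ext ?_)
    · change algebraMap K Qbar (z : K)⁻¹ ∈ A
      rw [map_inv₀, ← A.valuation_le_one_iff, map_inv₀]
      exact (inv_eq_one.mpr hz).le
    · exact mul_inv_cancel₀ fun e => hz0 (congrArg Subtype.val e)
  have hnotunit : ∀ z : A.comap (algebraMap K Qbar), v ((z : K) : Qbar) < 1 → ¬ IsUnit z := by
    intro z hz hu
    obtain ⟨y, hy⟩ := hu.exists_left_inv
    have := congrArg (fun t : A.comap (algebraMap K Qbar) => v ((t : K) : Qbar)) hy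
    simp only [MulMemClass.coe_mul, OneMemClass.coe_one, map_mul, map_one] at this
    exact (this ▸ mul_lt_one_of_nonneg_of_lt_one_right
      ((A.valuation_le_one_iff _).mpr y.2) zero_le hz).false
  have hfac : ∀ z : A.comap (algebraMap K Qbar), z ≠ 0 →
      ∃ n : ℕ, Associated (ϖ ^ n) z ∧ v ((z : K) : Qbar) = v (w : Qbar) ^ n := by
    intro z hz
    have hzK : (z : K) ≠ 0 := fun e => hz (Subtype.ext e)
    obtain ⟨q, hq⟩ := hdec z hzK
    have hwv : 0 < v (w : Qbar) :=
      zero_lt_iff.mpr (v.ne_zero_iff.mpr fun e => hw0 (Subtype.ext e))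
    rw [map_div₀, map_zpow₀, div_eq_one_iff_eq (zpow_ne_zero _ hwv.ne')] at hq
    have hq0 : 0 ≤ q := by
      by_contra hneg
      push Not at hneg
      have hle : v ((z : K) : Qbar) ≤ 1 := (A.valuation_le_one_iff _).mpr z.2
      rw [hq] at hle
      exact not_lt.mpr hle (one_lt_zpow_iff_right_of_lt_one₀ hwv hw1 |>.mpr hneg)
    lift q to ℕ using hq0
    rw [zpow_natCast] at hq
    let e : A.comap (algebraMap K Qbar) := ⟨(z : K) / w ^ q, by
      change algebraMap K Qbar _ ∈ A
      rw [map_div₀, map_pow, ← A.valuation_le_one_iff, map_div₀, map_pow]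
      exact ((div_eq_one_iff_eq (pow_ne_zero _ hwv.ne')).mpr hq).le⟩
    have he : IsUnit e := hunit e (by
      change v (algebraMap K Qbar ((z : K) / w ^ q)) = 1
      rw [map_div₀, map_pow, map_div₀, map_pow]
      exact (div_eq_one_iff_eq (pow_ne_zero _ hwv.ne')).mpr hq)
    exact ⟨q, ⟨he.unit, Subtype.ext (mul_div_cancel₀ _ (pow_ne_zero _ hw0))⟩, hq⟩
  have hirr : Irreducible ϖ := by
    refine ⟨hnotunit ϖ hw1, fun x y hxy => ?_⟩
    have hϖ0 : ϖ ≠ 0 := fun e => hw0 (congrArg Subtype.val e)
    obtain ⟨i, -, hi⟩ := hfac x (by rintro rfl; exact hϖ0 (by rw [hxy, zero_mul]))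
    obtain ⟨j, -, hj⟩ := hfac y (by rintro rfl; exact hϖ0 (by rw [hxy, mul_zero]))
    have := congrArg (fun t : A.comap (algebraMap K Qbar) => v ((t : K) : Qbar)) hxy
    simp only [MulMemClass.coe_mul, map_mul, hi, hj, ← pow_add] at this
    have h1 : (1 : ℕ) = i + j := by
      refine pow_right_injective₀
        (zero_lt_iff.mpr (v.ne_zero_iff.mpr fun e => hw0 (Subtype.ext e))) hw1.ne ?_
      simpa using this
    rcases Nat.eq_zero_or_pos i with rfl | h0
    · exact Or.inl (hunit x (by simpa using hi))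
    · obtain rfl : j = 0 := by omega
      exact Or.inr (hunit y (by simpa using hj))
  exact IsDiscreteValuationRing.ofHasUnitMulPowIrreducibleFactorization
    ⟨ϖ, hirr, fun {z} hz => let ⟨n, hn, _⟩ := hfac z hz; ⟨n, hn⟩⟩

end FermatLib.MazurP

end
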