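import Fermat.Agent.Galois.MazurP.AwayDefs
import Fermat.Agent.Galois.MazurP.HeckePoles
import Fermat.Agent.Igusa.SqFrobMain
import Fermat.Agent.Igusa.MonoLevelDatum
import Fermat.Agent.Igusa.MonoModular
import Fermat.Agent.Modular.LaurentInstances

/-!
# The exchange of the sheets composed with Frobenius

`w_q` acts on `J₀(qM)` as an involution commuting with Galois, and `w_q ∘ Frob` carries each
modular sheet to the other: the field `swap` of `AwayData`.
-/

set_option autoImplicit false
set_option linter.style.haveILetI false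
set_option synthInstance.maxHeartbeats 400000
set_option maxHeartbeats 1000000

noncomputable section

open AlgebraicCurve ModularCurve FermatLib.Igusa FermatLib.Igusa.Mono

namespace FermatLib.MazurP

open scoped FermatLib.LaurentInstances

attribute [local instance 100000] monoLaurentModule monoLaurentSMul

local notation "Qbar" => AlgebraicClosure ℚ
local notation "Γℚ" => (AlgebraicClosure ℚ ≃ₐ[ℚ] AlgebraicClosure ℚ)

variable {q M : ℕ} [Fact q.Prime] [NeZero q] [NeZero M] (hqM : ¬ q ∣ M)
  {A : ValuationSubring (AlgebraicClosure ℚ)} (hA : A.LiesOverPrime q)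

local notation "kA" => IsLocalRing.ResidueField A
local notation "FqM" => modularFunctionFieldBar (q * M)
local notation "KbM" => modularFunctionFieldFullC (IsLocalRing.ResidueField A) M

/-- `w_q` as a semilinear automorphism. -/
def swapSemilinear : SemilinearAut Qbar FqM := SemilinearAut.ofAlgAut (monoSwap hqM)

theorem swapSemilinear_mul_self : swapSemilinear hqM * swapSemilinear hqM = 1 :=
  Subtype.ext (Prod.ext (RingEquiv.ext (monoSwap_monoSwap hqM)) rfl)

theorem swapSemilinear_mul_galois (σ : Γℚ) :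
    swapSemilinear hqM * arithmeticGalois (modularFunctionFieldFull (q * M)) σ =
      arithmeticGalois (modularFunctionFieldFull (q * M)) σ * swapSemilinear hqM :=
  Subtype.ext (Prod.ext (RingEquiv.ext (monoSwap_arithmeticGalois hqM σ)) rfl)

/-- The poles of `j(qτ)` are among those of `j`. -/
theorem exists_jqFq_mem_rr {g : ℕ} (hF : RRField Qbar FqM g) {Px : Divisor Qbar FqM}
    (hPx : ∀ v, Px v = max (-v.ord (jFq q M)) 0) :
    ∃ c : ℕ, jqFq q M ∈ riemannRochSpace (c • Px) := by
  rcases eq_or_ne (jqFq q M) 0 with h0 | h0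
  · exact ⟨0, h0.symm ▸ Submodule.zero_mem _⟩
  obtain ⟨E, hE, -⟩ := hF.exists_div h0
  refine ⟨E.support.sup fun v => (E v).natAbs, mem_riemannRochSpace_iff.mpr fun v => Or.inr ?_⟩
  rw [Finsupp.smul_apply, nsmul_eq_mul]
  rcases le_or_gt 0 (v.ord (jFq q M)) with hj | hj
  · rw [hPx, max_eq_right (by omega), mul_zero, neg_zero]
    refine ord_nonneg_of_modularEquation q v ?_ hj
    refine (modularFunctionFieldBar (q * M)).val.toRingHom.injective
      ((map_eval₂_evalInt _ _ _ _).trans ?_)
    rw [map_zero]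
    show Polynomial.eval₂ (evalInt ((jFq q M : FqM) : LaurentSeries Qbar))
      ((jqFq q M : FqM) : LaurentSeries Qbar) _ = 0
    rw [coe_jFq]
    exact (modularEquation_series q Qbar).1
  · have h1 : (1 : ℤ) ≤ Px v := by rw [hPx]; omega
    have h2 : -v.ord (jqFq q M) ≤ ((E.support.sup fun v => (E v).natAbs : ℕ) : ℤ) := by
      by_cases hv : v ∈ E.support
      · have := Finset.le_sup (f := fun v => (E v).natAbs) hv
        rw [← hE]
        omega
      · rw [Finsupp.notMem_support_iff, hE] at hv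
        omega
    nlinarith [Int.natCast_nonneg (E.support.sup fun v => (E v).natAbs)]

/-- `Φ ∘ Frob` is the `q`-th power when `Φ` is `u ↦ u ^ q` on expansions. -/
theorem phi_frob {k Kb : Type*} [Field k] [Field Kb] [Algebra k Kb] [CharP k q]
    {emb : Kb →+* LaurentSeries k} {Φ : Kb →ₐ[k] Kb}
    (hΦ : ∀ c, emb (Φ c) = qExpand k q (emb c)) {γ : SemilinearAut k Kb}
    (hγ : ∀ c, emb (γ • c) = coeffMap (frobenius k q) (emb c)) (c : Kb) :
    Φ (γ • c) = c ^ q := by
  apply emb.injective
  rw [hΦ, hγ, map_pow, monoNew_pow_char q (emb c)]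

variable [NeZero (q * M)]
  (D : MazurDatum (IsLocalRing.residue A) (modularFunctionFieldBar (q * M))
    (modularFunctionFieldFullC (IsLocalRing.ResidueField A) M) q)
  (hs₁ : D.s₁ = monoSheetInf hqM hA) (hs₂ : D.s₂ = monoSheetZero hqM hA)
  (hx : D.x = jFq q M)
  (hΦ : ∀ c : modularFunctionFieldFullC (IsLocalRing.ResidueField A) M,
    (D.Φ c : LaurentSeries (IsLocalRing.ResidueField A)) =
      qExpand (IsLocalRing.ResidueField A) q (c : LaurentSeries (IsLocalRing.ResidueField A)))

include hqM hA hs₁ hs₂ hx hΦ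

/-- `w_q ∘ Frob` carries each sheet to the other. -/
theorem nonempty_swapFrobenius {σ : Γℚ} (hσ : A.IsFrobeniusAt σ q) :
    Nonempty (D.SwapFrobenius
      (swapSemilinear hqM * arithmeticGalois (modularFunctionFieldFull (q * M)) σ) q) := by
  haveI := FermatLib.Galois.isAlgClosed_residueField A
  haveI := charP_residueField_of_lies A hA
  haveI : ExpChar kA q := ExpChar.prime Fact.out
  obtain ⟨γ, hγ⟩ := semilinear_fullC M (frobeniusEquiv kA q)
  have hemb : ∀ c, specialEmb M A (γ • c) =
      coeffMap (frobenius kA q) (specialEmb M A c) := fun c => hγ c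
  set g₀ := arithmeticGalois (modularFunctionFieldFull (q * M)) σ with hg₀
  have hres : ∀ a : A, ∃ h : (σ : Qbar →+* Qbar) (a : Qbar) ∈ A,
      IsLocalRing.residue A ⟨_, h⟩ = frobenius kA q (IsLocalRing.residue A a) :=
    fun a => frobenius_residue hσ a
  have e₁ : ∀ f ∈ D.s₁.W, g₀ • f ∈ D.s₁.W ∧ D.s₁.rd (g₀ • f) = γ • D.s₁.rd f := fun f hf => by
    rw [hs₁] at hf ⊢
    exact (hasRatios_monoSheetInf hqM hA).smul_rd_eq (g := g₀) hres
      (fun f => coe_arithmeticGalois_smul _ σ f) hemb hf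
  have e₂ : ∀ f ∈ D.s₂.W, g₀ • f ∈ D.s₂.W ∧ D.s₂.rd (g₀ • f) = γ • D.s₂.rd f := fun f hf => by
    rw [hs₂] at hf ⊢
    exact (hasRatios_monoSheetZero hqM hA).smul_rd_eq (g := g₀) hres (fun f =>
      (congrArg Subtype.val (monoSwap_arithmeticGalois hqM σ f)).trans
        (coe_arithmeticGalois_smul _ σ _)) hemb hf
  have hgx : g₀ • D.x = D.x := by
    rw [hx]
    refine Subtype.ext ?_
    rw [hg₀, coe_arithmeticGalois_smul, coe_jFq, coeffMap_jqModC]
  refine ⟨{
    φ := (SemilinearAut.toRingAut γ).toRingHom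
    x_pole := ?_
    mem₁ := fun a ha => ?_
    rd₁ := fun a ha => ?_
    mem₂ := fun a ha => ?_
    rd₂' := fun a ha => ?_
    φ_reg := fun c hc => D.toMonoDatum.smul_mem_reg_of_fixed e₁ hgx hc
    frob := fun c _ => phi_frob (q := q) (emb := specialEmb M A) hΦ hemb c }⟩
  · rw [mul_smul, hgx, hx, swapSemilinear, SemilinearAut.ofAlgAut_smul, monoSwap_jFq]
    exact exists_jqFq_mem_rr D.rrF fun v => by rw [D.Px_apply, hx]
  · have h := (e₂ a ha).1
    rw [mul_smul, swapSemilinear, SemilinearAut.ofAlgAut_smul, hs₁]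
    rw [hs₂, monoSheetZero_mem_iff] at h
    exact h
  · obtain ⟨h, hr⟩ := e₂ a ha
    rw [mul_smul, swapSemilinear, SemilinearAut.ofAlgAut_smul, hs₁]
    rw [hs₂, monoSheetZero_rd] at hr
    rw [hs₂]
    exact hr
  · have h := (e₁ a ha).1
    rw [mul_smul, swapSemilinear, SemilinearAut.ofAlgAut_smul, hs₂, monoSheetZero_mem_iff,
      monoSwap_monoSwap]
    rwa [hs₁] at h
  · obtain ⟨h, hr⟩ := e₁ a ha
    rw [mul_smul, swapSemilinear, SemilinearAut.ofAlgAut_smul, hs₂, monoSheetZero_rd,
      monoSwap_monoSwap, ← hs₁]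
    exact hr

/-- **The field `swap` of `AwayData`.** -/
theorem swap_of_monoSheets :
    ∃ w : JZero (q * M) →+ JZero (q * M), (∀ x, w (w x) = x) ∧
      (∀ (σ : Γℚ) (x), w (σ • x) = σ • w x) ∧
      ∀ σ : Γℚ, A.IsFrobeniusAt σ q →
        ∃ g : SemilinearAut Qbar FqM, Nonempty (D.SwapFrobenius g q) ∧
          ∀ x : Pic0 Qbar FqM, g • x = w (σ • (x : JZero (q * M))) := by
  set s := swapSemilinear hqM with hs
  refine ⟨DistribSMul.toAddMonoidHom (Pic0 Qbar FqM) s, fun x => ?_,
    fun σ x => ?_, fun σ hσ => ?_⟩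
  · rw [DistribSMul.toAddMonoidHom_apply, DistribSMul.toAddMonoidHom_apply, ← mul_smul, hs,
      swapSemilinear_mul_self, one_smul]
  · rw [DistribSMul.toAddMonoidHom_apply, DistribSMul.toAddMonoidHom_apply, galois_smul_pic0_def,
      galois_smul_pic0_def, ← mul_smul, ← mul_smul, hs, swapSemilinear_mul_galois]
  · refine ⟨_, nonempty_swapFrobenius hqM hA D hs₁ hs₂ hx hΦ hσ, fun x => ?_⟩
    rw [DistribSMul.toAddMonoidHom_apply, galois_smul_pic0_def, ← mul_smul]

end FermatLib.MazurP

end
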