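import Fermat.Agent.Galois.MazurP.LevelMKill
import Fermat.Agent.AV.MW.MordellWeil

/-!
# A Hecke polynomial killing the cusp forms kills `J₀(M)`

If `t = 0` on `S₂(Γ₀(M))` then `t` kills the torsion of `J₀(M)`. Hence for `n y = z` the point
`t y` is fixed by the Galois group of any number field fixing `z`, and by heights over that field
`t z = 0`.
-/

set_option autoImplicit false
set_option linter.style.haveILetI false

noncomputable section

open ModularCurve AlgebraicCurve Finset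

namespace FermatLib.MazurP

open FermatLib.AV.MW

local notation "Qbar" => AlgebraicClosure ℚ
local notation "Γℚ" => (AlgebraicClosure ℚ ≃ₐ[ℚ] AlgebraicClosure ℚ)

/-- Finitely many normalised tuples of bounded height over a number field. -/
theorem finite_absHt_le_field (K : IntermediateField ℚ Qbar) [FiniteDimensional ℚ K] {ι : Type*}
    [Finite ι] (i₀ : ι) (B : ℝ) :
    {y : ι → K | y i₀ = 1 ∧ absHt (fun i => (y i : Qbar)) ≤ B}.Finite := by
  haveI : NumberField K := NumberField.mk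
  have hd : (0 : ℝ) < Module.finrank ℚ K := Nat.cast_pos.mpr Module.finrank_pos
  refine (Set.Finite.pi fun _ : ι =>
    NumberField.finite_setOfPred_logHeight₁_le (K := K) (B * Module.finrank ℚ K)).subset ?_
  rintro y ⟨hy, hB⟩ i -
  show Height.logHeight₁ (y i) ≤ B * Module.finrank ℚ K
  rw [absHt_eq_lift (K := K) (fun i => (y i : Qbar)) fun i => (y i).2, div_le_iff₀ hd] at hB
  rw [Height.logHeight₁_eq_logHeight]
  refine le_trans (le_of_eq ?_) ((Height.logHeight_comp_le ![i, i₀] y).trans hB)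
  congr 1
  funext j
  fin_cases j <;> simp [hy]

section Northcott

variable {P : Type*} {Md : HtModel P} {J : Type*} [AddCommGroup J] {G : HtClasses Md J}
  {Γ : Type*} [Monoid Γ] [DistribMulAction Γ J] (S : HtGalois G Γ) {H : Set Γ}
  (K : IntermediateField ℚ Qbar) [FiniteDimensional ℚ K]
  (hK : ∀ z : Qbar, (∀ γ ∈ H, S.conj γ z = z) → z ∈ K)
include hK

/-- Northcott over a number field. -/
theorem finite_fixedBy_Hsym_le (hfin : HtFinite G) (d : ℕ) (hd : G.d₀ ≤ d) (B : ℝ) :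
    {x : J | (∀ γ ∈ H, γ • x = x) ∧ G.Hsym d x ≤ B}.Finite := by
  classical
  obtain ⟨C, hC⟩ := G.exists_absHt_sub_Hsym d hd
  let Y : Set ((Fin (Md.nvar d) → Fin (Md.dim (Md.klvl d))) → K) :=
    ⋃ i₀, {y | y i₀ = 1 ∧ absHt (fun I => (y I : Qbar)) ≤ B + C}
  have hY : Y.Finite := Set.finite_iUnion fun i₀ => finite_absHt_le_field K i₀ _
  refine (hY.biUnion (t := fun y => if (fun I => (y I : Qbar)) = 0 then (∅ : Set J) else
    {x : J | ∃ (r : G.Rep d x) (z : Qbar), ∀ I, r.F I = z * (y I : Qbar)}) fun y _ => ?_).subset ?_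
  · split_ifs with h
    · exact Set.finite_empty
    · exact G.finite_fibre hfin d hd h
  rintro x ⟨hx, hB⟩
  obtain ⟨r, -, -⟩ := G.exists_rep_avoiding d hd x Set.finite_empty
  obtain ⟨hF, hb⟩ := hC x r
  obtain ⟨i₀, hi₀⟩ := Function.ne_iff.mp hF
  have hfix : ∀ I, ∀ γ ∈ H, S.conj γ (r.F I / r.F i₀) = r.F I / r.F i₀ := fun I γ hγ => by
    let r₀ := S.actRep γ r
    let r₁ : G.Rep d x :=
      ⟨r₀.D, r₀.D', r₀.c, r₀.F, r₀.zeroSet, r₀.cls_D.trans (hx γ hγ),
        r₀.cls_D'.trans (congrArg Neg.neg (hx γ hγ)), r₀.isKummer⟩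
    obtain ⟨z, hz, he⟩ := G.kummer_unique d hd r r₁
    have hI : S.conj γ (r.F I) = z * r.F I := he I
    have h0 : S.conj γ (r.F i₀) = z * r.F i₀ := he i₀
    rw [map_div₀, hI, h0, mul_div_mul_left _ _ hz]
  let y : (Fin (Md.nvar d) → Fin (Md.dim (Md.klvl d))) → K :=
    fun I => ⟨r.F I / r.F i₀, hK _ (hfix I)⟩
  have hy1 : y i₀ = 1 := Subtype.ext (div_self hi₀)
  have hrF : r.F = fun I => r.F i₀ * (y I : Qbar) := funext fun I => (mul_div_cancel₀ _ hi₀).symm
  have hy : y ∈ Y := Set.mem_iUnion.mpr ⟨i₀, hy1, by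
    have hH : absHt r.F = absHt (fun I => (y I : Qbar)) := by
      rw [hrF]
      exact absHt_smul _ hi₀
    linarith [(abs_le.mp hb).2]⟩
  refine Set.mem_biUnion hy ?_
  rw [if_neg fun h => one_ne_zero (α := Qbar) (by simpa [hy1] using congrFun h i₀)]
  exact ⟨r, r.F i₀, fun I => congrFun hrF I⟩

end Northcott

variable (M : ℕ) [NeZero M] (t : HeckeAlg) (ht : Galois.formsHeckeEval M t = 0)
include ht

/-- The action of `t` as a map. -/
theorem exists_actHom : ∃ φ : JZero M →+ JZero M,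
    (∀ z, φ z = (letI := heckeModuleBar M; t • z)) ∧
    (∀ (σ : Γℚ) z, φ (σ • z) = σ • φ z) ∧
    ∀ (n : ℕ) (x : JZero M), n ≠ 0 → n • x = 0 → φ x = 0 := by
  have hc := Modular.heckeOperatorsCommuteBar M
  refine ⟨(heckeEvalBar hc t).toAddMonoidHom, fun z => (heckeModuleBar_smul_def hc t z).symm,
    fun σ z => ?_, fun n x hn hx => ?_⟩
  · letI := heckeModuleBar M
    haveI := Modular.smulCommClass_heckeModuleBar M
    show heckeEvalBar hc t (σ • z) = σ • heckeEvalBar hc t z
    rw [← heckeModuleBar_smul_def hc, ← heckeModuleBar_smul_def hc]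
    exact (smul_comm σ t z).symm
  · exact (heckeModuleBar_smul_def hc t x).symm.trans
      (smul_eq_zero_of_formsHeckeEval_eq_zero ht hn hx)

/-- A Hecke polynomial vanishing on `S₂(Γ₀(M))` kills `J₀(M)`. -/
theorem smul_eq_zero_of_forms (z : JZero M) : (letI := heckeModuleBar M; t • z) = 0 := by
  classical
  obtain ⟨φ, hφ, hgal, htors⟩ := exists_actHom M t ht
  obtain ⟨C, hC⟩ := (x0Classes M).exists_parallelogram (x0Classes M).d₀ le_rfl
  set h : JZero M → ℝ := (x0Classes M).Hsym (x0Classes M).d₀ with hh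
  -- halving shrinks the height
  have hhalf : ∀ x : JZero M, h x ≤ (h (x + x) + (C + |h 0|)) / 4 := fun x => by
    have := abs_le.mp (hC x x)
    rw [sub_self] at this
    linarith [le_abs_self (h 0)]
  set D : ℝ := C + |h 0| with hD
  -- points of bounded height fixed by a number field
  have hN : ∀ (E : IntermediateField ℚ Qbar), FiniteDimensional ℚ E → ∀ B : ℝ,
      {x : JZero M | (∀ σ ∈ E.fixingSubgroup, σ • x = x) ∧ h x ≤ B}.Finite := fun E hE B => by
    haveI := isGalois_Qbar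
    exact finite_fixedBy_Hsym_le (x0Galois M) (H := (E.fixingSubgroup : Set Γℚ)) E
      (fun w hw => by
        have : w ∈ IntermediateField.fixedField E.fixingSubgroup :=
          (IntermediateField.mem_fixedField_iff _ _).mpr hw
        rwa [InfiniteGalois.fixedField_fixingSubgroup] at this)
      (x0Finite M) _ le_rfl B
  -- `φ y` is fixed whenever a nonzero multiple of `y` is
  have hfixed : ∀ (E : IntermediateField ℚ Qbar) (w y : JZero M) (n : ℕ), n ≠ 0 → n • y = w →
      (∀ σ ∈ E.fixingSubgroup, σ • w = w) → ∀ σ ∈ E.fixingSubgroup, σ • φ y = φ y := by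
    intro E w y n hn hy hw σ hσ
    rw [← hgal, ← sub_eq_zero, ← map_sub]
    refine htors n _ hn ?_
    have hσn : n • (σ • y) = σ • (n • y) :=
      (map_nsmul (DistribSMul.toAddMonoidHom (JZero M) σ) n y).symm
    rw [nsmul_sub, hσn, hy, hw σ hσ, sub_self]
  have htorsion : ∀ w : JZero M, ∃ n : ℕ, n ≠ 0 ∧ n • φ w = 0 := by
    intro w
    obtain ⟨E, hE, hw⟩ := exists_open_fix_class M w
    choose y hy using fun n : ℕ => exists_nsmul_eq_JZero M (pow_ne_zero n two_ne_zero) w
    have hstep : ∀ n, φ (y (n + 1)) + φ (y (n + 1)) = φ (y n) := fun n => by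
      rw [← map_add, ← sub_eq_zero, ← map_sub]
      refine htors (2 ^ n) _ (pow_ne_zero n two_ne_zero) ?_
      rw [nsmul_sub, hy, ← two_nsmul, ← mul_nsmul', ← pow_succ, hy, sub_self]
    set B : ℝ := max (h (φ (y 0))) (D / 3) with hB
    have hbd : ∀ n, h (φ (y n)) ≤ B := fun n => by
      induction n with
      | zero => exact le_max_left _ _
      | succ n ih =>
        refine (hhalf _).trans ?_
        rw [hstep]
        linarith [le_max_right (h (φ (y 0))) (D / 3)]
    have hmem : ∀ n, φ (y n) ∈ {x : JZero M | (∀ σ ∈ E.fixingSubgroup, σ • x = x) ∧ h x ≤ B} :=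
      fun n => ⟨hfixed E w (y n) (2 ^ n) (pow_ne_zero n two_ne_zero) (hy n) hw, hbd n⟩
    obtain ⟨a, b, hab, heq⟩ :=
      (hN E hE B).exists_lt_map_eq_of_forall_mem (f := fun n => φ (y n)) hmem
    have hpow : ∀ n, 2 ^ n • φ (y n) = φ w := fun n => by rw [← map_nsmul, hy]
    refine ⟨2 ^ b - 2 ^ a, (Nat.sub_pos_of_lt (Nat.pow_lt_pow_right one_lt_two hab)).ne', ?_⟩
    have h1 : (2 ^ b - 2 ^ a) • φ (y a) = 0 := by
      rw [sub_nsmul _ (Nat.pow_le_pow_right two_pos hab.le), hpow,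
        show φ (y a) = φ (y b) from heq, hpow, add_neg_cancel]
    rw [← hpow a, ← mul_nsmul', mul_comm, mul_nsmul', h1, nsmul_zero]
  -- the torsion points fixed by a number field are finite in number
  obtain ⟨E, hE, hz⟩ := exists_open_fix_class M z
  set T : Set (JZero M) :=
    {x | (∀ σ ∈ E.fixingSubgroup, σ • x = x) ∧ ∃ n : ℕ, n ≠ 0 ∧ n • x = 0} with hT
  have hTfin : T.Finite := by
    refine (hN E hE (D / 3)).subset ?_
    rintro x ⟨hx, n, hn, hnx⟩
    refine ⟨hx, ?_⟩
    have hord : IsOfFinAddOrder x :=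
      isOfFinAddOrder_iff_nsmul_eq_zero.mpr ⟨n, Nat.pos_of_ne_zero hn, hnx⟩
    obtain ⟨u, hu, hmax⟩ := (AddSubgroup.zmultiples x : Set (JZero M)).exists_max_image h
      (finite_zmultiples.mpr hord) ⟨x, AddSubgroup.mem_zmultiples x⟩
    have h1 := hmax x (AddSubgroup.mem_zmultiples x)
    have h2 := hmax (u + u) (add_mem hu hu)
    linarith [hhalf u]
  obtain ⟨n, hn, hnT⟩ : ∃ n : ℕ, n ≠ 0 ∧ ∀ x ∈ T, n • x = 0 := by
    refine ⟨∏ x ∈ hTfin.toFinset, addOrderOf x, Finset.prod_ne_zero_iff.mpr fun x hx => ?_,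
      fun x hx => ?_⟩
    · obtain ⟨-, m, hm, hmx⟩ := hTfin.mem_toFinset.mp hx
      exact (IsOfFinAddOrder.addOrderOf_pos
        (isOfFinAddOrder_iff_nsmul_eq_zero.mpr ⟨m, Nat.pos_of_ne_zero hm, hmx⟩)).ne'
    · exact addOrderOf_dvd_iff_nsmul_eq_zero.mp
        (Finset.dvd_prod_of_mem _ (hTfin.mem_toFinset.mpr hx))
  obtain ⟨y, hy⟩ := exists_nsmul_eq_JZero M hn z
  obtain ⟨m, hm, hmy⟩ := htorsion y
  rw [← hφ, ← hy, map_nsmul]
  exact hnT _ ⟨hfixed E z y n hn hy hz, m, hm, hmy⟩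

end FermatLib.MazurP
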