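import Fermat.Agent.Igusa.MonoSheet
import Fermat.Agent.Modular.CorrBaseChange

/-!
# Norms commute with reduction on sheets

For compatible sheets `s` on `F`, `s'` on `F'` and embeddings `α : F → F'`, `ab : Kb → Kb'` of the
same degree, lifts of a basis of `Kb'` form an integral basis of `F'`, so the norm of an integral
element is integral and reduces to the norm of the reduction.
-/

set_option autoImplicit false
set_option linter.style.haveILetI false

noncomputable section

open AlgebraicCurve FermatLib.Igusa.Mono FermatLib.Modular.Corr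

namespace FermatLib.MazurP

variable {L F F' k Kb Kb' : Type*} [Field L] [Field F] [Algebra L F] [Field F'] [Algebra L F']
  [Field k] [Field Kb] [Algebra k Kb] [Field Kb'] [Algebra k Kb']
  {A : ValuationSubring L} {π : A →+* k}

/-- The embeddings `α`, `ab` are compatible with the sheets. -/
def SheetCompat (s : Sheet π F Kb) (s' : Sheet π F' Kb') (α : F →ₐ[L] F') (ab : Kb →ₐ[k] Kb') :
    Prop :=
  ∀ f ∈ s.W, α f ∈ s'.W ∧ s'.rd (α f) = ab (s.rd f)

/-- An element outside the valuation ring has inverse reducing to zero. -/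
theorem rd_inv_eq_zero_of_notMem {s : Sheet π F Kb} {f : F} (hf : f ∉ s.W) :
    f⁻¹ ∈ s.W ∧ s.rd f⁻¹ = 0 := by
  have h := (s.W.mem_or_inv_mem f).resolve_left hf
  refine ⟨h, by_contra fun h0 => hf ?_⟩
  simpa using Sheet.inv_mem_of_rd_ne h h0

section

variable {s : Sheet π F Kb} {s' : Sheet π F' Kb'} {α : F →ₐ[L] F'} {ab : Kb →ₐ[k] Kb'}

/-- Coefficients of an integral combination of elements with independent reductions are
integral. -/
theorem coeff_mem_of_sum_mem (hc : SheetCompat s s' α ab) {ι : Type*} [Fintype ι] {e : ι → F'}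
    (he : ∀ i, e i ∈ s'.W)
    (hli : ∀ g : ι → Kb, ∑ i, ab (g i) * s'.rd (e i) = 0 → ∀ i, g i = 0)
    (c : ι → F) (hy : ∑ i, α (c i) * e i ∈ s'.W) (i : ι) : c i ∈ s.W := by
  classical
  by_contra hi
  obtain ⟨i₀, -, hmax⟩ := Finset.exists_max_image Finset.univ (fun j => s.W.valuation (c j))
    ⟨i, Finset.mem_univ i⟩
  have hc₀ : c i₀ ∉ s.W := fun h => hi ((s.W.valuation_le_one_iff _).mp
    ((hmax i (Finset.mem_univ i)).trans ((s.W.valuation_le_one_iff _).mpr h)))
  have hne : c i₀ ≠ 0 := fun h => hc₀ (h ▸ zero_mem _)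
  obtain ⟨hinv, hinv0⟩ := rd_inv_eq_zero_of_notMem hc₀
  have hd : ∀ j, (c i₀)⁻¹ * c j ∈ s.W := fun j => by
    rw [← s.W.valuation_le_one_iff, map_mul, map_inv₀]
    exact inv_mul_le_one_of_le₀ (hmax j (Finset.mem_univ j)) zero_le
  have hsum : α (c i₀)⁻¹ * ∑ j, α (c j) * e j = ∑ j, α ((c i₀)⁻¹ * c j) * e j := by
    rw [Finset.mul_sum]
    exact Finset.sum_congr rfl fun j _ => by rw [map_mul, mul_assoc]
  have h0 := congrArg s'.rd hsum
  rw [Sheet.rd_mul (hc _ hinv).1 hy, (hc _ hinv).2, hinv0, map_zero, zero_mul,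
    Sheet.rd_sum _ _ (fun j _ => mul_mem (hc _ (hd j)).1 (he j))] at h0
  have h1 := hli (fun j => s.rd ((c i₀)⁻¹ * c j)) (by
    rw [h0]
    exact Finset.sum_congr rfl fun j _ => by
      rw [Sheet.rd_mul (hc _ (hd j)).1 (he j), (hc _ (hd j)).2]) i₀
  rw [inv_mul_cancel₀ hne, Sheet.rd_one] at h1
  exact one_ne_zero h1

/-- **The norm commutes with reduction.** -/
theorem normAlong_mem_rd (hc : SheetCompat s s' α ab)
    (hsurj : ∀ x : Kb', ∃ f ∈ s'.W, s'.rd f = x) (hfinK : FiniteAlong k ab) (hdeg : finrankAlong k ab = finrankAlong L α) {y : F'}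
    (hy : y ∈ s'.W) :
    normAlong α y ∈ s.W ∧ s.rd (normAlong α y) = normAlong ab (s'.rd y) := by
  classical
  letI := algebraAlong α
  letI := algebraAlong ab
  haveI : Module.Finite Kb Kb' := hfinK
  let b := Module.finBasis Kb Kb'
  choose e he hrd using fun i => hsurj (b i)
  have hli : ∀ g : Fin (Module.finrank Kb Kb') → Kb,
      ∑ i, ab (g i) * s'.rd (e i) = 0 → ∀ i, g i = 0 := fun g hg =>
    Fintype.linearIndependent_iff.mp b.linearIndependent g (by
      refine Eq.trans ?_ hg
      exact Finset.sum_congr rfl fun i _ => by rw [hrd, Algebra.smul_def]; rfl)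
  have hmem : ∀ c : Fin (Module.finrank Kb Kb') → F, ∑ i, c i • e i ∈ s'.W → ∀ i, c i ∈ s.W :=
    fun c hm => coeff_mem_of_sum_mem hc he hli c (by
      simp only [Algebra.smul_def] at hm
      exact hm)
  have hrdsum : ∀ c : Fin (Module.finrank Kb Kb') → F, (∀ i, c i ∈ s.W) →
      s'.rd (∑ i, c i • e i) = ∑ i, s.rd (c i) • b i := fun c hcm => by
    have hm : ∀ i ∈ Finset.univ, c i • e i ∈ s'.W := fun i _ => by
      rw [Algebra.smul_def]; exact mul_mem (hc _ (hcm i)).1 (he i)
    rw [Sheet.rd_sum _ _ hm]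
    refine Finset.sum_congr rfl fun i _ => ?_
    rw [Algebra.smul_def, Algebra.smul_def, show algebraMap F F' (c i) = α (c i) from rfl,
      Sheet.rd_mul (hc _ (hcm i)).1 (he i), (hc _ (hcm i)).2, hrd]
    rfl
  have hliF : LinearIndependent F e := by
    refine Fintype.linearIndependent_iff.mpr fun g hg i => ?_
    by_contra hi
    have h1 : ∀ j, (g i)⁻¹ * g j ∈ s.W := hmem _ (by
      simp only [mul_smul, ← Finset.smul_sum, hg, smul_zero]
      exact zero_mem _)
    have h2 := hrdsum _ h1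
    simp only [mul_smul, ← Finset.smul_sum, hg, smul_zero, Sheet.rd_zero] at h2
    have h3 := Fintype.linearIndependent_iff.mp b.linearIndependent _ h2.symm i
    rw [inv_mul_cancel₀ hi, Sheet.rd_one] at h3
    exact one_ne_zero h3
  haveI : Nonempty (Fin (Module.finrank Kb Kb')) := ⟨⟨0, Module.finrank_pos⟩⟩
  let B : Module.Basis (Fin (Module.finrank Kb Kb')) F F' :=
    basisOfLinearIndependentOfCardEqFinrank hliF (by rw [Fintype.card_fin]; exact hdeg)
  have hB : ⇑B = e := coe_basisOfLinearIndependentOfCardEqFinrank _ _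
  have hM : ∀ i j, Algebra.leftMulMatrix B y i j ∈ s.W := fun i j => by
    rw [Algebra.leftMulMatrix_eq_repr_mul]
    refine hmem (fun i => B.repr (y * B j) i) ?_ i
    have h := B.sum_repr (y * B j)
    simp only [hB] at h ⊢
    rw [h]
    exact mul_mem hy (he j)
  let M₀ : Matrix (Fin (Module.finrank Kb Kb')) (Fin (Module.finrank Kb Kb')) s.W :=
    fun i j => ⟨_, hM i j⟩
  have hM₀ : M₀.map s.W.subtype = Algebra.leftMulMatrix B y := rfl
  have hMk : M₀.map s.red = Algebra.leftMulMatrix b (s'.rd y) := by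
    ext i j
    rw [Algebra.leftMulMatrix_eq_repr_mul, Matrix.map_apply,
      show s.red (M₀ i j) = s.rd (B.repr (y * B j) i) by
        rw [Sheet.rd_of_mem (by rw [← Algebra.leftMulMatrix_eq_repr_mul]; exact hM i j)]
        exact congrArg s.red (Subtype.ext (Algebra.leftMulMatrix_eq_repr_mul B y i j))]
    have h := B.sum_repr (y * B j)
    have hc' : ∀ i, B.repr (y * B j) i ∈ s.W := fun i => by
      rw [← Algebra.leftMulMatrix_eq_repr_mul]; exact hM i j
    have h2 := hrdsum _ hc'
    simp only [hB] at h h2 ⊢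
    rw [h, Sheet.rd_mul hy (he j), hrd] at h2
    rw [h2, map_sum, Finsupp.finsetSum_apply]
    simp [Finsupp.single_apply]
  have hnorm : normAlong α y = ((M₀.det : s.W) : F) := by
    show Algebra.norm F y = _
    rw [Algebra.norm_eq_matrix_det B, ← hM₀]
    exact (s.W.subtype.map_det M₀).symm
  refine ⟨hnorm ▸ (M₀.det).2, ?_⟩
  rw [hnorm, Sheet.rd_of_mem (M₀.det).2]
  show s.red M₀.det = Algebra.norm Kb (s'.rd y)
  rw [Algebra.norm_eq_matrix_det b, ← hMk]
  exact s.red.map_det M₀

end

end FermatLib.MazurP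

end
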