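import Fermat.Agent.Igusa.MonoCurve

/-!
Leading coefficients at places, and the dimension of pairs of Riemann–Roch spaces subject to
linear conditions on leading coefficients.
-/

set_option autoImplicit false

noncomputable section

open AlgebraicCurve FermatLib.Igusa FermatLib.Igusa.Mono

namespace FermatLib.MazurP

variable {K E : Type*} [Field K] [Field E] [Algebra K E]

theorem exists_unif (v : Place K E) : ∃ t : E, t ≠ 0 ∧ v.ord t = 1 := by
  obtain ⟨t, ht⟩ := IsDiscreteValuationRing.exists_irreducible v.toValuationSubring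
  refine ⟨t, fun h => ht.ne_zero (Subtype.ext h), v.ord_coe_irreducible ht⟩

/-- A uniformiser at `v`. -/
def unif (v : Place K E) : E := (exists_unif v).choose

theorem unif_ne (v : Place K E) : unif v ≠ 0 := (exists_unif v).choose_spec.1

theorem ord_unif (v : Place K E) : v.ord (unif v) = 1 := (exists_unif v).choose_spec.2

theorem ord_unif_zpow (v : Place K E) (j : ℤ) : v.ord (unif v ^ j) = j := by
  rw [v.ord_zpow, ord_unif, mul_one]

/-- The coefficient of `unif v ^ (-j)` of a function with poles of order at most `j` at `v`. -/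
def lead (v : Place K E) (j : ℤ) (r : E) : K := valAt v (r * unif v ^ j)

theorem ord_mul_unif {v : Place K E} {j : ℤ} {r : E} (h : r = 0 ∨ -j ≤ v.ord r) :
    r * unif v ^ j = 0 ∨ 0 ≤ v.ord (r * unif v ^ j) := by
  simpa using ordGE_mul h (Or.inr (ord_unif_zpow v j).ge : unif v ^ j = 0 ∨ j ≤ v.ord (unif v ^ j))

theorem hasValueAt_lead {v : Place K E} (hdeg : v.deg = 1) {j : ℤ} {r : E}
    (h : r = 0 ∨ -j ≤ v.ord r) : HasValueAt v (r * unif v ^ j) (lead v j r) :=
  hasValueAt_valAt hdeg (ord_mul_unif h)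

@[simp] theorem lead_zero (v : Place K E) (j : ℤ) : lead v j (0 : E) = 0 := by simp [lead]

theorem lead_add {v : Place K E} (hdeg : v.deg = 1) {j : ℤ} {r r' : E}
    (h : r = 0 ∨ -j ≤ v.ord r) (h' : r' = 0 ∨ -j ≤ v.ord r') :
    lead v j (r + r') = lead v j r + lead v j r' := by
  rw [lead, add_mul]
  exact valAt_eq (hasValueAt_add (hasValueAt_lead hdeg h) (hasValueAt_lead hdeg h'))

theorem lead_smul {v : Place K E} (hdeg : v.deg = 1) {j : ℤ} (c : K) {r : E}
    (h : r = 0 ∨ -j ≤ v.ord r) : lead v j (c • r) = c * lead v j r := by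
  rw [lead, smul_mul_assoc, Algebra.smul_def]
  exact valAt_eq (hasValueAt_mul (HasValueAt.of_eq v c) (hasValueAt_lead hdeg h))

theorem lead_eq_zero_iff {v : Place K E} (hdeg : v.deg = 1) {j : ℤ} {r : E}
    (h : r = 0 ∨ -j ≤ v.ord r) : lead v j r = 0 ↔ (r = 0 ∨ -j < v.ord r) := by
  rw [lead, valAt_eq_zero_iff hdeg (ord_mul_unif h)]
  rcases eq_or_ne r 0 with rfl | hr
  · simp
  · have hu : unif v ^ j ≠ 0 := zpow_ne_zero _ (unif_ne v)
    rw [v.ord_mul hr hu, ord_unif_zpow]
    simp [hr, hu]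
    omega

theorem lead_ne_zero {v : Place K E} (hdeg : v.deg = 1) {j : ℤ} {r : E} (hr : r ≠ 0)
    (h : v.ord r = -j) : lead v j r ≠ 0 := by
  rw [Ne, lead_eq_zero_iff hdeg (Or.inr h.ge), not_or]
  exact ⟨hr, by omega⟩

theorem lead_mul {v : Place K E} (hdeg : v.deg = 1) {i j : ℤ} {r r' : E}
    (h : r = 0 ∨ -i ≤ v.ord r) (h' : r' = 0 ∨ -j ≤ v.ord r') :
    lead v (i + j) (r * r') = lead v i r * lead v j r' := by
  rw [lead, zpow_add₀ (unif_ne v), mul_mul_mul_comm]
  exact valAt_eq (hasValueAt_mul (hasValueAt_lead hdeg h) (hasValueAt_lead hdeg h'))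

theorem lead_pow {v : Place K E} (hdeg : v.deg = 1) {j : ℤ} {r : E}
    (h : r = 0 ∨ -j ≤ v.ord r) (n : ℕ) : lead v (n * j) (r ^ n) = lead v j r ^ n := by
  induction n with
  | zero => simp [lead]
  | succ n ih =>
    have hn : r ^ n = 0 ∨ -(n * j) ≤ v.ord (r ^ n) := by
      rcases eq_or_ne r 0 with rfl | hr
      · rcases n with - | n
        · simp
        · left; simp
      · right
        rw [ord_pow]
        have := h.resolve_left hr
        nlinarith
    rw [pow_succ, pow_succ, Nat.cast_succ, add_mul, one_mul, lead_mul hdeg hn h, ih]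

theorem ord_of_mem_rr {B : Divisor K E} {r : E} (h : r ∈ riemannRochSpace B) (v : Place K E) :
    r = 0 ∨ -B v ≤ v.ord r :=
  mem_riemannRochSpace_iff.mp h v

/-- The leading coefficient as a functional on a Riemann–Roch space. -/
def leadLin (hdeg : ∀ v : Place K E, v.deg = 1) (B : Divisor K E) (v : Place K E) :
    ↥(riemannRochSpace B) →ₗ[K] K where
  toFun r := lead v (B v) (r : E)
  map_add' r r' := lead_add (hdeg v) (ord_of_mem_rr r.2 v) (ord_of_mem_rr r'.2 v)
  map_smul' c r := lead_smul (hdeg v) c (ord_of_mem_rr r.2 v)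

variable {g : ℕ} (hE : RRField K E g)
include hE

/-- In large degree one leading coefficient can be prescribed with the others vanishing. -/
theorem exists_lead {B : Divisor K E} {S : Finset (Place K E)}
    (hB : 2 * (g : ℤ) + S.card ≤ Divisor.degree B) {v : Place K E} (hv : v ∈ S) :
    ∃ r ∈ riemannRochSpace B, lead v (B v) r = 1 ∧
      ∀ w ∈ S, w ≠ v → lead w (B w) r = 0 := by
  classical
  set Z : Divisor K E := ∑ w ∈ S.erase v, Finsupp.single w 1 with hZdef
  have hZ : ∀ w, Z w = if w ∈ S.erase v then 1 else 0 := fun w => by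
    simp [hZdef, Finsupp.finsetSum_apply, Finsupp.single_apply]
  have hZdeg : Divisor.degree Z = (S.erase v).card := by
    rw [hZdef, map_sum]
    simp [Divisor.degree_single, hE.deg_one]
  have hcard := Finset.card_erase_of_mem hv
  obtain ⟨r, hr, hr0, hrv⟩ := hE.exists_ord_eq (D := B - Z) (by
    rw [map_sub, hZdeg]
    have : ((S.erase v).card : ℤ) ≤ S.card := by exact_mod_cast Finset.card_erase_le
    omega) v
  have hrB : r ∈ riemannRochSpace B :=
    riemannRochSpace_mono (sub_le_self _ (Finset.sum_nonneg fun w _ => by simp)) hr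
  rw [Finsupp.sub_apply, hZ, if_neg (Finset.notMem_erase _ _), sub_zero] at hrv
  have hne := lead_ne_zero (hE.deg_one v) hr0 hrv
  refine ⟨(lead v (B v) r)⁻¹ • r, Submodule.smul_mem _ _ hrB, ?_, fun w hw hwv => ?_⟩
  · rw [lead_smul (hE.deg_one v) _ (ord_of_mem_rr hrB v), inv_mul_cancel₀ hne]
  · have hrw := (ord_of_mem_rr hr w).resolve_left hr0
    rw [Finsupp.sub_apply, hZ, if_pos (Finset.mem_erase.mpr ⟨hwv, hw⟩)] at hrw
    rw [lead_smul (hE.deg_one w) _ (ord_of_mem_rr hrB w),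
      (lead_eq_zero_iff (hE.deg_one w) (ord_of_mem_rr hrB w)).mpr (Or.inr (by omega)), mul_zero]

variable {ι : Type*}

/-- Pairs in `L(B₁) × L(B₂)` satisfying one linear condition on leading coefficients at each
pair of places. -/
def condSpace (B₁ B₂ : Divisor K E) (T : Finset ι) (z₁ z₂ : ι → Place K E) (a b : ι → K) :
    Submodule K (E × E) where
  carrier := {r | r.1 ∈ riemannRochSpace B₁ ∧ r.2 ∈ riemannRochSpace B₂ ∧
    ∀ i ∈ T, a i * lead (z₁ i) (B₁ (z₁ i)) r.1 + b i * lead (z₂ i) (B₂ (z₂ i)) r.2 = 0}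
  zero_mem' := ⟨Submodule.zero_mem _, Submodule.zero_mem _, fun i _ => by simp⟩
  add_mem' := by
    rintro r r' ⟨h1, h2, h⟩ ⟨h1', h2', h'⟩
    refine ⟨Submodule.add_mem _ h1 h1', Submodule.add_mem _ h2 h2', fun i hi => ?_⟩
    rw [Prod.fst_add, Prod.snd_add,
      lead_add (hE.deg_one _) (ord_of_mem_rr h1 _) (ord_of_mem_rr h1' _),
      lead_add (hE.deg_one _) (ord_of_mem_rr h2 _) (ord_of_mem_rr h2' _)]
    linear_combination h i hi + h' i hi
  smul_mem' := by
    rintro c r ⟨h1, h2, h⟩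
    refine ⟨Submodule.smul_mem _ _ h1, Submodule.smul_mem _ _ h2, fun i hi => ?_⟩
    rw [Prod.smul_fst, Prod.smul_snd, lead_smul (hE.deg_one _) c (ord_of_mem_rr h1 _),
      lead_smul (hE.deg_one _) c (ord_of_mem_rr h2 _)]
    linear_combination c * h i hi

theorem mem_condSpace {B₁ B₂ : Divisor K E} {T : Finset ι} {z₁ z₂ : ι → Place K E} {a b : ι → K}
    {r : E × E} :
    r ∈ condSpace hE B₁ B₂ T z₁ z₂ a b ↔
      r.1 ∈ riemannRochSpace B₁ ∧ r.2 ∈ riemannRochSpace B₂ ∧
      ∀ i ∈ T, a i * lead (z₁ i) (B₁ (z₁ i)) r.1 + b i * lead (z₂ i) (B₂ (z₂ i)) r.2 = 0 :=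
  Iff.rfl

/-- The conditions are independent in large degree. -/
theorem finrank_condSpace {B₁ B₂ : Divisor K E} {T : Finset ι} {z₁ z₂ : ι → Place K E}
    (h₁ : Set.InjOn z₁ T) (h₂ : Set.InjOn z₂ T) {a b : ι → K}
    (hab : ∀ i ∈ T, a i ≠ 0 ∨ b i ≠ 0)
    (hd₁ : 2 * (g : ℤ) + T.card ≤ Divisor.degree B₁)
    (hd₂ : 2 * (g : ℤ) + T.card ≤ Divisor.degree B₂) :
    FiniteDimensional K (condSpace hE B₁ B₂ T z₁ z₂ a b) ∧
      (Module.finrank K (condSpace hE B₁ B₂ T z₁ z₂ a b) : ℤ) =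
        Divisor.degree B₁ + Divisor.degree B₂ + 2 - 2 * g - T.card := by
  classical
  have := hE.finite_space B₁
  have := hE.finite_space B₂
  let ψ : (↥(riemannRochSpace B₁) × ↥(riemannRochSpace B₂)) →ₗ[K] (↥T → K) :=
    LinearMap.pi fun i => a i • (leadLin hE.deg_one B₁ (z₁ i)).comp (LinearMap.fst K _ _) +
      b i • (leadLin hE.deg_one B₂ (z₂ i)).comp (LinearMap.snd K _ _)
  have hψ : ∀ r i, ψ r i = a i * lead (z₁ i) (B₁ (z₁ i)) (r.1 : E) +
      b i * lead (z₂ i) (B₂ (z₂ i)) (r.2 : E) := fun r i => rfl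
  have hsurj : Function.Surjective ψ := by
    rw [← LinearMap.range_eq_top, eq_top_iff, ← (Pi.basisFun K ↥T).span_eq, Submodule.span_le]
    rintro _ ⟨i, rfl⟩
    rw [Pi.basisFun_apply]
    rcases hab i i.2 with h | h
    · obtain ⟨r, hr, h1, h0⟩ := exists_lead hE (S := T.image z₁) (B := B₁)
        (by
          have : ((T.image z₁).card : ℤ) ≤ T.card := by exact_mod_cast Finset.card_image_le
          omega) (Finset.mem_image_of_mem _ i.2)
      refine ⟨(⟨(a i)⁻¹ • r, Submodule.smul_mem _ _ hr⟩, 0), funext fun w => ?_⟩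
      rw [hψ, Submodule.coe_zero, lead_zero, mul_zero, add_zero,
        lead_smul (hE.deg_one _) _ (ord_of_mem_rr hr _)]
      rcases eq_or_ne w i with rfl | hne
      · rw [h1, mul_one, mul_inv_cancel₀ h, Pi.single_eq_same]
      · rw [h0 _ (Finset.mem_image_of_mem _ w.2) fun e => hne (Subtype.ext (h₁ w.2 i.2 e)),
          mul_zero, mul_zero, Pi.single_eq_of_ne hne]
    · obtain ⟨r, hr, h1, h0⟩ := exists_lead hE (S := T.image z₂) (B := B₂)
        (by
          have : ((T.image z₂).card : ℤ) ≤ T.card := by exact_mod_cast Finset.card_image_le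
          omega) (Finset.mem_image_of_mem _ i.2)
      refine ⟨(0, ⟨(b i)⁻¹ • r, Submodule.smul_mem _ _ hr⟩), funext fun w => ?_⟩
      rw [hψ, Submodule.coe_zero, lead_zero, mul_zero, zero_add,
        lead_smul (hE.deg_one _) _ (ord_of_mem_rr hr _)]
      rcases eq_or_ne w i with rfl | hne
      · rw [h1, mul_one, mul_inv_cancel₀ h, Pi.single_eq_same]
      · rw [h0 _ (Finset.mem_image_of_mem _ w.2) fun e => hne (Subtype.ext (h₂ w.2 i.2 e)),
          mul_zero, mul_zero, Pi.single_eq_of_ne hne]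
  let e : ↥(LinearMap.ker ψ) ≃ₗ[K] ↥(condSpace hE B₁ B₂ T z₁ z₂ a b) :=
    { toFun := fun f => ⟨((f.1.1 : E), (f.1.2 : E)), f.1.1.2, f.1.2.2, fun i hi =>
        congrFun (LinearMap.mem_ker.mp f.2) ⟨i, hi⟩⟩
      map_add' := fun _ _ => rfl
      map_smul' := fun _ _ => rfl
      invFun := fun f => ⟨(⟨f.1.1, f.2.1⟩, ⟨f.1.2, f.2.2.1⟩), LinearMap.mem_ker.mpr
        (funext fun i => f.2.2.2 i i.2)⟩
      left_inv := fun _ => rfl
      right_inv := fun _ => rfl }
  refine ⟨Module.Finite.equiv e, ?_⟩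
  have h1 := LinearMap.finrank_range_add_finrank_ker ψ
  rw [LinearMap.range_eq_top.mpr hsurj, finrank_top, Module.finrank_pi, Fintype.card_coe,
    e.finrank_eq, Module.finrank_prod] at h1
  have e1 := hE.finrank_space B₁ (by omega)
  have e2 := hE.finrank_space B₂ (by omega)
  omega

end FermatLib.MazurP

end
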