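import Fermat.Agent.Galois.MazurP.Level
import Fermat.Agent.Galois.MazurP.Lead

/-!
Saturation: in large level the reductions of `L(D + n Px)` for a torsion divisor `D` and a
balanced shift are all pairs in two Riemann–Roch spaces with one linear relation between leading
coefficients at each node where the bound is integral; away from the nodes the bound is integral.
-/

set_option autoImplicit false

noncomputable section

open AlgebraicCurve FermatLib.Igusa FermatLib.Igusa.Mono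

namespace FermatLib.MazurP

universe uL uF uk uKb

@[simp] theorem lead_zero_index {K E : Type*} [Field K] [Field E] [Algebra K E] (v : Place K E)
    (r : E) : lead v 0 r = valAt v r := by simp [lead]

theorem ediv_add_ediv_neg (a : ℤ) {d : ℤ} (hd : 0 < d) [Decidable (d ∣ a)] :
    a / d + -a / d = -(if d ∣ a then 0 else 1) := by
  have e1 := Int.emod_add_mul_ediv a d
  have e2 := Int.emod_add_mul_ediv (-a) d
  have n1 := Int.emod_nonneg a hd.ne'
  have n2 := Int.emod_nonneg (-a) hd.ne'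
  have l1 := Int.emod_lt_of_pos a hd
  have l2 := Int.emod_lt_of_pos (-a) hd
  have hsum : a % d + -a % d = -d * (a / d + -a / d) := by linarith
  split_ifs with h
  · rw [Int.emod_eq_zero_of_dvd h, Int.emod_eq_zero_of_dvd (dvd_neg.mpr h), add_zero] at hsum
    have := (mul_eq_zero.mp hsum.symm).resolve_left (by omega)
    omega
  · have h1 : a % d ≠ 0 := fun h0 => h (Int.dvd_of_emod_eq_zero h0)
    have hlo : -2 < a / d + -a / d := by nlinarith
    have hhi : a / d + -a / d < 0 := by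
      have : 0 < a % d + -a % d := by omega
      nlinarith
    omega

theorem neg_ediv_le_of_nonneg {d o num : ℤ} (hd : 0 < d) (h : 0 ≤ d * o + num) :
    -(num / d) ≤ o := by
  have h1 : -o ≤ num / d := by
    rw [Int.le_ediv_iff_mul_le hd]
    linarith
  omega

theorem sheet_zpow {L F k Kb : Type*} [Field L] [Field F] [Algebra L F] [Field k] [Field Kb]
    [Algebra k Kb] {A : ValuationSubring L} {π : A →+* k} {s : Sheet π F Kb} {f : F}
    (hf : f ∈ s.W) (h : s.rd f ≠ 0) (n : ℤ) :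
    f ^ n ∈ s.W ∧ s.rd (f ^ n) = s.rd f ^ n := by
  rcases Int.eq_nat_or_neg n with ⟨i, rfl | rfl⟩
  · rw [zpow_natCast, zpow_natCast]
    exact ⟨pow_mem hf i, Sheet.rd_pow hf i⟩
  · rw [zpow_neg, zpow_natCast, zpow_neg, zpow_natCast, ← inv_pow, ← inv_pow]
    exact ⟨pow_mem (Sheet.inv_mem_of_rd_ne hf h) i,
      by rw [Sheet.rd_pow (Sheet.inv_mem_of_rd_ne hf h), Sheet.rd_inv hf h]⟩

/-- The value of `r ^ d * G` at a place, for `ord G = num` and `ord r ≥ -(num / d)`. -/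
theorem valAt_pow_mul {K E : Type*} [Field K] [Field E] [Algebra K E] {v : Place K E}
    (hdeg : v.deg = 1) {d : ℕ} (hd : (0 : ℤ) < d) {G : E} {num B : ℤ}
    (hG : G ≠ 0 ∧ v.ord G = num) (hB : B = num / (d : ℤ)) {r : E} (hr : r = 0 ∨ -B ≤ v.ord r)
    [Decidable ((d : ℤ) ∣ num)] :
    valAt v (r ^ d * G) =
      if (d : ℤ) ∣ num then lead v B r ^ d * lead v (-num) G else 0 := by
  split_ifs with h
  · have hBd : (d : ℤ) * B + -num = 0 := by
      rw [hB, Int.mul_ediv_cancel' h]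
      omega
    have hrd : r ^ d = 0 ∨ -((d : ℤ) * B) ≤ v.ord (r ^ d) := by
      rcases hr with h0 | h0
      · left
        rw [h0, zero_pow (by omega)]
      · right
        rw [ord_pow]
        nlinarith
    rw [← lead_pow hdeg hr d, ← lead_mul hdeg hrd (Or.inr (by rw [hG.2, neg_neg])), hBd,
      lead_zero_index]
  · have h1 : num % (d : ℤ) ≠ 0 := fun h0 => h (Int.dvd_of_emod_eq_zero h0)
    have h2 := Int.emod_add_mul_ediv num (d : ℤ)
    have h3 := Int.emod_nonneg num hd.ne'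
    rw [← hB] at h2
    have hge : r ^ d * G = 0 ∨ 1 ≤ v.ord (r ^ d * G) := by
      rcases eq_or_ne r 0 with h0 | h0
      · left
        rw [h0, zero_pow (by omega), zero_mul]
      · right
        rw [v.ord_mul (pow_ne_zero _ h0) hG.1, ord_pow, hG.2]
        have := mul_le_mul_of_nonneg_left (hr.resolve_left h0) hd.le
        have h4 : 0 < num % (d : ℤ) := lt_of_le_of_ne h3 (Ne.symm h1)
        linarith
    exact (valAt_eq_zero_iff hdeg (hge.imp id fun h => by omega)).mpr hge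

namespace MazurDatum

variable {L : Type uL} {k : Type uk} [Field L] [Field k] [IsAlgClosed k] {A : ValuationSubring L}
  {π : A →+* k} {F : Type uF} {Kb : Type uKb} [Field F] [Algebra L F] [Field Kb] [Algebra k Kb]
  {q : ℕ} {M : MazurDatum π F Kb q} {p : ℕ}

namespace TorsData

variable (T : M.TorsData p)

/-- The bound at a node is integral. -/
def Free (m : ℕ) (j : ℤ) (z : Place k Kb × Place k Kb) : Prop :=
  ((p * m : ℕ) : ℤ) ∣ T.num₁ m j z.1

/-- The comparison constant of a balanced shift. -/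
def balC (β₁ β₂ : Lˣ) (m : ℕ) (j : ℤ) : L :=
  (β₂ : L) ^ (p * m) * (T.γ₂ : L) ^ m /
    ((β₁ : L) ^ (p * m) * (T.γ₁ : L) ^ m * ((q : L) ^ 12) ^ j)

omit [IsAlgClosed k] in
theorem valuation_balC {β₁ β₂ : Lˣ} {m : ℕ} {j : ℤ} (h : T.Balanced β₁ β₂ m j) :
    A.valuation (T.balC β₁ β₂ m j) = 1 := by
  rw [balC, map_div₀, map_mul, map_mul, map_mul, map_pow, map_pow, map_pow, map_pow, map_zpow₀,
    map_pow, h, show (A.valuation (q : L) ^ 12) ^ j = A.valuation (q : L) ^ (12 * j) by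
      rw [zpow_mul, zpow_ofNat]]
  refine div_self ?_
  simp [zpow_ne_zero, M.q_ne]

/-- The reduction of the comparison constant. -/
def balK {β₁ β₂ : Lˣ} {m : ℕ} {j : ℤ} (h : T.Balanced β₁ β₂ m j) : k :=
  π ⟨T.balC β₁ β₂ m j, (A.valuation_le_one_iff _).mp (T.valuation_balC h).le⟩

omit [IsAlgClosed k] in
theorem balK_ne {β₁ β₂ : Lˣ} {m : ℕ} {j : ℤ} (h : T.Balanced β₁ β₂ m j) : T.balK h ≠ 0 := by
  intro h0
  refine (M.π_eq_zero _).mp h0 ?_
  rw [ValuationSubring.valuation_eq_one_iff]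
  exact T.valuation_balC h

/-- `r ^ (p m) ḡ₁ ^ m ū₁ ^ (-j)`. -/
def X₁ (m : ℕ) (j : ℤ) (r : Kb) : Kb := r ^ (p * m) * (T.gb₁ ^ m * M.ub₁ ^ (-j))

/-- `r ^ (p m) ḡ₂ ^ m ū₂ ^ (-j)`. -/
def X₂ (m : ℕ) (j : ℤ) (r : Kb) : Kb := r ^ (p * m) * (T.gb₂ ^ m * M.ub₂ ^ (-j))

variable {β₁ β₂ : Lˣ} {m : ℕ} {j : ℤ}

/-- The basic integral element attached to an element of a shifted lattice. -/
theorem exists_level_elt (hp : p ≠ 0) (hbal : T.Balanced β₁ β₂ m j) {n : ℕ} {r : Kb × Kb}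
    (hr : r ∈ M.sred β₁ β₂ (riemannRochSpace (T.D + n • M.Px))) :
    ∃ N : ℕ, 1 ≤ N ∧ (T.X₁ m j r.1, T.balK hbal • T.X₂ m j r.2) ∈ M.gl MonoDatum.one' N := by
  obtain ⟨f, hf, h1, h2, e1, e2⟩ := M.mem_sred.mp hr
  obtain ⟨c, hc⟩ := M.exists_u_zpow_mem
  set b : F := (((β₁ : L) ^ (p * m) * (T.γ₁ : L) ^ m)⁻¹) • ((f ^ p * T.g) ^ m * M.u ^ (-j))
    with hb
  refine ⟨m * (p * n) + (-j).natAbs * c + 1, Nat.le_add_left 1 _,
    M.redLevel_le_gl_one (Nat.le_add_left 1 _) ?_⟩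
  have hbm : b ∈ riemannRochSpace ((m * (p * n) + (-j).natAbs * c + 1) • M.Px) := by
    refine riemannRochSpace_mono (nsmul_le_nsmul_left M.Px_nonneg (Nat.le_succ _)) ?_
    refine Submodule.smul_mem _ _ ?_
    rw [add_nsmul]
    refine mul_mem_riemannRochSpace ?_ (hc (-j))
    rw [mul_comm m, mul_nsmul]
    refine pow_mem_rr ?_ m
    rw [mul_comm p, mul_nsmul]
    exact pow_mul_mem_rr hp T.g_ne T.div hf
  have hu1 : M.u ^ (-j) ∈ M.s₁.W ∧ M.s₁.rd (M.u ^ (-j)) = M.ub₁ ^ (-j) :=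
    sheet_zpow M.u_mem₁ M.u_red₁ (-j)
  have hu2 : (((q : L) ^ 12)⁻¹ • M.u) ^ (-j) ∈ M.s₂.W ∧
      M.s₂.rd ((((q : L) ^ 12)⁻¹ • M.u) ^ (-j)) = M.ub₂ ^ (-j) :=
    sheet_zpow M.u_mem₂ M.u_red₂ (-j)
  have hb1 : b = ((β₁ : L)⁻¹ • f) ^ (p * m) * (((T.γ₁ : L)⁻¹ • T.g) ^ m * M.u ^ (-j)) := by
    simp only [hb, Algebra.smul_def, mul_pow, map_inv₀, map_mul, map_pow, inv_pow, mul_inv,
      ← pow_mul]
    ring
  have hb2 : b = T.balC β₁ β₂ m j • (((β₂ : L)⁻¹ • f) ^ (p * m) *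
      (((T.γ₂ : L)⁻¹ • T.g) ^ m * (((q : L) ^ 12)⁻¹ • M.u) ^ (-j))) := by
    have hi : ∀ c : L, c ≠ 0 → algebraMap L F c ≠ 0 := fun c hc =>
      (map_ne_zero_iff _ (algebraMap L F).injective).mpr hc
    have hβ := hi _ β₂.ne_zero
    have hγ := hi _ T.γ₂.ne_zero
    have hQ := zpow_ne_zero j (pow_ne_zero 12 (hi _ M.q_ne))
    simp only [hb, balC, Algebra.smul_def, mul_pow, mul_zpow, map_inv₀, map_mul, map_pow,
      map_zpow₀, inv_pow, inv_zpow, zpow_neg, inv_inv, mul_inv, div_eq_mul_inv, ← pow_mul]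
    field_simp
  refine ⟨b, hbm, ⟨?_, ?_⟩, Prod.ext ?_ ?_⟩
  · rw [hb1]
    exact mul_mem (pow_mem h1 _) (mul_mem (pow_mem T.g_mem₁ _) hu1.1)
  · rw [hb2]
    exact Sheet.smul_mem ((A.valuation_le_one_iff _).mp (T.valuation_balC hbal).le)
      (mul_mem (pow_mem h2 _) (mul_mem (pow_mem T.g_mem₂ _) hu2.1))
  · show M.s₁.rd b = _
    rw [hb1, Sheet.rd_mul (pow_mem h1 _) (mul_mem (pow_mem T.g_mem₁ _) hu1.1),
      Sheet.rd_mul (pow_mem T.g_mem₁ _) hu1.1, hu1.2, Sheet.rd_pow h1, Sheet.rd_pow T.g_mem₁, e1]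
    rfl
  · show M.s₂.rd b = _
    rw [hb2, Sheet.rd_smul ((A.valuation_le_one_iff _).mp (T.valuation_balC hbal).le)
      (mul_mem (pow_mem h2 _) (mul_mem (pow_mem T.g_mem₂ _) hu2.1)),
      Sheet.rd_mul (pow_mem h2 _) (mul_mem (pow_mem T.g_mem₂ _) hu2.1),
      Sheet.rd_mul (pow_mem T.g_mem₂ _) hu2.1, hu2.2, Sheet.rd_pow h2, Sheet.rd_pow T.g_mem₂, e2]
    rfl

/-- Bounds on the reductions. -/
theorem sred_bound (hp : p ≠ 0) (hm : 0 < m) (hbal : T.Balanced β₁ β₂ m j) {n : ℕ}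
    {r : Kb × Kb} (hr : r ∈ M.sred β₁ β₂ (riemannRochSpace (T.D + n • M.Px))) :
    r.1 ∈ riemannRochSpace (T.B₁ n m j) ∧ r.2 ∈ riemannRochSpace (T.B₂ n m j) := by
  obtain ⟨N, hN, hgl⟩ := T.exists_level_elt hp hbal hr
  obtain ⟨f, hf, h1, h2, e1, e2⟩ := M.mem_sred.mp hr
  have hpm : (0 : ℤ) < (p * m : ℕ) := by exact_mod_cast Nat.mul_pos (Nat.pos_of_ne_zero hp) hm
  have hF : f ^ p * T.g ∈ riemannRochSpace ((p * n) • M.Px) := by
    rw [mul_comm p, mul_nsmul]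
    exact pow_mul_mem_rr hp T.g_ne T.div hf
  constructor
  · rw [mem_riemannRochSpace_iff]
    intro v
    rcases eq_or_ne r.1 0 with h0 | h0
    · exact Or.inl h0
    right
    rw [T.B₁_apply]
    rcases eq_or_ne (M.P₁ v) 0 with hv | hv
    · have h := (rrSpace_nsmul_le_reg M.P₁ N hgl.1 v hv).resolve_left (by
        simp [X₁, h0, T.gb₁_ne, ub₁, zpow_ne_zero, M.u_red₁])
      have hu : M.ub₁ ≠ 0 := M.u_red₁
      rw [X₁, v.ord_mul (pow_ne_zero _ h0) (mul_ne_zero (pow_ne_zero _ T.gb₁_ne)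
        (zpow_ne_zero _ hu)), v.ord_mul (pow_ne_zero _ T.gb₁_ne) (zpow_ne_zero _ hu),
        ord_pow, ord_pow, v.ord_zpow] at h
      rw [hv, mul_zero, zero_add]
      have hnum : T.num₁ m j v = m * v.ord T.gb₁ - j * v.ord M.ub₁ := by
        simp [num₁, T.a₁_apply, M.h₁_apply, hv]
      exact neg_ediv_le_of_nonneg hpm (by rw [hnum]; linarith)
    · have hFm : ((β₁ : L) ^ p * (T.γ₁ : L))⁻¹ • (f ^ p * T.g) =
          ((β₁ : L)⁻¹ • f) ^ p * ((T.γ₁ : L)⁻¹ • T.g) := by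
        rw [smul_pow, smul_mul_smul_comm, inv_pow, mul_inv]
      have h := M.pole_shift₁ (Submodule.smul_mem _ ((β₁ : L) ^ p * (T.γ₁ : L))⁻¹ hF)
        (by rw [hFm]; exact mul_mem (pow_mem h1 _) T.g_mem₁) hv
      rw [hFm, Sheet.rd_mul (pow_mem h1 _) T.g_mem₁, Sheet.rd_pow h1, e1] at h
      have h' := h.resolve_left (mul_ne_zero (pow_ne_zero _ h0) T.gb₁_ne)
      rw [v.ord_mul (pow_ne_zero _ h0) T.g_red₁, ord_pow] at h'
      have hnum : T.num₁ m j v = m * v.ord T.gb₁ := by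
        simp [num₁, T.a₁_apply, M.h₁_apply, hv]
      rw [hnum, Nat.cast_mul, mul_comm (p : ℤ) (m : ℤ),
        Int.mul_ediv_mul_of_pos _ _ (by exact_mod_cast hm)]
      push_cast at h'
      have := neg_ediv_le_of_nonneg (num := v.ord T.gb₁ + p * (n * M.P₁ v)) (o := v.ord r.1)
        (d := (p : ℤ)) (by exact_mod_cast Nat.pos_of_ne_zero hp) (by rw [gb₁] at *; linarith)
      rw [Int.add_mul_ediv_left _ _ (by exact_mod_cast hp)] at this
      linarith
  · rw [mem_riemannRochSpace_iff]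
    intro v
    rcases eq_or_ne r.2 0 with h0 | h0
    · exact Or.inl h0
    right
    rw [T.B₂_apply]
    rcases eq_or_ne (M.P₂ v) 0 with hv | hv
    · have hgl2 : T.X₂ m j r.2 ∈ riemannRochSpace (N • M.P₂) :=
        (Submodule.smul_mem_iff _ (T.balK_ne hbal)).mp hgl.2.1
      have h := (rrSpace_nsmul_le_reg M.P₂ N hgl2 v hv).resolve_left (by
        simp [X₂, h0, T.gb₂_ne, ub₂, zpow_ne_zero, M.u_red₂])
      have hu : M.ub₂ ≠ 0 := M.u_red₂
      rw [X₂, v.ord_mul (pow_ne_zero _ h0) (mul_ne_zero (pow_ne_zero _ T.gb₂_ne)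
        (zpow_ne_zero _ hu)), v.ord_mul (pow_ne_zero _ T.gb₂_ne) (zpow_ne_zero _ hu),
        ord_pow, ord_pow, v.ord_zpow] at h
      rw [hv, mul_zero, zero_add]
      have hnum : T.num₂ m j v = m * v.ord T.gb₂ - j * v.ord M.ub₂ := by
        simp [num₂, T.a₂_apply, M.h₂_apply, hv]
      exact neg_ediv_le_of_nonneg hpm (by rw [hnum]; linarith)
    · have hFm : ((β₂ : L) ^ p * (T.γ₂ : L))⁻¹ • (f ^ p * T.g) =
          ((β₂ : L)⁻¹ • f) ^ p * ((T.γ₂ : L)⁻¹ • T.g) := by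
        rw [smul_pow, smul_mul_smul_comm, inv_pow, mul_inv]
      have h := M.pole_shift₂ (Submodule.smul_mem _ ((β₂ : L) ^ p * (T.γ₂ : L))⁻¹ hF)
        (by rw [hFm]; exact mul_mem (pow_mem h2 _) T.g_mem₂) hv
      rw [hFm, Sheet.rd_mul (pow_mem h2 _) T.g_mem₂, Sheet.rd_pow h2, e2] at h
      have h' := h.resolve_left (mul_ne_zero (pow_ne_zero _ h0) T.gb₂_ne)
      rw [v.ord_mul (pow_ne_zero _ h0) T.g_red₂, ord_pow] at h'
      have hnum : T.num₂ m j v = m * v.ord T.gb₂ := by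
        simp [num₂, T.a₂_apply, M.h₂_apply, hv]
      rw [hnum, Nat.cast_mul, mul_comm (p : ℤ) (m : ℤ),
        Int.mul_ediv_mul_of_pos _ _ (by exact_mod_cast hm)]
      push_cast at h'
      have := neg_ediv_le_of_nonneg (num := v.ord T.gb₂ + p * (n * M.P₂ v)) (o := v.ord r.2)
        (d := (p : ℤ)) (by exact_mod_cast Nat.pos_of_ne_zero hp) (by rw [gb₂] at *; linarith)
      rw [Int.add_mul_ediv_left _ _ (by exact_mod_cast hp)] at this
      linarith

omit [IsAlgClosed k] in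
theorem node_B₁ {n : ℕ} {z : Place k Kb × Place k Kb} (hz : z ∈ M.nodes) :
    T.B₁ n m j z.1 = T.num₁ m j z.1 / ((p * m : ℕ) : ℤ) := by
  rw [T.B₁_apply, (M.P₁_of_node hz).1, mul_zero, zero_add]

omit [IsAlgClosed k] in
theorem node_B₂ {n : ℕ} {z : Place k Kb × Place k Kb} (hz : z ∈ M.nodes) :
    T.B₂ n m j z.2 = T.num₂ m j z.2 / ((p * m : ℕ) : ℤ) := by
  rw [T.B₂_apply, (M.supp _).mp (M.P₁_of_node hz).2, mul_zero, zero_add]

/-- The leading constant of the first sheet at a node. -/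
def C₁ (m : ℕ) (j : ℤ) (z : Place k Kb × Place k Kb) : k :=
  lead z.1 (-T.num₁ m j z.1) (T.gb₁ ^ m * M.ub₁ ^ (-j))

/-- The leading constant of the second sheet at a node. -/
def C₂ (m : ℕ) (j : ℤ) (z : Place k Kb × Place k Kb) : k :=
  lead z.2 (-T.num₂ m j z.2) (T.gb₂ ^ m * M.ub₂ ^ (-j))

omit [IsAlgClosed k] in
theorem ord_G₁ {z : Place k Kb × Place k Kb} (hz : z ∈ M.nodes) :
    T.gb₁ ^ m * M.ub₁ ^ (-j) ≠ 0 ∧
      z.1.ord (T.gb₁ ^ m * M.ub₁ ^ (-j)) = T.num₁ m j z.1 := by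
  have hg : T.gb₁ ^ m ≠ 0 := pow_ne_zero _ T.gb₁_ne
  have hu : M.ub₁ ^ (-j) ≠ 0 := zpow_ne_zero _ M.u_red₁
  refine ⟨mul_ne_zero hg hu, ?_⟩
  rw [z.1.ord_mul hg hu, ord_pow, z.1.ord_zpow]
  simp [num₁, T.a₁_apply, M.h₁_apply, (M.P₁_of_node hz).1, sub_eq_add_neg]

omit [IsAlgClosed k] in
theorem ord_G₂ {z : Place k Kb × Place k Kb} (hz : z ∈ M.nodes) :
    T.gb₂ ^ m * M.ub₂ ^ (-j) ≠ 0 ∧
      z.2.ord (T.gb₂ ^ m * M.ub₂ ^ (-j)) = T.num₂ m j z.2 := by
  have hg : T.gb₂ ^ m ≠ 0 := pow_ne_zero _ T.gb₂_ne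
  have hu : M.ub₂ ^ (-j) ≠ 0 := zpow_ne_zero _ M.u_red₂
  refine ⟨mul_ne_zero hg hu, ?_⟩
  rw [z.2.ord_mul hg hu, ord_pow, z.2.ord_zpow]
  simp [num₂, T.a₂_apply, M.h₂_apply, (M.supp _).mp (M.P₁_of_node hz).2, sub_eq_add_neg]

omit [IsAlgClosed k] in
theorem C₁_ne {z : Place k Kb × Place k Kb} (hz : z ∈ M.nodes) : T.C₁ m j z ≠ 0 :=
  lead_ne_zero (M.rrK.deg_one _) (T.ord_G₁ hz).1 (by rw [neg_neg]; exact (T.ord_G₁ hz).2)

omit [IsAlgClosed k] in
theorem C₂_ne {z : Place k Kb × Place k Kb} (hz : z ∈ M.nodes) : T.C₂ m j z ≠ 0 :=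
  lead_ne_zero (M.rrK.deg_one _) (T.ord_G₂ hz).1 (by rw [neg_neg]; exact (T.ord_G₂ hz).2)

/-- The relation between leading coefficients at a node. -/
theorem node_relation (hp : p ≠ 0) (hm : 0 < m) (hbal : T.Balanced β₁ β₂ m j) {n : ℕ}
    {r : Kb × Kb} (hr : r ∈ M.sred β₁ β₂ (riemannRochSpace (T.D + n • M.Px)))
    {z : Place k Kb × Place k Kb} (hz : z ∈ M.nodes)
    [Decidable (((p * m : ℕ) : ℤ) ∣ T.num₁ m j z.1)]
    [Decidable (((p * m : ℕ) : ℤ) ∣ T.num₂ m j z.2)] :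
    (if ((p * m : ℕ) : ℤ) ∣ T.num₁ m j z.1 then
        lead z.1 (T.B₁ n m j z.1) r.1 ^ (p * m) * T.C₁ m j z else 0) =
      T.balK hbal * (if ((p * m : ℕ) : ℤ) ∣ T.num₂ m j z.2 then
        lead z.2 (T.B₂ n m j z.2) r.2 ^ (p * m) * T.C₂ m j z else 0) := by
  obtain ⟨N, -, hgl⟩ := T.exists_level_elt hp hbal hr
  obtain ⟨hr1, hr2⟩ := T.sred_bound hp hm hbal hr
  have hX2 : T.X₂ m j r.2 ∈ riemannRochSpace (N • M.P₂) :=
    (Submodule.smul_mem_iff _ (T.balK_ne hbal)).mp hgl.2.1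
  have hv := (M.mem_gl_one.mp hgl).2.2 z hz
  rw [valAt_smul_reg M.rrK.deg_one _ (rrSpace_nsmul_le_reg _ _ hX2)
    ((M.supp _).mp (M.P₁_of_node hz).2)] at hv
  have hpm : (0 : ℤ) < (p * m : ℕ) := by exact_mod_cast Nat.mul_pos (Nat.pos_of_ne_zero hp) hm
  have e1 : valAt z.1 (T.X₁ m j r.1) = if ((p * m : ℕ) : ℤ) ∣ T.num₁ m j z.1 then
      lead z.1 (T.B₁ n m j z.1) r.1 ^ (p * m) * T.C₁ m j z else 0 :=
    valAt_pow_mul (M.rrK.deg_one _) hpm (T.ord_G₁ hz) (T.node_B₁ hz) (ord_of_mem_rr hr1 z.1)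
  have e2 : valAt z.2 (T.X₂ m j r.2) = if ((p * m : ℕ) : ℤ) ∣ T.num₂ m j z.2 then
      lead z.2 (T.B₂ n m j z.2) r.2 ^ (p * m) * T.C₂ m j z else 0 :=
    valAt_pow_mul (M.rrK.deg_one _) hpm (T.ord_G₂ hz) (T.node_B₂ hz) (ord_of_mem_rr hr2 z.2)
  rwa [e1, e2] at hv

open Classical in
/-- The ratio of the leading coefficients of the reductions at a node. -/
def lam (β₁ β₂ : Lˣ) (m : ℕ) (j : ℤ) (z : Place k Kb × Place k Kb) : k :=
  if h : ∃ w : ℕ × (Kb × Kb), w.2 ∈ M.sred β₁ β₂ (riemannRochSpace (T.D + w.1 • M.Px)) ∧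
      lead z.1 (T.num₁ m j z.1 / ((p * m : ℕ) : ℤ)) w.2.1 ≠ 0 then
    let w := h.choose
    if lead z.2 (T.num₂ m j z.2 / ((p * m : ℕ) : ℤ)) w.2.2 = 0 then 1 else
      lead z.2 (T.num₂ m j z.2 / ((p * m : ℕ) : ℤ)) w.2.2 /
        lead z.1 (T.num₁ m j z.1 / ((p * m : ℕ) : ℤ)) w.2.1
  else 1

omit [IsAlgClosed k] in
theorem lam_ne (z : Place k Kb × Place k Kb) : T.lam β₁ β₂ m j z ≠ 0 := by
  unfold lam
  split_ifs with h
  · dsimp only
    split_ifs with h2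
    · exact one_ne_zero
    · exact div_ne_zero h2 h.choose_spec.2
  · exact one_ne_zero

omit [IsAlgClosed k] in
theorem sred_mono {n n' : ℕ} (h : n ≤ n') :
    M.sred β₁ β₂ (riemannRochSpace (T.D + n • M.Px)) ≤
      M.sred β₁ β₂ (riemannRochSpace (T.D + n' • M.Px)) :=
  LatRed.redSpace_mono _
    (riemannRochSpace_mono (add_le_add le_rfl (nsmul_le_nsmul_left M.Px_nonneg h)))

/-- At a node free on both sheets the leading coefficients are proportional. -/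
theorem lead_eq_lam_mul (hp : p ≠ 0) (hm : 0 < m) (hbal : T.Balanced β₁ β₂ m j)
    {z : Place k Kb × Place k Kb} (hz : z ∈ M.nodes)
    (h1 : ((p * m : ℕ) : ℤ) ∣ T.num₁ m j z.1) (h2 : ((p * m : ℕ) : ℤ) ∣ T.num₂ m j z.2)
    {n : ℕ} {r : Kb × Kb} (hr : r ∈ M.sred β₁ β₂ (riemannRochSpace (T.D + n • M.Px))) :
    lead z.2 (T.B₂ n m j z.2) r.2 = T.lam β₁ β₂ m j z * lead z.1 (T.B₁ n m j z.1) r.1 := by
  classical
  have hpm : p * m ≠ 0 := Nat.mul_ne_zero hp hm.ne'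
  rw [T.node_B₁ hz, T.node_B₂ hz]
  set b1 := T.num₁ m j z.1 / ((p * m : ℕ) : ℤ) with hb1
  set b2 := T.num₂ m j z.2 / ((p * m : ℕ) : ℤ) with hb2
  have key : ∀ {n : ℕ} {r : Kb × Kb}, r ∈ M.sred β₁ β₂ (riemannRochSpace (T.D + n • M.Px)) →
      (lead z.1 b1 r.1 = 0 ↔ lead z.2 b2 r.2 = 0) := by
    intro n r hr
    have h := T.node_relation hp hm hbal hr hz
    rw [if_pos h1, if_pos h2, T.node_B₁ hz, T.node_B₂ hz, ← hb1, ← hb2] at h
    constructor <;> intro h0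
    · rw [h0, zero_pow hpm, zero_mul, eq_comm, mul_eq_zero, mul_eq_zero] at h
      exact eq_zero_of_pow_eq_zero ((h.resolve_left (T.balK_ne hbal)).resolve_right (T.C₂_ne hz))
    · rw [h0, zero_pow hpm, zero_mul, mul_zero, mul_eq_zero] at h
      exact eq_zero_of_pow_eq_zero (h.resolve_right (T.C₁_ne hz))
  unfold lam
  split_ifs with h
  · obtain ⟨hwm, hw1⟩ := h.choose_spec
    set w := h.choose
    set R := max n w.1
    have hrR := T.sred_mono (le_max_left n w.1) hr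
    have hwR := T.sred_mono (le_max_right n w.1) hwm
    dsimp only
    rw [if_neg (fun h0 => hw1 ((key hwm).mpr h0))]
    obtain ⟨hr1, hr2⟩ := T.sred_bound hp hm hbal hrR
    obtain ⟨hw1', hw2'⟩ := T.sred_bound hp hm hbal hwR
    set a := lead z.1 b1 w.2.1
    set c := lead z.1 b1 r.1
    have hmem : a • r + (-c) • w.2 ∈
        M.sred β₁ β₂ (riemannRochSpace (T.D + max n w.1 • M.Px)) :=
      Submodule.add_mem _ (Submodule.smul_mem _ _ hrR) (Submodule.smul_mem _ _ hwR)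
    have o1 := ord_of_mem_rr hr1 z.1
    have o2 := ord_of_mem_rr hr2 z.2
    have o1' := ord_of_mem_rr hw1' z.1
    have o2' := ord_of_mem_rr hw2' z.2
    have s1 := ord_of_mem_rr (Submodule.smul_mem _ a hr1) z.1
    have s2 := ord_of_mem_rr (Submodule.smul_mem _ a hr2) z.2
    have s1' := ord_of_mem_rr (Submodule.smul_mem _ (-c) hw1') z.1
    have s2' := ord_of_mem_rr (Submodule.smul_mem _ (-c) hw2') z.2
    rw [T.node_B₁ hz, ← hb1] at o1 o1' s1 s1'
    rw [T.node_B₂ hz, ← hb2] at o2 o2' s2 s2'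
    have hz2 := (key hmem).mp (by
      rw [Prod.fst_add, Prod.smul_fst, Prod.smul_fst, lead_add (M.rrK.deg_one _) s1 s1',
        lead_smul (M.rrK.deg_one _) _ o1, lead_smul (M.rrK.deg_one _) _ o1']
      ring)
    rw [Prod.snd_add, Prod.smul_snd, Prod.smul_snd, lead_add (M.rrK.deg_one _) s2 s2',
      lead_smul (M.rrK.deg_one _) _ o2, lead_smul (M.rrK.deg_one _) _ o2'] at hz2
    rw [div_mul_eq_mul_div, eq_div_iff hw1]
    linear_combination hz2
  · push Not at h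
    have h0 : lead z.1 b1 r.1 = 0 := h (n, r) hr
    rw [h0, mul_zero]
    exact (key hr).mp h0

open Classical in
/-- The indicator divisor of the places where the bound is not integral. -/
def bad (N : Divisor k Kb) (d : ℤ) : Divisor k Kb :=
  N.mapRange (fun x => if d ∣ x then 0 else 1) (by simp)

omit [IsAlgClosed k] in
theorem fl_add_fl_neg (N : Divisor k Kb) {d : ℤ} (hd : 0 < d) :
    N.mapRange (fun x => x / d) (Int.zero_ediv _) + (-N).mapRange (fun x => x / d) (Int.zero_ediv _)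
      = -bad N d := by
  classical
  ext v
  simp only [bad, Finsupp.add_apply, Finsupp.mapRange_apply, Finsupp.neg_apply]
  exact ediv_add_ediv_neg _ hd

open Classical in
/-- Nodes where some bound is integral, with coefficients of the linear condition. -/
def semiFree (m : ℕ) (j : ℤ) : Finset (Place k Kb × Place k Kb) :=
  M.finite_nodes.toFinset.filter fun z =>
    ((p * m : ℕ) : ℤ) ∣ T.num₁ m j z.1 ∨ ((p * m : ℕ) : ℤ) ∣ T.num₂ m j z.2

open Classical in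
theorem sred_le_cond (hp : p ≠ 0) (hm : 0 < m) (hbal : T.Balanced β₁ β₂ m j) (n : ℕ) :
    M.sred β₁ β₂ (riemannRochSpace (T.D + n • M.Px)) ≤
      condSpace M.rrK (T.B₁ n m j) (T.B₂ n m j) (T.semiFree m j) Prod.fst Prod.snd
        (fun z => if ((p * m : ℕ) : ℤ) ∣ T.num₁ m j z.1 then
          (if ((p * m : ℕ) : ℤ) ∣ T.num₂ m j z.2 then -T.lam β₁ β₂ m j z else 1) else 0)
        (fun z => if ((p * m : ℕ) : ℤ) ∣ T.num₁ m j z.1 then
          (if ((p * m : ℕ) : ℤ) ∣ T.num₂ m j z.2 then 1 else 0) else 1) := by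
  intro r hr
  obtain ⟨h1, h2⟩ := T.sred_bound hp hm hbal hr
  refine ⟨h1, h2, fun z hz => ?_⟩
  rw [semiFree, Finset.mem_filter, Set.Finite.mem_toFinset] at hz
  have h := T.node_relation hp hm hbal hr hz.1
  by_cases i1 : ((p * m : ℕ) : ℤ) ∣ T.num₁ m j z.1 <;>
    by_cases i2 : ((p * m : ℕ) : ℤ) ∣ T.num₂ m j z.2
  · simp only [if_pos i1, if_pos i2]
    rw [T.lead_eq_lam_mul hp hm hbal hz.1 i1 i2 hr]
    ring
  · simp only [if_pos i1, if_neg i2, mul_zero, mul_eq_zero, T.C₁_ne hz.1, or_false] at h ⊢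
    simp [eq_zero_of_pow_eq_zero h]
  · simp only [if_neg i1, if_pos i2, eq_comm (a := (0 : k)), mul_eq_zero, T.balK_ne hbal,
      T.C₂_ne hz.1, false_or, or_false] at h ⊢
    simp [eq_zero_of_pow_eq_zero h]
  · exact absurd hz.2 (not_or.mpr ⟨i1, i2⟩)

/-- The inequality of dimensions. -/
theorem exists_count (hp : p ≠ 0) (hm : 0 < m) (hbal : T.Balanced β₁ β₂ m j) :
    ∃ N : ℕ, ((T.semiFree m j).card : ℤ) ≤ M.nodeCount +
        Divisor.degree ((T.num₁ m j).mapRange (fun x : ℤ => x / ((p * m : ℕ) : ℤ))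
          (Int.zero_ediv _)) +
        Divisor.degree ((T.num₂ m j).mapRange (fun x : ℤ => x / ((p * m : ℕ) : ℤ))
          (Int.zero_ediv _)) ∧
      ∀ n, N ≤ n → ∀ (a b : Place k Kb × Place k Kb → k),
        (∀ z ∈ T.semiFree m j, a z ≠ 0 ∨ b z ≠ 0) →
        M.sred β₁ β₂ (riemannRochSpace (T.D + n • M.Px)) ≤
          condSpace M.rrK (T.B₁ n m j) (T.B₂ n m j) (T.semiFree m j) Prod.fst Prod.snd a b →
        ((T.semiFree m j).card : ℤ) = M.nodeCount +
            Divisor.degree ((T.num₁ m j).mapRange (fun x : ℤ => x / ((p * m : ℕ) : ℤ))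
              (Int.zero_ediv _)) +
            Divisor.degree ((T.num₂ m j).mapRange (fun x : ℤ => x / ((p * m : ℕ) : ℤ))
              (Int.zero_ediv _)) →
        M.sred β₁ β₂ (riemannRochSpace (T.D + n • M.Px)) =
          condSpace M.rrK (T.B₁ n m j) (T.B₂ n m j) (T.semiFree m j) Prod.fst Prod.snd a b := by
  classical
  set S := T.semiFree m j
  set E₁ := (T.num₁ m j).mapRange (fun x : ℤ => x / ((p * m : ℕ) : ℤ)) (Int.zero_ediv _)
  set E₂ := (T.num₂ m j).mapRange (fun x : ℤ => x / ((p * m : ℕ) : ℤ)) (Int.zero_ediv _)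
  set N := (2 * (M.gK : ℤ) + S.card + |Divisor.degree E₁| + |Divisor.degree E₂|).toNat + 2 * M.gF
  have hinj : ∀ {f : Place k Kb × Place k Kb → Place k Kb},
      (∀ z ∈ M.nodes, ∀ w ∈ M.nodes, f z = f w → z = w) → Set.InjOn f S := fun h z hz w hw => by
    simp only [S, semiFree, Finset.coe_filter, Set.Finite.mem_toFinset, Set.mem_ofPred_eq] at hz hw
    exact h z hz.1 w hw.1
  have hdeg : ∀ n, N ≤ n →
      2 * (M.gK : ℤ) + S.card ≤ Divisor.degree (T.B₁ n m j) ∧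
      2 * (M.gK : ℤ) + S.card ≤ Divisor.degree (T.B₂ n m j) ∧
      Divisor.degree (T.B₁ n m j) = n * Divisor.degree M.P₁ + Divisor.degree E₁ ∧
      Divisor.degree (T.B₂ n m j) = n * Divisor.degree M.P₂ + Divisor.degree E₂ ∧
      (Module.finrank L (riemannRochSpace (T.D + n • M.Px)) : ℤ) =
        n * Divisor.degree M.Px + 1 - M.gF := by
    intro n hn
    have e1 : Divisor.degree (T.B₁ n m j) = n * Divisor.degree M.P₁ + Divisor.degree E₁ := by
      rw [B₁, map_add, map_nsmul, nsmul_eq_mul]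
    have e2 : Divisor.degree (T.B₂ n m j) = n * Divisor.degree M.P₂ + Divisor.degree E₂ := by
      rw [B₂, map_add, map_nsmul, nsmul_eq_mul]
    have hn' : (2 * (M.gK : ℤ) + S.card + |Divisor.degree E₁| + |Divisor.degree E₂|).toNat +
        2 * (M.gF : ℤ) ≤ n := by exact_mod_cast hn
    have hpos := Int.self_le_toNat
      (2 * (M.gK : ℤ) + S.card + |Divisor.degree E₁| + |Divisor.degree E₂|)
    have d1 := M.one_le_degree_P₁
    have d2 := M.one_le_degree_P₂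
    have dx := M.one_le_degree_Px
    have k1 : (n : ℤ) ≤ n * Divisor.degree M.P₁ := le_mul_of_one_le_right (by positivity) d1
    have k2 : (n : ℤ) ≤ n * Divisor.degree M.P₂ := le_mul_of_one_le_right (by positivity) d2
    have kx : (n : ℤ) ≤ n * Divisor.degree M.Px := le_mul_of_one_le_right (by positivity) dx
    have a1 := neg_abs_le (Divisor.degree E₁)
    have a2 := neg_abs_le (Divisor.degree E₂)
    have a1' := abs_nonneg (Divisor.degree E₁)
    have a2' := abs_nonneg (Divisor.degree E₂)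
    refine ⟨by omega, by omega, e1, e2, ?_⟩
    rw [M.rrF.finrank_space _ (by
      rw [map_add, T.degree_D hp, map_nsmul, nsmul_eq_mul]; omega),
      map_add, T.degree_D hp, map_nsmul, nsmul_eq_mul, zero_add]
  obtain ⟨hid, hg⟩ := M.degree_identities
  have hdim : ∀ n, N ≤ n → ∀ (a b : Place k Kb × Place k Kb → k),
      (∀ z ∈ S, a z ≠ 0 ∨ b z ≠ 0) →
      FiniteDimensional k (condSpace M.rrK (T.B₁ n m j) (T.B₂ n m j) S Prod.fst Prod.snd a b) ∧
      (Module.finrank k (condSpace M.rrK (T.B₁ n m j) (T.B₂ n m j) S Prod.fst Prod.snd a b) : ℤ) -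
        Module.finrank k (M.sred β₁ β₂ (riemannRochSpace (T.D + n • M.Px))) =
      M.nodeCount + Divisor.degree E₁ + Divisor.degree E₂ - S.card := by
    intro n hn a b hab
    obtain ⟨g1, g2, e1, e2, e3⟩ := hdeg n hn
    obtain ⟨hf, hr⟩ := finrank_condSpace M.rrK
      (hinj fun z hz w hw => M.node_fst_injective hz hw)
      (hinj fun z hz w hw => M.node_snd_injective hz hw) hab g1 g2
    have := M.rrF.finite_space (T.D + n • M.Px)
    refine ⟨hf, ?_⟩
    rw [M.finrank_sred, hr, e1, e2, e3, hid]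
    linear_combination hg.symm
  refine ⟨N, ?_, fun n hn a b hab hle heq => ?_⟩
  · have hab : ∀ z ∈ S,
        (if ((p * m : ℕ) : ℤ) ∣ T.num₁ m j z.1 then
          (if ((p * m : ℕ) : ℤ) ∣ T.num₂ m j z.2 then -T.lam β₁ β₂ m j z else 1) else 0) ≠ 0 ∨
        (if ((p * m : ℕ) : ℤ) ∣ T.num₁ m j z.1 then
          (if ((p * m : ℕ) : ℤ) ∣ T.num₂ m j z.2 then (1 : k) else 0) else 1) ≠ 0 := fun z _ => by
      split_ifs <;> simp
    obtain ⟨hf, h⟩ := hdim N le_rfl _ _ hab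
    have := hf
    have hle : Module.finrank k (M.sred β₁ β₂ (riemannRochSpace (T.D + N • M.Px))) ≤
        Module.finrank k (condSpace M.rrK (T.B₁ N m j) (T.B₂ N m j) S Prod.fst Prod.snd _ _) :=
      Submodule.finrank_mono (T.sred_le_cond hp hm hbal N)
    omega
  · obtain ⟨hf, h⟩ := hdim n hn a b hab
    have := hf
    exact Submodule.eq_of_le_of_finrank_eq hle (by omega)

open Classical in
/-- The free nodes. -/
def freeNodes (m : ℕ) (j : ℤ) : Finset (Place k Kb × Place k Kb) :=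
  M.finite_nodes.toFinset.filter (T.Free m j)

omit [IsAlgClosed k] in
theorem mem_freeNodes {z : Place k Kb × Place k Kb} :
    z ∈ T.freeNodes m j ↔ z ∈ M.nodes ∧ T.Free m j z := by
  simp [freeNodes]

/-- Saturation. -/
theorem saturation (hp : p ≠ 0) (hm : 0 < m) (hbal : T.Balanced β₁ β₂ m j) :
    (∀ v, (∀ z ∈ M.nodes, z.1 ≠ v) → ((p * m : ℕ) : ℤ) ∣ T.num₁ m j v) ∧
    (∀ v, (∀ z ∈ M.nodes, z.2 ≠ v) → ((p * m : ℕ) : ℤ) ∣ T.num₂ m j v) ∧
    (∀ z ∈ M.nodes, (T.Free m j z ↔ ((p * m : ℕ) : ℤ) ∣ T.num₂ m j z.2)) ∧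
    ∃ N : ℕ, ∀ n, N ≤ n → M.sred β₁ β₂ (riemannRochSpace (T.D + n • M.Px)) =
      condSpace M.rrK (T.B₁ n m j) (T.B₂ n m j) (T.freeNodes m j) Prod.fst Prod.snd
        (fun z => -T.lam β₁ β₂ m j z) (fun _ => 1) := by
  classical
  set d : ℤ := ((p * m : ℕ) : ℤ) with hd
  have hdpos : 0 < d := by
    rw [hd]; exact_mod_cast Nat.mul_pos (Nat.pos_of_ne_zero hp) hm
  obtain ⟨N₁, hc1, hmain⟩ := T.exists_count hp hm hbal
  obtain ⟨_, hc2, -⟩ := T.neg.exists_count hp hm (hbal.neg T)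
  have hsf : T.neg.semiFree m (-j) = T.semiFree m j := by
    ext z
    simp only [semiFree, Finset.mem_filter, num₁_neg, num₂_neg, Finsupp.neg_apply, dvd_neg]
  rw [hsf, num₁_neg, num₂_neg] at hc2
  simp only [← hd] at hc1 hc2 hmain
  set S := T.semiFree m j
  have hsum1 := congrArg Divisor.degree (fl_add_fl_neg (T.num₁ m j) hdpos)
  have hsum2 := congrArg Divisor.degree (fl_add_fl_neg (T.num₂ m j) hdpos)
  rw [map_add, map_neg] at hsum1 hsum2
  set E₁ := bad (T.num₁ m j) d with hE₁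
  set E₂ := bad (T.num₂ m j) d with hE₂
  have hbad : ∀ (N : Divisor k Kb) v, bad N d v = if d ∣ N v then 0 else 1 := fun N v => by
    simp [bad]
  set nd := M.finite_nodes.toFinset with hnd
  set Z₁ : Divisor k Kb :=
    ∑ z ∈ nd, Finsupp.single z.1 (if d ∣ T.num₁ m j z.1 then (0 : ℤ) else 1) with hZ₁
  set Z₂ : Divisor k Kb :=
    ∑ z ∈ nd, Finsupp.single z.2 (if d ∣ T.num₂ m j z.2 then (0 : ℤ) else 1) with hZ₂
  have hZle : ∀ (pr : Place k Kb × Place k Kb → Place k Kb) (N : Divisor k Kb),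
      Set.InjOn pr nd → ∀ v,
      (∑ z ∈ nd, Finsupp.single (pr z) (if d ∣ N (pr z) then (0 : ℤ) else 1) : Divisor k Kb) v =
        if ∃ z ∈ nd, pr z = v then bad N d v else 0 := by
    intro pr N hinj v
    rw [Finsupp.finsetSum_apply]
    split_ifs with h
    · obtain ⟨z, hz, rfl⟩ := h
      rw [Finset.sum_eq_single z (fun w hw hne => Finsupp.single_eq_of_ne fun he =>
        hne (hinj hw hz he.symm)) (fun h => absurd hz h), Finsupp.single_eq_same, hbad]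
    · exact Finset.sum_eq_zero fun w hw =>
        Finsupp.single_eq_of_ne fun he => h ⟨w, hw, he.symm⟩
  have hinj1 : Set.InjOn Prod.fst (nd : Set (Place k Kb × Place k Kb)) := fun z hz w hw =>
    M.node_fst_injective (by simpa [hnd] using hz) (by simpa [hnd] using hw)
  have hinj2 : Set.InjOn Prod.snd (nd : Set (Place k Kb × Place k Kb)) := fun z hz w hw =>
    M.node_snd_injective (by simpa [hnd] using hz) (by simpa [hnd] using hw)
  have hZ₁le : Z₁ ≤ E₁ := Finsupp.le_def.mpr fun v => by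
    rw [hZ₁, hZle Prod.fst _ hinj1]
    split_ifs
    · exact le_rfl
    · rw [hE₁, hbad]; split_ifs <;> simp
  have hZ₂le : Z₂ ≤ E₂ := Finsupp.le_def.mpr fun v => by
    rw [hZ₂, hZle Prod.snd _ hinj2]
    split_ifs
    · exact le_rfl
    · rw [hE₂, hbad]; split_ifs <;> simp
  set f : Place k Kb × Place k Kb → ℤ := fun z =>
    (if d ∣ T.num₁ m j z.1 then (0 : ℤ) else 1) + (if d ∣ T.num₂ m j z.2 then (0 : ℤ) else 1) +
      2 * (if z ∈ S then 1 else 0) with hf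
  have hfsum : Divisor.degree Z₁ + Divisor.degree Z₂ + 2 * (S.card : ℤ) = ∑ z ∈ nd, f z := by
    have hS : (S.card : ℤ) = ∑ z ∈ nd, (if z ∈ S then (1 : ℤ) else 0) := by
      rw [Finset.sum_boole, Finset.filter_mem_eq_inter,
        Finset.inter_eq_right.mpr (show S ⊆ nd from Finset.filter_subset _ _)]
    rw [hZ₁, hZ₂, map_sum, map_sum, hS, Finset.mul_sum, ← Finset.sum_add_distrib,
      ← Finset.sum_add_distrib]
    refine Finset.sum_congr rfl fun z _ => ?_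
    simp only [Divisor.degree_single, M.rrK.deg_one, Nat.cast_one, mul_one, hf]
  have hflow : ∀ z ∈ nd, 2 ≤ f z := fun z hz => by
    have hz' : z ∈ M.finite_nodes.toFinset := hz
    simp only [hf, S, semiFree, Finset.mem_filter, hz', true_and, ← hd]
    by_cases i1 : d ∣ T.num₁ m j z.1 <;> by_cases i2 : d ∣ T.num₂ m j z.2 <;>
      simp [i1, i2]
  have hcard : (M.nodeCount : ℤ) = nd.card := by
    rw [MonoDatum.nodeCount, Nat.card_coe_set_eq, Set.ncard_eq_toFinset_card _ M.finite_nodes]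
  have hlow : ∑ _z ∈ nd, (2 : ℤ) ≤ ∑ z ∈ nd, f z := Finset.sum_le_sum hflow
  rw [Finset.sum_const, nsmul_eq_mul] at hlow
  have m1 := degree_mono hZ₁le
  have m2 := degree_mono hZ₂le
  have eqZ1 : Z₁ = E₁ := eq_of_le_of_degree_eq M.rrK.deg_one hZ₁le (by omega)
  have eqZ2 : Z₂ = E₂ := eq_of_le_of_degree_eq M.rrK.deg_one hZ₂le (by omega)
  have heqf : ∀ z ∈ nd, f z = 2 := by
    by_contra hne
    push Not at hne
    obtain ⟨z, hz, hzf⟩ := hne
    have : ∑ _z ∈ nd, (2 : ℤ) < ∑ z ∈ nd, f z :=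
      Finset.sum_lt_sum hflow ⟨z, hz, lt_of_le_of_ne (hflow z hz) (Ne.symm hzf)⟩
    rw [Finset.sum_const, nsmul_eq_mul] at this
    omega
  have hboth : ∀ z ∈ M.nodes, (T.Free m j z ↔ d ∣ T.num₂ m j z.2) := fun z hz => by
    have h := heqf z (by simpa [hnd] using hz)
    simp only [hf, S, semiFree, Finset.mem_filter, Set.Finite.mem_toFinset, hz, true_and, ← hd] at h
    unfold Free
    rw [← hd]
    by_cases i1 : d ∣ T.num₁ m j z.1 <;> by_cases i2 : d ∣ T.num₂ m j z.2 <;>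
      simp [i1, i2] at h ⊢
  have hoff : ∀ (pr : Place k Kb × Place k Kb → Place k Kb) (N : Divisor k Kb),
      Set.InjOn pr nd →
      (∑ z ∈ nd, Finsupp.single (pr z) (if d ∣ N (pr z) then (0 : ℤ) else 1) : Divisor k Kb) =
        bad N d → ∀ v, (∀ z ∈ M.nodes, pr z ≠ v) → d ∣ N v := by
    intro pr N hinj he v hv
    have h := DFunLike.congr_fun he v
    rw [hZle pr N hinj, if_neg (by simpa [hnd] using hv), hbad] at h
    by_contra hn
    simp [hn] at h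
  have hSeq : S = T.freeNodes m j := by
    refine Finset.filter_congr fun z hz => ?_
    have := hboth z (by simpa using hz)
    exact ⟨fun h => h.elim id this.mpr, Or.inl⟩
  refine ⟨hoff Prod.fst _ hinj1 eqZ1, hoff Prod.snd _ hinj2 eqZ2, hboth, N₁, fun n hn => ?_⟩
  have h0 := hmain n hn (fun z => -T.lam β₁ β₂ m j z) (fun _ => 1) (fun z _ => Or.inr one_ne_zero)
  rw [hSeq] at h0 hc1 hc2 hfsum
  refine h0 (fun r hr => ?_) (by omega)
  obtain ⟨h1, h2⟩ := T.sred_bound hp hm hbal hr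
  refine ⟨h1, h2, fun z hz => ?_⟩
  obtain ⟨hz, hfree⟩ := T.mem_freeNodes.mp hz
  rw [T.lead_eq_lam_mul hp hm hbal hz hfree ((hboth z hz).mp hfree) hr]
  ring

end TorsData

end MazurDatum

end FermatLib.MazurP

end
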