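import Fermat.Agent.Galois.MazurP.Ops
import Fermat.Agent.Galois.MazurP.NormRed
import Fermat.Agent.Galois.MazurP.Saturation
import Fermat.Agent.Igusa.MonoPushNorm
import Fermat.Agent.Igusa.CongruenceDivisor
import Fermat.Agent.Curve.FiniteExtension

/-!
# Hecke operators as operators on sheets

The function-level correspondence `f ↦ N_α (β f)` of a pair of embeddings compatible with both
sheets is a `SheetOp`; products and powers of operators are operators.
-/

set_option autoImplicit false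
set_option linter.style.haveILetI false

noncomputable section

open AlgebraicCurve FermatLib.Igusa FermatLib.Igusa.Mono FermatLib.Modular.Corr

namespace FermatLib.MazurP

universe uL uF uk uKb uF' uKb'

variable {L : Type uL} {k : Type uk} [Field L] [Field k] {A : ValuationSubring L} {π : A →+* k}
  {F : Type uF} {Kb : Type uKb} [Field F] [Algebra L F] [Field Kb] [Algebra k Kb] {q : ℕ}

namespace MazurDatum

/-- Two embeddings of both function fields compatible with sheets on a covering. -/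
structure CorrBase (M : MazurDatum π F Kb q) (F' : Type uF') (Kb' : Type uKb') [Field F']
    [Algebra L F'] [Field Kb'] [Algebra k Kb'] where
  α : F →ₐ[L] F'
  β : F →ₐ[L] F'
  ab : Kb →ₐ[k] Kb'
  bb : Kb →ₐ[k] Kb'
  t₁ : Sheet π F' Kb'
  t₂ : Sheet π F' Kb'
  compat_α₁ : SheetCompat M.s₁ t₁ α ab
  compat_β₁ : SheetCompat M.s₁ t₁ β bb
  compat_α₂ : SheetCompat M.s₂ t₂ α ab
  compat_β₂ : SheetCompat M.s₂ t₂ β bb
  surj₁ : ∀ y : Kb', ∃ f ∈ t₁.W, t₁.rd f = y
  surj₂ : ∀ y : Kb', ∃ f ∈ t₂.W, t₂.rd f = y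
  finite_ab : FiniteAlong k ab
  finite_bb : FiniteAlong k bb
  finrank_eq : finrankAlong k ab = finrankAlong L α
  isFunctionField : Curve.IsFunctionField k Kb
  hasDiv : HasPrincipalDivisors k Kb'
  poles : ∀ w : Place k Kb', 0 ≤ w.ord (ab (M.s₁.rd M.x)) ↔ 0 ≤ w.ord (bb (M.s₁.rd M.x))

/-- Correspondence data with a value on `u`. -/
structure CorrData (M : MazurDatum π F Kb q) (F' : Type uF') (Kb' : Type uKb') [Field F']
    [Algebra L F'] [Field Kb'] [Algebra k Kb'] extends CorrBase M F' Kb' where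
  eis : ℤ
  norm_u : ∃ c : L, c ≠ 0 ∧ normAlong α (β M.u) = c • M.u ^ eis

namespace CorrBase

variable {M : MazurDatum π F Kb q} {F' : Type uF'} {Kb' : Type uKb'} [Field F'] [Algebra L F']
  [Field Kb'] [Algebra k Kb'] (C : M.CorrBase F' Kb')

theorem finite_α : FiniteAlong L C.α := by
  letI := algebraAlong C.α
  refine Module.finite_of_finrank_pos (?_ : 0 < finrankAlong L C.α)
  rw [← C.finrank_eq]
  exact finrankAlong_pos C.finite_ab

/-- The induced correspondence on divisors of the special function field. -/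
def dvK : Divisor k Kb →+ Divisor k Kb :=
  haveI := C.hasDiv
  Divisor.correspondence C.bb C.ab (finiteAlong_isIntegral C.finite_bb)
    (finiteAlong_isIntegral C.finite_ab)

theorem dvK_div {f : Kb} (hf : f ≠ 0) {E : Divisor k Kb} (hE : ∀ v, E v = v.ord f)
    (v : Place k Kb) : C.dvK E v = v.ord (normAlong C.ab (C.bb f)) := by
  haveI := C.hasDiv
  haveI := C.isFunctionField
  exact correspondence_apply_eq_ord_norm C.bb C.ab _ _ C.finite_ab
    (FermatLib.Curve.normFormulaAlong C.ab C.finite_ab) hf hE v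

theorem pole_iff (w : Place k Kb') :
    M.P₁ (w.restrictAlong C.ab (finiteAlong_isIntegral C.finite_ab)) = 0 ↔
      M.P₁ (w.restrictAlong C.bb (finiteAlong_isIntegral C.finite_bb)) = 0 := by
  have key : ∀ (φ : Kb →ₐ[k] Kb') (hφ : φ.toRingHom.IsIntegral),
      M.P₁ (w.restrictAlong φ hφ) = 0 ↔ 0 ≤ w.ord (φ (M.s₁.rd M.x)) := fun φ hφ => by
    rw [Place.ord_restrictAlong φ hφ, M.P₁_apply]
    have he : 0 < (w.ramificationIndexAlong φ : ℤ) :=
      Int.natCast_pos.mpr (ramificationIndexAlong_pos hφ w)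
    constructor
    · intro h
      exact mul_nonneg he.le (by omega)
    · intro h
      have := nonneg_of_mul_nonneg_right h he
      omega
  rw [key, key]
  exact C.poles w

/-- The correspondence vanishes at `v` if the divisor vanishes at the places on the same side. -/
theorem dvK_eq_zero {E : Divisor k Kb} {v : Place k Kb}
    (h : ∀ w, (M.P₁ w = 0 ↔ M.P₁ v = 0) → E w = 0) : C.dvK E v = 0 := by
  haveI := C.hasDiv
  refine pushforwardAlong_apply_eq_zero (finiteAlong_isIntegral C.finite_ab) (fun w hw => ?_)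
  rw [Divisor.pullbackAlong_apply, h _ (by rw [← C.pole_iff w, hw]), mul_zero]

end CorrBase

namespace CorrData

variable {M : MazurDatum π F Kb q} {F' : Type uF'} {Kb' : Type uKb'} [Field F'] [Algebra L F']
  [Field Kb'] [Algebra k Kb'] (C : M.CorrData F' Kb')

/-- The operator of the correspondence. -/
def sheetOp : M.SheetOp where
  fn f := normAlong C.α (C.β f)
  fnK f := normAlong C.ab (C.bb f)
  dv := C.dvK
  eis := C.eis
  fn_ne f hf := normAlong_ne_zero C.finite_α ((map_ne_zero _).mpr hf)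
  fn_mul f g _ _ := by rw [map_mul, normAlong_mul]
  fn_const c hc := ⟨c ^ finrankAlong L C.α, pow_ne_zero _ hc, by
    rw [map_pow, show C.β (algebraMap L F c) = C.α (algebraMap L F c) by
      rw [AlgHom.commutes, AlgHom.commutes], normAlong_map]⟩
  rd₁ f hf _ := by
    obtain ⟨h1, h2⟩ := normAlong_mem_rd C.compat_α₁ C.surj₁ C.finite_ab C.finrank_eq
      (C.compat_β₁ f hf).1
    exact ⟨h1, h2.trans (congrArg _ (C.compat_β₁ f hf).2)⟩
  rd₂ f hf _ := by
    obtain ⟨h1, h2⟩ := normAlong_mem_rd C.compat_α₂ C.surj₂ C.finite_ab C.finrank_eq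
      (C.compat_β₂ f hf).1
    exact ⟨h1, h2.trans (congrArg _ (C.compat_β₂ f hf).2)⟩
  fnK_ne f hf := normAlong_ne_zero C.finite_ab ((map_ne_zero _).mpr hf)
  dv_div _ _ hf hE v := C.dvK_div hf hE v
  dv_on E hE v hv := C.dvK_eq_zero fun w hw => hE w (hw.mpr hv)
  dv_off E hE v hv := C.dvK_eq_zero fun w hw => hE w fun h => hv (hw.mp h)
  fn_u := C.norm_u

end CorrData

variable {M : MazurDatum π F Kb q}

namespace SheetOp

/-- The identity operator. -/
def one' : M.SheetOp where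
  fn := id
  fnK := id
  dv := AddMonoidHom.id _
  eis := 1
  fn_ne _ h := h
  fn_mul _ _ _ _ := rfl
  fn_const c hc := ⟨c, hc, rfl⟩
  rd₁ _ hf _ := ⟨hf, rfl⟩
  rd₂ _ hf _ := ⟨hf, rfl⟩
  fnK_ne _ h := h
  dv_div _ _ _ hE v := hE v
  dv_on _ hE v hv := hE v hv
  dv_off _ hE v hv := hE v hv
  fn_u := ⟨1, one_ne_zero, by simp⟩

/-- The product of two operators. -/
def prod' (O P : M.SheetOp) : M.SheetOp where
  fn f := O.fn f * P.fn f
  fnK f := O.fnK f * P.fnK f
  dv := O.dv + P.dv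
  eis := O.eis + P.eis
  fn_ne f hf := mul_ne_zero (O.fn_ne f hf) (P.fn_ne f hf)
  fn_mul f g hf hg := by rw [O.fn_mul f g hf hg, P.fn_mul f g hf hg, mul_mul_mul_comm]
  fn_const c hc := by
    obtain ⟨a, ha, ea⟩ := O.fn_const c hc
    obtain ⟨b, hb, eb⟩ := P.fn_const c hc
    exact ⟨a * b, mul_ne_zero ha hb, by rw [ea, eb, map_mul]⟩
  rd₁ f hf h0 := by
    obtain ⟨h1, h2⟩ := O.rd₁ f hf h0
    obtain ⟨h3, h4⟩ := P.rd₁ f hf h0
    exact ⟨mul_mem h1 h3, by rw [Sheet.rd_mul h1 h3, h2, h4]⟩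
  rd₂ f hf h0 := by
    obtain ⟨h1, h2⟩ := O.rd₂ f hf h0
    obtain ⟨h3, h4⟩ := P.rd₂ f hf h0
    exact ⟨mul_mem h1 h3, by rw [Sheet.rd_mul h1 h3, h2, h4]⟩
  fnK_ne f hf := mul_ne_zero (O.fnK_ne f hf) (P.fnK_ne f hf)
  dv_div f E hf hE v := by
    rw [AddMonoidHom.add_apply, Finsupp.add_apply, O.dv_div f E hf hE v, P.dv_div f E hf hE v,
      v.ord_mul (O.fnK_ne f hf) (P.fnK_ne f hf)]
  dv_on E hE v hv := by
    rw [AddMonoidHom.add_apply, Finsupp.add_apply, O.dv_on E hE v hv, P.dv_on E hE v hv, add_zero]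
  dv_off E hE v hv := by
    rw [AddMonoidHom.add_apply, Finsupp.add_apply, O.dv_off E hE v hv, P.dv_off E hE v hv,
      add_zero]
  fn_u := by
    obtain ⟨a, ha, ea⟩ := O.fn_u
    obtain ⟨b, hb, eb⟩ := P.fn_u
    exact ⟨a * b, mul_ne_zero ha hb, by rw [ea, eb, smul_mul_smul_comm, zpow_add₀ M.u_ne]⟩

/-- The integral powers of an operator. -/
def zpow' (O : M.SheetOp) (n : ℤ) : M.SheetOp where
  fn f := O.fn f ^ n
  fnK f := O.fnK f ^ n
  dv := n • O.dv
  eis := n * O.eis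
  fn_ne f hf := zpow_ne_zero _ (O.fn_ne f hf)
  fn_mul f g hf hg := by rw [O.fn_mul f g hf hg, mul_zpow]
  fn_const c hc := by
    obtain ⟨a, ha, ea⟩ := O.fn_const c hc
    exact ⟨a ^ n, zpow_ne_zero _ ha, by rw [ea, map_zpow₀]⟩
  rd₁ f hf h0 := by
    obtain ⟨h1, h2⟩ := O.rd₁ f hf h0
    obtain ⟨h3, h4⟩ := sheet_zpow h1 (h2 ▸ O.fnK_ne _ h0) n
    exact ⟨h3, by rw [h4, h2]⟩
  rd₂ f hf h0 := by
    obtain ⟨h1, h2⟩ := O.rd₂ f hf h0
    obtain ⟨h3, h4⟩ := sheet_zpow h1 (h2 ▸ O.fnK_ne _ h0) n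
    exact ⟨h3, by rw [h4, h2]⟩
  fnK_ne f hf := zpow_ne_zero _ (O.fnK_ne f hf)
  dv_div f E hf hE v := by
    rw [AddMonoidHom.smul_apply, Finsupp.smul_apply, O.dv_div f E hf hE v, Place.ord_zpow,
      smul_eq_mul]
  dv_on E hE v hv := by
    rw [AddMonoidHom.smul_apply, Finsupp.smul_apply, O.dv_on E hE v hv, smul_zero]
  dv_off E hE v hv := by
    rw [AddMonoidHom.smul_apply, Finsupp.smul_apply, O.dv_off E hE v hv, smul_zero]
  fn_u := by
    obtain ⟨a, ha, ea⟩ := O.fn_u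
    exact ⟨a ^ n, zpow_ne_zero _ ha, by
      rw [ea, Algebra.smul_def, mul_zpow, ← map_zpow₀, ← Algebra.smul_def, ← zpow_mul,
        mul_comm O.eis]⟩

/-- `O - a`. -/
def subConst (O : M.SheetOp) (a : ℤ) : M.SheetOp := O.prod' (one'.zpow' (-a))

theorem subConst_dv (O : M.SheetOp) (a : ℤ) (E : Divisor k Kb) :
    (O.subConst a).dv E = O.dv E - a • E := by
  show (O.dv + (-a) • AddMonoidHom.id (Divisor k Kb)) E = _
  rw [AddMonoidHom.add_apply, AddMonoidHom.smul_apply, AddMonoidHom.id_apply, neg_smul,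
    sub_eq_add_neg]

theorem subConst_eis (O : M.SheetOp) (a : ℤ) : (O.subConst a).eis = O.eis - a := by
  show O.eis + -a * 1 = _
  ring

theorem subConst_fn (O : M.SheetOp) (a : ℤ) (f : F) :
    (O.subConst a).fn f = O.fn f * f ^ (-a) := rfl

end SheetOp

end MazurDatum

end FermatLib.MazurP

end
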