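import Fermat.Agent.Galois.MazurP.GaussHecke
import Fermat.Agent.Galois.MazurP.NormOp
import Fermat.Agent.Galois.MazurP.LevelMVanish
import Fermat.Agent.Igusa.EichlerShimuraModL

/-!
# Eigenclasses of the special fibre of level `M` whose system does not occur there vanish

Reduction modulo `ℓ ∤ M` is surjective on classes and commutes with `T_l`, and a Hecke polynomial
separating the system kills all of `J₀(M)`.
-/

set_option autoImplicit false
set_option linter.style.haveILetI false
set_option synthInstance.maxHeartbeats 400000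

noncomputable section

open ModularCurve AlgebraicCurve
open FermatLib.Igusa FermatLib.Igusa.Mono

namespace FermatLib.MazurP

/-- The place map of a constant reduction is surjective. -/
theorem IsReduction.surjective_placeMap {L F k Fb : Type*} [Field L] [Field F] [Algebra L F]
    [Field k] [Field Fb] [Algebra k Fb] {A : ValuationSubring L} {π : A →+* k}
    (R : ConstantReduction A π F Fb) {g : ℕ} (hF : RRField L F g) (hB : RRField k Fb g)
    {r : Place L F → Place k Fb} (hr : R.IsReduction r) : Function.Surjective r := by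
  classical
  intro Q
  obtain ⟨x, -, hx0, hxQ⟩ := hB.exists_ord_eq (D := (2 * g + 1) • Finsupp.single Q 1)
    (by rw [map_nsmul, Divisor.degree_single, hB.deg_one]; simp) Q
  obtain ⟨f, rfl⟩ := R.surjective_red x
  obtain ⟨Df, hDf, -⟩ := hF.exists_div (R.coe_ne_zero hx0)
  have h := hr f hx0 Df hDf Q
  rw [hxQ, Finsupp.smul_apply, Finsupp.single_eq_same] at h
  by_contra hne
  push Not at hne
  rw [show Finsupp.mapDomain r Df Q = 0 from
    Finsupp.mapDomain_of_notMem_range _ _ fun ⟨P, hP⟩ => hne P hP] at h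
  simp only [nsmul_eq_mul, mul_one] at h
  push_cast at h
  omega

local notation "Qbar" => AlgebraicClosure ℚ

variable (A : ValuationSubring Qbar) {ℓ : ℕ} [Fact ℓ.Prime] (hA : A.LiesOverPrime ℓ)
  (M : ℕ) [NeZero M] (hℓM : ¬ ℓ ∣ M)

local notation "kA" => IsLocalRing.ResidueField A
local notation "Kb" => modularFunctionFieldFullC (IsLocalRing.ResidueField A)

include hA hℓM in
/-- Reduction is surjective on classes of degree zero. -/
theorem reductionModL_surjective : Function.Surjective (reductionModL A M) := by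
  have h := reductionInputsModL M hℓM A hA
  obtain ⟨g, hF, hB⟩ := exists_rrField_modL M hℓM A hA
  intro e
  obtain ⟨E, rfl⟩ := Pic0.mk_surjective e
  have hsur : Function.Surjective (placeReductionModL h) :=
    IsReduction.surjective_placeMap _ hF hB ((isPlaceReductionAlong_iff
      (residue_eq_zero_of_not_isUnit A) (isUnit_of_residue_ne_zero A)
      IsLocalRing.residue_surjective (degreeInput_modL M hℓM A hA) hF hB).mp
        (isPlaceReductionModL_placeReductionModL h))
  obtain ⟨D, hD⟩ := Finsupp.mapDomain_surjective hsur (E : Divisor kA (Kb M))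
  have hD0 : D ∈ Divisor.degZero (K := Qbar) (F := modularFunctionFieldBar M) := by
    have h2 := Divisor.mem_degZero.mp E.2
    rw [← hD, Igusa.degree_mapDomain hF hB] at h2
    exact Divisor.mem_degZero.mpr h2
  exact ⟨Pic0.mk ⟨D, hD0⟩,
    (reductionModL_mk h _).trans (congrArg Pic0.mk (Subtype.ext hD))⟩

set_option maxHeartbeats 1000000 in
include hA hℓM in
/-- **Component kill.** An eigenclass of the special fibre killed by `p`, whose system does not
occur in level `M`, vanishes. -/
theorem eq_zero_of_heckePicC_eigen {p : ℕ} (hp : p.Prime) {S : Finset ℕ}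
    (hS : ∀ l : ℕ, l.Prime → l ∣ M → l ∈ S) (hℓS : ℓ ∈ S) {a : ℕ → ℤ}
    (hocc : ¬ OccursModP p M S a) {e : JZeroC kA M} (hpe : (p : ℤ) • e = 0)
    (heig : ∀ (l : ℕ) [Fact l.Prime] [NeZero l] (hl : ¬ ℓ ∣ l), l ∉ S →
      heckePicC A hA M l hℓM hl e = a l • e) : e = 0 := by
  have hT := Modular.heckeOperatorsCommuteBar M
  obtain ⟨t, htS, ht0, hta⟩ := exists_kill_of_not_occurs hp hS hocc
  obtain ⟨g, hR⟩ := exists_riemannInequalityAt_bar (N := M)
  obtain ⟨g', hF, hB⟩ := exists_rrField_modL M hℓM A hA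
  have h := reductionInputsModL M hℓM A hA
  letI := heckeModuleBar M
  have key : ∀ s ∈ Galois.awayHeckeAlg (S : Set ℕ), ∀ (z : JZero M) (m : ℤ),
      reductionModL A M z = m • e → reductionModL A M (s • z) = (systemEval a s * m) • e := by
    intro s hs
    induction hs using Algebra.adjoin_induction with
    | mem t' ht' =>
      obtain ⟨l, hl, rfl⟩ := ht'
      intro z m hz
      haveI : Fact (l : ℕ).Prime := ⟨l.2⟩
      haveI : NeZero (l : ℕ) := ⟨l.2.ne_zero⟩
      have hll : ¬ ℓ ∣ (l : ℕ) := fun hd =>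
        hl (((Nat.prime_dvd_prime_iff_eq Fact.out l.2).mp hd) ▸ hℓS)
      rw [systemEval_heckeGen, heckeModuleBar_heckeGen_smul hT,
        show l = ⟨(l : ℕ), Fact.out⟩ from rfl,
        reductionModL_hecke A hA M l hℓM hll hR hF hB h, hz, map_zsmul, heig l hll hl, smul_smul,
        mul_comm]
    | algebraMap r =>
      intro z m hz
      rw [eq_intCast, map_intCast, Int.cast_id, Int.cast_smul_eq_zsmul, map_zsmul, hz, smul_smul]
    | add s t _ _ hs ht =>
      intro z m hz
      rw [add_smul, map_add, hs z m hz, ht z m hz, map_add, add_mul, add_zsmul]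
    | mul s t _ _ hs ht =>
      intro z m hz
      refine ((congrArg _ (mul_smul s t z)).trans (hs _ _ (ht z m hz))).trans ?_
      rw [map_mul, mul_assoc]
  obtain ⟨z, hz⟩ := reductionModL_surjective A hA M hℓM e
  have h2 := key t htS z 1 (by rw [hz, one_smul])
  rw [smul_eq_zero_of_forms M t ht0 z, map_zero, mul_one] at h2
  exact eq_zero_of_zsmul_of_not_dvd hp hta hpe h2.symm

variable {F : Type*} [Field F] [Algebra Qbar F] {q : ℕ}

set_option maxHeartbeats 1000000 in
include hA hℓM in
/-- **`KillsSpecial`** from operators `T_l - a_l` killing the class, `l ∉ S`. -/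
theorem killsSpecial_of_not_occurs (Mz : MazurDatum (IsLocalRing.residue A) F (Kb M) q)
    {p : ℕ} (hp : p.Prime) (T : Mz.TorsData p) {S : Finset ℕ}
    (hS : ∀ l : ℕ, l.Prime → l ∣ M → l ∈ S) (hℓS : ℓ ∈ S) {a : ℕ → ℤ}
    (hocc : ¬ OccursModP p M S a)
    (hOp : ∀ (l : ℕ) [Fact l.Prime] [NeZero l] (hl : ¬ ℓ ∣ l), l ∉ S →
      ∃ O : Mz.SheetOp, O.Kills T ∧
        ∀ E, O.dv E = heckeDivC A hA M l hℓM hl E - a l • E) :
    Mz.KillsSpecial T := by
  intro E hE0 hpE hO
  set E₀ : Divisor.degZero (K := kA) (F := Kb M) := ⟨E, Divisor.mem_degZero.mpr hE0⟩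
  have hzero : Pic0.mk E₀ = 0 := by
    refine eq_zero_of_heckePicC_eigen A hA M hℓM hp hS hℓS hocc ?_ ?_
    · show Pic0.mk ((p : ℤ) • E₀) = 0
      exact (QuotientAddGroup.eq_zero_iff _).mpr hpE
    · intro l _ _ hl hlS
      obtain ⟨O, hOk, hdv⟩ := hOp l hl hlS
      obtain ⟨hm, e⟩ := heckePicC_mk A hA M l hℓM hl E₀
      have h := hO O hOk
      rw [hdv] at h
      rw [e, ← sub_eq_zero]
      show Pic0.mk (⟨heckeDivC A hA M l hℓM hl E, hm⟩ - a l • E₀) = 0
      exact (QuotientAddGroup.eq_zero_iff _).mpr h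
  exact (QuotientAddGroup.eq_zero_iff _).mp hzero

end FermatLib.MazurP

end
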