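import Fermat.Agent.Galois.MazurP.Datum

/-!
Degree identities of a Mazur datum, products with functions of divisors, and the bound on the
poles of a reduction which only needs integrality on that sheet.
-/

set_option autoImplicit false

noncomputable section

open AlgebraicCurve FermatLib.Igusa FermatLib.Igusa.Mono

namespace FermatLib.MazurP

universe uL uF uk uKb

theorem pow_mul_mem_rr {K E : Type*} [Field K] [Field E] [Algebra K E] {D B : Divisor K E} {g f : E}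
    {p : ℕ} (hp : p ≠ 0) (hg : g ≠ 0) (hdiv : ∀ v, (p : ℤ) * D v = v.ord g)
    (hf : f ∈ riemannRochSpace (D + B)) : f ^ p * g ∈ riemannRochSpace (p • B) := by
  rw [mem_riemannRochSpace_iff]
  intro v
  rcases eq_or_ne f 0 with rfl | hf0
  · left
    rw [zero_pow hp, zero_mul]
  right
  have h := (mem_riemannRochSpace_iff.mp hf v).resolve_left hf0
  rw [v.ord_mul (pow_ne_zero _ hf0) hg, ord_pow, ← hdiv v, Finsupp.smul_apply, nsmul_eq_mul]
  rw [Finsupp.add_apply] at h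
  have h2 : (p : ℤ) * -(D v + B v) ≤ p * v.ord f :=
    mul_le_mul_of_nonneg_left h (Int.natCast_nonneg p)
  linarith

theorem pow_mem_rr {K E : Type*} [Field K] [Field E] [Algebra K E] {B : Divisor K E} {f : E}
    (hf : f ∈ riemannRochSpace B) (n : ℕ) : f ^ n ∈ riemannRochSpace (n • B) := by
  induction n with
  | zero => simpa using one_mem_riemannRochSpace (D := (0 : Divisor K E)) le_rfl
  | succ n ih =>
    rw [pow_succ, succ_nsmul]
    exact mul_mem_riemannRochSpace ih hf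

/-- Subtracting terms of higher order does not change the order. -/
theorem ord_eq_of_sub {K E : Type*} [Field K] [Field E] [Algebra K E] {v : Place K E} {f r : E}
    {o : ℤ} (hf0 : f ≠ 0) (hfv : v.ord f = o) (h : f - r = 0 ∨ o + 1 ≤ v.ord (f - r)) :
    r ≠ 0 ∧ v.ord r = o := by
  have hr0 : r ≠ 0 := fun h0 => by
    rw [h0, sub_zero] at h
    have := h.resolve_left hf0
    omega
  refine ⟨hr0, le_antisymm ?_ ?_⟩
  · by_contra hgt
    push Not at hgt
    have := ord_add_ge v (Or.inr (by omega : o + 1 ≤ v.ord r) : r = 0 ∨ o + 1 ≤ v.ord r) h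
    rw [add_sub_cancel] at this
    have := this.resolve_left hf0
    omega
  · have := ord_add_ge v (Or.inr hfv.ge : f = 0 ∨ o ≤ v.ord f)
      (h := -(f - r)) (by rw [neg_eq_zero, ord_neg]; exact h.imp id fun h => by omega)
    rw [neg_sub, add_sub_cancel] at this
    exact this.resolve_left hr0

namespace MazurDatum

variable {L : Type uL} {k : Type uk} [Field L] [Field k] [IsAlgClosed k] {A : ValuationSubring L}
  {π : A →+* k} {F : Type uF} {Kb : Type uKb} [Field F] [Algebra L F] [Field Kb] [Algebra k Kb]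
  {q : ℕ} (M : MazurDatum π F Kb q)

/-- The glued pole divisor has the degree of the pole divisor, and the genus is that of two
sheets meeting in the nodes. -/
theorem degree_identities :
    Divisor.degree M.Px = Divisor.degree M.P₁ + Divisor.degree M.P₂ ∧
      1 - (M.gF : ℤ) = 2 - 2 * M.gK - M.nodeCount := by
  obtain ⟨N, -, hN⟩ := M.exists_level
  obtain ⟨N', hN'⟩ := M.exists_finrank_gl
  have key : ∀ n : ℕ, N + N' ≤ n → (n : ℤ) * Divisor.degree M.Px + 1 - M.gF =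
      n * (Divisor.degree M.P₁ + Divisor.degree M.P₂) + 2 - 2 * M.gK - M.nodeCount :=
    fun n hn => ((hN n (by omega)).2.2 MonoDatum.one').symm.trans (hN' n (by omega) MonoDatum.one')
  have h1 := key (N + N') le_rfl
  have h2 := key (N + N' + 1) (Nat.le_succ _)
  push_cast at h1 h2
  have h3 : Divisor.degree M.Px = Divisor.degree M.P₁ + Divisor.degree M.P₂ := by linarith
  refine ⟨h3, ?_⟩
  rw [h3] at h1
  linarith

include M in
omit [IsAlgClosed k] in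
/-- Powers of a small constant get arbitrarily small. -/
theorem exists_pow_mul_le_one (c : L) {ε : L} (hε : A.valuation ε < 1) :
    ∃ i : ℕ, A.valuation (c * ε ^ i) ≤ 1 := by
  rcases eq_or_ne c 0 with rfl | hc
  · exact ⟨0, by simp⟩
  rcases eq_or_ne ε 0 with rfl | hε0
  · exact ⟨1, by simp⟩
  obtain ⟨m, z, hm, hz⟩ := M.valueGroup ε hε0
  obtain ⟨m', z', hm', hz'⟩ := M.valueGroup c hc
  set V := A.valuation (q : L) with hV
  have hV0 : 0 < V := zero_lt_iff.mpr (by simpa [hV] using M.q_ne)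
  have hz0 : 0 < z := by
    by_contra hle
    push Not at hle
    have h1 : (1 : A.ValueGroup) ≤ V ^ z := one_le_zpow_of_nonpos₀ hV0 M.q_small.le hle
    rw [← hz] at h1
    exact absurd h1 (not_le.mpr (pow_lt_one₀ zero_le hε hm.ne'))
  obtain ⟨i, hi⟩ : ∃ i : ℕ, 0 ≤ z' * m + z * m' * i := by
    refine ⟨(z' * m).natAbs, ?_⟩
    have h1 : (1 : ℤ) ≤ z * m' := Int.mul_pos hz0 (by exact_mod_cast hm')
    have h2 : -(z' * m) ≤ ((z' * m).natAbs : ℤ) := by omega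
    nlinarith [Int.natCast_nonneg (z' * m).natAbs]
  refine ⟨i, ?_⟩
  rw [← pow_le_one_iff (n := m' * m) (Nat.mul_ne_zero hm'.ne' hm.ne'), map_mul, map_pow, mul_pow,
    ← pow_mul, pow_mul, hz', show i * (m' * m) = m * (m' * i) by ring, pow_mul, hz,
    ← zpow_natCast, ← zpow_natCast, ← zpow_mul, ← zpow_mul, ← zpow_add₀ hV0.ne']
  exact zpow_le_one₀ hV0 M.q_small.le (by push_cast; linarith)

omit [IsAlgClosed k] in
theorem exists_u_zpow_mem : ∃ c : ℕ, ∀ j : ℤ,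
    M.u ^ j ∈ riemannRochSpace ((j.natAbs * c) • M.Px) := by
  obtain ⟨c, h1, h2⟩ := M.u_pole
  refine ⟨c, fun j => ?_⟩
  rw [mul_comm, mul_nsmul]
  rcases Int.eq_nat_or_neg j with ⟨n, rfl | rfl⟩
  · rw [Int.natAbs_natCast, zpow_natCast]
    exact pow_mem_rr h1 n
  · rw [Int.natAbs_neg, Int.natAbs_natCast, zpow_neg, zpow_natCast, ← inv_pow]
    exact pow_mem_rr h2 n

omit [IsAlgClosed k] in
/-- The pole bound needs integrality on one sheet only: multiply by powers of a function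
vanishing on the other sheet with a pole of known order. -/
theorem pole_shift_aux (s s' : Sheet π F Kb) (P : Divisor k Kb)
    (hbound : ∀ (n : ℕ) (h : F), 1 ≤ n → h ∈ riemannRochSpace (n • M.Px) → h ∈ s.W →
      h ∈ s'.W → s.rd h ∈ riemannRochSpace (n • P))
    (hscale : ∀ h : F, h ≠ 0 → ∃ c : L, c • h ∈ s'.W ∧ s'.rd (c • h) ≠ 0)
    {v : Place k Kb} {n₀ : ℕ} {zz : F} (hzzm : zz ∈ riemannRochSpace (n₀ • M.Px))
    (hn₀ : 1 ≤ n₀) (hzz : zz ∈ s.W) (hzz' : zz ∈ s'.W) (hrd' : s'.rd zz = 0)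
    (hrd : s.rd zz ≠ 0) (hord : v.ord (s.rd zz) = -((n₀ : ℤ) * P v))
    {N : ℕ} {f : F} (hf : f ∈ riemannRochSpace (N • M.Px)) (hfs : f ∈ s.W) :
    s.rd f = 0 ∨ -((N : ℤ) * P v) ≤ v.ord (s.rd f) := by
  rcases eq_or_ne (s.rd f) 0 with h | hf0
  · exact Or.inl h
  right
  have hfne : f ≠ 0 := fun h => hf0 (by rw [h, Sheet.rd_zero])
  have hzne : zz ≠ 0 := fun h => hrd (by rw [h, Sheet.rd_zero])
  obtain ⟨c, hc, hc0⟩ := hscale f hfne
  obtain ⟨d, hd, hd0⟩ := hscale zz hzne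
  have hcne : c ≠ 0 := fun h => hc0 (by rw [h, zero_smul, Sheet.rd_zero])
  have hdne : d ≠ 0 := fun h => hd0 (by rw [h, zero_smul, Sheet.rd_zero])
  have hdsmall : A.valuation d⁻¹ < 1 := by
    rw [map_inv₀, inv_lt_one₀ (zero_lt_iff.mpr (by simpa using hdne))]
    by_contra hle
    push Not at hle
    have hdA : d ∈ A := (A.valuation_le_one_iff d).mp hle
    exact hd0 (by rw [Sheet.rd_smul hdA hzz', hrd', smul_zero])
  obtain ⟨i, hi⟩ := M.exists_pow_mul_le_one c⁻¹ hdsmall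
  have hprod : f * zz ^ (i + 1) ∈ s'.W := by
    rw [A.valuation_le_one_iff] at hi
    have h1 : (c⁻¹ * d⁻¹ ^ i) • ((c • f) * (d • zz) ^ i * zz) ∈ s'.W :=
      Sheet.smul_mem hi (mul_mem (mul_mem hc (pow_mem hd i)) hzz')
    convert h1 using 1
    rw [smul_pow, smul_mul_smul_comm, smul_mul_assoc, smul_smul, mul_mul_mul_comm,
      inv_mul_cancel₀ hcne, inv_pow, inv_mul_cancel₀ (pow_ne_zero _ hdne), one_mul, one_smul,
      pow_succ, mul_assoc]
  have hmem : f * zz ^ (i + 1) ∈ riemannRochSpace ((N + (i + 1) * n₀) • M.Px) := by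
    rw [add_nsmul]
    refine mul_mem_riemannRochSpace hf ?_
    rw [mul_comm, mul_nsmul]
    exact pow_mem_rr hzzm _
  have hn1 : 1 ≤ N + (i + 1) * n₀ := by nlinarith
  have h := hbound _ _ hn1 hmem (mul_mem hfs (pow_mem hzz _)) hprod
  rw [Sheet.rd_mul hfs (pow_mem hzz _), Sheet.rd_pow hzz] at h
  have h2 := (mem_riemannRochSpace_iff.mp h v).resolve_left (mul_ne_zero hf0 (pow_ne_zero _ hrd))
  rw [v.ord_mul hf0 (pow_ne_zero _ hrd), ord_pow, hord, Finsupp.smul_apply, nsmul_eq_mul] at h2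
  push_cast at h2
  linarith

omit [IsAlgClosed k] in
/-- A pole of exact order on one sheet, vanishing on the other. -/
theorem exists_top₁ (v : Place k Kb) (hv : M.P₁ v ≠ 0) : ∃ (n : ℕ) (zz : F), 1 ≤ n ∧
    zz ∈ riemannRochSpace (n • M.Px) ∧ zz ∈ M.s₁.W ∧ zz ∈ M.s₂.W ∧ M.s₂.rd zz = 0 ∧
    M.s₁.rd zz ≠ 0 ∧ v.ord (M.s₁.rd zz) = -((n : ℤ) * M.P₁ v) := by
  obtain ⟨n₀, htop⟩ := M.top
  set n := n₀ + 2 * M.gK + 1 with hn
  have hn' : (2 * M.gK : ℤ) ≤ n := by push_cast [hn]; omega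
  have hdeg := M.one_le_degree_P₁
  obtain ⟨f, hf, hf0, hfv⟩ := M.rrK.exists_ord_eq (D := n • M.P₁)
    (by rw [map_nsmul, nsmul_eq_mul]; nlinarith) v
  obtain ⟨r, ⟨zz, hzz, ⟨h1, h2⟩, hrd⟩, hfr⟩ := (htop n (by omega)).1 f hf
  simp only [rd₂, Prod.mk.injEq] at hrd
  refine ⟨n, zz, by omega, hzz, h1, h2, hrd.2, ?_⟩
  rw [hrd.1]
  have hv0 : 0 < M.P₁ v := lt_of_le_of_ne (by simpa using Finsupp.le_def.mp M.P₁_nonneg v) hv.symm
  rw [Finsupp.smul_apply, nsmul_eq_mul] at hfv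
  have hlow := mem_riemannRochSpace_iff.mp hfr v
  rw [Finsupp.smul_apply, nsmul_eq_mul, Nat.cast_sub (by omega : 1 ≤ n)] at hlow
  push_cast at hlow
  exact ord_eq_of_sub hf0 hfv (hlow.imp id fun h => by linarith)

omit [IsAlgClosed k] in
/-- A pole of exact order on one sheet, vanishing on the other. -/
theorem exists_top₂ (v : Place k Kb) (hv : M.P₂ v ≠ 0) : ∃ (n : ℕ) (zz : F), 1 ≤ n ∧
    zz ∈ riemannRochSpace (n • M.Px) ∧ zz ∈ M.s₂.W ∧ zz ∈ M.s₁.W ∧ M.s₁.rd zz = 0 ∧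
    M.s₂.rd zz ≠ 0 ∧ v.ord (M.s₂.rd zz) = -((n : ℤ) * M.P₂ v) := by
  obtain ⟨n₀, htop⟩ := M.top
  set n := n₀ + 2 * M.gK + 1 with hn
  have hn' : (2 * M.gK : ℤ) ≤ n := by push_cast [hn]; omega
  have hdeg := M.one_le_degree_P₂
  obtain ⟨f, hf, hf0, hfv⟩ := M.rrK.exists_ord_eq (D := n • M.P₂)
    (by rw [map_nsmul, nsmul_eq_mul]; nlinarith) v
  obtain ⟨r, ⟨zz, hzz, ⟨h1, h2⟩, hrd⟩, hfr⟩ := (htop n (by omega)).2 f hf
  simp only [rd₂, Prod.mk.injEq] at hrd
  refine ⟨n, zz, by omega, hzz, h2, h1, hrd.1, ?_⟩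
  rw [hrd.2]
  rw [Finsupp.smul_apply, nsmul_eq_mul] at hfv
  have hlow := mem_riemannRochSpace_iff.mp hfr v
  rw [Finsupp.smul_apply, nsmul_eq_mul, Nat.cast_sub (by omega : 1 ≤ n)] at hlow
  push_cast at hlow
  have hv0 : 0 < M.P₂ v := lt_of_le_of_ne (by simpa using Finsupp.le_def.mp M.P₂_nonneg v) hv.symm
  exact ord_eq_of_sub hf0 hfv (hlow.imp id fun h => by linarith)

theorem pole_shift₁ {N : ℕ} {f : F} (hf : f ∈ riemannRochSpace (N • M.Px)) (hfs : f ∈ M.s₁.W)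
    {v : Place k Kb} (hv : M.P₁ v ≠ 0) :
    M.s₁.rd f = 0 ∨ -((N : ℤ) * M.P₁ v) ≤ v.ord (M.s₁.rd f) := by
  obtain ⟨n, zz, hn, hzz, h1, h2, h0, hne, hord⟩ := M.exists_top₁ v hv
  exact M.pole_shift_aux M.s₁ M.s₂ M.P₁
    (fun m h hm hh hh1 hh2 => (M.redLevel_le_gl_one hm
      ⟨h, hh, ⟨hh1, hh2⟩, rfl⟩).1)
    M.scale₂ hzz hn h1 h2 h0 hne hord hf hfs

theorem pole_shift₂ {N : ℕ} {f : F} (hf : f ∈ riemannRochSpace (N • M.Px)) (hfs : f ∈ M.s₂.W)
    {v : Place k Kb} (hv : M.P₂ v ≠ 0) :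
    M.s₂.rd f = 0 ∨ -((N : ℤ) * M.P₂ v) ≤ v.ord (M.s₂.rd f) := by
  obtain ⟨n, zz, hn, hzz, h1, h2, h0, hne, hord⟩ := M.exists_top₂ v hv
  exact M.pole_shift_aux M.s₂ M.s₁ M.P₂
    (fun m h hm hh hh2 hh1 => (M.redLevel_le_gl_one hm
      ⟨h, hh, ⟨hh1, hh2⟩, rfl⟩).2.1)
    M.scale₁ hzz hn h1 h2 h0 hne hord hf hfs

end MazurDatum

end FermatLib.MazurP

end
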