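import Fermat.Agent.Galois.MazurP.RatForm
import Fermat.Agent.Galois.MazurP.Level

/-!
Rational elements of rational spaces: every reduction has a rational lift, and rational elements
have rational coordinates.
-/

set_option autoImplicit false

noncomputable section

open AlgebraicCurve FermatLib.Igusa FermatLib.Igusa.Mono

namespace FermatLib.MazurP

universe uL uF uk uKb

namespace MazurDatum

variable {L : Type uL} {k : Type uk} [Field L] [Field k] {A : ValuationSubring L} {π : A →+* k}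
  {F : Type uF} {Kb : Type uKb} [Field F] [Algebra L F] [Field Kb] [Algebra k Kb] {q : ℕ}
  {M : MazurDatum π F Kb q}

namespace RatForm

variable (R : M.RatForm)

include R in
theorem valuation_ϖ_pos : (0 : A.ValueGroup) < A.valuation R.ϖ := by
  refine zero_lt_iff.mpr fun h => ?_
  have h1 := R.ϖ_pow
  rw [h, zero_pow R.e_pos.ne', eq_comm, Valuation.zero_iff] at h1
  exact M.q_ne h1

theorem valuation_ϖ_lt_one : A.valuation R.ϖ < 1 := by
  by_contra h
  push Not at h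
  have h1 := one_le_pow₀ (n := R.e) h
  rw [R.ϖ_pow] at h1
  exact absurd h1 (not_le.mpr M.q_small)

theorem ϖ_ne : R.ϖ ≠ 0 := fun h => (valuation_ϖ_pos R).ne' (by rw [h, map_zero])

theorem zpow_ϖ_le_iff {z w : ℤ} : A.valuation R.ϖ ^ z ≤ A.valuation R.ϖ ^ w ↔ w ≤ z :=
  zpow_le_zpow_iff_right_of_lt_one₀ (valuation_ϖ_pos R) R.valuation_ϖ_lt_one

theorem zpow_ϖ_lt_iff {z w : ℤ} : A.valuation R.ϖ ^ z < A.valuation R.ϖ ^ w ↔ w < z :=
  zpow_lt_zpow_iff_right_of_lt_one₀ (valuation_ϖ_pos R) R.valuation_ϖ_lt_one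

theorem ϖ_mem_A : R.ϖ ∈ A := (A.valuation_le_one_iff _).mp R.valuation_ϖ_lt_one.le

theorem zpow_ϖ_mem_K (z : ℤ) : R.ϖ ^ z ∈ R.K := zpow_mem R.ϖ_mem z

/-- `ϖ ^ z` as a unit. -/
def pw (z : ℤ) : Lˣ := Units.mk0 (R.ϖ ^ z) (zpow_ne_zero z R.ϖ_ne)

@[simp] theorem coe_pw (z : ℤ) : ((R.pw z : Lˣ) : L) = R.ϖ ^ z := rfl

theorem smul_mem_FK {c : L} (hc : c ∈ R.K) {f : F} (hf : f ∈ R.FK) : c • f ∈ R.FK := by
  rw [Algebra.smul_def]
  exact mul_mem (R.algebraMap_mem c hc) hf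

/-- An integral rational function with zero reduction is divisible by `ϖ`. -/
theorem div_ϖ_mem (s : Sheet π F Kb)
    (hs : ∀ f ∈ R.FK, f ≠ 0 → ∃ c ∈ R.K, c • f ∈ s.W ∧ s.rd (c • f) ≠ 0) {f : F}
    (hf : f ∈ R.FK) (hfs : f ∈ s.W) (h0 : s.rd f = 0) : R.ϖ⁻¹ • f ∈ s.W := by
  rcases eq_or_ne f 0 with rfl | hf0
  · rw [smul_zero]
    exact zero_mem _
  obtain ⟨c, hcK, hc, hcr⟩ := hs f hf hf0
  have hc0 : c ≠ 0 := fun h => hcr (by rw [h, zero_smul, Sheet.rd_zero])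
  obtain ⟨z, hz⟩ := R.valueK c hcK hc0
  have hz0 : z < 0 := by
    by_contra hz0
    push Not at hz0
    have hcA : c ∈ A := by
      rw [← A.valuation_le_one_iff, hz]
      exact zpow_le_one₀ (valuation_ϖ_pos R) R.valuation_ϖ_lt_one.le hz0
    exact hcr (by rw [Sheet.rd_smul hcA hfs, h0, smul_zero])
  have hA : R.ϖ⁻¹ / c ∈ A := by
    rw [← A.valuation_le_one_iff, map_div₀, map_inv₀, hz, ← zpow_neg_one,
      ← zpow_sub₀ (valuation_ϖ_pos R).ne']
    exact zpow_le_one₀ (valuation_ϖ_pos R) R.valuation_ϖ_lt_one.le (by omega)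
  have := Sheet.smul_mem hA hc
  rwa [smul_smul, div_mul_cancel₀ _ hc0] at this

theorem div_ϖ_mem₁ {f : F} (hf : f ∈ R.FK) (hfs : f ∈ M.s₁.W) (h0 : M.s₁.rd f = 0) :
    R.ϖ⁻¹ • f ∈ M.s₁.W := R.div_ϖ_mem M.s₁ R.scale₁ hf hfs h0

theorem div_ϖ_mem₂ {f : F} (hf : f ∈ R.FK) (hfs : f ∈ M.s₂.W) (h0 : M.s₂.rd f = 0) :
    R.ϖ⁻¹ • f ∈ M.s₂.W := R.div_ϖ_mem M.s₂ R.scale₂ hf hfs h0

/-- A low enough power of `ϖ` makes a rational function integral on a sheet. -/
theorem exists_zpow_mem (s : Sheet π F Kb)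
    (hs : ∀ f ∈ R.FK, f ≠ 0 → ∃ c ∈ R.K, c • f ∈ s.W ∧ s.rd (c • f) ≠ 0) {f : F}
    (hf : f ∈ R.FK) : ∃ z₀ : ℤ, ∀ z, z ≤ z₀ → (R.ϖ ^ z)⁻¹ • f ∈ s.W := by
  rcases eq_or_ne f 0 with rfl | hf0
  · exact ⟨0, fun z _ => by rw [smul_zero]; exact zero_mem _⟩
  obtain ⟨c, hcK, hc, hcr⟩ := hs f hf hf0
  have hc0 : c ≠ 0 := fun h => hcr (by rw [h, zero_smul, Sheet.rd_zero])
  obtain ⟨w, hw⟩ := R.valueK c hcK hc0
  refine ⟨-w, fun z hz => ?_⟩
  have hA : (R.ϖ ^ z)⁻¹ / c ∈ A := by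
    rw [← A.valuation_le_one_iff, map_div₀, map_inv₀, map_zpow₀, hw, ← zpow_neg,
      ← zpow_sub₀ (valuation_ϖ_pos R).ne']
    exact zpow_le_one₀ (valuation_ϖ_pos R) R.valuation_ϖ_lt_one.le (by omega)
  have := Sheet.smul_mem hA hc
  rwa [smul_smul, div_mul_cancel₀ _ hc0] at this

variable {β₁ β₂ : Lˣ}

/-- Rational elements of a rationally spanned space lift all of its reductions. -/
theorem exists_rat_basis (h₁ : (β₁ : L) ∈ R.K) (h₂ : (β₂ : L) ∈ R.K) (V : Submodule L F)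
    [FiniteDimensional L V] (hV : V ≤ Submodule.span L {f | f ∈ V ∧ f ∈ R.FK}) :
    ∃ e : Fin (Module.finrank L V) → (M.shift β₁ β₂).lat,
      (∀ i, (e i : F) ∈ V ∧ (e i : F) ∈ R.FK) ∧
      Submodule.span L (Set.range fun i => (e i : F)) = V ∧
      LinearIndependent k (fun i => (M.shift β₁ β₂).red (e i)) ∧
      Submodule.span k (Set.range fun i => (M.shift β₁ β₂).red (e i)) = M.sred β₁ β₂ V := by
  classical
  set S := M.shift β₁ β₂ with hS
  let Rk : Submodule k (Kb × Kb) :=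
    { carrier := {x | ∃ f : S.lat, ((f : F) ∈ V ∧ (f : F) ∈ R.FK) ∧ S.red f = x}
      zero_mem' := ⟨0, ⟨V.zero_mem, R.FK.zero_mem⟩, map_zero _⟩
      add_mem' := by
        rintro x y ⟨f, hf, rfl⟩ ⟨g, hg, rfl⟩
        exact ⟨f + g, ⟨V.add_mem hf.1 hg.1, R.FK.add_mem hf.2 hg.2⟩, map_add _ _ _⟩
      smul_mem' := by
        rintro c x ⟨f, hf, rfl⟩
        obtain ⟨a, haK, rfl⟩ := R.residueK c
        exact ⟨S.amul a f, ⟨V.smul_mem (a : L) hf.1, R.smul_mem_FK haK hf.2⟩, S.red_amul a f⟩ }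
  have hRk : Rk ≤ M.sred β₁ β₂ V := fun x ⟨f, hf, hx⟩ => ⟨f, hf.1, hx⟩
  have : FiniteDimensional k Rk := Submodule.finiteDimensional_of_le hRk
  set b := Module.finBasis k Rk with hb
  choose e he her using fun i => (b i).2
  have hli : LinearIndependent k fun i => S.red (e i) := by
    simp only [her]
    exact b.linearIndependent.map' Rk.subtype Rk.ker_subtype
  have hspanb : Submodule.span k (Set.range fun i => S.red (e i)) = Rk := by
    simp only [her]
    have h0 := congrArg (Submodule.map Rk.subtype) b.span_eq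
    rwa [Submodule.map_span, Submodule.map_top, Submodule.range_subtype, ← Set.range_comp] at h0
  set W := Submodule.span L (Set.range fun i => (e i : F)) with hW
  have hWV : W ≤ V := Submodule.span_le.mpr (by rintro _ ⟨i, rfl⟩; exact (he i).1)
  have : FiniteDimensional L W := Submodule.finiteDimensional_of_le hWV
  have hWspan : S.redSpace W = Rk := by
    rw [← hspanb]
    refine (Submodule.eq_of_le_of_finrank_eq (Submodule.span_le.mpr ?_) ?_).symm
    · rintro _ ⟨i, rfl⟩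
      exact S.red_mem_redSpace (Submodule.subset_span ⟨i, rfl⟩)
    · rw [S.finrank_redSpace, finrank_span_eq_card hli,
        finrank_span_eq_card (S.linearIndependent_of_red hli)]
  suffices hsub : ∀ f, f ∈ V → f ∈ R.FK → f ∈ W by
    have heq : W = V := le_antisymm hWV
      (hV.trans (Submodule.span_le.mpr fun f hf => hsub f hf.1 hf.2))
    have hn : Module.finrank L V = Module.finrank k Rk := by
      rw [← heq, hW, finrank_span_eq_card (S.linearIndependent_of_red hli), Fintype.card_fin]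
    refine ⟨fun i => e (finCongr hn i), fun i => he _, ?_, hli.comp _ (finCongr hn).injective, ?_⟩
    · rw [show (fun i => (e (finCongr hn i) : F)) = (fun i => (e i : F)) ∘ finCongr hn from rfl,
        (finCongr hn).surjective.range_comp, ← hW, heq]
    · rw [show (fun i => S.red (e (finCongr hn i))) = (fun i => S.red (e i)) ∘ finCongr hn from rfl,
        (finCongr hn).surjective.range_comp, hspanb, ← hWspan, heq]
  intro f hfV hfK
  by_contra hfW
  obtain ⟨w, c, r, hw, hrV, hfr, hr⟩ := S.exists_decomp V W hWV hfV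
  have hc : c ≠ 0 := fun h => hfW (by rw [hfr, h, zero_smul, add_zero]; exact hw)
  have hr' : S.red r ∉ Submodule.span k (Set.range fun i => S.red (e i)) := by
    rw [hspanb, ← hWspan]
    exact hr.resolve_left hc
  -- successive approximation by the rational span
  have step : ∀ z : ℤ, (∃ w' ∈ W, w' ∈ R.FK ∧ (R.ϖ ^ z)⁻¹ • (f - w') ∈ S.lat) →
      ∃ w' ∈ W, w' ∈ R.FK ∧ (R.ϖ ^ (z + 1))⁻¹ • (f - w') ∈ S.lat := by
    rintro z ⟨w', hw', hw'K, hz⟩
    set f' : S.lat := ⟨_, hz⟩ with hf'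
    have hzK : (R.ϖ ^ z)⁻¹ ∈ R.K := inv_mem (R.zpow_ϖ_mem_K z)
    have hred : S.red f' ∈ Rk := ⟨f', ⟨V.smul_mem _ (V.sub_mem hfV (hWV hw')),
      R.smul_mem_FK hzK (sub_mem hfK hw'K)⟩, rfl⟩
    rw [← hspanb, Submodule.mem_span_range_iff_exists_fun] at hred
    obtain ⟨l, hl⟩ := hred
    choose a haK ha using fun i => R.residueK (l i)
    set v : S.lat := ∑ i, S.amul (a i) (e i) with hv
    have hvF : (v : F) ∈ W ∧ (v : F) ∈ R.FK := by
      rw [hv, AddSubmonoidClass.coe_finsetSum]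
      exact ⟨Submodule.sum_mem _ fun i _ => W.smul_mem _ (Submodule.subset_span ⟨i, rfl⟩),
        sum_mem fun i _ => R.smul_mem_FK (haK i) (he i).2⟩
    refine ⟨w' + R.ϖ ^ z • (v : F), W.add_mem hw' (W.smul_mem _ hvF.1),
      add_mem hw'K (R.smul_mem_FK (R.zpow_ϖ_mem_K z) hvF.2), ?_⟩
    have hd0 : S.red (f' - v) = 0 := by
      rw [map_sub, ← hl, hv, map_sum, sub_eq_zero]
      exact Finset.sum_congr rfl fun i _ => by rw [S.red_amul, ha]
    have hdK : ((f' - v : S.lat) : F) ∈ R.FK :=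
      sub_mem (R.smul_mem_FK hzK (sub_mem hfK hw'K)) hvF.2
    have key : (R.ϖ ^ (z + 1))⁻¹ • (f - (w' + R.ϖ ^ z • (v : F))) =
        R.ϖ⁻¹ • ((f' - v : S.lat) : F) := by
      rw [AddSubgroupClass.coe_sub, hf', zpow_add_one₀ R.ϖ_ne, mul_inv_rev, mul_smul,
        sub_add_eq_sub_sub, smul_sub (R.ϖ ^ z)⁻¹, inv_smul_smul₀ (zpow_ne_zero z R.ϖ_ne)]
    rw [key]
    have e1 : (β₁ : L)⁻¹ • ((f' - v : S.lat) : F) ∈ M.s₁.W := (f' - v).2.1
    have e2 : (β₂ : L)⁻¹ • ((f' - v : S.lat) : F) ∈ M.s₂.W := (f' - v).2.2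
    have r1 : M.s₁.rd ((β₁ : L)⁻¹ • ((f' - v : S.lat) : F)) = 0 := congrArg Prod.fst hd0
    have r2 : M.s₂.rd ((β₂ : L)⁻¹ • ((f' - v : S.lat) : F)) = 0 := congrArg Prod.snd hd0
    refine ⟨?_, ?_⟩
    · show (β₁ : L)⁻¹ • R.ϖ⁻¹ • _ ∈ M.s₁.W
      rw [smul_comm]
      exact R.div_ϖ_mem₁ (R.smul_mem_FK (inv_mem h₁) hdK) e1 r1
    · show (β₂ : L)⁻¹ • R.ϖ⁻¹ • _ ∈ M.s₂.W
      rw [smul_comm]
      exact R.div_ϖ_mem₂ (R.smul_mem_FK (inv_mem h₂) hdK) e2 r2
  obtain ⟨z₁, hz₁⟩ := R.exists_zpow_mem M.s₁ R.scale₁ (R.smul_mem_FK (inv_mem h₁) hfK)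
  obtain ⟨z₂, hz₂⟩ := R.exists_zpow_mem M.s₂ R.scale₂ (R.smul_mem_FK (inv_mem h₂) hfK)
  have hall : ∀ i : ℕ, ∃ w' ∈ W, w' ∈ R.FK ∧
      (R.ϖ ^ (min z₁ z₂ + i))⁻¹ • (f - w') ∈ S.lat := by
    intro i
    induction i with
    | zero =>
      refine ⟨0, W.zero_mem, zero_mem _, ?_⟩
      rw [sub_zero, Nat.cast_zero, add_zero]
      refine ⟨?_, ?_⟩
      · show (β₁ : L)⁻¹ • (R.ϖ ^ min z₁ z₂)⁻¹ • f ∈ M.s₁.W
        rw [smul_comm]
        exact hz₁ _ (min_le_left _ _)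
      · show (β₂ : L)⁻¹ • (R.ϖ ^ min z₁ z₂)⁻¹ • f ∈ M.s₂.W
        rw [smul_comm]
        exact hz₂ _ (min_le_right _ _)
    | succ i ih =>
      rw [Nat.cast_succ, ← add_assoc]
      exact step _ ih
  -- the coefficient of `r` bounds the approximation
  obtain ⟨i, hi⟩ := M.exists_pow_mul_le_one (c⁻¹ * (R.ϖ ^ min z₁ z₂)) R.valuation_ϖ_lt_one
  obtain ⟨w', hw', -, hz⟩ := hall (i + 1)
  obtain ⟨l, hl⟩ := (Submodule.mem_span_range_iff_exists_fun L).mp (W.sub_mem hw hw')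
  set P := (R.ϖ ^ (min z₁ z₂ + ((i + 1 : ℕ) : ℤ)))⁻¹ with hP
  have hopt : LinearIndependent k fun o : Option (Fin (Module.finrank k Rk)) =>
      S.red (o.elim r e) := by
    rw [linearIndependent_option]
    exact ⟨hli, hr'⟩
  have hA := S.coeff_mem hopt (c := fun o => o.elim (P * c) fun j => P * l j) (f := ⟨_, hz⟩) (by
    simp only [Fintype.sum_option, Option.elim_none, Option.elim_some, mul_smul,
      ← Finset.smul_sum, hl]
    rw [hfr, ← smul_add]
    congr 1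
    abel) none
  simp only [Option.elim_none] at hA
  rw [← A.valuation_le_one_iff] at hA
  have hϖ := valuation_ϖ_pos R
  have hc' : 0 < A.valuation c := zero_lt_iff.mpr ((Valuation.ne_zero_iff _).mpr hc)
  rw [map_mul, hP, map_inv₀, map_zpow₀, inv_mul_le_one₀ (zpow_pos hϖ _)] at hA
  rw [map_mul, map_mul, map_inv₀, map_zpow₀, map_pow, mul_assoc,
    inv_mul_le_one₀ hc', ← zpow_natCast, ← zpow_add₀ hϖ.ne'] at hi
  exact absurd (hi.trans hA) (not_le.mpr ((R.zpow_ϖ_lt_iff).mpr (by push_cast; omega)))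

theorem exists_rat_lift (h₁ : (β₁ : L) ∈ R.K) (h₂ : (β₂ : L) ∈ R.K) (V : Submodule L F)
    [FiniteDimensional L V] (hV : V ≤ Submodule.span L {f | f ∈ V ∧ f ∈ R.FK})
    {x : Kb × Kb} (hx : x ∈ M.sred β₁ β₂ V) :
    ∃ f ∈ V, f ∈ R.FK ∧ (β₁ : L)⁻¹ • f ∈ M.s₁.W ∧ (β₂ : L)⁻¹ • f ∈ M.s₂.W ∧
      M.s₁.rd ((β₁ : L)⁻¹ • f) = x.1 ∧ M.s₂.rd ((β₂ : L)⁻¹ • f) = x.2 := by
  obtain ⟨e, he, -, -, hspan⟩ := R.exists_rat_basis h₁ h₂ V hV
  rw [← hspan, Submodule.mem_span_range_iff_exists_fun] at hx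
  obtain ⟨l, hl⟩ := hx
  choose a haK ha using fun i => R.residueK (l i)
  set f : (M.shift β₁ β₂).lat := ∑ i, (M.shift β₁ β₂).amul (a i) (e i) with hf
  have hfr : (M.shift β₁ β₂).red f = x := by
    rw [hf, map_sum, ← hl]
    exact Finset.sum_congr rfl fun i _ => by rw [LatRed.red_amul, ha]
  refine ⟨f, ?_, ?_, f.2.1, f.2.2, congrArg Prod.fst hfr, congrArg Prod.snd hfr⟩
  · rw [hf, AddSubmonoidClass.coe_finsetSum]
    exact Submodule.sum_mem _ fun i _ => V.smul_mem _ (he i).1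
  · rw [hf, AddSubmonoidClass.coe_finsetSum]
    exact sum_mem fun i _ => R.smul_mem_FK (haK i) (he i).2

/-- Rational elements have rational coordinates on independent rational elements. -/
theorem coeff_mem_K {ι : Type*} [Fintype ι] {e : ι → F} (he : ∀ i, e i ∈ R.FK)
    (hli : LinearIndependent L e) {c : ι → L} (hf : ∑ i, c i • e i ∈ R.FK) : ∀ i, c i ∈ R.K := by
  classical
  set f := ∑ i, c i • e i with hfdef
  set n := Fintype.card (Option ι)
  set φ : Fin n ≃ Option ι := (Fintype.equivFin _).symm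
  set fam : Option ι → F := fun o => o.elim f e
  by_contra hcon
  have hall : ∀ d : Fin n → L, (∀ o, d o ∈ R.K) → ∑ o, d o • fam (φ o) = 0 → ∀ o, d o = 0 := by
    intro d hd hsum
    set d' : Option ι → L := d ∘ φ.symm
    rw [← φ.symm.sum_comp] at hsum
    simp only [Equiv.apply_symm_apply] at hsum
    have hs : d' none • f + ∑ i, d' (some i) • e i = 0 := by
      simpa [Fintype.sum_option, fam, d'] using hsum
    have hz : ∀ i, d' none * c i + d' (some i) = 0 := by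
      refine Fintype.linearIndependent_iff.mp hli _ ?_
      rw [hfdef, Finset.smul_sum, ← Finset.sum_add_distrib] at hs
      simpa [add_smul, mul_smul] using hs
    have hnone : d' none = 0 := by
      by_contra h0
      refine hcon fun i => ?_
      have : c i = -(d' (some i)) / d' none := by
        field_simp
        linear_combination hz i
      rw [this]
      exact div_mem (neg_mem (hd _)) (hd _)
    intro o
    have h2 : d' (φ o) = 0 := by
      rcases φ o with _ | i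
      · exact hnone
      · simpa [hnone] using hz i
    simpa [d'] using h2
  have hLI := R.linDisjoint n (fun o => fam (φ o))
    (fun o => by
      show fam (φ o) ∈ R.FK
      rcases φ o with _ | i
      exacts [hf, he i]) hall
  have h0 := Fintype.linearIndependent_iff.mp hLI (fun o => (φ o).elim (-1) c) (by
    rw [← φ.symm.sum_comp]
    simp [Fintype.sum_option, fam, hfdef]) (φ.symm none)
  simp at h0

end RatForm

end MazurDatum

end FermatLib.MazurP

end
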