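import Fermat.Agent.Galois.MazurP.Saturation
import Fermat.Agent.Galois.MazurP.Rational

/-!
The grid of rational shifts: moving the shift by one step lowers the bound exactly at the free
nodes.  This gives the orders of `ū` and the congruences between divisors of `ḡ` and free shifts.
-/

set_option autoImplicit false

noncomputable section

open AlgebraicCurve FermatLib.Igusa FermatLib.Igusa.Mono

namespace FermatLib.MazurP

universe uL uF uk uKb

/-- Riemann–Roch spaces of large degree determine the divisor. -/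
theorem rr_injective {K E : Type*} [Field K] [Field E] [Algebra K E] {g : ℕ} (hE : RRField K E g)
    {D D' : Divisor K E} (hD : 2 * (g : ℤ) ≤ Divisor.degree D)
    (hD' : 2 * (g : ℤ) ≤ Divisor.degree D') (h : riemannRochSpace D = riemannRochSpace D') :
    D = D' := by
  refine Finsupp.ext fun v => ?_
  obtain ⟨r, hr, hr0, hrv⟩ := hE.exists_ord_eq hD v
  obtain ⟨r', hr', hr'0, hr'v⟩ := hE.exists_ord_eq hD' v
  have h1 := (mem_riemannRochSpace_iff.mp (h ▸ hr : r ∈ riemannRochSpace D') v).resolve_left hr0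
  have h2 := (mem_riemannRochSpace_iff.mp (h ▸ hr' : r' ∈ riemannRochSpace D) v).resolve_left hr'0
  omega

/-- An integer sequence dropping by the indicator of a predicate drops by its count. -/
theorem drop_eq_count (f : ℕ → ℤ) (P : ℕ → Prop) [DecidablePred P]
    (h : ∀ i, f (i + 1) = f i - if P i then 1 else 0) (n : ℕ) :
    f 0 - f n = ((Finset.range n).filter P).card := by
  induction n with
  | zero => simp
  | succ n ih =>
    rw [Finset.range_add_one, Finset.filter_insert, h n]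
    split_ifs with hP
    · rw [Finset.card_insert_of_notMem (by simp)]
      push_cast
      omega
    · omega

/-- The sum of points of an injective family. -/
theorem sum_single_apply {K E ι : Type*} [Field K] [Field E] [Algebra K E] {S : Finset ι}
    {f : ι → Place K E} (hf : Set.InjOn f S) (v : Place K E) [Decidable (∃ i ∈ S, f i = v)] :
    (∑ i ∈ S, Finsupp.single (f i) (1 : ℤ) : Divisor K E) v =
      if ∃ i ∈ S, f i = v then 1 else 0 := by
  classical
  rw [Finsupp.finsetSum_apply]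
  split_ifs with h
  · obtain ⟨i, hi, rfl⟩ := h
    rw [Finset.sum_eq_single i (fun w hw hne => Finsupp.single_eq_of_ne fun he =>
      hne (hf hw hi he.symm)) (fun h => absurd hi h), Finsupp.single_eq_same]
  · exact Finset.sum_eq_zero fun w hw => Finsupp.single_eq_of_ne fun he => h ⟨w, hw, he.symm⟩

namespace MazurDatum

variable {L : Type uL} {k : Type uk} [Field L] [Field k] [IsAlgClosed k] {A : ValuationSubring L}
  {π : A →+* k} {F : Type uF} {Kb : Type uKb} [Field F] [Algebra L F] [Field Kb] [Algebra k Kb]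
  {q : ℕ} {M : MazurDatum π F Kb q}

omit [IsAlgClosed k] in
/-- Vanishing second components against all first components. -/
theorem map_comap_eq₁ {g : ℕ} (hK : RRField k Kb g) (B₁ B₂ B₁' B₂' : Divisor k Kb)
    (S S' : Finset (Place k Kb × Place k Kb)) (a a' : Place k Kb × Place k Kb → k)
    (ha : ∀ z ∈ S, a z ≠ 0) (hS : Set.InjOn Prod.fst (S : Set (Place k Kb × Place k Kb)))
    (hS' : Set.InjOn Prod.snd (S' : Set (Place k Kb × Place k Kb)))
    (hd : 2 * (g : ℤ) + S'.card ≤ Divisor.degree B₂')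
    (h : ∀ r : Kb, ((r, 0) : Kb × Kb) ∈ condSpace hK B₁ B₂ S Prod.fst Prod.snd a (fun _ => 1) ↔
      ∃ r₂, (r, r₂) ∈ condSpace hK B₁' B₂' S' Prod.fst Prod.snd a' (fun _ => 1)) :
    riemannRochSpace (B₁ - ∑ z ∈ S, Finsupp.single z.1 1) = riemannRochSpace B₁' := by
  classical
  have hsub : ∀ r : Kb, r ∈ riemannRochSpace (B₁ - ∑ z ∈ S, Finsupp.single z.1 1) ↔
      r ∈ riemannRochSpace B₁ ∧ ∀ z ∈ S, lead z.1 (B₁ z.1) r = 0 := by
    intro r
    constructor
    · intro hr
      have hr1 : r ∈ riemannRochSpace B₁ :=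
        riemannRochSpace_mono (sub_le_self _ (Finset.sum_nonneg fun z _ => by simp)) hr
      refine ⟨hr1, fun z hz => (lead_eq_zero_iff (hK.deg_one _) (ord_of_mem_rr hr1 _)).mpr ?_⟩
      refine (mem_riemannRochSpace_iff.mp hr z.1).imp id fun h1 => ?_
      rw [Finsupp.sub_apply, sum_single_apply hS, if_pos ⟨z, hz, rfl⟩] at h1
      omega
    · rintro ⟨hr1, hl⟩
      rw [mem_riemannRochSpace_iff]
      intro v
      rw [Finsupp.sub_apply, sum_single_apply hS]
      split_ifs with hv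
      · obtain ⟨z, hz, rfl⟩ := hv
        refine ((lead_eq_zero_iff (hK.deg_one _) (ord_of_mem_rr hr1 _)).mp (hl z hz)).imp id
          fun h1 => ?_
        omega
      · rw [sub_zero]
        exact mem_riemannRochSpace_iff.mp hr1 v
  ext r
  rw [hsub]
  constructor
  · rintro ⟨hr1, hl⟩
    obtain ⟨r₂, hr2⟩ := (h r).mp ⟨hr1, Submodule.zero_mem _, fun z hz => by simp [hl z hz]⟩
    exact hr2.1
  · intro hr
    choose f hf hf1 hf0 using fun z : {z // z ∈ S'} =>
      exists_lead hK (S := S'.image Prod.snd) (B := B₂') (by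
        have : ((S'.image Prod.snd).card : ℤ) ≤ S'.card := by exact_mod_cast Finset.card_image_le
        omega) (Finset.mem_image_of_mem Prod.snd z.2)
    set r₂ := ∑ z ∈ S'.attach, (-(a' z * lead z.1.1 (B₁' z.1.1) r)) • f z
    have hr₂ : r₂ ∈ riemannRochSpace B₂' :=
      Submodule.sum_mem _ fun z _ => Submodule.smul_mem _ _ (hf z)
    have hmem : (r, r₂) ∈ condSpace hK B₁' B₂' S' Prod.fst Prod.snd a' (fun _ => 1) := by
      refine ⟨hr, hr₂, fun z hz => ?_⟩
      have hl := map_sum (leadLin hK.deg_one B₂' z.2)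
        (fun w : {z // z ∈ S'} => (-(a' w * lead w.1.1 (B₁' w.1.1) r)) • (⟨f w, hf w⟩ :
          riemannRochSpace B₂')) S'.attach
      simp only [map_smul, leadLin, LinearMap.coe_mk, AddHom.coe_mk, AddSubmonoidClass.coe_finsetSum,
        Submodule.coe_smul, smul_eq_mul] at hl
      simp only [r₂, one_mul, hl]
      rw [Finset.sum_eq_single ⟨z, hz⟩ (fun w _ hne => by
        rw [hf0 w z.2 (Finset.mem_image_of_mem Prod.snd hz) fun e =>
          hne (Subtype.ext (hS' hz w.2 e).symm), mul_zero])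
        (fun h => absurd (Finset.mem_attach _ _) h)]
      have h1 := hf1 ⟨z, hz⟩
      dsimp only at h1 ⊢
      rw [h1, mul_one, add_neg_cancel]
    obtain ⟨h1, -, hl⟩ := (h r).mpr ⟨r₂, hmem⟩
    refine ⟨h1, fun z hz => ?_⟩
    have := hl z hz
    rw [lead_zero, mul_zero, add_zero, mul_eq_zero] at this
    exact this.resolve_left (ha z hz)

omit [IsAlgClosed k] in
/-- Vanishing first components against all second components. -/
theorem map_comap_eq₂ {g : ℕ} (hK : RRField k Kb g) (B₁ B₂ B₁' B₂' : Divisor k Kb)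
    (S S' : Finset (Place k Kb × Place k Kb)) (a a' : Place k Kb × Place k Kb → k)
    (ha' : ∀ z ∈ S', a' z ≠ 0) (hS : Set.InjOn Prod.snd (S : Set (Place k Kb × Place k Kb)))
    (hS' : Set.InjOn Prod.fst (S' : Set (Place k Kb × Place k Kb)))
    (hd : 2 * (g : ℤ) + S'.card ≤ Divisor.degree B₁')
    (h : ∀ r : Kb, ((0, r) : Kb × Kb) ∈ condSpace hK B₁ B₂ S Prod.fst Prod.snd a (fun _ => 1) ↔
      ∃ r₁, (r₁, r) ∈ condSpace hK B₁' B₂' S' Prod.fst Prod.snd a' (fun _ => 1)) :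
    riemannRochSpace (B₂ - ∑ z ∈ S, Finsupp.single z.2 1) = riemannRochSpace B₂' := by
  classical
  have hinj : Set.InjOn Prod.fst
      ((S.image Prod.swap : Finset (Place k Kb × Place k Kb)) : Set (Place k Kb × Place k Kb)) := by
    intro x hx y hy e
    simp only [Finset.coe_image, Set.mem_image, Finset.mem_coe] at hx hy
    obtain ⟨x, hx, rfl⟩ := hx
    obtain ⟨y, hy, rfl⟩ := hy
    rw [hS hx hy e]
  have hinj' : Set.InjOn Prod.snd
      ((S'.image Prod.swap : Finset (Place k Kb × Place k Kb)) : Set (Place k Kb × Place k Kb)) := by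
    intro x hx y hy e
    simp only [Finset.coe_image, Set.mem_image, Finset.mem_coe] at hx hy
    obtain ⟨x, hx, rfl⟩ := hx
    obtain ⟨y, hy, rfl⟩ := hy
    rw [hS' hx hy e]
  have e := map_comap_eq₁ hK B₂ B₁ B₂' B₁' (S.image Prod.swap) (S'.image Prod.swap)
    (fun _ => 1) (fun z => (a' z.swap)⁻¹) (fun _ _ => one_ne_zero) hinj hinj'
    (by rw [Finset.card_image_of_injective _ Prod.swap_injective]; exact hd) (fun r => ?_)
  · rwa [Finset.sum_image (fun x _ y _ e => Prod.swap_injective e)] at e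
  have hswap : ((r, 0) : Kb × Kb) ∈ condSpace hK B₂ B₁ (S.image Prod.swap) Prod.fst Prod.snd
        (fun _ => 1) (fun _ => 1) ↔
      ((0, r) : Kb × Kb) ∈ condSpace hK B₁ B₂ S Prod.fst Prod.snd a (fun _ => 1) := by
    simp only [mem_condSpace, Finset.forall_mem_image, Prod.fst_swap, lead_zero,
      mul_zero, one_mul, add_zero, zero_add]
    exact ⟨fun ⟨h1, _, h3⟩ => ⟨Submodule.zero_mem _, h1, fun z hz => h3 hz⟩,
      fun ⟨_, h2, h3⟩ => ⟨h2, Submodule.zero_mem _, fun z hz => h3 hz⟩⟩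
  rw [hswap, h r]
  refine exists_congr fun r₁ => ?_
  simp only [mem_condSpace, Finset.forall_mem_image, Prod.fst_swap, Prod.snd_swap, one_mul,
    Prod.swap_swap]
  constructor
  · rintro ⟨h1, h2, h3⟩
    exact ⟨h2, h1, fun z hz => by
      have := h3 z hz
      field_simp [ha' z hz]
      linear_combination this⟩
  · rintro ⟨h1, h2, h3⟩
    exact ⟨h2, h1, fun z hz => by
      have := h3 hz
      field_simp [ha' z hz] at this
      linear_combination this⟩

namespace RatForm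

variable (R : M.RatForm) {p : ℕ} (T : M.TorsData p)

open Classical in
/-- The exponent of `γ₂ / γ₁`. -/
def delta : ℤ :=
  if h : ∃ z : ℤ, A.valuation (T.γ₂ : L) = A.valuation (T.γ₁ : L) * A.valuation R.ϖ ^ z then h.choose
  else 0

omit [IsAlgClosed k] in
theorem valuation_γ₂ (hT : R.IsRatTors T) :
    A.valuation (T.γ₂ : L) = A.valuation (T.γ₁ : L) * A.valuation R.ϖ ^ R.delta T := by
  have h : ∃ z : ℤ, A.valuation (T.γ₂ : L) = A.valuation (T.γ₁ : L) * A.valuation R.ϖ ^ z := by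
    obtain ⟨z, hz⟩ := R.valueK _ (div_mem hT.γ₂_mem hT.γ₁_mem) (by simp)
    refine ⟨z, ?_⟩
    rw [← hz, map_div₀, mul_div_cancel₀]
    simp
  unfold delta
  rw [dif_pos h]
  exact h.choose_spec

omit [IsAlgClosed k] in
theorem balanced (hT : R.IsRatTors T) (t : ℤ) :
    T.Balanced 1 (R.pw t) (12 * R.e) (t * p + R.delta T) := by
  have h0 := (valuation_ϖ_pos R).ne'
  unfold TorsData.Balanced
  rw [R.valuation_γ₂ T hT, coe_pw, map_zpow₀, ← R.ϖ_pow]
  simp only [Units.val_one, map_one, one_pow, one_mul, mul_pow]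
  rw [mul_left_comm]
  simp only [← zpow_natCast, ← zpow_mul, ← zpow_add₀ h0]
  push_cast
  ring_nf

/-- The bound at `v` on the first sheet for the shift `ϖ ^ t`. -/
def fl₁ (t : ℤ) (v : Place k Kb) : ℤ :=
  T.num₁ (12 * R.e) (t * p + R.delta T) v / ((p * (12 * R.e) : ℕ) : ℤ)

/-- The bound at `v` on the second sheet for the shift `ϖ ^ t`. -/
def fl₂ (t : ℤ) (v : Place k Kb) : ℤ :=
  T.num₂ (12 * R.e) (t * p + R.delta T) v / ((p * (12 * R.e) : ℕ) : ℤ)

/-- Free nodes of the shift `ϖ ^ t`. -/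
def FreeAt (t : ℤ) (z : Place k Kb × Place k Kb) : Prop :=
  T.Free (12 * R.e) (t * p + R.delta T) z

/-- The reductions for the shift `ϖ ^ t`. -/
abbrev redAt (t : ℤ) (n : ℕ) : Submodule k (Kb × Kb) :=
  M.sred 1 (R.pw t) (riemannRochSpace (T.D + n • M.Px))

theorem exists_redAt_eq (hp : p ≠ 0) (hT : R.IsRatTors T) (t : ℤ) :
    ∃ N : ℕ, ∀ n, N ≤ n → R.redAt T t n =
      condSpace M.rrK (T.B₁ n (12 * R.e) (t * p + R.delta T))
        (T.B₂ n (12 * R.e) (t * p + R.delta T)) (T.freeNodes (12 * R.e) (t * p + R.delta T))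
        Prod.fst Prod.snd (fun z => -T.lam 1 (R.pw t) (12 * R.e) (t * p + R.delta T) z)
        (fun _ => 1) :=
  (T.saturation hp (by have := R.e_pos; omega) (R.balanced T hT t)).2.2.2

omit [IsAlgClosed k] in
theorem mem_redAt_inl (hT : R.IsRatTors T) (t : ℤ) (n : ℕ) (r : Kb) :
    ((r, 0) : Kb × Kb) ∈ R.redAt T t n ↔ ∃ r₂, (r, r₂) ∈ R.redAt T (t + 1) n := by
  have := M.rrF.finite_space (T.D + n • M.Px)
  constructor
  · intro h
    obtain ⟨f, hf, hfK, h1, h2, e1, e2⟩ := R.exists_rat_lift (β₁ := 1) (β₂ := R.pw t) (one_mem _)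
      (R.zpow_ϖ_mem_K t) _ (hT.rat n) h
    have h2' := R.div_ϖ_mem₂ (R.smul_mem_FK (inv_mem (R.zpow_ϖ_mem_K t)) hfK) h2 e2
    rw [smul_smul, ← mul_inv, ← zpow_one_add₀ R.ϖ_ne, add_comm] at h2'
    exact ⟨M.s₂.rd (((R.pw (t + 1) : Lˣ) : L)⁻¹ • f),
      M.mem_sred.mpr ⟨f, hf, h1, by rwa [coe_pw], e1, rfl⟩⟩
  · rintro ⟨r₂, h⟩
    obtain ⟨f, hf, h1, h2, e1, -⟩ := M.mem_sred.mp h
    refine M.mem_sred.mpr ⟨f, hf, h1, ?_, e1, ?_⟩ <;>
      rw [show ((R.pw t : Lˣ) : L)⁻¹ • f = R.ϖ • ((R.pw (t + 1) : Lˣ) : L)⁻¹ • f by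
        rw [smul_smul, coe_pw, coe_pw, zpow_add_one₀ R.ϖ_ne, mul_inv_rev,
          mul_inv_cancel_left₀ R.ϖ_ne]]
    · exact Sheet.smul_mem R.ϖ_mem_A h2
    · rw [Sheet.rd_smul R.ϖ_mem_A h2, M.res_eq_zero _ ?_, zero_smul]
      intro hu
      exact R.valuation_ϖ_lt_one.ne ((A.valuation_eq_one_iff _).mp hu)

omit [IsAlgClosed k] in
theorem mem_redAt_inr (hT : R.IsRatTors T) (t : ℤ) (n : ℕ) (r : Kb) :
    ((0, r) : Kb × Kb) ∈ R.redAt T t n ↔ ∃ r₁, (r₁, r) ∈ R.redAt T (t - 1) n := by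
  have := M.rrF.finite_space (T.D + n • M.Px)
  constructor
  · intro h
    obtain ⟨f, hf, hfK, h1, h2, e1, e2⟩ := R.exists_rat_lift (β₁ := 1) (β₂ := R.pw t) (one_mem _)
      (R.zpow_ϖ_mem_K t) _ (hT.rat n) h
    rw [Units.val_one, inv_one, one_smul] at h1 e1
    have h1' := R.div_ϖ_mem₁ hfK h1 e1
    have he : ((R.pw (t - 1) : Lˣ) : L)⁻¹ • R.ϖ⁻¹ • f = ((R.pw t : Lˣ) : L)⁻¹ • f := by
      rw [smul_smul, coe_pw, coe_pw, ← mul_inv, ← zpow_add_one₀ R.ϖ_ne, sub_add_cancel]
    refine ⟨_, M.mem_sred.mpr ⟨R.ϖ⁻¹ • f, Submodule.smul_mem _ _ hf,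
      by rw [Units.val_one, inv_one, one_smul]; exact h1', by rw [he]; exact h2, rfl,
      by rw [he]; exact e2⟩⟩
  · rintro ⟨r₁, h⟩
    obtain ⟨f, hf, h1, h2, -, e2⟩ := M.mem_sred.mp h
    rw [Units.val_one, inv_one, one_smul] at h1
    have he : ((R.pw t : Lˣ) : L)⁻¹ • R.ϖ • f = ((R.pw (t - 1) : Lˣ) : L)⁻¹ • f := by
      rw [smul_smul, coe_pw, coe_pw, zpow_sub_one₀ R.ϖ_ne, mul_inv, inv_inv]
    refine M.mem_sred.mpr ⟨R.ϖ • f, Submodule.smul_mem _ _ hf, ?_, by rw [he]; exact h2, ?_,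
      by rw [he]; exact e2⟩
    · rw [Units.val_one, inv_one, one_smul]
      exact Sheet.smul_mem R.ϖ_mem_A h1
    · rw [Units.val_one, inv_one, one_smul, Sheet.rd_smul R.ϖ_mem_A h1, M.res_eq_zero _ ?_,
        zero_smul]
      intro hu
      exact R.valuation_ϖ_lt_one.ne ((A.valuation_eq_one_iff _).mp hu)

open Classical in
/-- One step of the grid on both sheets. -/
theorem grid_step (hp : p ≠ 0) (hT : R.IsRatTors T) (t : ℤ) (v : Place k Kb) :
    (R.fl₁ T (t + 1) v =
        R.fl₁ T t v - if ∃ z ∈ M.nodes, z.1 = v ∧ R.FreeAt T t z then 1 else 0) ∧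
    (R.fl₂ T (t - 1) v =
        R.fl₂ T t v - if ∃ z ∈ M.nodes, z.2 = v ∧ R.FreeAt T t z then 1 else 0) := by
  set m := 12 * R.e
  set J : ℤ → ℤ := fun t => t * p + R.delta T
  set S : ℤ → Finset (Place k Kb × Place k Kb) := fun t => T.freeNodes m (J t)
  obtain ⟨N₀, hN₀⟩ := R.exists_redAt_eq T hp hT t
  obtain ⟨N₁, hN₁⟩ := R.exists_redAt_eq T hp hT (t + 1)
  obtain ⟨N₂, hN₂⟩ := R.exists_redAt_eq T hp hT (t - 1)
  set C : ℤ := 2 * (M.gK : ℤ) + M.nodeCount
  set E : ℤ → Divisor k Kb := fun t =>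
    (T.num₁ m (J t)).mapRange (fun x => x / ((p * m : ℕ) : ℤ)) (Int.zero_ediv _)
  set E' : ℤ → Divisor k Kb := fun t =>
    (T.num₂ m (J t)).mapRange (fun x => x / ((p * m : ℕ) : ℤ)) (Int.zero_ediv _)
  set b : ℤ := |Divisor.degree (E t)| + |Divisor.degree (E (t + 1))| + |Divisor.degree (E (t - 1))|
    + |Divisor.degree (E' t)| + |Divisor.degree (E' (t + 1))| + |Divisor.degree (E' (t - 1))|
  set n := N₀ + N₁ + N₂ + (2 * C + b).toNat
  have hcard : ∀ s, ((S s).card : ℤ) ≤ M.nodeCount := fun s => by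
    rw [MonoDatum.nodeCount, Nat.card_coe_set_eq, Set.ncard_eq_toFinset_card _ M.finite_nodes]
    exact_mod_cast Finset.card_filter_le _ _
  have hdeg : ∀ s, (|Divisor.degree (E s)| ≤ b → 2 * C ≤ Divisor.degree (T.B₁ n m (J s))) ∧
      (|Divisor.degree (E' s)| ≤ b → 2 * C ≤ Divisor.degree (T.B₂ n m (J s))) := fun s => by
    have hn : 2 * C + b ≤ n := (Int.self_le_toNat _).trans (by omega)
    refine ⟨fun h => ?_, fun h => ?_⟩
    · have k1 : (n : ℤ) ≤ n * Divisor.degree M.P₁ :=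
        le_mul_of_one_le_right (by positivity) M.one_le_degree_P₁
      have := neg_abs_le (Divisor.degree (E s))
      rw [TorsData.B₁, map_add, map_nsmul, nsmul_eq_mul]
      linarith
    · have k2 : (n : ℤ) ≤ n * Divisor.degree M.P₂ :=
        le_mul_of_one_le_right (by positivity) M.one_le_degree_P₂
      have := neg_abs_le (Divisor.degree (E' s))
      rw [TorsData.B₂, map_add, map_nsmul, nsmul_eq_mul]
      linarith
  have ha1 := abs_nonneg (Divisor.degree (E t))
  have ha2 := abs_nonneg (Divisor.degree (E (t + 1)))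
  have ha3 := abs_nonneg (Divisor.degree (E (t - 1)))
  have ha4 := abs_nonneg (Divisor.degree (E' t))
  have ha5 := abs_nonneg (Divisor.degree (E' (t + 1)))
  have ha6 := abs_nonneg (Divisor.degree (E' (t - 1)))
  have hC0 : (0 : ℤ) ≤ C := by positivity
  have hCg : 2 * (M.gK : ℤ) ≤ C := by simp [C]
  have hCn : (M.nodeCount : ℤ) ≤ C := by simp [C]
  constructor
  · set Z : Divisor k Kb := ∑ z ∈ S t, Finsupp.single z.1 1
    have hinj : Set.InjOn Prod.fst (S t : Set (Place k Kb × Place k Kb)) := fun z hz w hw =>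
      M.node_fst_injective (T.mem_freeNodes.mp hz).1 (T.mem_freeNodes.mp hw).1
    have hZ := sum_single_apply hinj v
    have hZdeg : Divisor.degree Z = (S t).card := by
      simp [Z, map_sum, Divisor.degree_single, M.rrK.deg_one]
    have e := map_comap_eq₁ M.rrK (T.B₁ n m (J t)) (T.B₂ n m (J t))
      (T.B₁ n m (J (t + 1))) (T.B₂ n m (J (t + 1))) (S t) (S (t + 1))
      (fun z => -T.lam 1 (R.pw t) m (J t) z) (fun z => -T.lam 1 (R.pw (t + 1)) m (J (t + 1)) z)
      (fun z hz => neg_ne_zero.mpr (T.lam_ne z)) hinj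
      (fun z hz w hw => M.node_snd_injective (T.mem_freeNodes.mp hz).1 (T.mem_freeNodes.mp hw).1)
      (by have := hcard (t + 1); have := (hdeg (t + 1)).2 (by omega); omega)
      (fun r => by rw [← hN₀ n (by omega), ← hN₁ n (by omega)]; exact R.mem_redAt_inl T hT t n r)
    have e' := rr_injective M.rrK (by
        rw [map_sub, hZdeg]; have := hcard t; have := (hdeg t).1 (by omega); omega)
      (by have := (hdeg (t + 1)).1 (by omega); omega) e
    have hv := DFunLike.congr_fun e' v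
    rw [Finsupp.sub_apply, hZ, T.B₁_apply, T.B₁_apply] at hv
    simp only [J] at hv
    rw [show (∃ z ∈ M.nodes, z.1 = v ∧ R.FreeAt T t z) ↔ ∃ z ∈ S t, z.1 = v by
      simp only [S, T.mem_freeNodes, FreeAt, m, J]
      exact ⟨fun ⟨z, h1, h2, h3⟩ => ⟨z, ⟨h1, h3⟩, h2⟩, fun ⟨z, ⟨h1, h3⟩, h2⟩ => ⟨z, h1, h2, h3⟩⟩]
    simp only [fl₁]
    change _ = _ - _
    split_ifs at hv ⊢ <;> simp only [m] at hv <;> omega
  · set Z : Divisor k Kb := ∑ z ∈ S t, Finsupp.single z.2 1
    have hinj : Set.InjOn Prod.snd (S t : Set (Place k Kb × Place k Kb)) := fun z hz w hw =>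
      M.node_snd_injective (T.mem_freeNodes.mp hz).1 (T.mem_freeNodes.mp hw).1
    have hZ := sum_single_apply hinj v
    have hZdeg : Divisor.degree Z = (S t).card := by
      simp [Z, map_sum, Divisor.degree_single, M.rrK.deg_one]
    have e := map_comap_eq₂ M.rrK (T.B₁ n m (J t)) (T.B₂ n m (J t))
      (T.B₁ n m (J (t - 1))) (T.B₂ n m (J (t - 1))) (S t) (S (t - 1))
      (fun z => -T.lam 1 (R.pw t) m (J t) z) (fun z => -T.lam 1 (R.pw (t - 1)) m (J (t - 1)) z)
      (fun z hz => neg_ne_zero.mpr (T.lam_ne z)) hinj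
      (fun z hz w hw => M.node_fst_injective (T.mem_freeNodes.mp hz).1 (T.mem_freeNodes.mp hw).1)
      (by have := hcard (t - 1); have := (hdeg (t - 1)).1 (by omega); omega)
      (fun r => by rw [← hN₀ n (by omega), ← hN₂ n (by omega)]; exact R.mem_redAt_inr T hT t n r)
    have e' := rr_injective M.rrK (by
        rw [map_sub, hZdeg]; have := hcard t; have := (hdeg t).2 (by omega); omega)
      (by have := (hdeg (t - 1)).2 (by omega); omega) e
    have hv := DFunLike.congr_fun e' v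
    rw [Finsupp.sub_apply, hZ, T.B₂_apply, T.B₂_apply] at hv
    simp only [J] at hv
    rw [show (∃ z ∈ M.nodes, z.2 = v ∧ R.FreeAt T t z) ↔ ∃ z ∈ S t, z.2 = v by
      simp only [S, T.mem_freeNodes, FreeAt, m, J]
      exact ⟨fun ⟨z, h1, h2, h3⟩ => ⟨z, ⟨h1, h3⟩, h2⟩, fun ⟨z, ⟨h1, h3⟩, h2⟩ => ⟨z, h1, h2, h3⟩⟩]
    simp only [fl₂]
    change _ = _ - _
    split_ifs at hv ⊢ <;> simp only [m] at hv <;> omega

omit [IsAlgClosed k] in
theorem num₁_period (t : ℤ) (v : Place k Kb) :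
    T.num₁ (12 * R.e) ((t + (12 * R.e : ℕ)) * p + R.delta T) v =
      T.num₁ (12 * R.e) (t * p + R.delta T) v + -M.h₁ v * ((p * (12 * R.e) : ℕ) : ℤ) := by
  simp only [TorsData.num₁, Finsupp.sub_apply, Finsupp.smul_apply, smul_eq_mul]
  push_cast
  ring

omit [IsAlgClosed k] in
theorem num₂_period (t : ℤ) (v : Place k Kb) :
    T.num₂ (12 * R.e) ((t + (12 * R.e : ℕ)) * p + R.delta T) v =
      T.num₂ (12 * R.e) (t * p + R.delta T) v + -M.h₂ v * ((p * (12 * R.e) : ℕ) : ℤ) := by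
  simp only [TorsData.num₂, Finsupp.sub_apply, Finsupp.smul_apply, smul_eq_mul]
  push_cast
  ring

omit [IsAlgClosed k] in
theorem freeAt_period (t : ℤ) (z : Place k Kb × Place k Kb) :
    R.FreeAt T (t + (12 * R.e : ℕ)) z ↔ R.FreeAt T t z := by
  unfold FreeAt TorsData.Free
  rw [R.num₁_period]
  exact dvd_add_left (dvd_mul_left _ _)

omit [IsAlgClosed k] in
theorem fl₁_period (hp : p ≠ 0) (t : ℤ) (v : Place k Kb) :
    R.fl₁ T (t + (12 * R.e : ℕ)) v = R.fl₁ T t v - M.h₁ v := by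
  have hd : ((p * (12 * R.e) : ℕ) : ℤ) ≠ 0 := by
    have := R.e_pos
    exact_mod_cast Nat.mul_ne_zero hp (by omega)
  rw [fl₁, R.num₁_period, Int.add_mul_ediv_right _ _ hd, fl₁, ← sub_eq_add_neg]

omit [IsAlgClosed k] in
theorem fl₂_period (hp : p ≠ 0) (t : ℤ) (v : Place k Kb) :
    R.fl₂ T (t + (12 * R.e : ℕ)) v = R.fl₂ T t v - M.h₂ v := by
  have hd : ((p * (12 * R.e) : ℕ) : ℤ) ≠ 0 := by
    have := R.e_pos
    exact_mod_cast Nat.mul_ne_zero hp (by omega)
  rw [fl₂, R.num₂_period, Int.add_mul_ediv_right _ _ hd, fl₂, ← sub_eq_add_neg]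

/-- Away from the nodes `ū` has neither zero nor pole, and `p` divides the divisor of `ḡ`. -/
theorem off_nodes₁ (hp : p ≠ 0) (hT : R.IsRatTors T) {v : Place k Kb}
    (hv : ∀ z ∈ M.nodes, z.1 ≠ v) : M.h₁ v = 0 ∧ (p : ℤ) ∣ T.a₁ v := by
  classical
  have hstep : ∀ i : ℕ, R.fl₁ T ((i : ℤ) + 1) v = R.fl₁ T i v := fun i => by
    rw [(R.grid_step T hp hT i v).1, if_neg (fun ⟨z, hz, h, _⟩ => hv z hz h), sub_zero]
  have hconst : ∀ i : ℕ, R.fl₁ T (i : ℤ) v = R.fl₁ T 0 v := fun i => by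
    induction i with
    | zero => rfl
    | succ i ih => rw [Nat.cast_succ, hstep, ih]
  have h0 := hconst (12 * R.e)
  rw [← zero_add ((12 * R.e : ℕ) : ℤ), R.fl₁_period T hp] at h0
  have hh : M.h₁ v = 0 := by omega
  refine ⟨hh, ?_⟩
  have h := (T.saturation hp (by have := R.e_pos; omega) (R.balanced T hT 0)).1 v hv
  simp only [TorsData.num₁, Finsupp.sub_apply, Finsupp.smul_apply, smul_eq_mul, hh, mul_zero,
    sub_zero, Nat.cast_mul] at h
  rw [mul_comm (p : ℤ)] at h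
  exact Int.dvd_of_mul_dvd_mul_left (by have := R.e_pos; push_cast; omega) h

/-- Away from the nodes on the second sheet. -/
theorem off_nodes₂ (hp : p ≠ 0) (hT : R.IsRatTors T) {v : Place k Kb}
    (hv : ∀ z ∈ M.nodes, z.2 ≠ v) : M.h₂ v = 0 ∧ (p : ℤ) ∣ T.a₂ v := by
  classical
  have hstep : ∀ i : ℕ, R.fl₂ T ((i : ℤ) + 1) v = R.fl₂ T i v := fun i => by
    have h := (R.grid_step T hp hT ((i : ℤ) + 1) v).2
    rw [if_neg (fun ⟨z, hz, h, _⟩ => hv z hz h), sub_zero, add_sub_cancel_right] at h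
    exact h.symm
  have hconst : ∀ i : ℕ, R.fl₂ T (i : ℤ) v = R.fl₂ T 0 v := fun i => by
    induction i with
    | zero => rfl
    | succ i ih => rw [Nat.cast_succ, hstep, ih]
  have h0 := hconst (12 * R.e)
  rw [← zero_add ((12 * R.e : ℕ) : ℤ), R.fl₂_period T hp] at h0
  have hh : M.h₂ v = 0 := by omega
  refine ⟨hh, ?_⟩
  have h := (T.saturation hp (by have := R.e_pos; omega) (R.balanced T hT 0)).2.1 v hv
  simp only [TorsData.num₂, Finsupp.sub_apply, Finsupp.smul_apply, smul_eq_mul, hh, mul_zero,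
    sub_zero, Nat.cast_mul] at h
  rw [mul_comm (p : ℤ)] at h
  exact Int.dvd_of_mul_dvd_mul_left (by have := R.e_pos; push_cast; omega) h

open Classical in
/-- At a node the orders of `ū` count the free shifts in a period. -/
theorem node_count (hp : p ≠ 0) (hT : R.IsRatTors T) {z : Place k Kb × Place k Kb}
    (hz : z ∈ M.nodes) :
    M.h₁ z.1 = ((Finset.range (12 * R.e)).filter fun i => R.FreeAt T (i : ℕ) z).card ∧
      M.h₂ z.2 = -M.h₁ z.1 := by
  have e1 : ∀ t : ℤ, (∃ w ∈ M.nodes, w.1 = z.1 ∧ R.FreeAt T t w) ↔ R.FreeAt T t z := fun t =>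
    ⟨fun ⟨w, hw, he, hf⟩ => M.node_fst_injective hw hz he ▸ hf, fun h => ⟨z, hz, rfl, h⟩⟩
  have e2 : ∀ t : ℤ, (∃ w ∈ M.nodes, w.2 = z.2 ∧ R.FreeAt T t w) ↔ R.FreeAt T t z := fun t =>
    ⟨fun ⟨w, hw, he, hf⟩ => M.node_snd_injective hw hz he ▸ hf, fun h => ⟨z, hz, rfl, h⟩⟩
  have c1 := drop_eq_count (fun i => R.fl₁ T (i : ℕ) z.1) (fun i => R.FreeAt T (i : ℕ) z)
    (fun i => by
      have h := (R.grid_step T hp hT i z.1).1
      simp only [e1] at h
      rw [Nat.cast_succ]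
      exact h) (12 * R.e)
  have c2 := drop_eq_count (fun i => -R.fl₂ T (i : ℕ) z.2)
    (fun i => R.FreeAt T ((i : ℕ) + 1) z)
    (fun i => by
      have h := (R.grid_step T hp hT ((i : ℤ) + 1) z.2).2
      simp only [e2, add_sub_cancel_right] at h
      rw [Nat.cast_succ]
      split_ifs at h ⊢ <;> omega) (12 * R.e)
  simp only [Nat.cast_zero] at c1 c2
  rw [← zero_add ((12 * R.e : ℕ) : ℤ), R.fl₁_period T hp] at c1
  rw [← zero_add ((12 * R.e : ℕ) : ℤ), R.fl₂_period T hp] at c2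
  have hshift : ((Finset.range (12 * R.e)).filter fun i => R.FreeAt T ((i : ℕ) + 1) z).card =
      ((Finset.range (12 * R.e)).filter fun i => R.FreeAt T (i : ℕ) z).card := by
    set g : ℕ → ℕ := fun i => if R.FreeAt T (i : ℕ) z then 1 else 0
    rw [Finset.card_filter, Finset.card_filter]
    have h1 := Finset.sum_range_succ g (12 * R.e)
    have h2 := Finset.sum_range_succ' g (12 * R.e)
    have hper : g (12 * R.e) = g 0 := by
      have h := R.freeAt_period T 0 z
      rw [zero_add] at h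
      simp only [g, Nat.cast_zero, h]
    simp only [g, Nat.cast_succ] at h1 h2 hper ⊢
    omega
  rw [hshift] at c2
  exact ⟨by omega, by omega⟩

end RatForm

/-- The trivial torsion data. -/
def trivTors (M : MazurDatum π F Kb q) : M.TorsData 1 where
  D := 0
  g := 1
  g_ne := one_ne_zero
  div v := by simp
  γ₁ := 1
  γ₂ := 1
  g_mem₁ := by simp [one_mem]
  g_red₁ := by simp
  g_mem₂ := by simp [one_mem]
  g_red₂ := by simp

omit [IsAlgClosed k] in
theorem trivTors_a₁ (v : Place k Kb) : (M.trivTors).a₁ v = 0 := by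
  rw [TorsData.a₁_apply]
  simp [TorsData.gb₁, trivTors]

/-- The spaces `L(n Px)` are spanned by rational elements. -/
def RatForm.RatLevel (R : M.RatForm) : Prop := R.IsRat (0 : Divisor L F)

omit [IsAlgClosed k] in
theorem RatForm.trivTors_isRat {R : M.RatForm} (h : R.RatLevel) : R.IsRatTors M.trivTors where
  rat := h
  rat_neg := by
    show R.IsRat (-(0 : Divisor L F))
    rw [neg_zero]
    exact h
  g_mem := R.FK.one_mem
  γ₁_mem := R.K.one_mem
  γ₂_mem := R.K.one_mem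

/-- `ū` has a zero of order dividing `12 e` at each node. -/
theorem RatForm.h₁_node (R : M.RatForm) (hR : R.RatLevel) {z : Place k Kb × Place k Kb}
    (hz : z ∈ M.nodes) :
    1 ≤ M.h₁ z.1 ∧ M.h₁ z.1 = ((Finset.range (12 * R.e)).filter fun i : ℕ =>
      ((12 * R.e : ℕ) : ℤ) ∣ (i : ℤ) * M.h₁ z.1).card := by
  classical
  have hT := RatForm.trivTors_isRat hR
  have hc := (R.node_count M.trivTors one_ne_zero hT hz).1
  have hδ : R.delta M.trivTors = 0 := by
    have h := R.valuation_γ₂ M.trivTors hT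
    simp only [trivTors, Units.val_one, map_one, one_mul] at h
    rw [← zpow_zero (A.valuation R.ϖ)] at h
    exact le_antisymm (R.zpow_ϖ_le_iff.mp h.le) (R.zpow_ϖ_le_iff.mp h.ge)
  have hfree : ∀ t : ℤ, R.FreeAt M.trivTors t z ↔ ((12 * R.e : ℕ) : ℤ) ∣ t * M.h₁ z.1 := by
    intro t
    unfold RatForm.FreeAt TorsData.Free
    simp only [TorsData.num₁, Finsupp.sub_apply, Finsupp.smul_apply, smul_eq_mul, trivTors_a₁,
      hδ, mul_zero, zero_sub, add_zero, one_mul, Nat.cast_one, mul_one, dvd_neg]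
  simp only [hfree] at hc
  refine ⟨?_, hc⟩
  have h0 : (0 : ℕ) ∈ (Finset.range (12 * R.e)).filter fun i : ℕ =>
      ((12 * R.e : ℕ) : ℤ) ∣ (i : ℤ) * M.h₁ z.1 := by
    have := R.e_pos
    simp only [Finset.mem_filter, Finset.mem_range, Nat.cast_zero, zero_mul, dvd_zero, and_true]
    omega
  have := Finset.card_pos.mpr ⟨_, h0⟩
  omega

/-- The order of `ū` at a node divides `12` for an unramified rational form. -/
theorem RatForm.h₁_dvd_twelve (R : M.RatForm) (he : R.e = 1) (hR : R.RatLevel) {z : Place k Kb × Place k Kb}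
    (hz : z ∈ M.nodes) : M.h₁ z.1 ∣ (12 : ℤ) := by
  obtain ⟨h1, hc⟩ := R.h₁_node hR hz
  rw [he, mul_one] at hc
  obtain ⟨h, hh⟩ := Int.eq_ofNat_of_zero_le (by omega : 0 ≤ M.h₁ z.1)
  rw [hh] at h1 hc ⊢
  have hle : h ≤ 12 := by
    have := Finset.card_filter_le (Finset.range 12) fun i : ℕ => ((12 : ℕ) : ℤ) ∣ (i : ℤ) * (h : ℤ)
    rw [Finset.card_range] at this
    omega
  simp only [← Nat.cast_mul, Int.natCast_dvd_natCast, Nat.cast_inj] at hc
  have h12 : h ∣ 12 := by
    interval_cases h <;> first | decide | omega | exact absurd hc (by decide)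
  exact_mod_cast h12

/-- A prime at least `5` does not divide the order of `ū` at a node. -/
theorem RatForm.not_dvd_h₁ (R : M.RatForm) (he : R.e = 1) (hR : R.RatLevel) {p : ℕ}
    (hp : p.Prime) (h5 : 5 ≤ p) {z : Place k Kb × Place k Kb} (hz : z ∈ M.nodes) :
    ¬ (p : ℤ) ∣ M.h₁ z.1 := fun h => by
  have h' : p ∣ 12 := by exact_mod_cast h.trans (R.h₁_dvd_twelve he hR hz)
  have := Nat.le_of_dvd (by norm_num) h'
  interval_cases p <;> revert hp h' <;> norm_num

namespace RatForm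

variable (R : M.RatForm) {p : ℕ} (T : M.TorsData p)

/-- Each node is free for some shift. -/
theorem exists_freeAt (hp : p ≠ 0) (hT : R.IsRatTors T) (hR : R.RatLevel)
    {z : Place k Kb × Place k Kb} (hz : z ∈ M.nodes) : ∃ t : ℤ, R.FreeAt T t z := by
  classical
  have h1 := (R.h₁_node hR hz).1
  rw [(R.node_count T hp hT hz).1] at h1
  obtain ⟨i, hi⟩ := Finset.card_pos.mp (by omega :
    0 < ((Finset.range (12 * R.e)).filter fun i => R.FreeAt T (i : ℕ) z).card)
  exact ⟨i, (Finset.mem_filter.mp hi).2⟩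

/-- The congruences at a free node. -/
theorem free_congr (hp : p ≠ 0) (hT : R.IsRatTors T) {z : Place k Kb × Place k Kb}
    (hz : z ∈ M.nodes) {t : ℤ} (h : R.FreeAt T t z) :
    (12 * R.e * p : ℤ) ∣ 12 * R.e * T.a₁ z.1 - (t * p + R.delta T) * M.h₁ z.1 ∧
      (12 * R.e * p : ℤ) ∣ 12 * R.e * T.a₂ z.2 + (t * p + R.delta T) * M.h₁ z.1 := by
  have h2 := (((T.saturation hp (by have := R.e_pos; omega) (R.balanced T hT t)).2.2.1 z hz).mp h)
  have h1 : ((p * (12 * R.e) : ℕ) : ℤ) ∣ T.num₁ (12 * R.e) (t * p + R.delta T) z.1 := h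
  simp only [TorsData.num₁, TorsData.num₂, Finsupp.sub_apply, Finsupp.smul_apply, smul_eq_mul,
    (R.node_count T hp hT hz).2, mul_neg, sub_neg_eq_add, Nat.cast_mul, Nat.cast_ofNat] at h1 h2
  rw [mul_comm (p : ℤ)] at h1 h2
  exact ⟨h1, h2⟩

end RatForm

end MazurDatum

end FermatLib.MazurP

end
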