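import Fermat.Agent.Igusa.MonoFixed
import Fermat.Agent.Galois.MazurP.Grid

/-!
Frames: when the reductions of `g` are `p`-th powers `e₁ ^ p`, `e₂ ^ p`, the reductions of
`L(D + n Px)` are `e⁻¹` times the glued functions.  Two rational lifts of `e⁻¹` in the two charts
differ by a multiple `c • r` of an element whose reduction does not split.
-/

set_option autoImplicit false

noncomputable section

open AlgebraicCurve FermatLib.Igusa FermatLib.Igusa.Mono

namespace FermatLib.MazurP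

universe uL uF uk uKb

namespace MazurDatum

variable {L : Type uL} {k : Type uk} [Field L] [Field k] [IsAlgClosed k] {A : ValuationSubring L}
  {π : A →+* k} {F : Type uF} {Kb : Type uKb} [Field F] [Algebra L F] [Field Kb] [Algebra k Kb]
  {q : ℕ} {M : MazurDatum π F Kb q}

omit [IsAlgClosed k] in
/-- The reductions of a chart space for a shift. -/
theorem mem_sred_space (C : M.Chart) {β₁ β₂ : Lˣ} {D : Divisor L F} {a b : ℕ} {r : Kb × Kb} :
    r ∈ M.sred β₁ β₂ (C.space D a b) ↔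
      rd₂ M.s₁ M.s₂ C.T ^ b * r ∈ M.sred β₁ β₂ (riemannRochSpace (D + (a + b) • M.Px)) := by
  have hT := C.T_int.pow b
  have hTi : Integral₂ M.s₁ M.s₂ ((C.T)⁻¹ ^ b) := C.T_inv_int.pow b
  have hrd := rd₂_pow C.T_int b
  constructor
  · intro hr
    obtain ⟨f, hf, h1, h2, e1, e2⟩ := M.mem_sred.mp hr
    refine M.mem_sred.mpr ⟨C.T ^ b * f, hf, ?_, ?_, ?_, ?_⟩ <;> rw [← mul_smul_comm]
    · exact mul_mem hT.1 h1
    · exact mul_mem hT.2 h2
    · rw [Sheet.rd_mul hT.1 h1, e1, Prod.fst_mul, ← hrd]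
      rfl
    · rw [Sheet.rd_mul hT.2 h2, e2, Prod.snd_mul, ← hrd]
      rfl
  · intro hr
    obtain ⟨g, hg, h1, h2, e1, e2⟩ := M.mem_sred.mp hr
    have hne := pow_ne_zero b C.T_ne
    refine M.mem_sred.mpr ⟨(C.T)⁻¹ ^ b * g, ?_, ?_, ?_, ?_, ?_⟩
    · rw [C.mem_space, inv_pow, mul_inv_cancel_left₀ hne]
      exact hg
    · rw [← mul_smul_comm]
      exact mul_mem hTi.1 h1
    · rw [← mul_smul_comm]
      exact mul_mem hTi.2 h2
    · rw [← mul_smul_comm, Sheet.rd_mul hTi.1 h1, e1, Sheet.rd_pow C.T_inv_int.1,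
        Sheet.rd_inv C.T_int.1 C.rd_T_ne.1, Prod.fst_mul, Prod.pow_fst, inv_pow]
      exact inv_mul_cancel_left₀ (pow_ne_zero _ C.rd_T_ne.1) _
    · rw [← mul_smul_comm, Sheet.rd_mul hTi.2 h2, e2, Sheet.rd_pow C.T_inv_int.2,
        Sheet.rd_inv C.T_int.2 C.rd_T_ne.2, Prod.snd_mul, Prod.pow_snd, inv_pow]
      exact inv_mul_cancel_left₀ (pow_ne_zero _ C.rd_T_ne.2) _

omit [IsAlgClosed k] in
theorem space_le_mid_left (C : M.Chart) (D : Divisor L F) (N : ℕ) :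
    C.space D N 0 ⊔ C.space D 0 N ≤ C.space D N N :=
  sup_le (M.space_le_left C D N N) (M.space_le_right C D N N)

namespace RatForm

variable (R : M.RatForm)

/-- A chart with rational constant. -/
theorem exists_chart : ∃ C : M.Chart, C.c ∈ R.K := by
  obtain ⟨b, hb⟩ := (M.finite_nodes.image fun z => valAt z.1 (M.s₁.rd M.x)).exists_notMem
  obtain ⟨a, haK, rfl⟩ := R.residueK b
  exact ⟨⟨a, a.2, fun z hz h => hb ⟨z, hz, h⟩⟩, haK⟩

variable {R}

omit [IsAlgClosed k] in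
theorem chart_T_mem {C : M.Chart} (hC : C.c ∈ R.K) : C.T ∈ R.FK :=
  sub_mem R.x_mem (R.algebraMap_mem _ hC)

omit [IsAlgClosed k] in
theorem space_rat {C : M.Chart} (hC : C.c ∈ R.K) {D : Divisor L F} (hD : R.IsRat D) (a b : ℕ) :
    C.space D a b ≤ Submodule.span L {f | f ∈ C.space D a b ∧ f ∈ R.FK} := by
  intro f hf
  have hne := pow_ne_zero b C.T_ne
  have h := hD (a + b) (C.mem_space.mp hf)
  have hmap := Submodule.apply_mem_span_image_of_mem_span (LinearMap.mulLeft L (C.T ^ b)⁻¹) h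
  rw [LinearMap.mulLeft_apply, inv_mul_cancel_left₀ hne] at hmap
  refine Submodule.span_mono ?_ hmap
  rintro _ ⟨g, ⟨hg, hgK⟩, rfl⟩
  rw [LinearMap.mulLeft_apply]
  exact ⟨by rw [C.mem_space, mul_inv_cancel_left₀ hne]; exact hg,
    mul_mem (inv_mem (pow_mem (chart_T_mem hC) b)) hgK⟩

omit [IsAlgClosed k] in
theorem sup_rat {V W : Submodule L F} (hV : V ≤ Submodule.span L {f | f ∈ V ∧ f ∈ R.FK})
    (hW : W ≤ Submodule.span L {f | f ∈ W ∧ f ∈ R.FK}) :
    V ⊔ W ≤ Submodule.span L {f | f ∈ V ⊔ W ∧ f ∈ R.FK} :=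
  sup_le (hV.trans (Submodule.span_mono fun _ h => ⟨Submodule.mem_sup_left h.1, h.2⟩))
    (hW.trans (Submodule.span_mono fun _ h => ⟨Submodule.mem_sup_right h.1, h.2⟩))

end RatForm

/-- A frame of torsion data: a balanced rational shift and roots of the reductions of `g`. -/
structure Frame (R : M.RatForm) {p : ℕ} (T : M.TorsData p) where
  t : ℤ
  bal : T.Balanced 1 (R.pw t) 1 0
  e₁ : Kb
  e₂ : Kb
  e₁_ne : e₁ ≠ 0
  e₂_ne : e₂ ≠ 0
  root₁ : T.gb₁ = e₁ ^ p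
  root₂ : T.balK bal • T.gb₂ = e₂ ^ p

namespace Frame

variable {R : M.RatForm} {p : ℕ} {T : M.TorsData p} (Fr : Frame R T)

/-- The pair of roots. -/
def e : Kb × Kb := (Fr.e₁, Fr.e₂)

/-- The inverse pair of roots. -/
def einv : Kb × Kb := (Fr.e₁⁻¹, Fr.e₂⁻¹)

omit [IsAlgClosed k] in
theorem e_mul_einv : Fr.e * Fr.einv = 1 :=
  Prod.ext (mul_inv_cancel₀ Fr.e₁_ne) (mul_inv_cancel₀ Fr.e₂_ne)

omit [IsAlgClosed k] in
theorem e_injective {r r' : Kb × Kb} (h : Fr.e * r = Fr.e * r') : r = r' :=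
  Prod.ext (mul_left_cancel₀ Fr.e₁_ne (congrArg Prod.fst h))
    (mul_left_cancel₀ Fr.e₂_ne (congrArg Prod.snd h))

/-- The reductions of the frame spaces are contained in the glued functions. -/
theorem mul_mem_gl [hp : Fact p.Prime] [CharP k p] {n : ℕ} {r : Kb × Kb}
    (hr : r ∈ M.sred 1 (R.pw Fr.t) (riemannRochSpace (T.D + n • M.Px))) :
    Fr.e * r ∈ M.gl MonoDatum.one' n := by
  have : CharP Kb p := charP_of_injective_algebraMap (algebraMap k Kb).injective p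
  obtain ⟨h1, h2⟩ := T.sred_bound hp.out.ne_zero one_pos Fr.bal hr
  obtain ⟨N, -, hgl⟩ := T.exists_level_elt hp.out.ne_zero Fr.bal hr
  have hpos : 0 < p := hp.out.pos
  have a1 : ∀ v, T.B₁ n 1 0 v = n * M.P₁ v + v.ord Fr.e₁ := fun v => by
    have h : T.a₁ v = p * v.ord Fr.e₁ := by rw [T.a₁_apply, Fr.root₁, ord_pow]
    rw [T.B₁_apply]
    simp [TorsData.num₁, h, hpos.ne']
  have a2 : ∀ v, T.B₂ n 1 0 v = n * M.P₂ v + v.ord Fr.e₂ := fun v => by
    have h : T.a₂ v = p * v.ord Fr.e₂ := by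
      rw [T.a₂_apply, ← ord_pow, ← Fr.root₂, Algebra.smul_def,
        v.ord_mul (by simpa using T.balK_ne Fr.bal) T.gb₂_ne, ord_algebraMap, zero_add]
    rw [T.B₂_apply]
    simp [TorsData.num₂, h, hpos.ne']
  have hbound : ∀ (e r : Kb) (B P : Divisor k Kb), e ≠ 0 → r ∈ riemannRochSpace B →
      (∀ v, B v = n * P v + v.ord e) → e * r ∈ riemannRochSpace (n • P) := by
    intro e r B P he hr hB
    rw [mem_riemannRochSpace_iff]
    intro v
    rcases eq_or_ne r 0 with rfl | h0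
    · exact Or.inl (mul_zero _)
    right
    have := (mem_riemannRochSpace_iff.mp hr v).resolve_left h0
    rw [hB] at this
    rw [v.ord_mul he h0, Finsupp.smul_apply, nsmul_eq_mul]
    omega
  have m1 := hbound Fr.e₁ r.1 _ M.P₁ Fr.e₁_ne h1 a1
  have m2 := hbound Fr.e₂ r.2 _ M.P₂ Fr.e₂_ne h2 a2
  refine M.mem_gl_one.mpr ⟨m1, m2, fun z hz => frobenius_inj k p ?_⟩
  have hv := (M.mem_gl_one.mp hgl).2.2 z hz
  have x1 : T.X₁ 1 0 r.1 = (Fr.e * r).1 ^ p := by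
    simp [TorsData.X₁, e, Fr.root₁, mul_pow, mul_comm]
  have x2 : T.balK Fr.bal • T.X₂ 1 0 r.2 = (Fr.e * r).2 ^ p := by
    simp [TorsData.X₂, e, ← Fr.root₂, mul_pow, mul_comm]
  rw [x1, x2] at hv
  change valAt z.1 ((Fr.e₁ * r.1) ^ p) = valAt z.2 ((Fr.e₂ * r.2) ^ p) at hv
  rw [valAt_pow_reg M.rrK.deg_one (rrSpace_nsmul_le_reg _ _ m1) (M.P₁_of_node hz).1,
    valAt_pow_reg M.rrK.deg_one (rrSpace_nsmul_le_reg _ _ m2)
      ((M.supp _).mp (M.P₁_of_node hz).2)] at hv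
  exact hv

/-- In large level the reductions of the frame spaces are `e⁻¹` times the glued functions. -/
theorem exists_level [hp : Fact p.Prime] [CharP k p] : ∃ N : ℕ, 1 ≤ N ∧
    ∀ (C : M.Chart) (a b : ℕ) (r : Kb × Kb), N ≤ a + b →
      (r ∈ M.sred 1 (R.pw Fr.t) (C.space T.D a b) ↔ Fr.e * r ∈ C.glue a b) := by
  obtain ⟨N, hN, h⟩ := M.exists_level
  refine ⟨N, hN, fun C a b r hab => ?_⟩
  obtain ⟨-, hdeg, hgl⟩ := h _ hab
  set V := riemannRochSpace (T.D + (a + b) • M.Px)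
  have := M.rrF.finite_space (T.D + (a + b) • M.Px)
  have hV : (Module.finrank L V : ℤ) = ((a + b : ℕ) : ℤ) * Divisor.degree M.Px + 1 - M.gF := by
    rw [M.rrF.finrank_space _ (by
      rw [map_add, T.degree_D hp.out.ne_zero, map_nsmul, nsmul_eq_mul]; omega),
      map_add, T.degree_D hp.out.ne_zero, map_nsmul, nsmul_eq_mul, zero_add]
  have : Module.Finite k (M.gl MonoDatum.one' (a + b)) := M.finite_gl _ _
  set φ : ↥(M.sred 1 (R.pw Fr.t) V) →ₗ[k] ↥(M.gl MonoDatum.one' (a + b)) :=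
    ((LinearMap.mulLeft k Fr.e).comp (Submodule.subtype _)).codRestrict _
      fun x => Fr.mul_mem_gl x.2
  have hφ : Function.Injective φ := fun x y e =>
    Subtype.ext (Fr.e_injective (congrArg Subtype.val e))
  have hsurj : Function.Surjective φ := by
    refine (LinearMap.injective_iff_surjective_of_finrank_eq_finrank ?_).mp hφ
    rw [M.finrank_sred]
    exact Int.ofNat.inj (hV.trans (hgl MonoDatum.one').symm)
  rw [mem_sred_space, C.mem_glue, mul_left_comm]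
  refine ⟨fun hr => Fr.mul_mem_gl hr, fun hr => ?_⟩
  obtain ⟨x, hx⟩ := hsurj ⟨_, hr⟩
  rw [← Fr.e_injective (congrArg Subtype.val hx)]
  exact x.2

omit [IsAlgClosed k] in
/-- `g` normalised on the first sheet. -/
theorem pow_mul_mem_space (hp : p ≠ 0) (C : M.Chart) {a b : ℕ} {f : F}
    (hf : f ∈ C.space T.D a b) :
    f ^ p * ((T.γ₁ : L)⁻¹ • T.g) ∈ C.space 0 (p * a) (p * b) := by
  rw [C.mem_space, zero_add, mul_smul_comm, mul_smul_comm]
  refine Submodule.smul_mem _ _ ?_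
  rw [show C.T ^ (p * b) * (f ^ p * T.g) = (C.T ^ b * f) ^ p * T.g by
    rw [mul_pow, ← pow_mul, mul_comm b, mul_assoc], ← mul_add, mul_comm p, mul_nsmul]
  exact pow_mul_mem_rr hp T.g_ne T.div (C.mem_space.mp hf)

omit [IsAlgClosed k] in
/-- Monomials of degree `p` in lattice elements times `g`. -/
theorem rd_monomial {f f' : (M.shift 1 (R.pw Fr.t)).lat} {i : ℕ} (hi : i ≤ p) :
    Integral₂ M.s₁ M.s₂ (((T.γ₁ : L)⁻¹ • T.g) * ((f : F) ^ (p - i) * (f' : F) ^ i)) ∧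
      rd₂ M.s₁ M.s₂ (((T.γ₁ : L)⁻¹ • T.g) * ((f : F) ^ (p - i) * (f' : F) ^ i)) =
        (Fr.e * (M.shift 1 (R.pw Fr.t)).red f) ^ (p - i) *
          (Fr.e * (M.shift 1 (R.pw Fr.t)).red f') ^ i := by
  set β : L := ((R.pw Fr.t : Lˣ) : L)
  have hβ : β ≠ 0 := Units.ne_zero _
  have h1 : ∀ x : (M.shift 1 (R.pw Fr.t)).lat,
      (x : F) ∈ M.s₁.W ∧ M.s₁.rd (x : F) = ((M.shift 1 (R.pw Fr.t)).red x).1 := fun x => by
    have h := x.2.1
    have e : (((1 : Lˣ) : L))⁻¹ • (x : F) = (x : F) := by simp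
    refine ⟨?_, ?_⟩
    · have : (((1 : Lˣ) : L))⁻¹ • (x : F) ∈ M.s₁.W := h
      rwa [e] at this
    · show _ = M.s₁.rd ((((1 : Lˣ) : L))⁻¹ • (x : F))
      rw [e]
  have h2 : ∀ x : (M.shift 1 (R.pw Fr.t)).lat,
      β⁻¹ • (x : F) ∈ M.s₂.W ∧ M.s₂.rd (β⁻¹ • (x : F)) = ((M.shift 1 (R.pw Fr.t)).red x).2 :=
    fun x => ⟨x.2.2, rfl⟩
  obtain ⟨a1, a2⟩ := h1 f
  obtain ⟨b1, b2⟩ := h1 f'
  obtain ⟨c1, c2⟩ := h2 f
  obtain ⟨d1, d2⟩ := h2 f'
  have heq : ((T.γ₁ : L)⁻¹ • T.g) * ((f : F) ^ (p - i) * (f' : F) ^ i) =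
      T.balC 1 (R.pw Fr.t) 1 0 •
        (((T.γ₂ : L)⁻¹ • T.g) * ((β⁻¹ • (f : F)) ^ (p - i) * (β⁻¹ • (f' : F)) ^ i)) := by
    simp only [smul_pow, smul_smul, smul_mul_assoc, mul_smul_comm, inv_pow,
      ← mul_inv, ← pow_add, TorsData.balC, Units.val_one, one_pow, one_mul,
      mul_one, zpow_zero, pow_one]
    congr 1
    have h0 := pow_ne_zero p hβ
    field_simp
    rw [Nat.add_sub_cancel' hi]
  have hC := (A.valuation_le_one_iff _).mp (T.valuation_balC Fr.bal).le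
  have hm2 := mul_mem (pow_mem c1 (p - i)) (pow_mem d1 i)
  have hm1 := mul_mem (pow_mem a1 (p - i)) (pow_mem b1 i)
  refine ⟨⟨mul_mem T.g_mem₁ hm1, ?_⟩, Prod.ext ?_ ?_⟩
  · rw [heq]
    exact Sheet.smul_mem hC (mul_mem T.g_mem₂ hm2)
  · show M.s₁.rd _ = _
    rw [Sheet.rd_mul T.g_mem₁ hm1, Sheet.rd_mul (pow_mem a1 _) (pow_mem b1 _), Sheet.rd_pow a1,
      Sheet.rd_pow b1, a2, b2]
    show T.gb₁ * _ = _
    simp only [Fr.root₁, e, Prod.fst_mul, Prod.pow_fst, mul_pow]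
    rw [mul_mul_mul_comm, ← pow_add, Nat.sub_add_cancel hi]
  · show M.s₂.rd _ = _
    rw [heq, Sheet.rd_smul hC (mul_mem T.g_mem₂ hm2), Sheet.rd_mul T.g_mem₂ hm2,
      Sheet.rd_mul (pow_mem c1 _) (pow_mem d1 _), Sheet.rd_pow c1, Sheet.rd_pow d1, c2, d2]
    show T.balK Fr.bal • (T.gb₂ * _) = _
    rw [← smul_mul_assoc, Fr.root₂]
    simp only [e, Prod.snd_mul, Prod.pow_snd, mul_pow]
    rw [mul_mul_mul_comm, ← pow_add, Nat.sub_add_cancel hi]

omit [IsAlgClosed k] in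
theorem einv_mem_glue {C : M.Chart} {a b : ℕ} (h : (1 : Kb × Kb) ∈ C.glue a b) :
    Fr.e * Fr.einv ∈ C.glue a b := by rw [Fr.e_mul_einv]; exact h

/-- The two lifts of `e⁻¹` and the element which does not split. -/
structure Gap (C : M.Chart) (N : ℕ) where
  h : (M.shift 1 (R.pw Fr.t)).lat
  h' : (M.shift 1 (R.pw Fr.t)).lat
  r : (M.shift 1 (R.pw Fr.t)).lat
  c : L
  h_mem : (h : F) ∈ C.space T.D N 0
  h'_mem : (h' : F) ∈ C.space T.D 0 N
  h_rat : (h : F) ∈ R.FK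
  h'_rat : (h' : F) ∈ R.FK
  r_rat : (r : F) ∈ R.FK
  r_mem : (r : F) ∈ C.space T.D N 0 ⊔ C.space T.D 0 N
  red_h : (M.shift 1 (R.pw Fr.t)).red h = Fr.einv
  red_h' : (M.shift 1 (R.pw Fr.t)).red h' = Fr.einv
  c_mem : c ∈ R.K
  c_ne : c ≠ 0
  c_small : A.valuation c ≤ A.valuation R.ϖ
  diff : (h : F) - h' = c • (r : F)
  w_mem : Fr.e * (M.shift 1 (R.pw Fr.t)).red r ∈ C.glue N N
  not_split : ∀ K, Fr.e * (M.shift 1 (R.pw Fr.t)).red r ∉ C.glue K 0 ⊔ C.glue 0 K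

theorem exists_gap [hp : Fact p.Prime] [CharP k p] (hT : R.IsRatTors T)
    (hnp : ¬ (∃ f : F, f ≠ 0 ∧ ∀ v, T.D v = v.ord f)) {C : M.Chart} (hC : C.c ∈ R.K) :
    ∃ N₀ : ℕ, ∀ N, N₀ ≤ N → Nonempty (Fr.Gap C N) := by
  classical
  obtain ⟨N₁, hN₁, hlev⟩ := Fr.exists_level
  obtain ⟨N₂, hN₂, hglue⟩ := M.exists_level_glue
  refine ⟨max N₁ N₂, fun N hN => ?_⟩
  rw [max_le_iff] at hN
  set S := M.shift 1 (R.pw Fr.t)
  set P := C.space T.D N 0
  set Q := C.space T.D 0 N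
  have : FiniteDimensional L P := (C.space_equiv T.D N 0).1
  have : FiniteDimensional L Q := (C.space_equiv T.D 0 N).1
  have hbot : P ⊓ Q = ⊥ := by
    rw [eq_bot_iff]
    intro f hf
    rw [Submodule.mem_bot]
    by_contra hf0
    have hmem := mem_riemannRochSpace_iff.mp (M.space_inter C hf.1 hf.2)
    obtain ⟨E, hE, hE0⟩ := M.rrF.exists_div hf0
    have hle : 0 ≤ T.D + E := Finsupp.le_def.mpr fun v => by
      have := (hmem v).resolve_left hf0
      rw [Finsupp.add_apply, Finsupp.coe_zero, Pi.zero_apply, hE]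
      omega
    have heq := eq_of_le_of_degree_eq M.rrF.deg_one hle (by
      rw [map_zero, map_add, hE0, T.degree_D hp.out.ne_zero, add_zero])
    refine hnp ⟨f⁻¹, inv_ne_zero hf0, fun v => ?_⟩
    have := DFunLike.congr_fun heq v
    rw [Finsupp.coe_zero, Pi.zero_apply, Finsupp.add_apply, hE] at this
    rw [v.ord_inv]
    omega
  have hone : ∀ a b, N₂ ≤ a + b → (1 : Kb × Kb) ∈ C.glue a b := fun a b hab => by
    rw [← hglue C a b hab]
    exact ⟨1, M.one_mem_space C a b, integral₂_one, rd₂_one⟩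
  have hinf : S.redSpace P ⊓ S.redSpace Q = k ∙ Fr.einv := by
    refine le_antisymm (fun x hx => ?_) ?_
    · obtain ⟨a, b, hab, heq⟩ :=
        C.glue_inter ((hlev C N 0 x (by omega)).mp hx.1) ((hlev C 0 N x (by omega)).mp hx.2)
      rw [← heq M.nodes_nonempty] at hab
      have hxe : x = a • Fr.einv := Fr.e_injective (by
        rw [mul_smul_comm, Fr.e_mul_einv, hab]
        simp [Algebra.algebraMap_eq_smul_one, Prod.ext_iff])
      rw [hxe]
      exact Submodule.smul_mem _ a (Submodule.mem_span_singleton_self _)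
    · rw [Submodule.span_singleton_le_iff_mem]
      exact ⟨(hlev C N 0 _ (by omega)).mpr (Fr.einv_mem_glue (hone _ _ (by omega))),
        (hlev C 0 N _ (by omega)).mpr (Fr.einv_mem_glue (hone _ _ (by omega)))⟩
  have hne : Fr.einv ≠ 0 := fun h => inv_ne_zero Fr.e₁_ne (congrArg Prod.fst h)
  have f1 := Submodule.finrank_sup_add_finrank_inf_eq P Q
  have f2 := Submodule.finrank_sup_add_finrank_inf_eq (S.redSpace P) (S.redSpace Q)
  rw [hbot, finrank_bot, add_zero] at f1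
  rw [hinf, finrank_span_singleton hne, S.finrank_redSpace, S.finrank_redSpace] at f2
  have hratP := RatForm.space_rat hC hT.rat N 0
  have hratQ := RatForm.space_rat hC hT.rat 0 N
  have hlt : S.redSpace P ⊔ S.redSpace Q < S.redSpace (P ⊔ Q) := by
    refine lt_of_le_of_ne (sup_le (S.redSpace_mono le_sup_left) (S.redSpace_mono le_sup_right))
      fun h => ?_
    have h3 := S.finrank_redSpace (P ⊔ Q)
    rw [← h] at h3
    omega
  obtain ⟨x, hx, hxn⟩ := SetLike.exists_of_lt hlt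
  have h1K : ((1 : Lˣ) : L) ∈ R.K := by simp [one_mem]
  have hlift : ∀ (V : Submodule L F) [FiniteDimensional L V],
      V ≤ Submodule.span L {f | f ∈ V ∧ f ∈ R.FK} → ∀ x ∈ S.redSpace V,
      ∃ f : S.lat, (f : F) ∈ V ∧ (f : F) ∈ R.FK ∧ S.red f = x := by
    intro V _ hV x hx
    obtain ⟨f, hf, hfK, g1, g2, i1, i2⟩ := R.exists_rat_lift h1K (R.zpow_ϖ_mem_K Fr.t) V hV hx
    exact ⟨⟨f, g1, g2⟩, hf, hfK, Prod.ext i1 i2⟩
  obtain ⟨r, hrm, hrK, hrx⟩ := hlift (P ⊔ Q) (RatForm.sup_rat hratP hratQ) x hx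
  obtain ⟨h₀, hh₀, hh₀K, hh₀r⟩ := hlift P hratP Fr.einv
    (hinf.ge (Submodule.mem_span_singleton_self _)).1
  obtain ⟨h₀', hh₀', hh₀K', hh₀r'⟩ := hlift Q hratQ Fr.einv
    (hinf.ge (Submodule.mem_span_singleton_self _)).2
  let b := Module.finBasis k ↥(S.redSpace P ⊔ S.redSpace Q)
  choose p₁ hp₁ p₂ hp₂ hp12 using fun j => Submodule.mem_sup.mp (b j).2
  choose u₁ hu₁ hu₁K hu₁r using fun j => hlift P hratP (p₁ j) (hp₁ j)
  choose u₂ hu₂ hu₂K hu₂r using fun j => hlift Q hratQ (p₂ j) (hp₂ j)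
  set fam : Option (Fin (Module.finrank k ↥(S.redSpace P ⊔ S.redSpace Q))) → S.lat :=
    fun o => o.elim r fun j => u₁ j + u₂ j
  have hfr : ∀ j, S.red (u₁ j + u₂ j) = (b j : Kb × Kb) := fun j => by
    rw [map_add, hu₁r, hu₂r, hp12]
  have hli : LinearIndependent k fun o => S.red (fam o) := by
    rw [linearIndependent_option]
    refine ⟨?_, ?_⟩
    · have : LinearIndependent k (fun j => (b j : Kb × Kb)) :=
        b.linearIndependent.map' (Submodule.subtype _) (Submodule.ker_subtype _)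
      simpa [Function.comp_def, fam, hfr] using this
    · intro hmem
      refine hxn ((Submodule.span_le.mpr ?_) (hrx ▸ hmem : x ∈ _))
      rintro _ ⟨j, rfl⟩
      simp only [Function.comp_apply, fam, Option.elim_some, hfr]
      exact (b j).2
  have hspan : Submodule.span L (Set.range fun o => (fam o : F)) = P ⊔ Q := by
    refine Submodule.eq_of_le_of_finrank_eq (Submodule.span_le.mpr ?_) ?_
    · rintro _ ⟨(_ | j), rfl⟩
      exacts [hrm, Submodule.add_mem_sup (hu₁ j) (hu₂ j)]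
    · rw [finrank_span_eq_card (S.linearIndependent_of_red hli), Fintype.card_option,
        Fintype.card_fin]
      have := Submodule.finrank_lt_finrank_of_lt hlt
      rw [S.finrank_redSpace] at this
      omega
  have hd : (h₀ : F) - h₀' ∈ P ⊔ Q :=
    sub_mem (Submodule.mem_sup_left hh₀) (Submodule.mem_sup_right hh₀')
  rw [← hspan, Submodule.mem_span_range_iff_exists_fun] at hd
  obtain ⟨l, hl⟩ := hd
  have hlK := R.coeff_mem_K (e := fun o => (fam o : F)) (fun o => by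
    rcases o with _ | j
    exacts [hrK, add_mem (hu₁K j) (hu₂K j)]) (S.linearIndependent_of_red hli) (c := l)
    (by rw [hl]; exact sub_mem hh₀K hh₀K')
  have hlA := S.coeff_mem hli (f := h₀ - h₀') hl.symm
  have hl0 : ∀ o, π ⟨l o, hlA o⟩ = 0 := by
    refine Fintype.linearIndependent_iff.mp hli _ ?_
    rw [← S.red_eq_sum (a := fun o => ⟨l o, hlA o⟩) (f := h₀ - h₀') hl.symm, map_sub, hh₀r, hh₀r',
      sub_self]
  set v₁ : S.lat := ∑ j, S.amul ⟨l (some j), hlA _⟩ (u₁ j)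
  set v₂ : S.lat := ∑ j, S.amul ⟨l (some j), hlA _⟩ (u₂ j)
  have hv₁ : (v₁ : F) = ∑ j, l (some j) • (u₁ j : F) := by
    simp only [v₁, AddSubmonoidClass.coe_finsetSum, LatRed.coe_amul]
  have hv₂ : (v₂ : F) = ∑ j, l (some j) • (u₂ j : F) := by
    simp only [v₂, AddSubmonoidClass.coe_finsetSum, LatRed.coe_amul]
  have hdiff : ((h₀ - v₁ : S.lat) : F) - ((h₀' + v₂ : S.lat) : F) = l none • (r : F) := by
    have e := hl
    simp only [Fintype.sum_option, fam, Option.elim_none, Option.elim_some, AddSubgroup.coe_add,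
      smul_add, Finset.sum_add_distrib] at e
    rw [AddSubgroupClass.coe_sub, AddSubgroup.coe_add, hv₁, hv₂,
      show (h₀ : F) - ∑ j, l (some j) • (u₁ j : F) - ((h₀' : F) + ∑ j, l (some j) • (u₂ j : F)) =
        ((h₀ : F) - h₀') - (∑ j, l (some j) • (u₁ j : F) + ∑ j, l (some j) • (u₂ j : F)) by abel,
      ← e]
    abel
  have hvP : (v₁ : F) ∈ P := hv₁ ▸ Submodule.sum_mem _ fun j _ => P.smul_mem _ (hu₁ j)
  have hvQ : (v₂ : F) ∈ Q := hv₂ ▸ Submodule.sum_mem _ fun j _ => Q.smul_mem _ (hu₂ j)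
  have hr1 : S.red (h₀ - v₁) = Fr.einv := by
    simp [v₁, hh₀r, hl0]
  have hr2 : S.red (h₀' + v₂) = Fr.einv := by
    simp [v₂, hh₀r', hl0]
  have hc0 : l none ≠ 0 := by
    intro h0
    rw [h0, zero_smul, sub_eq_zero] at hdiff
    have hmem : ((h₀ - v₁ : S.lat) : F) ∈ P ⊓ Q :=
      ⟨P.sub_mem hh₀ hvP, hdiff ▸ Q.add_mem hh₀' hvQ⟩
    rw [hbot, Submodule.mem_bot] at hmem
    have h00 : (h₀ - v₁ : S.lat) = 0 := Subtype.ext hmem
    exact hne (by rw [← hr1, h00, map_zero])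
  refine ⟨⟨h₀ - v₁, h₀' + v₂, r, l none, P.sub_mem hh₀ hvP, Q.add_mem hh₀' hvQ,
    sub_mem hh₀K (hv₁ ▸ sum_mem fun j _ => R.smul_mem_FK (hlK _) (hu₁K j)),
    add_mem hh₀K' (hv₂ ▸ sum_mem fun j _ => R.smul_mem_FK (hlK _) (hu₂K j)),
    hrK, hrm, hr1, hr2, hlK none, hc0, ?_, hdiff, ?_, ?_⟩⟩
  · obtain ⟨z, hz⟩ := R.valueK _ (hlK none) hc0
    have hlt1 : A.valuation (l none) < 1 := by
      refine lt_of_le_of_ne ((A.valuation_le_one_iff _).mpr (hlA none)) fun h1 => ?_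
      exact (M.π_eq_zero _).mp (hl0 none) ((A.valuation_eq_one_iff _).mpr h1)
    rw [hz, ← zpow_zero (A.valuation R.ϖ), R.zpow_ϖ_lt_iff] at hlt1
    rw [hz]
    conv_rhs => rw [← zpow_one (A.valuation R.ϖ)]
    exact R.zpow_ϖ_le_iff.mpr (by omega)
  · exact (hlev C N N _ (by omega)).mp
      (S.red_mem_redSpace (space_le_mid_left C T.D N hrm))
  · intro K hK
    obtain ⟨f₁, hf₁, f₂, hf₂, hsum⟩ := Submodule.mem_sup.mp hK
    have hw := (hlev C N N _ (by omega)).mp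
      (S.red_mem_redSpace (space_le_mid_left C T.D N hrm))
    obtain ⟨g1, g2⟩ := C.glue_split hw hf₁ hf₂ hsum.symm
    refine hxn ?_
    have hback : ∀ {f : Kb × Kb}, Fr.e * (Fr.einv * f) = f := fun {f} => by
      rw [← mul_assoc, Fr.e_mul_einv, one_mul]
    rw [← hrx, show S.red r = Fr.einv * f₁ + Fr.einv * f₂ from Fr.e_injective (by
      rw [mul_add, hback, hback, hsum])]
    exact Submodule.add_mem_sup ((hlev C N 0 _ (by omega)).mpr (by rw [hback]; exact g1))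
      ((hlev C 0 N _ (by omega)).mpr (by rw [hback]; exact g2))

end Frame

end MazurDatum

end FermatLib.MazurP

end
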