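import Fermat.Agent.Galois.MazurP.HeckeStep
import Fermat.Agent.Galois.MazurP.Frames

/-!
The tame case: a torsion divisor rational over an unramified form and killed by a non-Eisenstein
operator is principal.
-/

set_option autoImplicit false

noncomputable section

open AlgebraicCurve FermatLib.Igusa FermatLib.Igusa.Mono

namespace FermatLib.MazurP

universe uL uF uk uKb

/-- The difference of two `p`-th powers weighted by `G`, with the leading terms separated. -/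
theorem exists_pow_diff {L k F Kb : Type*} [Field L] [Field F] [Algebra L F] [Field k] [Field Kb]
    [Algebra k Kb] {A : ValuationSubring L} {π : A →+* k} {s₁ s₂ : Sheet π F Kb} {p : ℕ}
    (hp : p.Prime) {G h' r : F} {w : Kb × Kb}
    (hM : ∀ i, i ≤ p → Integral₂ s₁ s₂ (G * (h' ^ (p - i) * r ^ i)) ∧
      rd₂ s₁ s₂ (G * (h' ^ (p - i) * r ^ i)) = w ^ i)
    {c : L} (hc : c ∈ A) (hc0 : π ⟨c, hc⟩ = 0) :
    ∃ Z : F, Integral₂ s₁ s₂ Z ∧ rd₂ s₁ s₂ Z = w ∧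
      G * (h' + c • r) ^ p - G * h' ^ p = ((p : L) * c) • Z + c ^ p • (G * r ^ p) := by
  classical
  have hp2 := hp.two_le
  set a : ℕ → L := fun i => ((p.choose i / p : ℕ) : L) * c ^ (i - 1) with ha
  have haA : ∀ i, a i ∈ A := fun i => mul_mem (natCast_mem A _) (pow_mem hc _)
  refine ⟨∑ i ∈ Finset.Ico 1 p, a i • (G * (h' ^ (p - i) * r ^ i)),
    Integral₂.sum _ fun i hi => (hM i (Finset.mem_Ico.mp hi).2.le).1.smul (haA i), ?_, ?_⟩
  · rw [rd₂_sum _ _ fun i hi => (hM i (Finset.mem_Ico.mp hi).2.le).1.smul (haA i),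
      Finset.sum_eq_single 1]
    · have h1 : a 1 = 1 := by simp [ha, Nat.div_self hp.pos]
      rw [rd₂_smul (haA 1) (hM 1 hp.one_lt.le).1, (hM 1 hp.one_lt.le).2, pow_one,
        show (⟨a 1, haA 1⟩ : A) = 1 from Subtype.ext h1, map_one, one_smul]
    · intro i hi hne
      obtain ⟨h1, h2⟩ := Finset.mem_Ico.mp hi
      rw [rd₂_smul (haA i) (hM i h2.le).1,
        show (⟨a i, haA i⟩ : A) = ⟨_, natCast_mem A (p.choose i / p)⟩ * ⟨c, hc⟩ ^ (i - 1) from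
          Subtype.ext rfl, map_mul, map_pow, hc0, zero_pow (by omega), mul_zero, zero_smul]
    · exact fun h => absurd (Finset.mem_Ico.mpr ⟨le_rfl, hp.one_lt⟩) h
  · have hterm : ∀ i ∈ Finset.Ico 1 p, ((p : L) * c) • (a i • (G * (h' ^ (p - i) * r ^ i))) =
        G * ((c • r) ^ i * h' ^ (p - i) * (p.choose i : F)) := by
      intro i hi
      obtain ⟨h1, h2⟩ := Finset.mem_Ico.mp hi
      have hd : p * (p.choose i / p) = p.choose i :=
        Nat.mul_div_cancel' (hp.dvd_choose_self (by omega) h2)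
      have he : (p : L) * c * a i = (p.choose i : L) * c ^ i := by
        rw [ha, mul_mul_mul_comm, ← Nat.cast_mul, hd, ← pow_succ', Nat.sub_add_cancel h1]
      rw [smul_smul, he, Algebra.smul_def, Algebra.smul_def, mul_pow, map_mul, map_natCast,
        map_pow]
      ring
    rw [Finset.smul_sum, Finset.sum_congr rfl hterm, add_comm h', add_pow,
      Finset.sum_range_succ, Finset.mul_sum (Finset.Ico 1 p) _ G |>.symm,
      Finset.range_eq_Ico, Finset.sum_eq_sum_Ico_succ_bot hp.pos]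
    simp only [Nat.sub_zero, Nat.choose_zero_right, Nat.cast_one, mul_one, pow_zero, one_mul,
      Nat.sub_self, Nat.choose_self, zero_add, smul_pow]
    rw [mul_add, mul_add, mul_smul_comm]
    abel

namespace MazurDatum

variable {L : Type uL} {k : Type uk} [Field L] [Field k] [IsAlgClosed k] {A : ValuationSubring L}
  {π : A →+* k} {F : Type uF} {Kb : Type uKb} [Field F] [Algebra L F] [Field Kb] [Algebra k Kb]
  {q : ℕ} {M : MazurDatum π F Kb q}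

namespace RatForm

variable (R : M.RatForm) {p : ℕ} (T : M.TorsData p)

omit [IsAlgClosed k] in
theorem frame_balanced (hT : R.IsRatTors T) {t : ℤ} (ht : t * p + R.delta T = 0) :
    T.Balanced 1 (R.pw t) 1 0 := by
  have h0 := (valuation_ϖ_pos R).ne'
  unfold TorsData.Balanced
  rw [R.valuation_γ₂ T hT, coe_pw, map_zpow₀]
  simp only [Units.val_one, map_one, one_pow, one_mul, mul_one, pow_one, mul_zero, zpow_zero]
  rw [mul_left_comm, ← zpow_natCast, ← zpow_mul, ← zpow_add₀ h0, ht, zpow_zero, mul_one]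

omit [IsAlgClosed k] in
/-- Frames from roots. -/
theorem exists_frame [IsAlgClosed k] (hp : p ≠ 0) (hT : R.IsRatTors T) {t : ℤ}
    (ht : t * p + R.delta T = 0) {e₁ e₂ : Kb} (h₁ : e₁ ≠ 0) (h₂ : e₂ ≠ 0) (r₁ : T.gb₁ = e₁ ^ p)
    (r₂ : T.gb₂ = e₂ ^ p) : ∃ Fr : Frame R T, Fr.t = t := by
  set hb := R.frame_balanced T hT ht
  obtain ⟨ν, hν⟩ := IsAlgClosed.exists_pow_nat_eq (T.balK hb) (Nat.pos_of_ne_zero hp)
  have hν0 : ν ≠ 0 := by
    rintro rfl
    exact T.balK_ne hb (by rw [← hν, zero_pow hp])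
  refine ⟨⟨t, hb, e₁, ν • e₂, h₁, smul_ne_zero hν0 h₂, r₁, ?_⟩, rfl⟩
  rw [smul_pow, hν, r₂]

end RatForm

namespace Frame

variable {R : M.RatForm} {p : ℕ} {T : M.TorsData p} {Fr : Frame R T} {C : M.Chart} {N : ℕ}
  (Gp : Fr.Gap C N)

/-- The element whose reduction does not split. -/
def Gap.w : Kb × Kb := Fr.e * (M.shift 1 (R.pw Fr.t)).red Gp.r

omit [IsAlgClosed k] in
theorem Gap.monomial {i : ℕ} (hi : i ≤ p) :
    Integral₂ M.s₁ M.s₂ (((T.γ₁ : L)⁻¹ • T.g) * ((Gp.h' : F) ^ (p - i) * (Gp.r : F) ^ i)) ∧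
      rd₂ M.s₁ M.s₂ (((T.γ₁ : L)⁻¹ • T.g) * ((Gp.h' : F) ^ (p - i) * (Gp.r : F) ^ i)) =
        Gp.w ^ i := by
  obtain ⟨h1, h2⟩ := Fr.rd_monomial (f := Gp.h') (f' := Gp.r) hi
  refine ⟨h1, h2.trans ?_⟩
  rw [Gp.red_h', Fr.e_mul_einv, one_pow, one_mul]
  rfl

omit [IsAlgClosed k] in
theorem Gap.c_lt_one : A.valuation Gp.c < 1 := Gp.c_small.trans_lt R.valuation_ϖ_lt_one

omit [IsAlgClosed k] in
theorem Gap.c_mem_A : Gp.c ∈ A := (A.valuation_le_one_iff _).mp Gp.c_lt_one.le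

omit [IsAlgClosed k] in
theorem Gap.π_c : π ⟨Gp.c, Gp.c_mem_A⟩ = 0 :=
  M.res_eq_zero _ fun hu => Gp.c_lt_one.ne ((A.valuation_eq_one_iff _).mp hu)

omit [IsAlgClosed k] in
/-- The weighted difference of powers lies in the sum of the chart spaces of level `p N`. -/
theorem Gap.diff_mem (hp : p ≠ 0) :
    ((T.γ₁ : L)⁻¹ • T.g) * ((Gp.h' : F) + Gp.c • (Gp.r : F)) ^ p -
        ((T.γ₁ : L)⁻¹ • T.g) * (Gp.h' : F) ^ p ∈
      C.space 0 (p * N) 0 ⊔ C.space 0 0 (p * N) := by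
  rw [← Gp.diff, add_sub_cancel, mul_comm _ ((Gp.h : F) ^ p), mul_comm _ ((Gp.h' : F) ^ p)]
  have h1 := pow_mul_mem_space hp C Gp.h_mem
  have h2 := pow_mul_mem_space hp C Gp.h'_mem
  rw [mul_zero] at h1 h2
  exact sub_mem (Submodule.mem_sup_left h1) (Submodule.mem_sup_right h2)

omit [IsAlgClosed k] in
/-- When `c ^ (p - 1) / p` is integral, `w + m w ^ p` splits. -/
theorem Gap.split_small (hp : p.Prime) (hpL : (p : L) ≠ 0)
    (hsplit : ∀ x ∈ M.red (C.space 0 (p * N) 0 ⊔ C.space 0 0 (p * N)),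
      x ∈ C.glue (p * N) 0 ⊔ C.glue 0 (p * N))
    (hm : Gp.c ^ (p - 1) / (p : L) ∈ A) :
    Gp.w + π ⟨_, hm⟩ • Gp.w ^ p ∈ C.glue (p * N) 0 ⊔ C.glue 0 (p * N) := by
  obtain ⟨Z, hZ, hZr, heq⟩ := exists_pow_diff hp (fun i hi => Gp.monomial hi) Gp.c_mem_A Gp.π_c
  obtain ⟨hP, hPr⟩ := Gp.monomial le_rfl
  rw [Nat.sub_self, pow_zero, one_mul] at hP hPr
  refine hsplit _ ⟨Z + (Gp.c ^ (p - 1) / (p : L)) • (((T.γ₁ : L)⁻¹ • T.g) * (Gp.r : F) ^ p), ?_,
    hZ.add (hP.smul hm), by rw [rd₂_add hZ (hP.smul hm), rd₂_smul hm hP, hZr, hPr]⟩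
  have hpc : (p : L) * Gp.c ≠ 0 := mul_ne_zero hpL Gp.c_ne
  have hd := Gp.diff_mem hp.ne_zero
  rw [heq] at hd
  have := Submodule.smul_mem _ ((p : L) * Gp.c)⁻¹ hd
  rwa [smul_add, inv_smul_smul₀ hpc, smul_smul, show ((p : L) * Gp.c)⁻¹ * Gp.c ^ p =
    Gp.c ^ (p - 1) / (p : L) by
      rw [show Gp.c ^ p = Gp.c ^ (p - 1) * Gp.c by
        rw [← pow_succ, Nat.sub_add_cancel hp.one_lt.le]]
      field_simp [hpL, Gp.c_ne]] at this

omit [IsAlgClosed k] in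
/-- When `p / c ^ (p - 1)` is integral, `w ^ p + m w` splits. -/
theorem Gap.split_large (hp : p.Prime)
    (hsplit : ∀ x ∈ M.red (C.space 0 (p * N) 0 ⊔ C.space 0 0 (p * N)),
      x ∈ C.glue (p * N) 0 ⊔ C.glue 0 (p * N))
    (hm : (p : L) / Gp.c ^ (p - 1) ∈ A) :
    π ⟨_, hm⟩ • Gp.w + Gp.w ^ p ∈ C.glue (p * N) 0 ⊔ C.glue 0 (p * N) := by
  obtain ⟨Z, hZ, hZr, heq⟩ := exists_pow_diff hp (fun i hi => Gp.monomial hi) Gp.c_mem_A Gp.π_c
  obtain ⟨hP, hPr⟩ := Gp.monomial le_rfl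
  rw [Nat.sub_self, pow_zero, one_mul] at hP hPr
  refine hsplit _ ⟨((p : L) / Gp.c ^ (p - 1)) • Z + ((T.γ₁ : L)⁻¹ • T.g) * (Gp.r : F) ^ p, ?_,
    (hZ.smul hm).add hP, by rw [rd₂_add (hZ.smul hm) hP, rd₂_smul hm hZ, hZr, hPr]⟩
  have hcp : Gp.c ^ p ≠ 0 := pow_ne_zero _ Gp.c_ne
  have hd := Gp.diff_mem hp.ne_zero
  rw [heq] at hd
  have := Submodule.smul_mem _ (Gp.c ^ p)⁻¹ hd
  rwa [smul_add, inv_smul_smul₀ hcp, smul_smul, show (Gp.c ^ p)⁻¹ * ((p : L) * Gp.c) =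
    (p : L) / Gp.c ^ (p - 1) by
      rw [show Gp.c ^ p = Gp.c ^ (p - 1) * Gp.c by
        rw [← pow_succ, Nat.sub_add_cancel hp.one_lt.le]]
      field_simp [Gp.c_ne]] at this

omit [IsAlgClosed k] in
/-- If `|c| ^ (p - 1) < |p|` the gap is contradictory. -/
theorem Gap.false_of_small (hp : p.Prime) (hpL : (p : L) ≠ 0)
    (hsplit : ∀ x ∈ M.red (C.space 0 (p * N) 0 ⊔ C.space 0 0 (p * N)),
      x ∈ C.glue (p * N) 0 ⊔ C.glue 0 (p * N))
    (hc : A.valuation Gp.c ^ (p - 1) < A.valuation (p : L)) : False := by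
  have hlt : A.valuation (Gp.c ^ (p - 1) / (p : L)) < 1 := by
    rw [map_div₀, map_pow, div_lt_one₀ (zero_lt_iff.mpr (by simpa using hpL))]
    exact hc
  have hm := (A.valuation_le_one_iff _).mp hlt.le
  have h := Gp.split_small hp hpL hsplit hm
  have h0 : π ⟨_, hm⟩ = 0 :=
    M.res_eq_zero _ fun hu => hlt.ne ((A.valuation_eq_one_iff _).mp hu)
  rw [h0, zero_smul, add_zero] at h
  exact Gp.not_split _ h

end Frame

theorem exists_split_level {p : ℕ} (hp : p ≠ 0) : ∃ N₀ : ℕ, ∀ (C : M.Chart) (N : ℕ), N₀ ≤ N →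
    ∀ x ∈ M.red (C.space 0 (p * N) 0 ⊔ C.space 0 0 (p * N)),
      x ∈ C.glue (p * N) 0 ⊔ C.glue 0 (p * N) := by
  obtain ⟨N₀, h⟩ := M.exists_red_sup
  exact ⟨N₀, fun C N hN x hx =>
    h C (p * N) (hN.trans (Nat.le_mul_of_pos_left _ (Nat.pos_of_ne_zero hp))) ▸ hx⟩

/-- The tame case of the abstract principle. -/
theorem principalTame [hq : Fact q.Prime] [CharP k q] (hq2 : q ≠ 2) : M.PrincipalTame := by
  intro R he hR T hT O hO heis hmod hkill
  by_contra hnp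
  have hq0 : q ≠ 0 := hq.out.ne_zero
  have hq3 : 2 < q := lt_of_le_of_ne hq.out.two_le hq2.symm
  obtain ⟨d₁, d₂, s, hs⟩ := dvd_a_of_kills T O hO hq.out hq2 heis hmod (R.delta T)
    (fun v hv => R.off_nodes₁ T hq0 hT hv) (fun v hv => (R.off_nodes₂ T hq0 hT hv).2)
    (fun z hz => R.h₁_dvd_twelve he hR hz) fun z hz => by
      obtain ⟨t, ht⟩ := R.exists_freeAt T hq0 hT hR hz
      refine ⟨t, ?_⟩
      have h := R.free_congr T hq0 hT hz ht
      rwa [he, Nat.cast_one, mul_one] at h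
  obtain ⟨e₁, e₂, he₁, he₂, r₁, r₂⟩ := exists_roots T hkill hq0 d₁ d₂
  obtain ⟨Fr, -⟩ := R.exists_frame T hq0 hT (t := -s) (by rw [hs]; ring) he₁ he₂ r₁ r₂
  obtain ⟨C, hC⟩ := R.exists_chart
  obtain ⟨N₁, h₁⟩ := Fr.exists_gap hT hnp hC
  obtain ⟨N₂, h₂⟩ := M.exists_split_level hq0
  obtain ⟨Gp⟩ := h₁ (N₁ + N₂) (by omega)
  refine Gp.false_of_small hq.out M.q_ne (h₂ C (N₁ + N₂) (by omega)) ?_
  have hc := Gp.c_small
  have hϖ := R.ϖ_pow
  rw [he, pow_one] at hϖ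
  rw [hϖ] at hc
  calc A.valuation Gp.c ^ (q - 1) ≤ A.valuation (q : L) ^ (q - 1) := pow_le_pow_left' hc _
    _ < A.valuation (q : L) := pow_lt_self_of_lt_one₀ (zero_lt_iff.mpr (by simpa using M.q_ne))
        M.q_small (by omega)

end MazurDatum

end FermatLib.MazurP

end
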