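import Fermat.Agent.Galois.MazurP.SigmaStep

/-!
The wild case: a torsion divisor rational over a form with ramification index `q` obtained from an
unramified one by a little move, and killed by a non-Eisenstein operator, is principal.  The move
turns the gap between the two lifts of `e⁻¹` into a second relation `w + μ w ^ q`.
-/

set_option autoImplicit false

noncomputable section

open AlgebraicCurve FermatLib.Igusa FermatLib.Igusa.Mono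

namespace FermatLib.MazurP

universe uL uF uk uKb

/-- A power one less than the order, times the function of the divisor. -/
theorem pow_pred_mul_mem_rr {K E : Type*} [Field K] [Field E] [Algebra K E] {D B : Divisor K E}
    {g f : E} {p : ℕ} (hp : 1 < p) (hg : g ≠ 0) (hdiv : ∀ v, (p : ℤ) * D v = v.ord g)
    (hf : f ∈ riemannRochSpace (D + B)) :
    f ^ (p - 1) * g ∈ riemannRochSpace (-D + (p - 1) • B) := by
  rw [mem_riemannRochSpace_iff]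
  intro v
  rcases eq_or_ne f 0 with rfl | hf0
  · left
    rw [zero_pow (by omega), zero_mul]
  right
  have h := (mem_riemannRochSpace_iff.mp hf v).resolve_left hf0
  rw [Finsupp.add_apply] at h
  rw [v.ord_mul (pow_ne_zero _ hf0) hg, ord_pow, ← hdiv v, Finsupp.add_apply, Finsupp.neg_apply,
    Finsupp.smul_apply, nsmul_eq_mul, Nat.cast_sub hp.le]
  have h2 : ((p : ℤ) - 1) * -(D v + B v) ≤ ((p : ℤ) - 1) * v.ord f :=
    mul_le_mul_of_nonneg_left h (by omega)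
  push_cast at h2 ⊢
  linarith

namespace MazurDatum

variable {L : Type uL} {k : Type uk} [Field L] [Field k] [IsAlgClosed k] {A : ValuationSubring L}
  {π : A →+* k} {F : Type uF} {Kb : Type uKb} [Field F] [Algebra L F] [Field Kb] [Algebra k Kb]
  {q : ℕ} {M : MazurDatum π F Kb q}

omit [IsAlgClosed k] in
/-- A lattice element for the shift `(1, ϖ ^ t)` from its parts. -/
theorem exists_lat_pw (R : M.RatForm) {t : ℤ} {f : F} (h1 : f ∈ M.s₁.W)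
    (h2 : (R.ϖ ^ t)⁻¹ • f ∈ M.s₂.W) :
    ∃ x : (M.shift 1 (R.pw t)).lat, (x : F) = f ∧
      (M.shift 1 (R.pw t)).red x = (M.s₁.rd f, M.s₂.rd ((R.ϖ ^ t)⁻¹ • f)) := by
  have e : (((1 : Lˣ) : L))⁻¹ • f = f := by simp
  refine ⟨⟨f, show (((1 : Lˣ) : L))⁻¹ • f ∈ M.s₁.W by rw [e]; exact h1, h2⟩, rfl, ?_⟩
  show (M.s₁.rd ((((1 : Lˣ) : L))⁻¹ • f), M.s₂.rd ((R.ϖ ^ t)⁻¹ • f)) = _
  rw [e]

namespace Frame

variable {R : M.RatForm} {p : ℕ} {T : M.TorsData p} (Fr : Frame R T)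

omit [IsAlgClosed k] in
/-- Monomials of degree `p` in four lattice elements times `g`. -/
theorem rd_monomial₄ (x y a b : (M.shift 1 (R.pw Fr.t)).lat) {i j : ℕ} (hij : i + j + 2 = p) :
    Integral₂ M.s₁ M.s₂
        (((T.γ₁ : L)⁻¹ • T.g) * ((x : F) * (y : F) * ((a : F) ^ i * (b : F) ^ j))) ∧
      rd₂ M.s₁ M.s₂ (((T.γ₁ : L)⁻¹ • T.g) * ((x : F) * (y : F) * ((a : F) ^ i * (b : F) ^ j))) =
        (Fr.e * (M.shift 1 (R.pw Fr.t)).red x) * (Fr.e * (M.shift 1 (R.pw Fr.t)).red y) *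
          ((Fr.e * (M.shift 1 (R.pw Fr.t)).red a) ^ i *
            (Fr.e * (M.shift 1 (R.pw Fr.t)).red b) ^ j) := by
  subst hij
  set β : L := ((R.pw Fr.t : Lˣ) : L)
  have hβ : β ≠ 0 := Units.ne_zero _
  have h1 : ∀ x : (M.shift 1 (R.pw Fr.t)).lat,
      (x : F) ∈ M.s₁.W ∧ M.s₁.rd (x : F) = ((M.shift 1 (R.pw Fr.t)).red x).1 := fun x => by
    have h : (((1 : Lˣ) : L))⁻¹ • (x : F) ∈ M.s₁.W := x.2.1
    have e : (((1 : Lˣ) : L))⁻¹ • (x : F) = (x : F) := by simp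
    refine ⟨e ▸ h, ?_⟩
    show _ = M.s₁.rd ((((1 : Lˣ) : L))⁻¹ • (x : F))
    rw [e]
  have h2 : ∀ x : (M.shift 1 (R.pw Fr.t)).lat,
      β⁻¹ • (x : F) ∈ M.s₂.W ∧ M.s₂.rd (β⁻¹ • (x : F)) = ((M.shift 1 (R.pw Fr.t)).red x).2 :=
    fun x => ⟨x.2.2, rfl⟩
  obtain ⟨x1, x1'⟩ := h1 x
  obtain ⟨y1, y1'⟩ := h1 y
  obtain ⟨a1, a1'⟩ := h1 a
  obtain ⟨b1, b1'⟩ := h1 b
  obtain ⟨x2, x2'⟩ := h2 x
  obtain ⟨y2, y2'⟩ := h2 y
  obtain ⟨a2, a2'⟩ := h2 a
  obtain ⟨b2, b2'⟩ := h2 b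
  have heq : ((T.γ₁ : L)⁻¹ • T.g) * ((x : F) * (y : F) * ((a : F) ^ i * (b : F) ^ j)) =
      T.balC 1 (R.pw Fr.t) 1 0 • (((T.γ₂ : L)⁻¹ • T.g) *
        ((β⁻¹ • (x : F)) * (β⁻¹ • (y : F)) * ((β⁻¹ • (a : F)) ^ i * (β⁻¹ • (b : F)) ^ j))) := by
    simp only [smul_pow, smul_smul, smul_mul_assoc, mul_smul_comm, TorsData.balC, Units.val_one,
      one_pow, one_mul, mul_one, zpow_zero, pow_one]
    congr 1
    rw [show ((R.pw Fr.t : Lˣ) : L) = β from rfl, pow_add, pow_add, inv_pow, inv_pow]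
    field_simp
  have hC := (A.valuation_le_one_iff _).mp (T.valuation_balC Fr.bal).le
  have hm2 := mul_mem (mul_mem x2 y2) (mul_mem (pow_mem a2 i) (pow_mem b2 j))
  have hm1 := mul_mem (mul_mem x1 y1) (mul_mem (pow_mem a1 i) (pow_mem b1 j))
  refine ⟨⟨mul_mem T.g_mem₁ hm1, ?_⟩, Prod.ext ?_ ?_⟩
  · rw [heq]
    exact Sheet.smul_mem hC (mul_mem T.g_mem₂ hm2)
  · show M.s₁.rd _ = _
    rw [Sheet.rd_mul T.g_mem₁ hm1, Sheet.rd_mul (mul_mem x1 y1) (mul_mem (pow_mem a1 i) (pow_mem b1 j)),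
      Sheet.rd_mul x1 y1, Sheet.rd_mul (pow_mem a1 i) (pow_mem b1 j), Sheet.rd_pow a1,
      Sheet.rd_pow b1, x1', y1', a1', b1']
    show T.gb₁ * _ = _
    simp only [Fr.root₁, e, Prod.fst_mul, Prod.pow_fst, mul_pow]
    ring
  · show M.s₂.rd _ = _
    rw [heq, Sheet.rd_smul hC (mul_mem T.g_mem₂ hm2), Sheet.rd_mul T.g_mem₂ hm2,
      Sheet.rd_mul (mul_mem x2 y2) (mul_mem (pow_mem a2 i) (pow_mem b2 j)),
      Sheet.rd_mul x2 y2, Sheet.rd_mul (pow_mem a2 i) (pow_mem b2 j), Sheet.rd_pow a2,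
      Sheet.rd_pow b2, x2', y2', a2', b2']
    show T.balK Fr.bal • (T.gb₂ * _) = _
    rw [← smul_mul_assoc, Fr.root₂]
    simp only [e, Prod.snd_mul, Prod.pow_snd, mul_pow]
    ring

end Frame

omit [IsAlgClosed k] in
/-- The image of a chart space under a move fixing the constant of the chart. -/
theorem RatForm.Move.σ_space {R : M.RatForm} (V : R.Move) {C : M.Chart} (hC : V.σL C.c = C.c)
    {D : Divisor L F} {a b : ℕ} {f : F} (hf : f ∈ C.space D a b) :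
    V.σ f ∈ C.space (V.mapDiv D) a b := by
  rw [C.mem_space] at hf ⊢
  have h := V.σ_mem_rr hf
  rwa [map_mul, map_pow, V.σ_chart hC] at h

/-- Splittings persist in higher level. -/
theorem exists_glue_sup_mono : ∃ N₀ : ℕ, ∀ (C : M.Chart) (K K' : ℕ), N₀ ≤ K → K ≤ K' →
    C.glue K 0 ⊔ C.glue 0 K ≤ C.glue K' 0 ⊔ C.glue 0 K' := by
  obtain ⟨N, -, h⟩ := M.exists_level_glue
  refine ⟨N, fun C K K' hN hK => sup_le_sup ?_ ?_⟩
  · rw [C.glue_zero, C.glue_zero]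
    exact M.gl_mono _ hK
  · rw [← h C 0 K (by omega), ← h C 0 K' (by omega)]
    exact redSpace_mono M.π_surjective (M.space_mono_right C 0 hK)

namespace Frame

omit [IsAlgClosed k] in
/-- With a move, a gap of absolute value `|ϖ|` is contradictory in odd characteristic. -/
theorem Gap.false_of_move [hp : Fact q.Prime] [CharP k q] (hne2 : q ≠ 2) {R : M.RatForm}
    (he : R.e = q) (V : R.Move) (hϖc : A.valuation R.ϖ < A.valuation V.c₀)
    (hsmall : A.valuation (V.c₀ * R.ϖ) ^ (q - 1) ≤ A.valuation (q : L))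
    {T : M.TorsData q} (hT : R.IsRatTors T) {Fr : Frame R T} {C : M.Chart}
    (hfix : V.σL C.c = C.c) {N : ℕ} (Gp : Fr.Gap C N)
    (hc : A.valuation Gp.c = A.valuation R.ϖ)
    (hsplit : ∀ N', N ≤ N' → ∀ x ∈ M.red (C.space 0 (q * N') 0 ⊔ C.space 0 0 (q * N')),
      x ∈ C.glue (q * N') 0 ⊔ C.glue 0 (q * N'))
    (hmono : C.glue (q * N) 0 ⊔ C.glue 0 (q * N) ≤
      C.glue (q * (q * N)) 0 ⊔ C.glue 0 (q * (q * N))) : False := by
  classical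
  have : CharP Kb q := charP_of_injective_algebraMap (algebraMap k Kb).injective q
  have hq2 : 1 < q := hp.out.one_lt
  have hq3 : 2 < q := lt_of_le_of_ne hp.out.two_le hne2.symm
  have hϖ0 := RatForm.valuation_ϖ_pos R
  have hϖ1 := R.valuation_ϖ_lt_one
  have hvq : A.valuation (q : L) = A.valuation R.ϖ ^ q := by rw [← R.ϖ_pow, he]
  have hc0 := V.c₀_ne
  have hcne := Gp.c_ne
  have hϖne := R.ϖ_ne
  -- `w ^ q` splits
  have hlt : A.valuation ((q : L) / Gp.c ^ (q - 1)) < 1 := by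
    rw [map_div₀, map_pow, hc, hvq, div_lt_one₀ (pow_pos hϖ0 _)]
    exact pow_lt_pow_right_of_lt_one₀ hϖ0 hϖ1 (by omega)
  have hwq : Gp.w ^ q ∈ C.glue (q * N) 0 ⊔ C.glue 0 (q * N) := by
    have h := Gp.split_large hp.out (hsplit N le_rfl) ((A.valuation_le_one_iff _).mp hlt.le)
    rwa [M.res_eq_zero _ (fun hu => hlt.ne ((A.valuation_eq_one_iff _).mp hu)), zero_smul,
      zero_add] at h
  -- the moved parts
  set u : L := Gp.c / R.ϖ with hu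
  have hvu : A.valuation u = 1 := by rw [hu, map_div₀, hc, div_self hϖ0.ne']
  have huA : u ∈ A := (A.valuation_le_one_iff _).mp hvu.le
  have huA' : u⁻¹ ∈ A := (A.valuation_le_one_iff _).mp (by rw [map_inv₀, hvu, inv_one])
  have hu0 : u ≠ 0 := div_ne_zero hcne R.ϖ_ne
  have hh'1 : (Gp.h' : F) ∈ M.s₁.W := by
    have h : (((1 : Lˣ) : L))⁻¹ • (Gp.h' : F) ∈ M.s₁.W := Gp.h'.2.1
    simpa using h
  have hh'2 : (R.ϖ ^ Fr.t)⁻¹ • (Gp.h' : F) ∈ M.s₂.W := Gp.h'.2.2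
  have hr1 : (Gp.r : F) ∈ M.s₁.W := by
    have h : (((1 : Lˣ) : L))⁻¹ • (Gp.r : F) ∈ M.s₁.W := Gp.r.2.1
    simpa using h
  have hr2 : (R.ϖ ^ Fr.t)⁻¹ • (Gp.r : F) ∈ M.s₂.W := Gp.r.2.2
  have hcrK : Gp.c • (Gp.r : F) ∈ R.FK := R.smul_mem_FK Gp.c_mem Gp.r_rat
  obtain ⟨m1, n1⟩ := V.rd_move M.s₁ V.mem₁ V.move₁ Gp.h'_rat (z := 0) (by simpa using hh'1)
  obtain ⟨m2, n2⟩ := V.rd_move M.s₂ V.mem₂ V.move₂ Gp.h'_rat (z := Fr.t) hh'2
  simp only [zpow_zero, mul_one] at m1 n1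
  have hz1 : (R.ϖ ^ (1 : ℤ))⁻¹ • Gp.c • (Gp.r : F) = u • (Gp.r : F) := by
    rw [zpow_one, smul_smul, hu, inv_mul_eq_div]
  have hz2 : (R.ϖ ^ (1 + Fr.t))⁻¹ • Gp.c • (Gp.r : F) = u • (R.ϖ ^ Fr.t)⁻¹ • (Gp.r : F) := by
    rw [zpow_add₀ R.ϖ_ne, zpow_one, smul_smul, smul_smul, hu]
    congr 1
    field_simp
  obtain ⟨o1, p1⟩ := V.rd_move M.s₁ V.mem₁ V.move₁ hcrK (z := 1)
    (by rw [hz1]; exact Sheet.smul_mem huA hr1)
  obtain ⟨o2, p2⟩ := V.rd_move M.s₂ V.mem₂ V.move₂ hcrK (z := 1 + Fr.t)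
    (by rw [hz2]; exact Sheet.smul_mem huA hr2)
  rw [hz1] at p1
  rw [hz2] at p2
  have hk2 : (R.ϖ ^ Fr.t)⁻¹ • V.c₀⁻¹ • (V.σ (Gp.h' : F) - Gp.h') =
      (V.c₀ * R.ϖ ^ Fr.t)⁻¹ • (V.σ (Gp.h' : F) - Gp.h') := by
    rw [smul_smul, mul_inv_rev]
  obtain ⟨x₁, hx₁, hx₁r⟩ := exists_lat_pw R (t := Fr.t) m1 (by rw [hk2]; exact m2)
  rw [hk2, n1, n2] at hx₁r
  have hs1 : (Gp.c * V.c₀)⁻¹ • (V.σ (Gp.c • (Gp.r : F)) - Gp.c • (Gp.r : F)) =
      u⁻¹ • (V.c₀ * R.ϖ ^ (1 : ℤ))⁻¹ • (V.σ (Gp.c • (Gp.r : F)) - Gp.c • (Gp.r : F)) := by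
    rw [smul_smul u⁻¹]
    congr 1
    rw [hu, zpow_one]
    field_simp
  have hs2 : (R.ϖ ^ Fr.t)⁻¹ • (Gp.c * V.c₀)⁻¹ • (V.σ (Gp.c • (Gp.r : F)) - Gp.c • (Gp.r : F)) =
      u⁻¹ • (V.c₀ * R.ϖ ^ (1 + Fr.t))⁻¹ •
        (V.σ (Gp.c • (Gp.r : F)) - Gp.c • (Gp.r : F)) := by
    rw [smul_smul, smul_smul]
    congr 1
    rw [hu, zpow_add₀ R.ϖ_ne, zpow_one]
    field_simp
  obtain ⟨x₂, hx₂, hx₂r⟩ := exists_lat_pw R (t := Fr.t)
    (hs1 ▸ Sheet.smul_mem huA' o1) (by rw [hs2]; exact Sheet.smul_mem huA' o2)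
  rw [hs2] at hx₂r
  rw [hs1, Sheet.rd_smul huA' o1, Sheet.rd_smul huA' o2, p1, p2, Sheet.rd_smul huA hr1,
    Sheet.rd_smul huA hr2] at hx₂r
  have hπu : π ⟨u⁻¹, huA'⟩ * π ⟨u, huA⟩ = 1 := by
    rw [← map_mul, show (⟨u⁻¹, huA'⟩ : A) * ⟨u, huA⟩ = 1 from Subtype.ext (inv_mul_cancel₀ hu0),
      map_one]
  set w := Gp.w with hwdef
  have hw' : Fr.e * (M.shift 1 (R.pw Fr.t)).red Gp.r = w := rfl
  have hx₁e : Fr.e * (M.shift 1 (R.pw Fr.t)).red x₁ = (0, (Fr.t : k) • (1 : Kb)) := by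
    rw [hx₁r]
    have e2 : M.s₂.rd ((R.ϖ ^ Fr.t)⁻¹ • (Gp.h' : F)) = Fr.e₂⁻¹ := congrArg Prod.snd Gp.red_h'
    refine Prod.ext ?_ ?_
    · simp
    · show Fr.e₂ * ((Fr.t : k) • _) = _
      rw [e2, mul_smul_comm, mul_inv_cancel₀ Fr.e₂_ne]
  have hx₂e : Fr.e * (M.shift 1 (R.pw Fr.t)).red x₂ = (w.1, ((1 + Fr.t : ℤ) : k) • w.2) := by
    rw [hx₂r]
    have e1 : M.s₁.rd (Gp.r : F) = ((M.shift 1 (R.pw Fr.t)).red Gp.r).1 := by
      show _ = M.s₁.rd ((((1 : Lˣ) : L))⁻¹ • (Gp.r : F))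
      simp
    refine Prod.ext ?_ ?_
    · show Fr.e₁ * (_ • ((1 : ℤ) : k) • _ • M.s₁.rd (Gp.r : F)) = _
      rw [smul_smul, smul_smul, Int.cast_one, mul_one, hπu, one_smul, e1]
      rfl
    · show Fr.e₂ * (_ • ((1 + Fr.t : ℤ) : k) • _ • M.s₂.rd _) = _
      rw [smul_smul, smul_smul, mul_right_comm, hπu, one_mul, mul_smul_comm]
      rfl
  -- the two elements of `L(σ D - D)`
  set G : F := (T.γ₁ : L)⁻¹ • T.g
  have hHmem : ∀ {a b : ℕ} {f : F}, f ∈ C.space T.D a b →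
      V.σ f * (f ^ (q - 1) * G) ∈ C.space (V.mapDiv T.D - T.D) (q * a) (q * b) := by
    intro a b f hf
    have h1 := C.mem_space.mp (V.σ_space hfix hf)
    have h2 : (C.T ^ b * f) ^ (q - 1) * G ∈
        riemannRochSpace (-T.D + (q - 1) • ((a + b) • M.Px)) := by
      rw [mul_smul_comm]
      exact Submodule.smul_mem _ _ (pow_pred_mul_mem_rr hq2 T.g_ne T.div (C.mem_space.mp hf))
    rw [C.mem_space]
    convert mul_mem_riemannRochSpace h1 h2 using 1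
    · have hdiv : V.mapDiv T.D + (a + b) • M.Px + (-T.D + (q - 1) • ((a + b) • M.Px)) =
          V.mapDiv T.D - T.D + (q * a + q * b) • M.Px := by
        have h5' : q • ((a + b) • M.Px) = (a + b) • M.Px + (q - 1) • ((a + b) • M.Px) := by
          rw [← succ_nsmul', Nat.sub_add_cancel hq2.le]
        rw [← mul_add, mul_nsmul' M.Px q (a + b), h5']
        abel
      rw [hdiv]
    · rw [mul_pow, show q * b = b + b * (q - 1) by
        conv_lhs => rw [show q = 1 + (q - 1) by omega]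
        ring, pow_add, pow_mul]
      ring
  set H := V.σ (Gp.h : F) * ((Gp.h : F) ^ (q - 1) * G)
  set H' := V.σ (Gp.h' : F) * ((Gp.h' : F) ^ (q - 1) * G)
  have hH : H ∈ C.space (V.mapDiv T.D - T.D) (q * N) 0 := by simpa using hHmem Gp.h_mem
  have hH' : H' ∈ C.space (V.mapDiv T.D - T.D) 0 (q * N) := by simpa using hHmem Gp.h'_mem
  -- `H'` reduces to `1`
  have hh'e : Fr.e * (M.shift 1 (R.pw Fr.t)).red Gp.h' = 1 := by rw [Gp.red_h', Fr.e_mul_einv]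
  have hhe : Fr.e * (M.shift 1 (R.pw Fr.t)).red Gp.h = 1 := by rw [Gp.red_h, Fr.e_mul_einv]
  obtain ⟨iP', rP'⟩ := Fr.rd_monomial (f := Gp.h') (f' := Gp.r) (i := 0) (Nat.zero_le q)
  rw [Nat.sub_zero, pow_zero, mul_one] at iP' rP'
  rw [hh'e, one_pow, pow_zero, mul_one] at rP'
  obtain ⟨iY, rY⟩ := Fr.rd_monomial₄ x₁ Gp.h' Gp.h' Gp.h' (i := q - 2) (j := 0) (by omega)
  have hσh' : V.σ (Gp.h' : F) = Gp.h' + V.c₀ • (x₁ : F) := by
    rw [hx₁, smul_inv_smul₀ hc0, add_sub_cancel]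
  have hH'eq : H' = G * (Gp.h' : F) ^ q + V.c₀ •
      (G * ((x₁ : F) * (Gp.h' : F) * ((Gp.h' : F) ^ (q - 2) * (Gp.h' : F) ^ 0))) := by
    simp only [H', hσh', pow_zero, mul_one, Algebra.smul_def]
    rw [show q - 1 = q - 2 + 1 by omega]
    conv_rhs => rw [show (Gp.h' : F) ^ q = (Gp.h' : F) ^ (q - 2 + 1 + 1) by congr 1; omega]
    ring
  have iH' : Integral₂ M.s₁ M.s₂ H' := hH'eq ▸ iP'.add (iY.smul V.c₀_mem)
  have rH' : rd₂ M.s₁ M.s₂ H' = 1 := by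
    rw [hH'eq, rd₂_add iP' (iY.smul V.c₀_mem), rd₂_smul V.c₀_mem iY, V.π_c₀, zero_smul, add_zero,
      rP']
  -- the difference
  obtain ⟨Z, iZ, rZ, heqZ⟩ := exists_pow_diff hp.out (fun i hi => Gp.monomial hi) Gp.c_mem_A Gp.π_c
  obtain ⟨iR, rR⟩ := Gp.monomial (i := q) le_rfl
  rw [Nat.sub_self, pow_zero, one_mul] at iR rR
  have hhh : (Gp.h : F) = Gp.h' + Gp.c • (Gp.r : F) := eq_add_of_sub_eq' Gp.diff
  rw [← hhh] at heqZ
  have hq0 : A.valuation ((q : L) / V.c₀) < 1 := by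
    rw [map_div₀, div_lt_one₀ (zero_lt_iff.mpr (by simpa using hc0)), hvq]
    exact (pow_lt_self_of_lt_one₀ hϖ0 hϖ1 hq2).trans hϖc
  have hq1 : A.valuation (Gp.c ^ (q - 1) / V.c₀) < 1 := by
    rw [map_div₀, div_lt_one₀ (zero_lt_iff.mpr (by simpa using hc0)), map_pow, hc]
    exact (pow_lt_self_of_lt_one₀ hϖ0 hϖ1 (by omega)).trans hϖc
  have hqA := (A.valuation_le_one_iff _).mp hq0.le
  have hcA := (A.valuation_le_one_iff _).mp hq1.le
  obtain ⟨iX, rX⟩ := Fr.rd_monomial₄ x₂ Gp.h Gp.h Gp.h' (i := q - 2) (j := 0) (by omega)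
  have hsum := fun i (hi : i ∈ Finset.range (q - 1)) =>
    Fr.rd_monomial₄ x₁ Gp.r Gp.h Gp.h' (i := i) (j := q - 1 - 1 - i)
      (by rw [Finset.mem_range] at hi; omega)
  set S : F := ∑ i ∈ Finset.range (q - 1),
    G * ((x₁ : F) * (Gp.r : F) * ((Gp.h : F) ^ i * (Gp.h' : F) ^ (q - 1 - 1 - i))) with hS
  have iS : Integral₂ M.s₁ M.s₂ S := Integral₂.sum _ fun i hi => (hsum i hi).1
  have rS : rd₂ M.s₁ M.s₂ S = ((q - 1 : ℕ) : k) • (0, (Fr.t : k) • w.2) := by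
    rw [hS, rd₂_sum _ _ fun i hi => (hsum i hi).1, Finset.sum_congr rfl fun i hi => (hsum i hi).2]
    simp only [hhe, hh'e, hw', hx₁e, one_pow, mul_one]
    rw [Finset.sum_const, Finset.card_range, Nat.cast_smul_eq_nsmul]
    congr 1
    refine Prod.ext (zero_mul _) ?_
    show (Fr.t : k) • (1 : Kb) * w.2 = _
    rw [smul_mul_assoc, one_mul]
  set ρ : F := ((q : L) / V.c₀) • Z + (Gp.c ^ (q - 1) / V.c₀) • (G * (Gp.r : F) ^ q) +
    G * ((x₂ : F) * (Gp.h : F) * ((Gp.h : F) ^ (q - 2) * (Gp.h' : F) ^ 0)) + S with hρ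
  have iρ : Integral₂ M.s₁ M.s₂ ρ := (((iZ.smul hqA).add (iR.smul hcA)).add iX).add iS
  have rρ : rd₂ M.s₁ M.s₂ ρ = w := by
    rw [hρ, rd₂_add (((iZ.smul hqA).add (iR.smul hcA)).add iX) iS,
      rd₂_add ((iZ.smul hqA).add (iR.smul hcA)) iX, rd₂_add (iZ.smul hqA) (iR.smul hcA),
      rd₂_smul hqA iZ, rd₂_smul hcA iR, rX, rS,
      M.res_eq_zero _ (fun hu => hq0.ne ((A.valuation_eq_one_iff _).mp hu)),
      M.res_eq_zero _ (fun hu => hq1.ne ((A.valuation_eq_one_iff _).mp hu))]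
    simp only [zero_smul, zero_add, hhe, hh'e, hx₂e, one_pow, mul_one]
    have hcast : ((q - 1 : ℕ) : k) = -1 := by
      rw [Nat.cast_sub hq2.le, CharP.cast_eq_zero, Nat.cast_one, zero_sub]
    rw [hcast]
    refine Prod.ext (by simp) ?_
    simp only [neg_smul, one_smul, Prod.snd_add, Prod.snd_neg, Int.cast_add, Int.cast_one,
      add_smul]
    abel
  have hHH : H = H' + (Gp.c * V.c₀) • ρ := by
    have hσh : V.σ (Gp.h : F) = Gp.h + V.c₀ • (x₁ : F) + (Gp.c * V.c₀) • (x₂ : F) := by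
      rw [hx₂, smul_inv_smul₀ (mul_ne_zero hcne hc0), hx₁, smul_inv_smul₀ hc0, hhh, map_add]
      abel
    have hgeo : (Gp.h : F) ^ (q - 1) - (Gp.h' : F) ^ (q - 1) =
        (∑ i ∈ Finset.range (q - 1), (Gp.h : F) ^ i * (Gp.h' : F) ^ (q - 1 - 1 - i)) *
          (Gp.c • (Gp.r : F)) := by
      rw [← Gp.diff]
      exact (geom_sum₂_mul _ _ _).symm
    have hS' : (Gp.c * V.c₀) • S = V.c₀ • (x₁ : F) *
        ((Gp.h : F) ^ (q - 1) - (Gp.h' : F) ^ (q - 1)) * G := by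
      rw [hgeo, hS, Finset.smul_sum, Finset.sum_mul, Finset.mul_sum, Finset.sum_mul]
      refine Finset.sum_congr rfl fun i _ => ?_
      simp only [Algebra.smul_def, map_mul]
      ring
    have hZ' : (Gp.c * V.c₀) •
        (((q : L) / V.c₀) • Z + (Gp.c ^ (q - 1) / V.c₀) • (G * (Gp.r : F) ^ q)) =
        G * (Gp.h : F) ^ q - G * (Gp.h' : F) ^ q := by
      rw [heqZ, smul_add, smul_smul, smul_smul,
        show Gp.c * V.c₀ * ((q : L) / V.c₀) = (q : L) * Gp.c by field_simp,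
        show Gp.c * V.c₀ * (Gp.c ^ (q - 1) / V.c₀) = Gp.c ^ q by
          rw [show Gp.c ^ q = Gp.c ^ (q - 1) * Gp.c by
            rw [← pow_succ, Nat.sub_add_cancel hq2.le]]
          field_simp]
    rw [hρ, smul_add, hS', smul_add, hZ']
    simp only [H, H', hσh, hσh', Algebra.smul_def, map_mul, pow_zero, mul_one]
    have e1 : ∀ y : F, y ^ q = y * (y * y ^ (q - 2)) := fun y => by
      rw [← pow_succ', ← pow_succ']; congr 1; omega
    have e2 : ∀ y : F, y ^ (q - 1) = y * y ^ (q - 2) := fun y => by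
      rw [← pow_succ']; congr 1; omega
    rw [e1 (Gp.h : F), e1 (Gp.h' : F), e2 (Gp.h : F), e2 (Gp.h' : F)]
    ring
  -- the second relation
  obtain ⟨iG', rG'⟩ := V.rd_σg T hT
  set g' := V.σ T.g * T.g⁻¹
  set c' := Gp.c * V.c₀
  have hc'ne : c' ≠ 0 := mul_ne_zero hcne hc0
  have hvc' : A.valuation c' < 1 := by
    simp only [c']
    rw [map_mul, hc]
    exact mul_lt_one_of_nonneg_of_lt_one_left zero_le hϖ1 V.c₀_small.le
  have hc'A := (A.valuation_le_one_iff _).mp hvc'.le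
  have hc'0 : π ⟨c', hc'A⟩ = 0 := M.res_eq_zero _ fun hu => hvc'.ne ((A.valuation_eq_one_iff _).mp hu)
  have hM : ∀ i, i ≤ q → Integral₂ M.s₁ M.s₂ (g' * (H' ^ (q - i) * ρ ^ i)) ∧
      rd₂ M.s₁ M.s₂ (g' * (H' ^ (q - i) * ρ ^ i)) = w ^ i := fun i _ =>
    ⟨iG'.mul ((iH'.pow _).mul (iρ.pow i)), by
      rw [rd₂_mul iG' ((iH'.pow _).mul (iρ.pow i)), rd₂_mul (iH'.pow _) (iρ.pow i), rd₂_pow iH',
        rd₂_pow iρ, rG', rH', rρ, one_pow, one_mul, one_mul]⟩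
  obtain ⟨Z', iZ', rZ', heqZ'⟩ := exists_pow_diff hp.out hM hc'A hc'0
  obtain ⟨iP, rP⟩ := hM q le_rfl
  rw [Nat.sub_self, pow_zero, one_mul] at iP rP
  have hμ : c' ^ (q - 1) / (q : L) ∈ A := by
    rw [← A.valuation_le_one_iff, map_div₀, div_le_one₀ (zero_lt_iff.mpr (by simpa using M.q_ne)),
      map_pow]
    simp only [c']
    rw [map_mul, hc, mul_comm, ← map_mul]
    exact hsmall
  have hsum2 : w + π ⟨_, hμ⟩ • w ^ q ∈ C.glue (q * (q * N)) 0 ⊔ C.glue 0 (q * (q * N)) := by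
    refine hsplit (q * N) (Nat.le_mul_of_pos_left N hp.out.pos) _
      ⟨Z' + (c' ^ (q - 1) / (q : L)) • (g' * ρ ^ q), ?_, iZ'.add (iP.smul hμ),
        by rw [rd₂_add iZ' (iP.smul hμ), rd₂_smul hμ iP, rZ', rP]⟩
    have h1 := Frame.pow_mul_mem_space (T := V.yData T hT) hp.out.ne_zero C hH
    have h2 := Frame.pow_mul_mem_space (T := V.yData T hT) hp.out.ne_zero C hH'
    rw [mul_zero] at h1 h2
    simp only [RatForm.Move.yData, Units.val_one, inv_one, one_smul] at h1 h2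
    have hd := sub_mem (Submodule.mem_sup_left h1 : _ ∈ _ ⊔ C.space 0 0 (q * (q * N)))
      (Submodule.mem_sup_right h2)
    rw [mul_comm (H ^ q), mul_comm (H' ^ q), hHH, heqZ'] at hd
    have := Submodule.smul_mem _ ((q : L) * c')⁻¹ hd
    rwa [smul_add, inv_smul_smul₀ (mul_ne_zero M.q_ne hc'ne), smul_smul,
      show ((q : L) * c')⁻¹ * c' ^ q = c' ^ (q - 1) / (q : L) by
        rw [show c' ^ q = c' ^ (q - 1) * c' by
          rw [← pow_succ, Nat.sub_add_cancel hq2.le]]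
        field_simp [M.q_ne, hc'ne]] at this
  have hw : w ∈ C.glue (q * (q * N)) 0 ⊔ C.glue 0 (q * (q * N)) := by
    have := Submodule.sub_mem _ hsum2 (Submodule.smul_mem _ (π ⟨_, hμ⟩) (hmono hwq))
    rwa [add_sub_cancel_right] at this
  exact Gp.not_split _ hw

end Frame

/-- The wild case of the abstract principle. -/
theorem principalWild [hq : Fact q.Prime] [CharP k q] (hq2 : q ≠ 2) : M.PrincipalWild := by
  intro R₀ he₀ hR₀ R he hR V hfix hϖc hsmall T hT O hO heis hmod hkill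
  by_contra hnp
  have hq0 : q ≠ 0 := hq.out.ne_zero
  have hqp : Prime (q : ℤ) := Nat.prime_iff_prime_int.mp hq.out
  have hϖ0 := RatForm.valuation_ϖ_pos R
  have hϖ1 := R.valuation_ϖ_lt_one
  have hq3 : 2 < q := lt_of_le_of_ne hq.out.two_le hq2.symm
  have hvq : A.valuation (q : L) = A.valuation R.ϖ ^ q := by rw [← R.ϖ_pow, he]
  have hqc : A.valuation (q : L) < A.valuation V.c₀ ^ (q - 1) := by
    rw [hvq]
    exact (pow_lt_pow_right_of_lt_one₀ hϖ0 hϖ1 (by omega)).trans_le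
      (pow_le_pow_left' hϖc.le _)
  obtain ⟨z₀, hz₀⟩ := M.nodes_nonempty
  obtain ⟨ts, hts⟩ := R.exists_freeAt T hq0 hT hR hz₀
  have h12 : ∀ z ∈ M.nodes, M.h₁ z.1 ∣ (12 : ℤ) := fun z hz => R₀.h₁_dvd_twelve he₀ hR₀ hz
  obtain ⟨d, hd⟩ : (q : ℤ) ∣ R.delta T := by
    obtain ⟨e, he12⟩ := h12 z₀ hz₀
    obtain ⟨c, hc⟩ := (R.free_congr T hq0 hT hz₀ hts).1
    rw [he] at hc
    refine ⟨e * T.a₁ z₀.1 - ts - e * q * c, mul_left_cancel₀ (a := M.h₁ z₀.1)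
      (fun h => by rw [h, zero_mul] at he12; norm_num at he12) ?_⟩
    linear_combination ((q : ℤ) * T.a₁ z₀.1 - (q : ℤ) ^ 2 * c) * he12 - hc
  -- the congruences at a node
  have hnode : ∀ z ∈ M.nodes, ∃ m : ℤ,
      (12 * q : ℤ) ∣ 12 * T.a₁ z.1 - (m * q + (ts + d)) * M.h₁ z.1 ∧
        (12 * q : ℤ) ∣ 12 * T.a₂ z.2 + (m * q + (ts + d)) * M.h₁ z.1 := by
    intro z hz
    obtain ⟨t, ht⟩ := R.exists_freeAt T hq0 hT hR hz
    obtain ⟨⟨c, hc⟩, ⟨c', hc'⟩⟩ := R.free_congr T hq0 hT hz ht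
    rw [he, hd] at hc hc'
    obtain ⟨m, hm⟩ : (q : ℤ) ∣ t - ts :=
      (CharP.intCast_eq_zero_iff k q _).mp (by
        rw [Int.cast_sub, V.free_congr_mod T hT hR hqc hz hz₀ ht hts, sub_self])
    obtain rfl : t = ts + (q : ℤ) * m := by linarith
    have hq' : (q : ℤ) ≠ 0 := by exact_mod_cast hq0
    exact ⟨m, ⟨c, mul_left_cancel₀ hq' (by linear_combination hc)⟩,
      ⟨c', mul_left_cancel₀ hq' (by linear_combination hc')⟩⟩
  obtain ⟨d₁, d₂, -⟩ := dvd_a_of_kills T O hO hq.out hq2 heis hmod (ts + d)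
    (fun v hv => R.off_nodes₁ T hq0 hT hv) (fun v hv => (R.off_nodes₂ T hq0 hT hv).2) h12 hnode
  obtain ⟨e₁, e₂, he₁, he₂, r₁, r₂⟩ := exists_roots T hkill hq0 d₁ d₂
  obtain ⟨Fr, -⟩ := R.exists_frame T hq0 hT (t := -d) (by rw [hd]; ring) he₁ he₂ r₁ r₂
  obtain ⟨C, hC₀⟩ := R₀.exists_chart
  obtain ⟨hC, hCfix⟩ := hfix _ hC₀
  obtain ⟨N₁, h₁⟩ := Fr.exists_gap hT hnp hC
  obtain ⟨N₂, h₂⟩ := M.exists_split_level hq0
  obtain ⟨N₃, h₃⟩ := M.exists_glue_sup_mono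
  set N := N₁ + N₂ + N₃
  obtain ⟨Gp⟩ := h₁ N (by omega)
  have hqN : N ≤ q * N := Nat.le_mul_of_pos_left N hq.out.pos
  obtain ⟨z, hz⟩ := R.valueK Gp.c Gp.c_mem Gp.c_ne
  have h1 : 1 ≤ z := by
    have := Gp.c_small
    rw [hz] at this
    nth_rewrite 2 [← zpow_one (A.valuation R.ϖ)] at this
    exact R.zpow_ϖ_le_iff.mp this
  rcases eq_or_lt_of_le h1 with h | h
  · subst h
    rw [zpow_one] at hz
    exact Gp.false_of_move hq2 he V hϖc hsmall hT hCfix hz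
      (fun N' hN' => h₂ C N' (by omega)) (h₃ C _ _ (by omega)
        (Nat.le_mul_of_pos_left _ hq.out.pos))
  · refine Gp.false_of_small hq.out M.q_ne (h₂ C N (by omega)) ?_
    rw [hz, hvq, ← zpow_natCast, ← zpow_natCast, ← zpow_mul, R.zpow_ϖ_lt_iff]
    have : 2 * ((q - 1 : ℕ) : ℤ) ≤ z * ((q - 1 : ℕ) : ℤ) :=
      mul_le_mul_of_nonneg_right (by omega) (by omega)
    omega

end MazurDatum

end FermatLib.MazurP

end
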