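import Fermat.Agent.Galois.MazurP.InertiaField
import Mathlib.Algebra.CharP.Lemmas

/-!
# How far inertia moves a wild uniformiser

`|σ π - π| ^ (p - 1) ≤ |p|` for every inertia element `σ`, and no integer of `K₀(π)` is moved
further than `π`.
-/

set_option autoImplicit false

noncomputable section

open Polynomial
open scoped IntermediateField

namespace FermatLib.MazurP

local notation "Qbar" => AlgebraicClosure ℚ
local notation "Γℚ" => (AlgebraicClosure ℚ ≃ₐ[ℚ] AlgebraicClosure ℚ)

variable {A : ValuationSubring Qbar} {p : ℕ} {π : Qbar}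

/-- If a `K₀`-combination of the powers of `π` is bounded by `|p| ^ e`, so are the coefficients. -/
theorem coeff_valuation_le (hp : p.Prime) (hA : A.LiesOverPrime p)
    (hπ : A.valuation π ^ p = A.valuation (p : Qbar)) (a : Fin p → inertiaField A) {e : ℕ}
    (h : A.valuation (∑ i, (a i : Qbar) * π ^ (i : ℕ)) ≤ A.valuation (p : Qbar) ^ e) (i : Fin p) :
    A.valuation (a i : Qbar) ≤ A.valuation (p : Qbar) ^ e := by
  rcases eq_or_ne (a i : Qbar) 0 with h0 | h0
  · rw [h0, map_zero]; exact zero_le
  obtain ⟨k, hk⟩ := exists_valuation_eq_zpow_of_mem hp hA (a i).2 h0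
  have hp0 := Galois.Flat.valuation_prime_ne_zero (A := A) hp
  rw [valuation_sum_eq_sup hp hA hπ] at h
  have hi : A.valuation (p : Qbar) ^ k * A.valuation π ^ (i : ℕ) ≤ A.valuation (p : Qbar) ^ e := by
    have := (Finset.le_sup (f := fun j : Fin p => A.valuation ((a j : Qbar) * π ^ (j : ℕ)))
      (Finset.mem_univ i)).trans h
    rwa [map_mul, map_pow, hk] at this
  have hi' := pow_le_pow_left' hi p
  rw [mul_pow, ← pow_mul, mul_comm (i : ℕ) p, pow_mul, hπ, ← pow_mul, ← zpow_natCast,
    ← zpow_mul, ← zpow_natCast _ (i : ℕ), ← zpow_add₀ hp0, ← zpow_natCast _ (e * p),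
    Galois.Flat.valuation_zpow_le_zpow_iff hp hA] at hi'
  rw [hk, ← zpow_natCast _ e, Galois.Flat.valuation_zpow_le_zpow_iff hp hA]
  by_contra hlt
  push Not at hlt
  have h1 : ((e : ℤ) - k) * p ≤ (i : ℕ) := by push_cast at hi' ⊢; linarith
  have h2 : (p : ℤ) ≤ ((e : ℤ) - k) * p := le_mul_of_one_le_left (by positivity) (by omega)
  have h3 : ((i : ℕ) : ℤ) < p := by exact_mod_cast i.2
  omega

namespace IsWildUniformiser

variable (h : IsWildUniformiser A p π)
include h

/-- `π` has value less than one. -/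
theorem valuation_lt_one (hp : p.Prime) (hA : A.LiesOverPrime p) : A.valuation π < 1 :=
  (pow_lt_one_iff_of_nonneg zero_le hp.ne_zero).mp
    (h.val_pow.symm ▸ Galois.Flat.valuation_prime_lt_one hA)

/-- The non-leading coefficients of the minimal polynomial of `π` are divisible by `p`. -/
theorem valuation_coeff_minpoly_le (hp : p.Prime) (hA : A.LiesOverPrime p) (i : Fin p) :
    A.valuation (((minpoly (inertiaField A) π).coeff i : inertiaField A) : Qbar) ≤
      A.valuation (p : Qbar) := by
  have hint : IsIntegral (inertiaField A) π :=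
    ((AlgebraicClosure.isAlgebraic ℚ).isAlgebraic π).isIntegral.tower_top
  set f := minpoly (inertiaField A) π with hf
  have hsum : ∑ j : Fin p, (f.coeff j : Qbar) * π ^ (j : ℕ) = -π ^ p := by
    have h0 := minpoly.aeval (inertiaField A) π
    rw [← hf, aeval_eq_sum_range, h.degree, Finset.sum_range_succ,
      Finset.sum_range fun j => f.coeff j • π ^ j] at h0
    have hlead : f.coeff p = 1 := by
      have := (minpoly.monic hint).coeff_natDegree
      rwa [h.degree] at this
    rw [hlead, one_smul] at h0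
    exact eq_neg_of_add_eq_zero_left h0
  have := coeff_valuation_le hp hA h.val_pow (fun j => f.coeff j) (e := 1)
    (by rw [hsum, Valuation.map_neg, map_pow, h.val_pow, pow_one]) i
  rwa [pow_one] at this

/-- Inertia moves `π` by at most `|p| ^ (1 / (p - 1))`. -/
theorem valuation_sub_pow_le (hp : p.Prime) (hA : A.LiesOverPrime p) {σ : Γℚ}
    (hσ : σ ∈ A.inertiaSubgroupIn ℚ) :
    A.valuation (σ π - π) ^ (p - 1) ≤ A.valuation (p : Qbar) := by
  set D := σ π - π with hD
  rcases eq_or_ne D 0 with hD0 | hD0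
  · rw [hD0, map_zero, zero_pow (Nat.sub_ne_zero_of_lt hp.one_lt)]; exact zero_le
  have hint : IsIntegral (inertiaField A) π :=
    ((AlgebraicClosure.isAlgebraic ℚ).isAlgebraic π).isIntegral.tower_top
  set f := minpoly (inertiaField A) π with hf
  have hπA : A.valuation π ≤ 1 := (h.valuation_lt_one hp hA).le
  have hvσ : A.valuation (σ π) = A.valuation π :=
    Galois.Flat.valuation_apply_eq (Galois.Flat.mem_decomposition_of_mem_inertia hσ) π
  have hDA : A.valuation D ≤ 1 := A.valuation.map_sub_le (hvσ.le.trans hπA) hπA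
  have h0 : aeval π f = 0 := minpoly.aeval _ π
  have hlead : f.coeff p = 1 := by
    have := (minpoly.monic hint).coeff_natDegree
    rwa [h.degree] at this
  rw [aeval_eq_sum_range, h.degree, Finset.sum_range_succ, hlead, one_smul] at h0
  have h1 : ∑ j ∈ Finset.range p, f.coeff j • σ π ^ j + σ π ^ p = 0 := by
    have := congrArg σ h0
    rw [map_add, map_sum, map_pow, map_zero] at this
    rw [← this]
    refine congrArg (· + _) (Finset.sum_congr rfl fun j _ => ?_)
    rw [Algebra.smul_def, Algebra.smul_def, map_mul, map_pow]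
    exact congrArg (· * _) (inertia_fix (f.coeff j) hσ).symm
  obtain ⟨⟨r, hr⟩, hr'⟩ := exists_add_pow_prime_eq hp
    (⟨π, (A.valuation_le_one_iff π).mp hπA⟩ : A) ⟨D, (A.valuation_le_one_iff D).mp hDA⟩
  have hr'' : σ π ^ p = π ^ p + D ^ p + (p : Qbar) * π * D * r := by
    have := congrArg (Subtype.val : A → Qbar) hr'
    push_cast at this
    rwa [show π + D = σ π by rw [hD]; ring] at this
  set G := ∑ j ∈ Finset.range p,
    (f.coeff j : Qbar) * ∑ l ∈ Finset.range j, σ π ^ l * π ^ (j - 1 - l) with hG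
  have hdiff : ∑ j ∈ Finset.range p, f.coeff j • σ π ^ j -
      ∑ j ∈ Finset.range p, f.coeff j • π ^ j = D * G := by
    rw [hG, ← Finset.sum_sub_distrib, Finset.mul_sum]
    refine Finset.sum_congr rfl fun j _ => ?_
    rw [Algebra.smul_def, Algebra.smul_def, ← mul_sub, ← geom_sum₂_mul (σ π) π j, hD]
    change (f.coeff j : Qbar) * _ = _
    ring
  have hDp : D ^ (p - 1) = -((p : Qbar) * π * r + G) := by
    refine mul_right_cancel₀ hD0 ?_
    rw [← pow_succ, Nat.sub_add_cancel hp.one_le]
    linear_combination h1 - h0 - hr'' - hdiff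
  rw [← map_pow, hDp, Valuation.map_neg]
  refine A.valuation.map_add_le ?_ (A.valuation.map_sum_le fun j hj => ?_)
  · rw [mul_assoc, map_mul]
    refine mul_le_of_le_one_right' ?_
    rw [map_mul]
    exact mul_le_one' hπA ((A.valuation_le_one_iff r).mpr hr)
  · rw [map_mul]
    refine (mul_le_mul' (h.valuation_coeff_minpoly_le hp hA ⟨j, Finset.mem_range.mp hj⟩)
      (A.valuation.map_sum_le fun l _ => ?_)).trans (mul_one _).le
    rw [map_mul, map_pow, map_pow, hvσ]
    exact mul_le_one' (pow_le_one' hπA _) (pow_le_one' hπA _)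

/-- No integer of `K₀(π)` is moved further than `π`. -/
theorem valuation_sub_le (hp : p.Prime) (hA : A.LiesOverPrime p) {σ : Γℚ}
    (hσ : σ ∈ A.inertiaSubgroupIn ℚ) {z : Qbar} (hz : z ∈ (inertiaField A)⟮π⟯) (hzA : z ∈ A) :
    A.valuation (σ z - z) ≤ A.valuation (σ π - π) := by
  obtain ⟨a, rfl⟩ := h.exists_coeffs hz
  have ha : ∀ i, A.valuation (a i : Qbar) ≤ 1 := fun i => by
    have := coeff_valuation_le hp hA h.val_pow a (e := 0)
      (by rw [pow_zero]; exact (A.valuation_le_one_iff _).mpr hzA) i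
    rwa [pow_zero] at this
  have hπA : A.valuation π ≤ 1 := (h.valuation_lt_one hp hA).le
  rw [map_sum, ← Finset.sum_sub_distrib]
  refine A.valuation.map_sum_le fun i _ => ?_
  rw [map_mul, map_pow, inertia_fix (a i) hσ, ← mul_sub, map_mul,
    ← geom_sum₂_mul (σ π) π (i : ℕ), map_mul]
  refine (mul_le_of_le_one_left' (ha i)).trans (mul_le_of_le_one_left' ?_)
  refine A.valuation.map_sum_le fun l _ => ?_
  rw [map_mul, map_pow, map_pow,
    Galois.Flat.valuation_apply_eq (Galois.Flat.mem_decomposition_of_mem_inertia hσ) π]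
  exact mul_le_one' (pow_le_one' hπA _) (pow_le_one' hπA _)

end IsWildUniformiser

end FermatLib.MazurP

end
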