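import Fermat.Agent.Galois.MazurP.Core
import Fermat.Agent.Galois.MazurP.WildMove
import Fermat.Agent.Galois.MazurP.Tame
import Fermat.Agent.Galois.MazurP.Wild
import Fermat.Agent.EC.FrobeniusRelation
import Fermat.Agent.Galois.PlaceBasic
import Fermat.Agent.Galois.MazurP.LevelMKill

/-!
# The Mazur principle at `p` from a datum of level `pM`

`PrincipleData D` lists what the modular instance provides for a datum `D` of level `pM` at a
place `A` over `p`: rational forms over the inertia field and its wild extensions with rational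
torsion representatives, the Hecke operators as sheet operators, and the vanishing on the special
sheet.  Together with the two abstract statements `PrincipalTame`, `PrincipalWild` it gives the
principle, at `p = 3` with operators which are Eisenstein modulo `3` at the extra nodes.
-/

set_option autoImplicit false

noncomputable section

open ModularCurve AlgebraicCurve

namespace FermatLib.MazurP

local notation "Qbar" => AlgebraicClosure ℚ

universe uk uKb

variable {A : ValuationSubring Qbar} {k : Type uk} [Field k] {π : A →+* k}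
  {Kb : Type uKb} [Field Kb] [Algebra k Kb] {p M : ℕ} [NeZero (p * M)]
  (D : MazurDatum π (modularFunctionFieldBar (p * M)) Kb p)

/-- The torsion data `T` represent the class `x`. -/
def MazurDatum.IsClassOf (T : D.TorsData p) (x : JZero (p * M)) : Prop :=
  ∃ h : T.D ∈ Divisor.degZero (K := Qbar) (F := modularFunctionFieldBar (p * M)),
    Pic0.mk ⟨T.D, h⟩ = x

variable {D} in
/-- A principal representative has trivial class. -/
theorem MazurDatum.IsClassOf.eq_zero {T : D.TorsData p} {x : JZero (p * M)}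
    (hc : D.IsClassOf T x) (h : MazurDatum.IsPrincipal T.D) : x = 0 := by
  obtain ⟨hdeg, rfl⟩ := hc
  obtain ⟨e, he, hv⟩ := h
  exact (QuotientAddGroup.eq_zero_iff _).mpr
    (AddSubgroup.mem_addSubgroupOf.mpr (⟨e, he, hv⟩ : Divisor.IsPrincipal T.D))

/-- What the modular instance provides for a datum of level `pM` at `A`. -/
structure PrincipleData : Prop where
  forms : ∃ R₀ : D.RatForm, R₀.e = 1 ∧ R₀.IsRat (0 : Divisor Qbar _) ∧
    (∀ x : JZero (p * M), (p : ℤ) • x = 0 → (∀ σ ∈ A.inertiaSubgroupIn ℚ, σ • x = x) →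
      ∃ T, R₀.IsRatTors T ∧ D.IsClassOf T x) ∧
    ∀ ϖ : Qbar, IsWildUniformiser A p ϖ → ∀ σ ∈ A.inertiaSubgroupIn ℚ,
      σ ϖ / ϖ - 1 ≠ 0 → A.valuation (σ ϖ / ϖ - 1) < 1 →
      ∃ R : D.RatForm, R.e = p ∧ R.ϖ = ϖ ∧ R.IsRat (0 : Divisor Qbar _) ∧
        (∃ V : R.Move, V.c₀ = σ ϖ / ϖ - 1 ∧ ∀ c ∈ R₀.K, c ∈ R.K ∧ V.σL c = c) ∧
        ∀ x : JZero (p * M), (p : ℤ) • x = 0 →
          (∀ τ ∈ A.inertiaSubgroupIn ℚ, τ ϖ = ϖ → τ • x = x) →
          ∃ T, R.IsRatTors T ∧ D.IsClassOf T x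
  heckeKill : ∀ ℓ : Nat.Primes, ¬ (ℓ : ℕ) ∣ p * M → ∀ b : ℤ,
    ∃ O : D.SheetOp, O.eis = (ℓ : ℤ) + 1 - b ∧ ∀ (T : D.TorsData p) (x : JZero (p * M)),
      D.IsClassOf T x → heckeOperatorBar (p * M) ℓ x = b • x → O.Kills T
  special : ∀ S : Finset ℕ, (∀ ℓ : ℕ, ℓ.Prime → ℓ ∣ p * M → ℓ ∈ S) →
    ∀ (a : ℕ → ℤ) (x : JZero (p * M)), EigenPoint (p * M) p S a x → ¬ OccursModP p M S a →
      ∀ T : D.TorsData p, D.IsClassOf T x → D.KillsSpecial T

variable {D}

/-- **The principle at one place, from the data.** -/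
theorem PrincipleData.occursModP (h : PrincipleData D) (htame : D.PrincipalTame)
    (hwild : D.PrincipalWild) (hp : p.Prime) (hA : A.LiesOverPrime p)
    (hOp : ∀ ℓ : Nat.Primes, ¬ (ℓ : ℕ) ∣ p * M → ∀ b : ℤ,
      ∃ O : D.SheetOp, O.eis = (ℓ : ℤ) + 1 - b ∧ (p = 3 → O.EisModThree) ∧
        ∀ (T : D.TorsData p) (x : JZero (p * M)),
          D.IsClassOf T x → heckeOperatorBar (p * M) ℓ x = b • x → O.Kills T)
    {S : Finset ℕ} (hS : ∀ ℓ : ℕ, ℓ.Prime → ℓ ∣ p * M → ℓ ∈ S) {a : ℕ → ℤ} {x : JZero (p * M)}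
    (hx : EigenPoint (p * M) p S a x) (hE : NotEisenstein p S a) (hP : PeuPoint A p x) :
    OccursModP p M S a := by
  by_contra hocc
  obtain ⟨ℓ, hℓ, hℓS, hℓa⟩ := hE
  obtain ⟨O, hO, hmod, hkill⟩ := hOp ⟨ℓ, hℓ⟩ (fun hd => hℓS (hS ℓ hℓ hd)) (a ℓ)
  have heis : ¬ (p : ℤ) ∣ O.eis := fun hd => hℓa (by
    rw [hO] at hd
    rw [show a ℓ - ℓ - 1 = -((ℓ : ℤ) + 1 - a ℓ) by ring]
    exact dvd_neg.mpr hd)
  have hsp : ∀ T, D.IsClassOf T x → D.KillsSpecial T := h.special S hS a x hx hocc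
  obtain ⟨R₀, hR₀, hR₀0, hrat₀, hforms⟩ := h.forms
  rcases hP with hfix | ⟨ϖ, hϖ, hfix⟩
  · obtain ⟨T, hT, hc⟩ := hrat₀ x hx.torsion hfix
    exact hx.ne_zero (hc.eq_zero (htame R₀ hR₀ hR₀0 T hT O
      (hkill T x hc (hx.eigen ⟨ℓ, hℓ⟩ hℓS)) heis hmod (hsp T hc)))
  · obtain ⟨σ, hσ, hlt, hgt⟩ := hϖ.moved
    have hne : σ ϖ / ϖ - 1 ≠ 0 := fun e => by
      rw [e, map_zero, zero_pow hp.ne_zero] at hgt
      exact not_lt.mpr zero_le hgt
    obtain ⟨R, hRe, hRϖ, hR0, ⟨V, hV, hK⟩, hrat⟩ := hforms ϖ hϖ σ hσ hne hlt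
    obtain ⟨T, hT, hc⟩ := hrat x hx.torsion hfix
    have hϖ0 : ϖ ≠ 0 := fun e => by
      have h1 := hϖ.val_pow
      rw [e, map_zero, zero_pow hp.ne_zero] at h1
      exact Galois.Flat.valuation_prime_ne_zero hp h1.symm
    have hbig : A.valuation R.ϖ < A.valuation V.c₀ := by
      rw [hRϖ, hV]
      exact lt_of_pow_lt_pow_left₀ p zero_le (hϖ.val_pow.symm ▸ hgt)
    have hsmall : A.valuation (V.c₀ * R.ϖ) ^ (p - 1) ≤ A.valuation (p : Qbar) := by
      rw [hRϖ, hV, sub_mul, one_mul, div_mul_cancel₀ _ hϖ0]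
      exact hϖ.valuation_sub_pow_le hp hA hσ
    exact hx.ne_zero (hc.eq_zero (hwild R₀ hR₀ hR₀0 R hRe hR0 V hK hbig hsmall T hT O
      (hkill T x hc (hx.eigen ⟨ℓ, hℓ⟩ hℓS)) heis hmod (hsp T hc)))

/-- **The Mazur principle at `p`** from a datum with its data at every place over `p`. -/
theorem principleAtP_of_inputs
    (h : ∀ (p M : ℕ) [NeZero (p * M)], p.Prime → 5 ≤ p → ¬ p ∣ M → 0 < M →
      ∀ A : ValuationSubring Qbar, A.LiesOverPrime p →
        ∃ D : MazurDatum (IsLocalRing.residue A) (modularFunctionFieldBar (p * M))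
            (modularFunctionFieldFullC (IsLocalRing.ResidueField A) M) p,
          PrincipleData D) :
    PrincipleAtP := by
  intro p M hp h5 hpM hM _ S hS a x hx hE A hA hP
  obtain ⟨D, hD⟩ := h p M hp h5 hpM hM A hA
  have : Fact p.Prime := ⟨hp⟩
  have : IsAlgClosed (IsLocalRing.ResidueField A) := Galois.isAlgClosed_residueField A
  have : CharP (IsLocalRing.ResidueField A) p := by
    refine (CharP.charP_iff_prime_eq_zero hp).mpr ?_
    rw [← map_natCast (IsLocalRing.residue A), IsLocalRing.residue_eq_zero_iff]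
    exact (A.valuation_lt_one_iff _).mpr (by simpa using Galois.Flat.valuation_prime_lt_one hA)
  exact hD.occursModP (D.principalTame (by omega)) (D.principalWild (by omega)) hp hA
    (fun ℓ hℓ b => (hD.heckeKill ℓ hℓ b).imp fun O hO =>
      ⟨hO.1, fun h3 => absurd h3 (by omega), hO.2⟩) hS hx hE hP

end FermatLib.MazurP

end
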