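import Fermat.Agent.Galois.MazurP.InstanceCorr
import Fermat.Agent.Galois.MazurP.ComponentKill
import Fermat.Agent.Galois.MazurP.PrincipleProof

/-!
# Hecke operators of the datum of level `qM`: the fields `heckeKill` and `special`
-/

set_option autoImplicit false
set_option linter.style.haveILetI false
set_option synthInstance.maxHeartbeats 400000

noncomputable section

open AlgebraicCurve ModularCurve
open FermatLib.Igusa FermatLib.Igusa.Mono FermatLib.Modular.Corr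

namespace FermatLib.MazurP

attribute [local instance] neZero_mul'

/-- A function without zeros and poles is a constant. -/
theorem exists_eq_smul_of_ord_eq {L F : Type*} [Field L] [Field F] [Algebra L F] {g : ℕ}
    (h : RRField L F g) {f φ : F} (hf : f ≠ 0) (hφ : φ ≠ 0) (hord : ∀ v : Place L F,
      v.ord f = v.ord φ) : ∃ c : L, c ≠ 0 ∧ f = c • φ := by
  obtain ⟨c, hc⟩ := h.exists_eq_algebraMap (f := f * φ⁻¹) (by
    rw [mem_riemannRochSpace_iff]
    intro v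
    right
    rw [v.ord_mul hf (inv_ne_zero hφ), v.ord_inv, hord v, Finsupp.zero_apply]
    omega)
  refine ⟨c, fun h0 => mul_ne_zero hf (inv_ne_zero hφ) (by rw [hc, h0, map_zero]), ?_⟩
  rw [Algebra.smul_def, ← hc, inv_mul_cancel_right₀ hφ]

local notation "Qbar" => AlgebraicClosure ℚ

variable {q : ℕ} [Fact q.Prime] {M : ℕ} [NeZero M] (hqM : ¬ q ∣ M)
  {A : ValuationSubring (AlgebraicClosure ℚ)} (hA : A.LiesOverPrime q)

local notation "kA" => IsLocalRing.ResidueField A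

variable (D : MazurDatum (IsLocalRing.residue A) (modularFunctionFieldBar (q * M))
    (modularFunctionFieldFullC (IsLocalRing.ResidueField A) M) q)
  (hs₁ : D.s₁ = monoSheetInf hqM hA) (hs₂ : D.s₂ = monoSheetZero hqM hA)
  (hx : D.x = jFq q M) (hu : D.u = deltaUnit Qbar (dvd_mul_right q M))

include hqM hA hs₁ hs₂ hx hu

set_option maxHeartbeats 1000000 in
/-- `T_l - b` as an operator on sheets killing the torsion data of its kernel. -/
theorem exists_sheetOp_hecke (l : ℕ) [Fact l.Prime] [NeZero l] (hl : ¬ l ∣ q * M)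
    (hlq : ¬ q ∣ l) (b : ℤ) :
    ∃ O : D.SheetOp, O.eis = (l : ℤ) + 1 - b ∧
      (∀ E, O.dv E = heckeDivC A hA M l hqM hlq E - b • E) ∧
      ∀ {p : ℕ} (T : D.TorsData p)
        (hT : T.D ∈ Divisor.degZero (K := Qbar) (F := modularFunctionFieldBar (q * M))),
        heckeOperatorBar (q * M) ⟨l, Fact.out⟩ (Pic0.mk ⟨T.D, hT⟩) = b • Pic0.mk ⟨T.D, hT⟩ →
          O.Kills T := by
  let C := heckeCorrData hqM hA D hs₁ hs₂ hx hu hl hlq
  refine ⟨C.sheetOp.subConst b, ?_, fun E => MazurDatum.SheetOp.subConst_dv _ _ _, ?_⟩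
  · rw [MazurDatum.SheetOp.subConst_eis]
    rfl
  intro p T hT heig
  obtain ⟨hα, hβ, hP, hfin, hFI, hN⟩ := FermatLib.Modular.heckeInputsAlong Qbar (q * M) l
  haveI := hP
  change heckeOperatorAlong Qbar (q * M) l (Pic0.mk ⟨T.D, hT⟩) = _ at heig
  rw [heckeOperatorAlong_eq hα hβ hFI hfin hN] at heig
  have hmem : heckeDivBar hα hβ T.D - b • T.D ∈
      Divisor.principal (K := Qbar) (F := modularFunctionFieldBar (q * M)) := by
    set T₀ : Divisor.degZero (K := Qbar) (F := modularFunctionFieldBar (q * M)) := ⟨T.D, hT⟩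
    have e := (Pic0.correspondence_mk _ _ hβ hα hFI hfin hN T₀).symm.trans heig
    have h2 := sub_eq_zero.mpr e
    exact (QuotientAddGroup.eq_zero_iff
      (Pic0.degZeroCorrespondence _ _ hβ hα hFI T₀ - b • T₀)).mp h2
  obtain ⟨φ, hφ, hdiv⟩ := hmem
  set f₁ := normAlong (heckeAlphaBar Qbar (q * M) l) (heckeBetaBar Qbar (q * M) l T.g) with hf₁
  have hfn : (C.sheetOp.subConst b).fn T.g = f₁ * T.g ^ (-b) := by
    rw [MazurDatum.SheetOp.subConst_fn, hf₁, ← normAlong_barIncl_barBeta (mul_assoc q M l)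
      (mul_dvd_mul_left q (dvd_mul_right M l))]
    rfl
  have hf₁0 : f₁ ≠ 0 :=
    norm_ne_zero_along (heckeBetaBar Qbar (q * M) l) (heckeAlphaBar Qbar (q * M) l) hfin T.g_ne
  have hdivg : ∀ v, heckeDivBar hα hβ ((p : ℤ) • T.D) v = v.ord f₁ :=
    correspondence_apply_eq_ord_norm _ _ hβ hα hfin hN T.g_ne
      (fun v => by rw [Finsupp.smul_apply, smul_eq_mul, T.div])
  obtain ⟨c, hc, e⟩ := exists_eq_smul_of_ord_eq D.rrF (f := f₁ * T.g ^ (-b)) (φ := φ ^ p)
    (mul_ne_zero hf₁0 (zpow_ne_zero _ T.g_ne)) (pow_ne_zero _ hφ) fun v => by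
      rw [v.ord_mul hf₁0 (zpow_ne_zero _ T.g_ne), v.ord_zpow, ord_pow, ← hdiv v, ← hdivg v,
        ← T.div v, map_zsmul, Finsupp.smul_apply, Finsupp.sub_apply, Finsupp.smul_apply,
        smul_eq_mul, smul_eq_mul]
      ring
  exact ⟨c, φ, hc, hφ, hfn.trans e⟩

variable [NeZero (q * M)]

/-- **The field `heckeKill` of `PrincipleData`.** -/
theorem heckeKill_of_monoSheets (ℓ : Nat.Primes) (hℓ : ¬ (ℓ : ℕ) ∣ q * M) (b : ℤ) :
    ∃ O : D.SheetOp, O.eis = (ℓ : ℤ) + 1 - b ∧ ∀ (T : D.TorsData q) (x : JZero (q * M)),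
      D.IsClassOf T x → heckeOperatorBar (q * M) ℓ x = b • x → O.Kills T := by
  haveI : Fact (ℓ : ℕ).Prime := ⟨ℓ.2⟩
  haveI : NeZero (ℓ : ℕ) := ⟨ℓ.2.ne_zero⟩
  have hlq : ¬ q ∣ (ℓ : ℕ) := fun h =>
    hℓ (((Nat.prime_dvd_prime_iff_eq Fact.out ℓ.2).mp h) ▸ dvd_mul_right q M)
  obtain ⟨O, ho, -, hk⟩ := exists_sheetOp_hecke hqM hA D hs₁ hs₂ hx hu ℓ hℓ hlq b
  exact ⟨O, ho, fun T x ⟨hT, hc⟩ hb => hk T hT (hc ▸ hb)⟩

/-- **The field `special` of `PrincipleData`**, for torsion of any prime order. -/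
theorem killsSpecial_of_monoSheets {p : ℕ} (hp : p.Prime) (S : Finset ℕ)
    (hS : ∀ ℓ : ℕ, ℓ.Prime → ℓ ∣ q * M → ℓ ∈ S) (a : ℕ → ℤ) (x : JZero (q * M))
    (hx' : EigenPoint (q * M) p S a x) (hocc : ¬ OccursModP p M S a) (T : D.TorsData p)
    (hT : T.D ∈ Divisor.degZero (K := Qbar) (F := modularFunctionFieldBar (q * M)))
    (hc : Pic0.mk ⟨T.D, hT⟩ = x) : D.KillsSpecial T := by
  refine killsSpecial_of_not_occurs A hA M hqM D hp T
    (fun l hl hd => hS l hl (hd.mul_left q)) (hS q Fact.out (dvd_mul_right q M)) hocc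
    (fun l _ _ hlq hlS => ?_)
  have hl : ¬ l ∣ q * M := fun hd => hlS (hS l Fact.out hd)
  obtain ⟨O, -, hdv, hk⟩ := exists_sheetOp_hecke hqM hA D hs₁ hs₂ hx hu l hl hlq (a l)
  exact ⟨O, hk T hT (hc ▸ hx'.eigen ⟨l, Fact.out⟩ hlS), hdv⟩

/-- **`special`** in the shape of `PrincipleData`. -/
theorem special_of_monoSheets (S : Finset ℕ)
    (hS : ∀ ℓ : ℕ, ℓ.Prime → ℓ ∣ q * M → ℓ ∈ S) (a : ℕ → ℤ) (x : JZero (q * M))
    (hx' : EigenPoint (q * M) q S a x) (hocc : ¬ OccursModP q M S a) (T : D.TorsData q)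
    (h : D.IsClassOf T x) : D.KillsSpecial T :=
  h.elim fun hT hc => killsSpecial_of_monoSheets hqM hA D hs₁ hs₂ hx hu Fact.out S hS a x hx'
    hocc T hT hc

end FermatLib.MazurP

end
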