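import Fermat.Agent.Galois.MazurP.AwayDefs
import Fermat.Agent.Galois.MazurP.InstanceHecke
import Fermat.Agent.Modular.LaurentInstances

/-!
# Operators realising Hecke polynomials on the datum of level `qM`
-/

set_option autoImplicit false
set_option linter.style.haveILetI false
set_option synthInstance.maxHeartbeats 400000

noncomputable section

open AlgebraicCurve ModularCurve
open FermatLib.Igusa FermatLib.Igusa.Mono FermatLib.Modular.Corr

namespace FermatLib.MazurP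

open scoped FermatLib.LaurentInstances

attribute [local instance] neZero_mul'

universe uL uF uk uKb uF' uKb'

namespace MazurDatum

variable {L : Type uL} {k : Type uk} [Field L] [Field k] {A : ValuationSubring L} {π : A →+* k}
  {F : Type uF} {Kb : Type uKb} [Field F] [Algebra L F] [Field Kb] [Algebra k Kb] {q : ℕ}
  {M : MazurDatum π F Kb q}

/-- The operator of a correspondence, without a value on `u`. -/
def CorrBase.sheetEndo {F' : Type uF'} {Kb' : Type uKb'} [Field F'] [Algebra L F'] [Field Kb']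
    [Algebra k Kb'] (C : M.CorrBase F' Kb') : M.SheetEndo where
  fn f := normAlong C.α (C.β f)
  fnK f := normAlong C.ab (C.bb f)
  dv := C.dvK
  fn_ne f hf := normAlong_ne_zero C.finite_α ((map_ne_zero _).mpr hf)
  fn_mul f g _ _ := by rw [map_mul, normAlong_mul]
  fn_const c hc := ⟨c ^ finrankAlong L C.α, pow_ne_zero _ hc, by
    rw [map_pow, show C.β (algebraMap L F c) = C.α (algebraMap L F c) by
      rw [AlgHom.commutes, AlgHom.commutes], normAlong_map]⟩
  rd₁ f hf _ := by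
    obtain ⟨h1, h2⟩ := normAlong_mem_rd C.compat_α₁ C.surj₁ C.finite_ab C.finrank_eq
      (C.compat_β₁ f hf).1
    exact ⟨h1, h2.trans (congrArg _ (C.compat_β₁ f hf).2)⟩
  rd₂ f hf _ := by
    obtain ⟨h1, h2⟩ := normAlong_mem_rd C.compat_α₂ C.surj₂ C.finite_ab C.finrank_eq
      (C.compat_β₂ f hf).1
    exact ⟨h1, h2.trans (congrArg _ (C.compat_β₂ f hf).2)⟩
  fnK_ne f hf := normAlong_ne_zero C.finite_ab ((map_ne_zero _).mpr hf)
  dv_div _ _ hf hE v := C.dvK_div hf hE v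

namespace SheetEndo

/-- The identity. -/
def one' : M.SheetEndo := SheetOp.one'.toEndo

/-- The product. -/
def prod' (O P : M.SheetEndo) : M.SheetEndo where
  fn f := O.fn f * P.fn f
  fnK f := O.fnK f * P.fnK f
  dv := O.dv + P.dv
  fn_ne f hf := mul_ne_zero (O.fn_ne f hf) (P.fn_ne f hf)
  fn_mul f g hf hg := by rw [O.fn_mul f g hf hg, P.fn_mul f g hf hg, mul_mul_mul_comm]
  fn_const c hc := by
    obtain ⟨a, ha, ea⟩ := O.fn_const c hc
    obtain ⟨b, hb, eb⟩ := P.fn_const c hc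
    exact ⟨a * b, mul_ne_zero ha hb, by rw [ea, eb, map_mul]⟩
  rd₁ f hf h0 := by
    obtain ⟨h1, h2⟩ := O.rd₁ f hf h0
    obtain ⟨h3, h4⟩ := P.rd₁ f hf h0
    exact ⟨mul_mem h1 h3, by rw [Sheet.rd_mul h1 h3, h2, h4]⟩
  rd₂ f hf h0 := by
    obtain ⟨h1, h2⟩ := O.rd₂ f hf h0
    obtain ⟨h3, h4⟩ := P.rd₂ f hf h0
    exact ⟨mul_mem h1 h3, by rw [Sheet.rd_mul h1 h3, h2, h4]⟩
  fnK_ne f hf := mul_ne_zero (O.fnK_ne f hf) (P.fnK_ne f hf)
  dv_div f E hf hE v := by
    rw [AddMonoidHom.add_apply, Finsupp.add_apply, O.dv_div f E hf hE v, P.dv_div f E hf hE v,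
      v.ord_mul (O.fnK_ne f hf) (P.fnK_ne f hf)]

/-- The integral powers. -/
def zpow' (O : M.SheetEndo) (n : ℤ) : M.SheetEndo where
  fn f := O.fn f ^ n
  fnK f := O.fnK f ^ n
  dv := n • O.dv
  fn_ne f hf := zpow_ne_zero _ (O.fn_ne f hf)
  fn_mul f g hf hg := by rw [O.fn_mul f g hf hg, mul_zpow]
  fn_const c hc := by
    obtain ⟨a, ha, ea⟩ := O.fn_const c hc
    exact ⟨a ^ n, zpow_ne_zero _ ha, by rw [ea, map_zpow₀]⟩
  rd₁ f hf h0 := by
    obtain ⟨h1, h2⟩ := O.rd₁ f hf h0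
    obtain ⟨h3, h4⟩ := sheet_zpow h1 (h2 ▸ O.fnK_ne _ h0) n
    exact ⟨h3, by rw [h4, h2]⟩
  rd₂ f hf h0 := by
    obtain ⟨h1, h2⟩ := O.rd₂ f hf h0
    obtain ⟨h3, h4⟩ := sheet_zpow h1 (h2 ▸ O.fnK_ne _ h0) n
    exact ⟨h3, by rw [h4, h2]⟩
  fnK_ne f hf := zpow_ne_zero _ (O.fnK_ne f hf)
  dv_div f E hf hE v := by
    rw [AddMonoidHom.smul_apply, Finsupp.smul_apply, O.dv_div f E hf hE v, Place.ord_zpow,
      smul_eq_mul]

/-- The composition. -/
def comp' (O P : M.SheetEndo) : M.SheetEndo where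
  fn := O.fn ∘ P.fn
  fnK := O.fnK ∘ P.fnK
  dv := O.dv.comp P.dv
  fn_ne f hf := O.fn_ne _ (P.fn_ne f hf)
  fn_mul f g hf hg := by
    simp only [Function.comp_apply]
    rw [P.fn_mul f g hf hg, O.fn_mul _ _ (P.fn_ne f hf) (P.fn_ne g hg)]
  fn_const c hc := by
    obtain ⟨a, ha, ea⟩ := P.fn_const c hc
    obtain ⟨b, hb, eb⟩ := O.fn_const a ha
    exact ⟨b, hb, (congrArg O.fn ea).trans eb⟩
  rd₁ f hf h0 := by
    obtain ⟨h1, h2⟩ := P.rd₁ f hf h0
    obtain ⟨h3, h4⟩ := O.rd₁ _ h1 (h2 ▸ P.fnK_ne _ h0)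
    exact ⟨h3, h4.trans (congrArg O.fnK h2)⟩
  rd₂ f hf h0 := by
    obtain ⟨h1, h2⟩ := P.rd₂ f hf h0
    obtain ⟨h3, h4⟩ := O.rd₂ _ h1 (h2 ▸ P.fnK_ne _ h0)
    exact ⟨h3, h4.trans (congrArg O.fnK h2)⟩
  fnK_ne f hf := O.fnK_ne _ (P.fnK_ne f hf)
  dv_div f E hf hE v := O.dv_div _ _ (P.fnK_ne f hf) (P.dv_div f E hf hE) v

variable {O P : M.SheetEndo} {η θ : Pic0 L F → Pic0 L F}

theorem realises_one' : (one' : M.SheetEndo).Realises id :=
  fun _ E _ _ hE => ⟨E, hE, rfl⟩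

theorem Realises.prod' (hO : O.Realises η) (hP : P.Realises θ) :
    (O.prod' P).Realises (fun x => η x + θ x) := by
  intro p E f hf hE
  obtain ⟨E₁, h₁, e₁⟩ := hO p E f hf hE
  obtain ⟨E₂, h₂, e₂⟩ := hP p E f hf hE
  refine ⟨E₁ + E₂, fun v => ?_, (congrArg₂ (· + ·) e₁ e₂ :)⟩
  show (p : ℤ) * ((E₁ : Divisor L F) + E₂) v = v.ord (O.fn f * P.fn f)
  rw [Finsupp.add_apply, mul_add, h₁, h₂, v.ord_mul (O.fn_ne f hf) (P.fn_ne f hf)]

theorem Realises.zpow' (hO : O.Realises η) (n : ℤ) :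
    (O.zpow' n).Realises (fun x => n • η x) := by
  intro p E f hf hE
  obtain ⟨E₁, h₁, e₁⟩ := hO p E f hf hE
  refine ⟨n • E₁, fun v => ?_, (congrArg (n • ·) e₁ :)⟩
  show (p : ℤ) * (n • (E₁ : Divisor L F)) v = v.ord (O.fn f ^ n)
  rw [Finsupp.smul_apply, smul_eq_mul, Place.ord_zpow, ← h₁]
  ring

theorem Realises.comp' (hO : O.Realises η) (hP : P.Realises θ) :
    (O.comp' P).Realises (fun x => η (θ x)) := by
  intro p E f hf hE
  obtain ⟨E₁, h₁, e₁⟩ := hP p E f hf hE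
  obtain ⟨E₂, h₂, e₂⟩ := hO p E₁ (P.fn f) (P.fn_ne f hf) h₁
  exact ⟨E₂, h₂, e₂.trans (congrArg η e₁)⟩

theorem Realises.congr (hO : O.Realises η) (h : ∀ x, η x = θ x) : O.Realises θ :=
  fun p E f hf hE => (funext h : η = θ) ▸ hO p E f hf hE

end SheetEndo

end MazurDatum

local notation "Qbar" => AlgebraicClosure ℚ

variable {q : ℕ} [Fact q.Prime] {M : ℕ} [NeZero M] (hqM : ¬ q ∣ M)
  {A : ValuationSubring (AlgebraicClosure ℚ)} (hA : A.LiesOverPrime q)

local notation "kA" => IsLocalRing.ResidueField A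

variable (D : MazurDatum (IsLocalRing.residue A) (modularFunctionFieldBar (q * M))
    (modularFunctionFieldFullC (IsLocalRing.ResidueField A) M) q)
  (hs₁ : D.s₁ = monoSheetInf hqM hA) (hs₂ : D.s₂ = monoSheetZero hqM hA) (hx : D.x = jFq q M)

include hqM hA hs₁ hs₂ hx

set_option maxHeartbeats 1000000 in
/-- The correspondence at `l ≠ q` realises the Hecke operator (`U_l` included). -/
theorem heckeCorrBase_realises (l : ℕ) [Fact l.Prime] [NeZero l] (hlq : ¬ q ∣ l) :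
    (heckeCorrBase hqM hA D hs₁ hs₂ hx hlq).sheetEndo.Realises
      (fun x => heckeOperatorBar (q * M) ⟨l, Fact.out⟩ (x : JZero (q * M))) := by
  intro p E f hf hE
  obtain ⟨hα, hβ, hP, hfin, hFI, hN⟩ := FermatLib.Modular.heckeInputsAlong Qbar (q * M) l
  haveI := hP
  refine ⟨Pic0.degZeroCorrespondence _ _ hβ hα hFI E, fun v => ?_, ?_⟩
  · have h := correspondence_apply_eq_ord_norm (heckeBetaBar Qbar (q * M) l)
      (heckeAlphaBar Qbar (q * M) l) hβ hα hfin hN hf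
      (E := (p : ℤ) • (E : Divisor Qbar (modularFunctionFieldBar (q * M))))
      (fun w => by rw [Finsupp.smul_apply, smul_eq_mul, hE]) v
    rw [map_zsmul, Finsupp.smul_apply, smul_eq_mul] at h
    refine h.trans (congrArg v.ord ?_)
    exact (normAlong_barIncl_barBeta (mul_assoc q M l)
      (mul_dvd_mul_left q (dvd_mul_right M l)) f).symm
  · show Pic0.mk _ = heckeOperatorAlong Qbar (q * M) l (Pic0.mk E)
    rw [heckeOperatorAlong_eq hα hβ hFI hfin hN]
    exact (Pic0.correspondence_mk _ _ hβ hα hFI hfin hN E).symm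

variable [NeZero (q * M)]

set_option maxHeartbeats 1000000 in
/-- A Hecke polynomial prime to `q` is realised, reducing to its action on the special sheet. -/
theorem exists_sheetEndo_awayHecke {t : HeckeAlg} (ht : t ∈ Galois.awayHeckeAlg ({q} : Set ℕ)) :
    ∃ O : D.SheetEndo,
      O.Realises (fun x => (letI := heckeModuleBar (q * M); t • (x : JZero (q * M)))) ∧
      ∀ (z : JZero M) (E : Divisor.degZero (K := kA) (F := modularFunctionFieldFullC kA M)),
        reductionModL A M z = Pic0.mk E →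
        ∃ h, reductionModL A M (letI := heckeModuleBar M; t • z) =
          Pic0.mk ⟨O.dv (E : Divisor kA (modularFunctionFieldFullC kA M)), h⟩ := by
  letI := heckeModuleBar M
  letI := heckeModuleBar (q * M)
  have hT := Modular.heckeOperatorsCommuteBar M
  have hT' := Modular.heckeOperatorsCommuteBar (q * M)
  obtain ⟨g, hR⟩ := exists_riemannInequalityAt_bar (N := M)
  obtain ⟨g', hF, hB⟩ := exists_rrField_modL M hqM A hA
  have hin := reductionInputsModL M hqM A hA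
  induction ht using Algebra.adjoin_induction with
  | mem t ht =>
    obtain ⟨l, hl, rfl⟩ := ht
    haveI : Fact (l : ℕ).Prime := ⟨l.2⟩
    haveI : NeZero (l : ℕ) := ⟨l.2.ne_zero⟩
    have hlq : ¬ q ∣ (l : ℕ) := fun h =>
      hl (Set.mem_singleton_iff.mpr ((Nat.prime_dvd_prime_iff_eq Fact.out l.2).mp h).symm)
    refine ⟨(heckeCorrBase hqM hA D hs₁ hs₂ hx hlq).sheetEndo,
      (heckeCorrBase_realises hqM hA D hs₁ hs₂ hx l hlq).congr fun x =>
        (heckeModuleBar_heckeGen_smul hT' _ _).symm, fun z E hz => ?_⟩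
    obtain ⟨h, e⟩ := heckePicC_mk A hA M l hqM hlq E
    refine ⟨h, ?_⟩
    refine (congrArg _ (heckeModuleBar_heckeGen_smul hT _ _)).trans ?_
    exact (reductionModL_hecke A hA M l hqM hlq hR hF hB hin z).trans ((congrArg _ hz).trans e)
  | algebraMap r =>
    refine ⟨MazurDatum.SheetEndo.one'.zpow' r,
      (MazurDatum.SheetEndo.realises_one'.zpow' r).congr fun x => ?_,
      fun z E hz => ⟨(r • E).2, ?_⟩⟩
    · rw [eq_intCast, Int.cast_smul_eq_zsmul]
      rfl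
    · rw [eq_intCast, Int.cast_smul_eq_zsmul, map_zsmul, hz]
      rfl
  | add s t _ _ hs ht =>
    obtain ⟨O, hO, hOr⟩ := hs
    obtain ⟨P, hP, hPr⟩ := ht
    refine ⟨O.prod' P, (hO.prod' hP).congr fun x => (add_smul s t _).symm, fun z E hz => ?_⟩
    obtain ⟨h1, e1⟩ := hOr z E hz
    obtain ⟨h2, e2⟩ := hPr z E hz
    refine ⟨add_mem h1 h2, ?_⟩
    rw [add_smul, map_add, e1, e2]
    rfl
  | mul s t _ _ hs ht =>
    obtain ⟨O, hO, hOr⟩ := hs
    obtain ⟨P, hP, hPr⟩ := ht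
    refine ⟨O.comp' P, (hO.comp' hP).congr fun x => (mul_smul s t _).symm, fun z E hz => ?_⟩
    obtain ⟨h2, e2⟩ := hPr z E hz
    obtain ⟨h1, e1⟩ := hOr (t • z) ⟨_, h2⟩ e2
    exact ⟨h1, (congrArg _ (mul_smul s t z)).trans e1⟩

/-- **The field `AwayData.special`.** -/
theorem awaySpecial_of_monoSheets (t : Galois.awayHeckeAlg ({q} : Set ℕ))
    (h : ∀ z : JZero M, letI := heckeModuleBar M; (t : HeckeAlg) • z = 0) :
    ∃ O : D.SheetEndo,
      O.Realises (fun x => (letI := heckeModuleBar (q * M); (t : HeckeAlg) • (x : JZero (q * M)))) ∧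
        ∀ E : Divisor kA (modularFunctionFieldFullC kA M), Divisor.degree E = 0 →
          MazurDatum.IsPrincipal (O.dv E) := by
  obtain ⟨O, hO, hOr⟩ := exists_sheetEndo_awayHecke hqM hA D hs₁ hs₂ hx t.2
  refine ⟨O, hO, fun E hE => ?_⟩
  obtain ⟨z, hz⟩ := reductionModL_surjective A hA M hqM
    (Pic0.mk ⟨E, Divisor.mem_degZero.mpr hE⟩)
  obtain ⟨hm, e⟩ := hOr z _ hz
  rw [h z, map_zero] at e
  exact (QuotientAddGroup.eq_zero_iff
    (⟨O.dv E, hm⟩ : Divisor.degZero (K := kA) (F := modularFunctionFieldFullC kA M))).mp e.symm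

end FermatLib.MazurP

end
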