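import Fermat.Agent.Galois.MazurP.DeltaUnit
import Fermat.Agent.Curve.PlaceExtras
import Fermat.Prelude.Def_AlgebraicCurve_Repartitions

/-!
# `u = Δ (τ) / Δ (d τ)` and `u⁻¹` are integral over `L[j]`, so live at the poles of `j`
-/

set_option autoImplicit false

noncomputable section

open UpperHalfPlane ModularCurve CongruenceSubgroup AlgebraicCurve
open scoped MatrixGroups ModularForm

namespace FermatLib.MazurP

open FermatLib.Modular

/-- A weakly holomorphic function is a root of a monic polynomial over `ℂ[j]`. -/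
theorem exists_monic_eval_weakMod (N : ℕ) [NeZero N] {G : ℍ → ℂ}
    (hG : G ∈ weakMod (Gamma0 N)) :
    ∃ R : Polynomial (Polynomial ℂ), R.Monic ∧
      ∀ τ : ℍ, (R.map (Polynomial.evalRingHom (jFun τ))).eval (G τ) = 0 := by
  letI := Fintype.ofFinite (Gamma0Coset N)
  set n := Fintype.card (Gamma0Coset N)
  let v : Gamma0Coset N → weakMod ⊥ := fun q => ⟨_, cosetFun_mem_bot hG q⟩
  set Q : Polynomial (weakMod ⊥) :=
    ∏ q : Gamma0Coset N, (Polynomial.X - Polynomial.C (v q))
  have hev : ∀ τ : ℍ, Q.map (evalWeak ⊥ τ) =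
      ∏ q : Gamma0Coset N, (Polynomial.X - Polynomial.C (cosetFun G q τ)) := by
    intro τ
    simp [Q, Polynomial.map_prod, v]
  have hQm : Q.Monic := Polynomial.monic_prod_of_monic _ _ fun q _ => Polynomial.monic_X_sub_C _
  have hQd : Q.natDegree = n := by
    simp [Q, n, Polynomial.natDegree_prod_of_monic _ _ fun q _ => Polynomial.monic_X_sub_C (v q)]
  have hdeg : (Q - Polynomial.X ^ n).degree < (n : WithBot ℕ) := by
    have hd : Q.degree = n := by rw [Polynomial.degree_eq_natDegree hQm.ne_zero, hQd]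
    rw [← hd]
    refine Polynomial.degree_sub_lt_left ?_ hQm.ne_zero ?_
    · rw [Polynomial.degree_X_pow, hd]
    · rw [hQm.leadingCoeff, (Polynomial.monic_X_pow n).leadingCoeff]
  obtain ⟨R, hRd, hR⟩ := exists_biPolynomial hdeg fun γ τ => by
    rw [Polynomial.map_sub, Polynomial.map_sub, hev, hev, Polynomial.map_pow, Polynomial.map_pow,
      Polynomial.map_X, Polynomial.map_X]
    refine congrArg (fun p : Polynomial ℂ => p - Polynomial.X ^ n) ?_
    refine Fintype.prod_equiv (MulAction.toPerm γ⁻¹) _ _ fun q => ?_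
    rw [cosetFun_smul hG, MulAction.toPerm_apply]
  refine ⟨Polynomial.X ^ n + R, Polynomial.monic_X_pow_add hRd, fun τ => ?_⟩
  rw [Polynomial.map_add, hR, Polynomial.map_sub, Polynomial.map_pow, Polynomial.map_X, hev,
    Polynomial.map_pow, Polynomial.map_X, add_sub_cancel, Polynomial.eval_prod]
  refine Finset.prod_eq_zero (Finset.mem_univ (((1 : SL(2, ℤ)) : Gamma0Coset N))) ?_
  rw [cosetFun_mk_one hG]
  simp

theorem eval₂_qExpL_eq_zero (N : ℕ) [NeZero N] {G : ℍ → ℂ} (hG : G ∈ weakMod (Gamma0 N))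
    {R : Polynomial (Polynomial ℂ)}
    (hR : ∀ τ : ℍ, (R.map (Polynomial.evalRingHom (jFun τ))).eval (G τ) = 0) :
    Polynomial.eval₂ (Polynomial.aeval (coeffEmb ℂ jq)).toRingHom (qExpL G) R = 0 := by
  let jW : weakMod (Gamma0 N) := ⟨jFun, jFun_mem_weakMod _⟩
  have h0 : Polynomial.eval₂ (Polynomial.aeval jW).toRingHom (⟨G, hG⟩ : weakMod (Gamma0 N)) R
      = 0 := by
    apply Subtype.ext
    funext τ
    show evalWeak (Gamma0 N) τ _ = 0
    rw [Polynomial.hom_eval₂, ← hR τ, Polynomial.eval_map]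
    congr 1
    refine Polynomial.ringHom_ext (fun a => ?_) ?_ <;> simp [jW]
  have h := congrArg (qExpWeak N).toRingHom h0
  rw [map_zero, Polynomial.hom_eval₂] at h
  rw [← h]
  congr 1
  refine Polynomial.ringHom_ext (fun a => ?_) ?_
  · simp [jW]
  · simp [jW, qExpL_jFun]

/-- Coefficientwise application of `π` is additive. -/
def coeffFunHom (π : ℂ →ₗ[ℚ] ℚ) : LaurentSeries ℂ →+ LaurentSeries ℚ where
  toFun := coeffFun π
  map_zero' := by ext k; simp
  map_add' x y := by ext k; simp

theorem coeffFunHom_smul (π : ℂ →ₗ[ℚ] ℚ) (c : ℂ) (y : LaurentSeries ℚ) :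
    coeffFunHom π (algebraMap ℂ (LaurentSeries ℂ) c * coeffEmb ℂ y) =
      algebraMap ℚ (LaurentSeries ℚ) (π c) * y := by
  ext k
  show (coeffFun π _).coeff k = _
  rw [coeffFun_coeff, algebraMap_mul_coeff, algebraMap_mul_coeff]
  simp only [coeffEmb, coeffMap_coeff]
  rw [mul_comm c, ← Algebra.smul_def, map_smul, smul_eq_mul, mul_comm]

/-- Descent of an integral relation from `ℂ[j]` to `ℚ[j]`. -/
theorem exists_monic_rat {x : LaurentSeries ℚ} {R : Polynomial (Polynomial ℂ)} (hm : R.Monic)
    (h : Polynomial.eval₂ (Polynomial.aeval (coeffEmb ℂ jq)).toRingHom (coeffEmb ℂ x) R = 0) :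
    ∃ P : Polynomial (Polynomial ℚ), P.Monic ∧
      Polynomial.eval₂ (Polynomial.aeval jq).toRingHom x P = 0 := by
  obtain ⟨π, hπ⟩ := exists_linearMap_map_one
  set n := R.natDegree
  let c : ℕ → Polynomial ℚ := fun i =>
    (R.coeff i).sum fun k a => Polynomial.monomial k (π a)
  refine ⟨Polynomial.X ^ n + ∑ i ∈ Finset.range n, Polynomial.monomial i (c i),
    Polynomial.monic_X_pow_add ?_, ?_⟩
  · refine (Polynomial.degree_sum_le _ _).trans_lt ((Finset.sup_lt_iff ?_).mpr fun k hk => ?_)
    · exact WithBot.bot_lt_coe _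
    · exact (Polynomial.degree_monomial_le _ _).trans_lt (by exact_mod_cast Finset.mem_range.mp hk)
  rw [hm.as_sum, Polynomial.eval₂_add, Polynomial.eval₂_finsetSum] at h
  rw [Polynomial.eval₂_add, Polynomial.eval₂_finsetSum]
  have h' := congrArg (coeffFunHom π) h
  rw [map_add, map_sum, map_zero] at h'
  refine Eq.trans ?_ h'
  congr 1
  · rw [Polynomial.eval₂_X_pow, Polynomial.eval₂_X_pow, ← map_pow,
      ← one_mul (coeffEmb ℂ (x ^ n)), ← map_one (algebraMap ℂ (LaurentSeries ℂ)),
      coeffFunHom_smul, hπ, map_one, one_mul]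
  · refine Finset.sum_congr rfl fun i _ => ?_
    rw [Polynomial.eval₂_monomial, Polynomial.eval₂_mul, Polynomial.eval₂_C,
      Polynomial.eval₂_X_pow]
    simp only [AlgHom.toRingHom_eq_coe, RingHom.coe_coe]
    rw [Polynomial.aeval_eq_sum_range (R := ℂ) (p := R.coeff i), Finset.sum_mul, map_sum]
    simp only [c]
    rw [Polynomial.sum_over_range (f := fun k a => Polynomial.monomial k (π a)) _
      (fun k => by simp), map_sum, Finset.sum_mul]
    refine Finset.sum_congr rfl fun k _ => ?_
    rw [Polynomial.aeval_monomial, Algebra.smul_def, mul_assoc, mul_assoc, ← map_pow, ← map_pow,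
      ← map_mul, coeffFunHom_smul]

/-- `u` and `u⁻¹` satisfy monic equations over `ℚ[j]`. -/
theorem exists_monic_modularUnitSeries (d : ℕ) [NeZero d] :
    (∃ P : Polynomial (Polynomial ℚ), P.Monic ∧
      Polynomial.eval₂ (Polynomial.aeval jq).toRingHom (modularUnitSeries d) P = 0) ∧
    ∃ P : Polynomial (Polynomial ℚ), P.Monic ∧
      Polynomial.eval₂ (Polynomial.aeval jq).toRingHom (modularUnitSeries d)⁻¹ P = 0 := by
  constructor
  · obtain ⟨R, hm, hR⟩ := exists_monic_eval_weakMod d (deltaUnitFun_mem_weakMod (d := d) dvd_rfl)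
    have h := eval₂_qExpL_eq_zero d (deltaUnitFun_mem_weakMod (d := d) dvd_rfl) hR
    rw [qExpL_deltaUnitFun] at h
    exact exists_monic_rat hm h
  · obtain ⟨R, hm, hR⟩ := exists_monic_eval_weakMod d
      (deltaQuotFun_mem_weakMod (N := d) (d := d) dvd_rfl)
    have h := eval₂_qExpL_eq_zero d (deltaQuotFun_mem_weakMod (N := d) (d := d) dvd_rfl) hR
    rw [qExpL_deltaQuotFun] at h
    exact exists_monic_rat hm h

variable {L : Type*} [Field L] [Algebra ℚ L] {N : ℕ} [NeZero N]

/-- Elements integral over `ℚ[j]` are regular where `j` is. -/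
theorem mem_place_of_monic {z : LaurentSeries ℚ} {f : laurentBaseChange L (modularFunctionFieldFull N)}
    (hf : (f : LaurentSeries L) = coeffEmb L z)
    (hz : ∃ P : Polynomial (Polynomial ℚ), P.Monic ∧
      Polynomial.eval₂ (Polynomial.aeval jq).toRingHom z P = 0)
    (v : Place L (laurentBaseChange L (modularFunctionFieldFull N)))
    (hj : jElem L N ∈ v.toValuationSubring) : f ∈ v.toValuationSubring := by
  let φ : Polynomial ℚ →+* laurentBaseChange L (modularFunctionFieldFull N) :=
    Polynomial.eval₂RingHom ((algebraMap L _).comp (algebraMap ℚ L)) (jElem L N)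
  letI := φ.toAlgebra
  obtain ⟨P, hm, hP⟩ := hz
  refine FermatLib.Curve.mem_of_isIntegral v (R := Polynomial ℚ) (fun r => ?_) ⟨P, hm, ?_⟩
  · show φ r ∈ v.toValuationSubring
    induction r using Polynomial.induction_on' with
    | add a b ha hb => rw [map_add]; exact add_mem ha hb
    | monomial k a =>
      rw [Polynomial.coe_eval₂RingHom, Polynomial.eval₂_monomial, RingHom.comp_apply]
      exact mul_mem (v.algebraMap_mem' _) (pow_mem hj k)
  · apply (laurentBaseChange L (modularFunctionFieldFull N)).val.toRingHom.injective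
    have h := congrArg (coeffEmb L) hP
    rw [Polynomial.hom_eval₂, map_zero] at h
    rw [Polynomial.hom_eval₂, map_zero, ← h]
    show Polynomial.eval₂ _ (f : LaurentSeries L) P = _
    rw [hf]
    congr 1
    refine Polynomial.ringHom_ext' (Subsingleton.elim _ _) ?_
    show ((φ Polynomial.X : laurentBaseChange L (modularFunctionFieldFull N)) : LaurentSeries L) = _
    simp [φ]

variable (L) in
/-- `u` has neither zeros nor poles where `j` is regular. -/
theorem ord_deltaUnit_eq_zero {d : ℕ} [NeZero d] (hd : d ∣ N)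
    (v : Place L (laurentBaseChange L (modularFunctionFieldFull N)))
    (hj : 0 ≤ v.ord (jElem L N)) : v.ord (deltaUnit L hd) = 0 := by
  have hj' : jElem L N ∈ v.toValuationSubring :=
    (FermatLib.Curve.mem_iff_eq_zero_or_ord_nonneg v).mpr (Or.inr hj)
  obtain ⟨h1, h2⟩ := exists_monic_modularUnitSeries d
  have hu := FermatLib.Curve.ord_nonneg_of_mem_place v
    (mem_place_of_monic (coe_deltaUnit L hd) h1 v hj')
  have hu' := FermatLib.Curve.ord_nonneg_of_mem_place v
    (mem_place_of_monic (f := (deltaUnit L hd)⁻¹)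
      (by rw [IntermediateField.coe_inv, coe_deltaUnit, map_inv₀]) h2 v hj')
  rw [v.ord_inv] at hu'
  omega

variable (L) in
/-- `u, u⁻¹ ∈ L(c Px)` for the divisor `Px` of poles of `j`. -/
theorem deltaUnit_pole {d : ℕ} [NeZero d] (hd : d ∣ N)
    [HasPrincipalDivisors L (laurentBaseChange L (modularFunctionFieldFull N))]
    {x : laurentBaseChange L (modularFunctionFieldFull N)}
    (hx : (x : LaurentSeries L) = coeffEmb L jq)
    {Px : Divisor L (laurentBaseChange L (modularFunctionFieldFull N))}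
    (hPx : ∀ v, Px v = max (-v.ord x) 0) :
    ∃ c : ℕ, deltaUnit L hd ∈ riemannRochSpace (c • Px) ∧
      (deltaUnit L hd)⁻¹ ∈ riemannRochSpace (c • Px) := by
  classical
  obtain rfl : x = jElem L N := Subtype.ext hx
  obtain ⟨E, hE, -⟩ := HasPrincipalDivisors.exists_divisor (K := L) _ (deltaUnit_ne_zero L hd)
  refine ⟨E.support.sup fun v => (E v).natAbs, ?_⟩
  set c := E.support.sup fun v => (E v).natAbs
  have key : ∀ v, |v.ord (deltaUnit L hd)| ≤ ((c • Px) v) := by
    intro v
    rw [Finsupp.smul_apply, nsmul_eq_mul, hPx]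
    rcases lt_or_ge (v.ord (jElem L N)) 0 with hv | hv
    · have h1 : ((E v).natAbs) ≤ c := by
        by_cases hs : v ∈ E.support
        · exact Finset.le_sup (f := fun v => (E v).natAbs) hs
        · simp [Finsupp.notMem_support_iff.mp hs]
      have h2 : (1 : ℤ) ≤ max (-v.ord (jElem L N)) 0 := le_max_of_le_left (by omega)
      rw [← hE, Int.abs_eq_natAbs]
      calc ((E v).natAbs : ℤ) ≤ (c : ℤ) := by exact_mod_cast h1
        _ ≤ (c : ℤ) * max (-v.ord (jElem L N)) 0 := le_mul_of_one_le_right (by omega) h2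
    · rw [ord_deltaUnit_eq_zero L hd v hv, abs_zero]
      exact mul_nonneg (Nat.cast_nonneg _) (le_max_right _ _)
  simp only [mem_riemannRochSpace_iff]
  exact ⟨fun v => Or.inr (by have := abs_le.mp (key v); omega),
    fun v => Or.inr (by rw [v.ord_inv]; have := abs_le.mp (key v); omega)⟩

end FermatLib.MazurP

end
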