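import Fermat.Agent.Galois.MazurP.DeltaUnitSwap
import Fermat.Agent.Igusa.MonoSeriesSheet
import Fermat.Agent.Mazur.Classes.UnitSeries
import Fermat.Prelude.Def_ModularCurve_ArithmeticGalois

/-!
# Reductions of `u = Δ (τ) / Δ (q τ)` and of `w_q u / q ^ 12` on series sheets; Galois invariance
-/

set_option autoImplicit false

noncomputable section

open ModularCurve AlgebraicCurve
open FermatLib.Igusa.Mono FermatLib.Mazur.Classes

namespace FermatLib.MazurP

local notation "Qb" => AlgebraicClosure ℚ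

variable {N d : ℕ} [NeZero N] [NeZero d] {A : ValuationSubring Qb} {k : Type*} [Field k]
  {π : A →+* k}

theorem coe_deltaUnit_eq_coeffMap (hd : d ∣ N) :
    (deltaUnit Qb hd : LaurentSeries Qb) = coeffMap A.subtype (uModC A d) := by
  rw [coe_deltaUnit, coeffMap_uModC, uModC_eq_coeffEmb]

theorem coe_deltaUnit_inv_eq_coeffMap (hd : d ∣ N) :
    (((deltaUnit Qb hd)⁻¹ : laurentBaseChange Qb (modularFunctionFieldFull N)) :
      LaurentSeries Qb) = coeffMap A.subtype (vModC A d) := by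
  rw [IntermediateField.coe_inv, coe_deltaUnit, ← uModC_eq_coeffEmb, coeffMap_vModC]
  exact inv_eq_of_mul_eq_one_right (uModC_mul_vModC Qb d)

/-- `u` has rational coefficients. -/
theorem arithmeticGalois_smul_deltaUnit (σ : Qb ≃ₐ[ℚ] Qb) (hd : d ∣ N) :
    arithmeticGalois (modularFunctionFieldFull N) σ • deltaUnit Qb hd = deltaUnit Qb hd := by
  apply Subtype.ext
  rw [coe_arithmeticGalois_smul, coe_deltaUnit, coeffMap_coeffEmb]

variable {q : ℕ} (hπ : ∀ a : A, π a = 0 ↔ ¬ IsUnit a) (hq : q.Prime) (hqk : (q : k) = 0)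
  {ι : laurentBaseChange Qb (modularFunctionFieldFull N) →ₐ[Qb] LaurentSeries Qb}
  (hfr : ∀ f, ∃ z, z ≠ 0 ∧ ι z ∈ intSpan Qb ∧ ι (f * z) ∈ intSpan Qb)

/-- On the sheet of `q`-expansions `u` is integral with non-zero reduction. -/
theorem deltaUnit_rd_inf (hd : d ∣ N) (hι : ∀ f, ι f = (f : LaurentSeries Qb)) :
    deltaUnit Qb hd ∈ (seriesSheet ι hπ hq hqk hfr).W ∧
      (seriesSheet ι hπ hq hqk hfr).rd (deltaUnit Qb hd) = uModC k d := by
  have h := seriesSheet_rd_of_eq hπ hq hqk hfr (f := deltaUnit Qb hd) (y := uModC A d)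
    (by rw [hι, coe_deltaUnit_eq_coeffMap])
  rwa [coeffMap_uModC] at h

/-- On a sheet where `u` expands as `q ^ 12 / u`, the function `u / q ^ 12` is integral with
non-zero reduction. -/
theorem deltaUnit_rd_zero (hd : d ∣ N) {c : Qb} (hc : c ≠ 0)
    (hι : ι (deltaUnit Qb hd) =
      algebraMap Qb (LaurentSeries Qb) c * (coeffEmb Qb (modularUnitSeries d))⁻¹) :
    c⁻¹ • deltaUnit Qb hd ∈ (seriesSheet ι hπ hq hqk hfr).W ∧
      (seriesSheet ι hπ hq hqk hfr).rd (c⁻¹ • deltaUnit Qb hd) = vModC k d := by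
  have h := seriesSheet_rd_of_eq hπ hq hqk hfr (f := c⁻¹ • deltaUnit Qb hd) (y := vModC A d) (by
    rw [Algebra.smul_def, map_mul, AlgHom.commutes, hι, ← mul_assoc, ← map_mul,
      inv_mul_cancel₀ hc, map_one, one_mul, ← coe_deltaUnit_inv_eq_coeffMap hd,
      IntermediateField.coe_inv, coe_deltaUnit])
  rwa [coeffMap_vModC] at h

/-- The expansion of `w_q u`. -/
theorem coe_monoSwap_deltaUnit {p M : ℕ} [Fact p.Prime] [NeZero M] [NeZero p] (hpM : ¬ p ∣ M) :
    ((monoSwap hpM (deltaUnit Qb (dvd_mul_right p M)) : modularFunctionFieldBar (p * M)) :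
      LaurentSeries Qb) =
      algebraMap Qb (LaurentSeries Qb) ((p : Qb) ^ 12) * (coeffEmb Qb (modularUnitSeries p))⁻¹ := by
  rw [monoSwap_deltaUnit hpM, IntermediateField.coe_mul, IntermediateField.coe_inv, coe_deltaUnit]
  rfl

end FermatLib.MazurP

end
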