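import Fermat.Agent.Galois.MazurP.DeltaUnit
import Fermat.Agent.Modular.CorrJacobian

/-!
# The Hecke norm of `u = Δ (τ) / Δ (d τ)` at a prime `l ∤ N` is `u ^ (l + 1)`

With `z = γ τ` for a coset representative `γ`, `u (l z) = u (z) · G (z) / G (d z)` where
`G = Δ (l τ) / Δ (τ)`; the products of `G` over either system of cosets are the same constant.
-/

set_option autoImplicit false
set_option synthInstance.maxHeartbeats 200000

noncomputable section

open UpperHalfPlane hiding I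
open CongruenceSubgroup ModularCurve AlgebraicCurve
open scoped MatrixGroups ModularForm Manifold

namespace FermatLib.MazurP

open FermatLib.Modular FermatLib.Modular.Corr FermatLib.Igusa
open FermatLib.Curve (barToComplex coe_barToComplex)

attribute [local instance] neZero_mul'

local notation "Qb" => AlgebraicClosure ℚ

/-- The product over all cosets of a weakly holomorphic function without zeros is constant. -/
theorem exists_prod_cosetFun_const (l : ℕ) [NeZero l] [Fintype (Gamma0Coset l)] {G G' : ℍ → ℂ}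
    (hG : G ∈ weakMod (Gamma0 l)) (hG' : G' ∈ weakMod (Gamma0 l)) (h : ∀ τ, G τ * G' τ = 1) :
    ∃ c : ℂ, c ≠ 0 ∧ ∀ τ : ℍ, ∏ r : Gamma0Coset l, cosetFun G r τ = c := by
  have mem : ∀ {H : ℍ → ℂ}, H ∈ weakMod (Gamma0 l) →
      (∏ r : Gamma0Coset l, cosetFun H r) ∈ weakMod ⊤ := by
    intro H hH
    have hbot : (∏ r : Gamma0Coset l, cosetFun H r) ∈ weakMod ⊥ :=
      prod_mem fun r _ => cosetFun_mem_bot hH r
    refine mem_weakMod.mpr ⟨hbot.1, fun γ _ τ => ?_, hbot.2.2⟩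
    rw [Finset.prod_apply, Finset.prod_apply]
    refine Fintype.prod_equiv (MulAction.toPerm γ⁻¹) _ _ fun r => ?_
    rw [cosetFun_smul hH, MulAction.toPerm_apply]
  obtain ⟨P, hP⟩ := exists_polynomial_of_mem_weakMod_top (mem hG)
  obtain ⟨P', hP'⟩ := exists_polynomial_of_mem_weakMod_top (mem hG')
  have hPP : P * P' = 1 := by
    rw [← sub_eq_zero]
    refine aeval_jFun_eq_zero_imp ?_
    rw [map_sub, map_mul, map_one, ← hP, ← hP', ← Finset.prod_mul_distrib, sub_eq_zero]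
    refine Finset.prod_eq_one fun r _ => ?_
    funext τ
    exact h (r.out⁻¹ • τ)
  obtain ⟨c, hc, rfl⟩ := Polynomial.isUnit_iff.mp (IsUnit.of_mul_eq_one P' hPP)
  refine ⟨c, hc.ne_zero, fun τ => ?_⟩
  rw [← Finset.prod_apply, hP, Polynomial.aeval_C]
  rfl

variable {N d : ℕ} [NeZero N] [NeZero d]

/-- `diag (d, 1) γ diag (1/d, 1)`. -/
def lowerDiv (hd : d ∣ N) (γ : Gamma0 N) : SL(2, ℤ) :=
  ⟨!![(γ : SL(2, ℤ)) 0 0, (d : ℤ) * (γ : SL(2, ℤ)) 0 1;
      (γ : SL(2, ℤ)) 1 0 / d, (γ : SL(2, ℤ)) 1 1], by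
    have hdet := (γ : SL(2, ℤ)).2
    rw [Matrix.det_fin_two] at hdet
    have hdvd : (d : ℤ) ∣ (γ : SL(2, ℤ)) 1 0 :=
      (Int.natCast_dvd_natCast.mpr hd).trans (Modular.Gamma0_mem_iff_dvd.mp γ.2)
    rw [Matrix.det_fin_two_of, mul_comm (d : ℤ), mul_assoc, Int.mul_ediv_cancel' hdvd]
    exact hdet⟩

theorem diag_smul_eq_lowerDiv (hd : d ∣ N) (γ : Gamma0 N) (τ : ℍ) :
    ModularForm.heckeDiagMatrix d • ((γ : SL(2, ℤ)) • τ) =
      lowerDiv hd γ • (ModularForm.heckeDiagMatrix d • τ) := by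
  have hdvd : (d : ℤ) ∣ (γ : SL(2, ℤ)) 1 0 :=
    (Int.natCast_dvd_natCast.mpr hd).trans (Modular.Gamma0_mem_iff_dvd.mp γ.2)
  obtain ⟨c, hc⟩ := hdvd
  have hc' : (γ : SL(2, ℤ)) 1 0 / (d : ℤ) = c := by
    rw [hc, Int.mul_ediv_cancel_left _ (by exact_mod_cast NeZero.ne d)]
  apply UpperHalfPlane.ext
  rw [ModularForm.coe_heckeDiagMatrix_smul (NeZero.ne d),
    UpperHalfPlane.coe_specialLinearGroup_apply, UpperHalfPlane.coe_specialLinearGroup_apply,
    ModularForm.coe_heckeDiagMatrix_smul (NeZero.ne d)]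
  simp only [algebraMap_int_eq, eq_intCast, lowerDiv, Matrix.of_apply, Matrix.cons_val',
    Matrix.cons_val_zero, Matrix.cons_val_one, Matrix.cons_val_fin_one, Complex.ofReal_intCast,
    hc']
  push_cast [hc]
  rw [mul_div_assoc']
  congr 1 <;> ring

theorem lowerLeft_lowerDiv (hd : d ∣ N) (γ δ : Gamma0 N) :
    (d : ℤ) * (lowerDiv hd γ * (lowerDiv hd δ)⁻¹) 1 0 =
      ((γ : SL(2, ℤ)) * (δ : SL(2, ℤ))⁻¹) 1 0 := by
  obtain ⟨c, hc⟩ := (Int.natCast_dvd_natCast.mpr hd).trans (Modular.Gamma0_mem_iff_dvd.mp γ.2)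
  obtain ⟨e, he⟩ := (Int.natCast_dvd_natCast.mpr hd).trans (Modular.Gamma0_mem_iff_dvd.mp δ.2)
  have hd0 : (d : ℤ) ≠ 0 := by exact_mod_cast NeZero.ne d
  have h₁ : ((lowerDiv hd γ : SL(2, ℤ)) : Matrix (Fin 2) (Fin 2) ℤ) =
      !![(γ : SL(2, ℤ)) 0 0, (d : ℤ) * (γ : SL(2, ℤ)) 0 1; c, (γ : SL(2, ℤ)) 1 1] := by
    show !![_, _; _ / (d : ℤ), _] = _
    rw [show (γ : SL(2, ℤ)) 1 0 / (d : ℤ) = c by rw [hc, Int.mul_ediv_cancel_left _ hd0]]
  have h₂ : ((lowerDiv hd δ : SL(2, ℤ)) : Matrix (Fin 2) (Fin 2) ℤ) =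
      !![(δ : SL(2, ℤ)) 0 0, (d : ℤ) * (δ : SL(2, ℤ)) 0 1; e, (δ : SL(2, ℤ)) 1 1] := by
    show !![_, _; _ / (d : ℤ), _] = _
    rw [show (δ : SL(2, ℤ)) 1 0 / (d : ℤ) = e by rw [he, Int.mul_ediv_cancel_left _ hd0]]
  simp only [Matrix.SpecialLinearGroup.coe_mul, Matrix.SpecialLinearGroup.coe_inv, h₁, h₂,
    Matrix.adjugate_fin_two, Matrix.mul_apply, Fin.sum_univ_two, Matrix.of_apply,
    Matrix.cons_val', Matrix.cons_val_zero, Matrix.cons_val_one, Matrix.cons_val_fin_one, hc, he]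
  ring

theorem deltaUnitFun_diag_smul (l : ℕ) [NeZero l] (τ : ℍ) :
    deltaUnitFun d (ModularForm.heckeDiagMatrix l • τ) =
      deltaQuotFun l τ / deltaQuotFun l (ModularForm.heckeDiagMatrix d • τ) *
        deltaUnitFun d τ := by
  have h : ModularForm.heckeDiagMatrix l • (ModularForm.heckeDiagMatrix d • τ) =
      ModularForm.heckeDiagMatrix d • (ModularForm.heckeDiagMatrix l • τ) := by
    apply UpperHalfPlane.ext
    simp only [ModularForm.coe_heckeDiagMatrix_smul (NeZero.ne l),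
      ModularForm.coe_heckeDiagMatrix_smul (NeZero.ne d)]
    ring
  rw [deltaUnitFun_eq, deltaUnitFun_eq, deltaQuotFun, deltaQuotFun, h]
  field_simp [ModularForm.discriminant_ne_zero]

variable (l : Nat.Primes)

theorem card_heckeIdx_eq_psi (hl : ¬ (l : ℕ) ∣ N) [Fintype (Gamma0Coset (l : ℕ))] :
    Fintype.card (HeckeIdx N l) = Fintype.card (Gamma0Coset (l : ℕ)) := by
  haveI : NeZero (l : ℕ) := ⟨l.2.ne_zero⟩
  have h := dedekindPsi_mul_prime 1 l.2
  rw [one_mul, if_neg l.2.not_dvd_one] at h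
  have h1 : dedekindPsi 1 = 1 := dedekindPsi_one
  rw [card_coset_eq, card_heckeIdx, if_neg hl, h, h1, mul_one]

/-- `∏ u (l γ τ) = u (τ) ^ (l + 1)` over the representatives of `Γ₀(N l) \ Γ₀(N)`. -/
theorem translateProd_deltaUnitFun (hd : d ∣ N) (hl : ¬ (l : ℕ) ∣ N) (τ : ℍ) :
    translateProd (N := N) l (deltaUnitFun d) τ = deltaUnitFun d τ ^ ((l : ℕ) + 1) := by
  haveI : NeZero (l : ℕ) := ⟨l.2.ne_zero⟩
  letI := Fintype.ofFinite (Gamma0Coset (l : ℕ))
  have hG : deltaQuotFun (l : ℕ) ∈ weakMod (Gamma0 (l : ℕ)) := deltaQuotFun_mem_weakMod dvd_rfl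
  obtain ⟨c, hc, hconst⟩ := exists_prod_cosetFun_const (l : ℕ) hG
    (deltaUnitFun_mem_weakMod dvd_rfl) fun τ => by
      rw [mul_comm]; exact congrFun (deltaUnitFun_mul_quot (l : ℕ)) τ
  have hcop : IsCoprime ((l : ℕ) : ℤ) (N : ℤ) :=
    Nat.isCoprime_iff_coprime.2 ((l.2.coprime_iff_not_dvd).2 hl)
  have key : ∀ (γ : HeckeIdx N l → SL(2, ℤ)),
      (∀ x y, ((l : ℕ) : ℤ) ∣ (γ x * (γ y)⁻¹) 1 0 → x = y) →
      ∀ σ : ℍ, ∏ x : HeckeIdx N l, deltaQuotFun (l : ℕ) (γ x • σ) = c := by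
    intro γ hγ σ
    let f : HeckeIdx N l → Gamma0Coset (l : ℕ) := fun x => ((γ x)⁻¹ : SL(2, ℤ))
    have hinj : Function.Injective f := fun x y h => by
      refine hγ x y ?_
      have h' := QuotientGroup.eq.mp h
      rw [inv_inv] at h'
      exact Modular.Gamma0_mem_iff_dvd.mp h'
    have hbij : Function.Bijective f :=
      (Fintype.bijective_iff_injective_and_card f).mpr ⟨hinj, card_heckeIdx_eq_psi l hl⟩
    rw [← hconst σ]
    refine Fintype.prod_bijective f hbij _ _ fun x => ?_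
    rw [cosetFun_mk hG, inv_inv]
  have h1 : ∀ σ : ℍ, ∏ x : HeckeIdx N l,
      deltaQuotFun (l : ℕ) ((cosetRep l x : SL(2, ℤ)) • σ) = c := by
    refine key _ fun x y h => eq_of_cosetRep l ?_
    rw [Modular.Gamma0_mem_iff_dvd, Nat.cast_mul]
    refine IsCoprime.mul_dvd hcop.symm ?_ h
    exact Modular.Gamma0_mem_iff_dvd.mp (mul_mem (cosetRep l x).2 (inv_mem (cosetRep l y).2))
  have h2 : ∀ σ : ℍ, ∏ x : HeckeIdx N l,
      deltaQuotFun (l : ℕ) (lowerDiv hd (cosetRep l x) • σ) = c := by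
    refine key _ fun x y h => eq_of_cosetRep l ?_
    rw [Modular.Gamma0_mem_iff_dvd, Nat.cast_mul]
    refine IsCoprime.mul_dvd hcop.symm ?_ ?_
    · exact Modular.Gamma0_mem_iff_dvd.mp (mul_mem (cosetRep l x).2 (inv_mem (cosetRep l y).2))
    · rw [← lowerLeft_lowerDiv hd]
      exact dvd_mul_of_dvd_right h _
  rw [translateProd, Finset.prod_apply]
  simp_rw [deltaUnitFun_diag_smul, diag_smul_eq_lowerDiv hd]
  rw [Finset.prod_mul_distrib, Finset.prod_div_distrib, h1, h2, div_self hc, one_mul]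
  have hinv : ∀ x : HeckeIdx N l,
      deltaUnitFun d ((cosetRep l x : SL(2, ℤ)) • τ) = deltaUnitFun d τ := fun x =>
    (mem_weakMod.mp (deltaUnitFun_mem_weakMod hd)).2.1 _ (cosetRep l x).2 τ
  simp_rw [hinv]
  rw [Finset.prod_const, Finset.card_univ, card_heckeIdx, if_neg hl]

theorem coe_barToComplex_deltaUnit (hd : d ∣ N) :
    (barToComplex N (deltaUnit Qb hd) : LaurentSeries ℂ) = qExpL (deltaUnitFun d) := by
  rw [coe_barToComplex, coe_deltaUnit, coeffMap_coeffEmb_of_ringHom, qExpL_deltaUnitFun]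

/-- `N_α (β u) = u ^ (l + 1)`. -/
theorem normAlong_deltaUnit (hd : d ∣ N) (hl : ¬ (l : ℕ) ∣ N) :
    haveI : NeZero (l : ℕ) := ⟨l.2.ne_zero⟩
    normAlong (heckeAlphaBar Qb N (l : ℕ)) (heckeBetaBar Qb N (l : ℕ) (deltaUnit Qb hd)) =
      deltaUnit Qb hd ^ ((l : ℕ) + 1) := by
  haveI : NeZero (l : ℕ) := ⟨l.2.ne_zero⟩
  set ψ₀ : modularFunctionFieldBar N →+* MeroH := (meroEval N 1).comp (barToComplex N) with hψ₀
  let ψ : HeckeIdx N l → (modularFunctionFieldBar (N * (l : ℕ)) →+* MeroH) := fun x =>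
    (meroEval (N * (l : ℕ)) (cosetRep l x : SL(2, ℤ))).comp (barToComplex (N * (l : ℕ)))
  have hψ : ∀ x f, ψ x (heckeAlphaBar Qb N (l : ℕ) f) = ψ₀ f := fun x f => by
    simp only [ψ, hψ₀, RingHom.comp_apply, barToComplex_heckeAlphaBar, meroEval_heckeAlphaBar]
  have hinj : Function.Injective ψ := fun x y h => by
    refine eq_of_cosetRep l ((jScaleFun_smul_eq_iff (N * (l : ℕ)) _ _).mp fun τ => ?_)
    set W : weakMod (Gamma0 (N * (l : ℕ))) := ⟨_, jScaleFun_mem_weakMod dvd_rfl⟩ with hW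
    have hel : barToComplex (N * (l : ℕ)) (jScaleElem Qb (N * (l : ℕ))) =
        ⟨qExpWeak _ W, qExpWeak_mem W⟩ := Subtype.ext (by
      rw [coe_barToComplex, coe_jScaleElem, coeffMap_coeffEmb_of_ringHom, ← qExpL_jScaleFun]; rfl)
    have h1 := RingHom.congr_fun h (jScaleElem Qb (N * (l : ℕ)))
    simp only [ψ, RingHom.comp_apply, hel, meroEval_qExpWeak_toMero] at h1
    exact congrFun (toMero_injective h1) τ
  have hcard : Fintype.card (HeckeIdx N l) = finrankAlong Qb (heckeAlphaBar Qb N (l : ℕ)) := by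
    have h := finrankAlong_barIncl_mul (L := Qb) (levelFacts Qb) (dvd_mul_right N (l : ℕ))
    rw [dedekindPsi_mul_prime N l.2, ← card_heckeIdx l] at h
    rw [heckeAlphaBar_eq_barIncl]
    exact (Nat.eq_of_mul_eq_mul_right (dedekindPsi_pos' N) h).symm
  have hnorm := map_normAlong_eq_prod (heckeAlphaBar Qb N (l : ℕ))
    (finiteAlong_heckeAlphaBar (levelFacts Qb) N (l : ℕ)) ψ₀ ψ hψ hinj hcard
    (heckeBetaBar Qb N (l : ℕ) (deltaUnit Qb hd))
  set uW : weakMod (Gamma0 N) := ⟨_, deltaUnitFun_mem_weakMod hd⟩ with huW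
  have hu : ψ₀ (deltaUnit Qb hd) =
      toMero (deltaUnitFun d) (mdifferentiable_deltaUnitFun d) := by
    have hel : barToComplex N (deltaUnit Qb hd) = ⟨qExpWeak N uW, qExpWeak_mem uW⟩ :=
      Subtype.ext (coe_barToComplex_deltaUnit hd)
    rw [hψ₀, RingHom.comp_apply, hel, meroEval_qExpWeak_toMero]
    exact toMero_congr (funext fun τ => by rw [one_smul]) _ _
  have hq : deltaUnitFun d ∈ qMero := weakMod_Gamma0_le_qMero N uW.2
  have hx : ∀ x : HeckeIdx N l, ψ x (heckeBetaBar Qb N (l : ℕ) (deltaUnit Qb hd)) =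
      toMero _ (mdifferentiable_diag_smul (mdifferentiable_deltaUnitFun d) (l : ℕ)
        (cosetRep l x : SL(2, ℤ))) := by
    intro x
    have h1 := meroEval_mul_toMero (M := N * (l : ℕ)) (cosetRep l x : SL(2, ℤ))
      (heckeBetaBar ℂ N (l : ℕ) (barToComplex N (deltaUnit Qb hd)))
      (comp_diag_mem_qMero hq (l : ℕ)) (one_mem qMero) (by
        rw [qExpL_one, mul_one, coe_heckeBetaBar, coe_barToComplex_deltaUnit,
          qExpL_comp_diag hq])
    have h2 : toMero (fun τ => (1 : ℍ → ℂ) ((cosetRep l x : SL(2, ℤ)) • τ))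
        (mdifferentiable_comp_smul (one_mem qMero : (1 : ℍ → ℂ) ∈ qMero).2.1 _) = 1 :=
      map_one (algebraMap holFun MeroH)
    rw [h2, mul_one] at h1
    simp only [ψ, RingHom.comp_apply, barToComplex_heckeBetaBar]
    exact h1
  apply ψ₀.injective
  rw [hnorm, map_pow, hu, Finset.prod_congr rfl fun x _ => hx x,
    ← toMero_prod Finset.univ _ (fun x => mdifferentiable_diag_smul (mdifferentiable_deltaUnitFun d)
      (l : ℕ) (cosetRep l x : SL(2, ℤ)))
      (mdifferentiable_translateProd l (mdifferentiable_deltaUnitFun d))]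
  show _ = algebraMap holFun MeroH _ ^ _
  rw [← map_pow]
  refine congrArg _ (Subtype.ext ?_)
  funext τ
  exact translateProd_deltaUnitFun l hd hl τ

end FermatLib.MazurP

end
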