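import Fermat.Agent.Galois.MazurP.GaussSheet
import Fermat.Agent.Igusa.CongruenceJacobian
import Fermat.Agent.Igusa.ReductionInputs
import Fermat.Agent.Modular.LaurentInstances

/-!
# Reduction modulo `p` commutes with `T_l`, `l ≠ p`

At level `M` prime to `p` the reduced operator is the correspondence of the two degeneracy maps
of the special function fields (this includes `U_l` for `l ∣ M`).
-/

set_option autoImplicit false
set_option linter.style.haveILetI false
set_option synthInstance.maxHeartbeats 400000

noncomputable section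

open HahnSeries ModularCurve AlgebraicCurve
open FermatLib.Igusa FermatLib.Igusa.Mono FermatLib.Modular.Corr

namespace FermatLib.MazurP

open scoped FermatLib.LaurentInstances

local notation "Qbar" => AlgebraicClosure ℚ

variable (A : ValuationSubring Qbar) {p : ℕ} [Fact p.Prime] (hA : A.LiesOverPrime p)
  (M l : ℕ) [NeZero M] [Fact l.Prime] (hpM : ¬ p ∣ M) (hpl : ¬ p ∣ l)

local notation "kA" => IsLocalRing.ResidueField A
local notation "Kb" => modularFunctionFieldFullC (IsLocalRing.ResidueField A)

omit [NeZero M] [Fact l.Prime] in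
include hpM hpl in
theorem not_dvd_mul_level : ¬ p ∣ M * l := fun h =>
  ((Fact.out : p.Prime).dvd_mul.mp h).elim hpM hpl

omit [NeZero M] [Fact l.Prime] in
include hA hpM hpl in
theorem natCast_mul_ne_zero : ((M : kA) * (l : kA)) ≠ 0 := by
  exact_mod_cast natCast_residueField_ne_zero (not_dvd_mul_level M l hpM hpl) A hA

include hA hpM in
theorem isFunctionField_special : Curve.IsFunctionField kA (Kb M) :=
  isFunctionField_fullC (degreeInput_modL M hpM A hA)

include hA hpM hpl in
theorem isFunctionField_special_mul : Curve.IsFunctionField kA (Kb (M * l)) := by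
  haveI : NeZero (M * l) := ⟨Nat.mul_ne_zero (NeZero.ne M) (Fact.out : l.Prime).ne_zero⟩
  exact isFunctionField_fullC (degreeInput_modL (M * l) (not_dvd_mul_level M l hpM hpl) A hA)

section Maps

variable [hl0 : NeZero l]

include hA hpM hpl in
theorem finite_fullBetaC : FiniteAlong kA (fullBetaC kA M l) := by
  haveI := isFunctionField_special A hA M hpM
  haveI := isFunctionField_special_mul A hA M l hpM hpl
  exact FermatLib.Curve.finiteAlong _

include hA hpM hpl in
theorem finite_fullAlphaC : FiniteAlong kA (fullAlphaC kA M l) :=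
  finiteAlong_fullAlphaC (natCast_mul_ne_zero A hA M l hpM hpl)

/-- The reduced Hecke correspondence on divisors. -/
def heckeDivC : Divisor kA (Kb M) →+ Divisor kA (Kb M) :=
  haveI := isFunctionField_special_mul A hA M l hpM hpl
  Divisor.correspondence (fullBetaC kA M l) (fullAlphaC kA M l)
    (finiteAlong_isIntegral (finite_fullBetaC A hA M l hpM hpl))
    (finiteAlong_isIntegral (finite_fullAlphaC A hA M l hpM hpl))

/-- The reduced Hecke operator on classes. -/
def heckePicC : JZeroC kA M →+ JZeroC kA M :=
  haveI := isFunctionField_special A hA M hpM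
  haveI := isFunctionField_special_mul A hA M l hpM hpl
  Pic0.correspondence (fullBetaC kA M l) (fullAlphaC kA M l)
    (finiteAlong_isIntegral (finite_fullBetaC A hA M l hpM hpl))
    (finiteAlong_isIntegral (finite_fullAlphaC A hA M l hpM hpl))
    (FermatLib.Curve.fundamentalIdentityAlong _ (finite_fullBetaC A hA M l hpM hpl) _)
    (finite_fullAlphaC A hA M l hpM hpl) (FermatLib.Curve.normFormulaAlong _ _)

theorem heckePicC_mk (D : Divisor.degZero (K := kA) (F := Kb M)) :
    ∃ h, heckePicC A hA M l hpM hpl (Pic0.mk D) =
      Pic0.mk ⟨heckeDivC A hA M l hpM hpl (D : Divisor kA (Kb M)), h⟩ :=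
  ⟨_, rfl⟩

set_option maxHeartbeats 1000000 in
/-- **Reduction commutes with `T_l` on divisors of degree zero.** -/
theorem reductionDivAlong_hecke {g g₀ : ℕ}
    (hF : RRField Qbar (modularFunctionFieldBar M) g) (hB : RRField kA (Kb M) g)
    (hR : RiemannInequalityAt Qbar (modularFunctionFieldBar M) g₀)
    {r : Place Qbar (modularFunctionFieldBar M) → Place kA (Kb M)}
    (hr : IsPlaceReductionModL A M r)
    (hgen : PrincipalGeneratedByIntegral A (IsLocalRing.residue A) M)
    (hα : HeckeAlphaBarIntegral Qbar M l) (hβ : HeckeBetaBarIntegral Qbar M l)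
    [HasPrincipalDivisors Qbar (laurentBaseChange Qbar (modularFunctionFieldFull (M * l)))]
    (hFI : FundamentalIdentityAlong Qbar (heckeBetaBar Qbar M l) hβ)
    (hfin : FiniteAlong Qbar (heckeAlphaBar Qbar M l))
    (hN : NormFormulaAlong Qbar (heckeAlphaBar Qbar M l) hfin)
    (D : Divisor Qbar (modularFunctionFieldBar M)) (hD : Divisor.degree D = 0) :
    reductionDivAlong r (heckeDivBar hα hβ D) =
      heckeDivC A hA M l hpM hpl (reductionDivAlong r D) := by
  classical
  haveI := isFunctionField_special A hA M hpM
  haveI := isFunctionField_special_mul A hA M l hpM hpl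
  haveI := (curveFacts Qbar).hasPrincipalDivisors M
  haveI : NeZero (M * l) := ⟨Nat.mul_ne_zero (NeZero.ne M) hl0.out⟩
  set Tk := heckeDivC A hA M l hpM hpl with hTk
  have hβk := finite_fullBetaC A hA M l hpM hpl
  have hαk := finite_fullAlphaC A hA M l hpM hpl
  let δ := (reductionDivAlong r).comp (heckeDivBar hα hβ) - Tk.comp (reductionDivAlong r)
  have hδ : ∀ E, δ E = reductionDivAlong r (heckeDivBar hα hβ E) - Tk (reductionDivAlong r E) :=
    fun _ => rfl
  have h0 : δ D = 0 := by
    refine apply_eq_zero_of_degree_eq_zero δ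
      ((finrankAlong Qbar (heckeBetaBar Qbar M l) : ℤ) +
        finrankAlong kA (fullBetaC kA M l)) (fun P Q => ?_)
      curveFacts_deg hR (fun E hE => degree_eq_zero_of_mem_principal hE)
      (fun E hE => eq_zero_on_principal_of_integral hgen δ ?_ hE) D hD
    · rw [hδ, Finsupp.sub_apply]
      refine (abs_sub _ _).trans (add_le_add ?_ ?_)
      · rw [reductionDivAlong_apply]
        refine (abs_mapDomain_le curveFacts_deg r
          (fun v => correspondence_nonneg _ _ _ _ (fun w => ?_) v) Q).trans (le_of_eq ?_)
        · rw [Finsupp.single_apply]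
          split_ifs <;> norm_num
        · refine (Divisor.degree_correspondence (heckeBetaBar Qbar M l) (heckeAlphaBar Qbar M l)
            hβ hα hFI _).trans ?_
          rw [Divisor.degree_single, curveFacts_deg, Nat.cast_one, mul_one, mul_one]
      · rw [reductionDivAlong_single]
        have h := abs_mapDomain_le hB.deg_one id
          (E := Tk (Finsupp.single (r P) 1))
          (fun v => correspondence_nonneg _ _ _ _ (fun w => by
            rw [Finsupp.single_apply]; split_ifs <;> norm_num) v) Q
        rw [Finsupp.mapDomain_id] at h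
        refine h.trans (le_of_eq ?_)
        refine (Divisor.degree_correspondence _ _ _ _
          (FermatLib.Curve.fundamentalIdentityAlong _ hβk _) _).trans ?_
        rw [Divisor.degree_single, hB.deg_one, Nat.cast_one, mul_one, mul_one]
    · rintro E ⟨y, hy, hyk, hne, hE⟩
      have hkM : (M : kA) ≠ 0 := natCast_residueField_ne_zero hpM A hA
      have hkMl : ((M * l : ℕ) : kA) ≠ 0 := by
        rw [Nat.cast_mul]; exact natCast_mul_ne_zero A hA M l hpM hpl
      have hres := residue_eq_zero_of_not_isUnit A
      have hunit := isUnit_of_residue_ne_zero A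
      have hsurj : Function.Surjective (IsLocalRing.residue A) := IsLocalRing.residue_surjective
      set S := gaussSheet hres hunit hsurj M hkM with hS
      set y' : integralSeries A (IsLocalRing.residue A) M := ⟨y, hy, hyk⟩
      set f := genericFun A (IsLocalRing.residue A) M y'
      set fk := specialFun A (IsLocalRing.residue A) M y'
      have hfk0 : fk ≠ 0 := fun h => hne (congrArg Subtype.val h)
      obtain ⟨hfW, hfr⟩ := gaussSheet_rd hres hunit hsurj hkM
        (f := f) (y := y') (z := 1) (by simp) (by simp [f])
      rw [map_one, div_one] at hfr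
      have hf0 : f ≠ 0 := fun h => hfk0 (hfr.symm.trans (by rw [h, Sheet.rd_zero]))
      obtain ⟨hbW, hbr⟩ := gaussSheet_compat_beta (l := l) hres hunit hsurj hkM hkMl f hfW
      obtain ⟨hNW, hNr⟩ := normAlong_mem_rd
        (gaussSheet_compat_alpha (l := l) hres hunit hsurj hkM hkMl)
        (gaussSheet_surjective hres hunit hsurj hkMl) hαk
        (finrankAlong_fullAlphaC_eq (natCast_mul_ne_zero A hA M l hpM hpl)
          (levelFacts Qbar)) hbW
      rw [hbr, hfr] at hNr
      have hN0 : normAlong (fullAlphaC kA M l) (fullBetaC kA M l fk) ≠ 0 :=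
        norm_ne_zero_along (fullBetaC kA M l) (fullAlphaC kA M l) hαk hfk0
      rw [Sheet.rd_of_mem hNW] at hNr
      have hIs := (isPlaceReductionAlong_iff hres hunit hsurj (degreeInput_of_ne_zero A _ M hkM)
        hF hB).mp hr
      have h1 : ∀ Q, reductionDivAlong r (heckeDivBar hα hβ E) Q =
          Q.ord (normAlong (fullAlphaC kA M l) (fullBetaC kA M l fk)) := fun Q => by
        rw [← hNr]
        refine hIs ⟨_, hNW⟩ (fun h => hN0 (hNr.symm.trans h)) _ (fun P => ?_) Q
        exact correspondence_apply_eq_ord_norm _ _ hβ hα hfin hN hf0 hE P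
      have h2 : ∀ Q, reductionDivAlong r E Q = Q.ord fk := fun Q => hr.2 y hy hyk hne E hE Q
      ext Q
      rw [hδ, Finsupp.sub_apply, Finsupp.zero_apply, sub_eq_zero, h1]
      exact (correspondence_apply_eq_ord_norm _ _ _ _ hαk
        (FermatLib.Curve.normFormulaAlong _ hαk) hfk0 h2 Q).symm
  rwa [hδ, sub_eq_zero] at h0

set_option maxHeartbeats 1000000 in
include hA hpM hpl in
/-- **`red (T_l x) = T̄_l (red x)`.** -/
theorem reductionModL_hecke {g g₀ : ℕ}
    (hR : RiemannInequalityAt Qbar (modularFunctionFieldBar M) g₀)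
    (hF : RRField Qbar (modularFunctionFieldBar M) g) (hB : RRField kA (Kb M) g)
    (h : ReductionInputsModL A M) (x : JZero M) :
    reductionModL A M (heckeOperatorBar M ⟨l, Fact.out⟩ x) =
      heckePicC A hA M l hpM hpl (reductionModL A M x) := by
  haveI := isFunctionField_special A hA M hpM
  obtain ⟨hα, hβ, hP, hfin, hFI, hN⟩ := FermatLib.Modular.heckeInputsAlong Qbar M l
  haveI := hP
  obtain ⟨D, rfl⟩ := Pic0.mk_surjective x
  show reductionModL A M (heckeOperatorAlong Qbar M l (Pic0.mk D)) = _
  rw [heckeOperatorAlong_eq hα hβ hFI hfin hN]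
  refine (congrArg (reductionModL A M)
    (Pic0.correspondence_mk _ _ hβ hα hFI hfin hN D)).trans ?_
  rw [reductionModL_mk h, reductionModL_mk h]
  obtain ⟨_, e⟩ := heckePicC_mk A hA M l hpM hpl
    (reductionDegZeroAlong (placeReductionModL h)
      (isPlaceReductionModL_placeReductionModL h).1 D)
  rw [e]
  refine congrArg Pic0.mk (Subtype.ext ?_)
  exact reductionDivAlong_hecke A hA M l hpM hpl hF hB hR
    (isPlaceReductionModL_placeReductionModL h) h.choose_spec.2 hα hβ hFI hfin hN D D.2

end Maps

end FermatLib.MazurP

end
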