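import Fermat.Agent.Galois.MazurP.HeckePoles
import Fermat.Agent.Galois.MazurP.NormOp
import Fermat.Agent.Galois.MazurP.DegeneracyHecke
import Fermat.Agent.Galois.MazurP.DeltaUnitNorm
import Fermat.Agent.Galois.MazurP.GaussHecke
import Fermat.Agent.Igusa.MonoTwoSheets
import Fermat.Agent.Modular.LaurentInstances

/-!
# The Hecke correspondence data on the two sheets of `X₀(qM)`
-/

set_option autoImplicit false
set_option linter.style.haveILetI false
set_option synthInstance.maxHeartbeats 400000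

noncomputable section

open AlgebraicCurve ModularCurve IntermediateField
open FermatLib.Igusa FermatLib.Igusa.Mono FermatLib.Modular.Corr

namespace FermatLib.MazurP

open scoped FermatLib.LaurentInstances

attribute [local instance] neZero_mul'
attribute [local instance 100000] monoLaurentModule monoLaurentSMul

local notation "Qbar" => AlgebraicClosure ℚ

section Surjective

variable {L F k : Type*} [Field L] [Field F] [Algebra L F] [Field k] {A : ValuationSubring L}
  {π : A →+* k}

/-- A sheet onto a subfield of series is surjective once it reaches a set of generators. -/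
theorem sheet_surjective_of_adjoin {G : Set (LaurentSeries k)}
    {E : IntermediateField k (LaurentSeries k)} (s : Sheet π F E) (hE : E = adjoin k G)
    (hπ : Function.Surjective π) (hG : ∀ g ∈ G, ∃ f ∈ s.W, ((s.rd f : E) : LaurentSeries k) = g)
    (x : E) : ∃ f ∈ s.W, s.rd f = x := by
  suffices h : ∀ z ∈ adjoin k G, ∃ f ∈ s.W, ((s.rd f : E) : LaurentSeries k) = z by
    obtain ⟨f, hf, hz⟩ := h x (hE ▸ x.2)
    exact ⟨f, hf, Subtype.ext hz⟩
  intro z hz
  induction hz using IntermediateField.adjoin_induction with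
  | mem g hg => exact hG g hg
  | algebraMap c =>
    obtain ⟨a, rfl⟩ := hπ c
    exact ⟨algebraMap L F (a : L), s.mem_algebraMap a, by rw [Sheet.rd_algebraMap a.2]; rfl⟩
  | add z w _ _ hz hw =>
    obtain ⟨f, hf, rfl⟩ := hz
    obtain ⟨g, hg, rfl⟩ := hw
    exact ⟨f + g, add_mem hf hg, by rw [Sheet.rd_add hf hg, IntermediateField.coe_add]⟩
  | inv z _ hz =>
    obtain ⟨f, hf, rfl⟩ := hz
    rcases eq_or_ne (s.rd f) 0 with h0 | h0
    · exact ⟨0, zero_mem _, by rw [Sheet.rd_zero, h0]; simp⟩
    exact ⟨f⁻¹, Sheet.inv_mem_of_rd_ne hf h0, by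
      rw [Sheet.rd_inv hf h0, IntermediateField.coe_inv]⟩
  | mul z w _ _ hz hw =>
    obtain ⟨f, hf, rfl⟩ := hz
    obtain ⟨g, hg, rfl⟩ := hw
    exact ⟨f * g, mul_mem hf hg, by rw [Sheet.rd_mul hf hg, IntermediateField.coe_mul]⟩

end Surjective

variable {q : ℕ} [Fact q.Prime] {M : ℕ} [NeZero M] (hqM : ¬ q ∣ M)
  {A : ValuationSubring (AlgebraicClosure ℚ)} (hA : A.LiesOverPrime q)
  {M' : ℕ} [NeZero M'] (hqM' : ¬ q ∣ M')

local notation "kA" => IsLocalRing.ResidueField A

/-- Maps of expansions commuting with reduction are compatible with the sheets at infinity. -/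
theorem monoSheetInf_compat
    (φ : modularFunctionFieldBar (q * M) →ₐ[Qbar] modularFunctionFieldBar (q * M'))
    (φb : modularFunctionFieldFullC kA M →ₐ[kA] modularFunctionFieldFullC kA M')
    (eA : LaurentSeries A →+* LaurentSeries A) (eL : LaurentSeries Qbar →+* LaurentSeries Qbar)
    (ek : LaurentSeries kA →+* LaurentSeries kA)
    (hL : ∀ y, coeffMap A.subtype (eA y) = eL (coeffMap A.subtype y))
    (hk : ∀ y, coeffMap (IsLocalRing.residue A) (eA y) = ek (coeffMap (IsLocalRing.residue A) y))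
    (hφ : ∀ f, (φ f : LaurentSeries Qbar) = eL (f : LaurentSeries Qbar))
    (hφb : ∀ f, (φb f : LaurentSeries kA) = ek (f : LaurentSeries kA)) :
    SheetCompat (monoSheetInf hqM hA) (monoSheetInf hqM' hA) φ φb := by
  rintro f ⟨y, z, h⟩
  have h' : IsRatio A (IsLocalRing.residue A) (iotaInf q M') (φ f) (eA y) (eA z) :=
    ⟨by rw [hk]; exact (map_ne_zero ek).mpr h.red_ne, by
      show (φ f : LaurentSeries Qbar) * _ = _
      rw [hφ, hL, hL, ← map_mul]
      exact congrArg eL h.eq⟩
  refine ⟨⟨eA y, eA z, h'⟩, Subtype.ext ?_⟩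
  rw [coe_monoSheetInf_rd, hφb, coe_monoSheetInf_rd, rawInf, rawInf,
    (seriesSheet_rd _ _ _ _ h').2, (seriesSheet_rd _ _ _ _ h).2, hk, hk, map_div₀]

/-- Compatibility at infinity passes to the other cusp along the involutions. -/
theorem monoSheetZero_compat
    (φ : modularFunctionFieldBar (q * M) →ₐ[Qbar] modularFunctionFieldBar (q * M'))
    (φb : modularFunctionFieldFullC kA M →ₐ[kA] modularFunctionFieldFullC kA M')
    (hw : ∀ f, monoSwap hqM' (φ f) = φ (monoSwap hqM f))
    (h : SheetCompat (monoSheetInf hqM hA) (monoSheetInf hqM' hA) φ φb) :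
    SheetCompat (monoSheetZero hqM hA) (monoSheetZero hqM' hA) φ φb := by
  intro f hf
  rw [monoSheetZero_mem_iff, monoSheetZero_rd, monoSheetZero_rd, hw]
  exact h _ ((monoSheetZero_mem_iff hqM hA f).mp hf)

theorem monoSheetInf_surjective (x : modularFunctionFieldFullC kA M) :
    ∃ f ∈ (monoSheetInf hqM hA).W, (monoSheetInf hqM hA).rd f = x := by
  refine sheet_surjective_of_adjoin (monoSheetInf hqM hA) rfl IsLocalRing.residue_surjective
    (fun g hg => ?_) x
  obtain ⟨d, hne, hd, rfl⟩ := hg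
  let e : LevelDiv q M := ⟨d, Nat.mem_divisors.mpr ⟨hd.mul_left q, monoLevel_ne_zero⟩⟩
  exact ⟨genFun q M e, (rawInf_genFun hqM hA e).1,
    (coe_monoSheetInf_rd hqM hA _).trans (rawInf_genFun hqM hA e).2⟩

theorem monoSheetZero_surjective (x : modularFunctionFieldFullC kA M) :
    ∃ f ∈ (monoSheetZero hqM hA).W, (monoSheetZero hqM hA).rd f = x := by
  obtain ⟨f, hf, rfl⟩ := monoSheetInf_surjective hqM hA x
  exact ⟨monoSwap hqM f, by rw [monoSheetZero_mem_iff, monoSwap_monoSwap]; exact hf,
    by rw [monoSheetZero_rd, monoSwap_monoSwap]⟩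

/-- `w_q` commutes with the inclusion of levels prime to `q`. -/
theorem monoSwap_barIncl (h : q * M ∣ q * M') (x : modularFunctionFieldBar (q * M)) :
    monoSwap hqM' (barIncl Qbar h x) = barIncl Qbar h (monoSwap hqM x) := by
  suffices H : (monoSwap hqM').toAlgHom.comp (barIncl Qbar h) =
      (barIncl Qbar h).comp (monoSwap hqM).toAlgHom from DFunLike.congr_fun H x
  refine fieldBar_algHom_ext (q * M) fun y e _ he hy => Subtype.ext ?_
  let e' : LevelDiv q M := ⟨e, Nat.mem_divisors.mpr ⟨he, monoLevel_ne_zero⟩⟩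
  let E : LevelDiv q M' := ⟨e, Nat.mem_divisors.mpr ⟨he.trans h, monoLevel_ne_zero⟩⟩
  show (monoSwap hqM' (barIncl Qbar h y) : LaurentSeries Qbar) =
    barIncl Qbar h (monoSwap hqM y)
  rw [coe_monoSwap_of_eq hqM' (e := E) ((coe_barIncl h y).trans hy), coe_barIncl,
    coe_monoSwap_of_eq hqM (e := e') hy]
  exact qExpand_congr rfl _

section Corr

variable {l : ℕ} [Fact l.Prime] [NeZero l]

omit [Fact l.Prime] in
include hA hqM in
/-- The degree of `τ ↦ τ` from level `qMl` to `qM` is that modulo `q` from `Ml` to `M`. -/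
theorem finrankAlong_fullAlphaC_eq_barIncl (hlq : ¬ q ∣ l) :
    finrankAlong kA (fullAlphaC kA M l) =
      finrankAlong Qbar (barIncl Qbar (mul_dvd_mul_left q (dvd_mul_right M l))) := by
  have hqMl := not_dvd_mul_level M l hqM hlq
  have h1 := finrankAlong_fullAlphaC_mul (natCast_mul_ne_zero A hA M l hqM hlq)
  have h2 := finrankAlong_barIncl_mul (M := q * M) (M' := q * (M * l)) (levelFacts Qbar)
    (mul_dvd_mul_left q (dvd_mul_right M l))
  have hψ : ∀ N, [NeZero N] → ¬ q ∣ N → dedekindPsi (q * N) = (q + 1) * dedekindPsi N :=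
    fun N _ hN => by rw [mul_comm q N, dedekindPsi_mul_prime N Fact.out, if_neg hN]
  rw [hψ M hqM, hψ (M * l) hqMl, ← h1] at h2
  refine Nat.eq_of_mul_eq_mul_right
    (Nat.mul_pos (q.succ_pos : 0 < q + 1) (dedekindPsi_pos' M)) ?_
  rw [h2, Nat.succ_eq_add_one]
  ring

omit [Fact l.Prime] in
/-- The function-level operator at level `q(Ml)` is the one at level `(qM)l`. -/
theorem normAlong_barIncl_barBeta {N N' : ℕ} [NeZero N] [NeZero N'] (hN' : N * l = N')
    (h : N ∣ N') (f : modularFunctionFieldBar N) :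
    normAlong (barIncl Qbar h) (barBeta Qbar l (dvd_of_eq hN') f) =
      normAlong (heckeAlphaBar Qbar N l) (heckeBetaBar Qbar N l f) := by
  subst hN'
  rw [heckeAlphaBar_eq_barIncl, heckeBetaBar_eq_barBeta]

/-- **The data of the operator at `l ≠ q` on a datum with the two sheets of `X₀(qM)`.** -/
def heckeCorrBase
    (D : MazurDatum (IsLocalRing.residue A) (modularFunctionFieldBar (q * M))
      (modularFunctionFieldFullC kA M) q)
    (hs₁ : D.s₁ = monoSheetInf hqM hA) (hs₂ : D.s₂ = monoSheetZero hqM hA)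
    (hx : D.x = jFq q M)
    (hlq : ¬ q ∣ l) :
    D.CorrBase (modularFunctionFieldBar (q * (M * l)))
      (modularFunctionFieldFullC kA (M * l)) where
  α := barIncl Qbar (mul_dvd_mul_left q (dvd_mul_right M l))
  β := barBeta Qbar l (dvd_of_eq (mul_assoc q M l))
  ab := fullAlphaC kA M l
  bb := fullBetaC kA M l
  t₁ := monoSheetInf (not_dvd_mul_level M l hqM hlq) hA
  t₂ := monoSheetZero (not_dvd_mul_level M l hqM hlq) hA
  compat_α₁ := hs₁ ▸ monoSheetInf_compat hqM hA _ _ _ (RingHom.id _) (RingHom.id _)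
    (RingHom.id _) (fun _ => rfl) (fun _ => rfl) (coe_barIncl _) (coe_fullAlphaC kA M l)
  compat_β₁ := hs₁ ▸ monoSheetInf_compat hqM hA _ _ _ (qExpand A l) (qExpand Qbar l)
    (qExpand kA l) (coeffMap_qExpand _ l) (coeffMap_qExpand _ l) (coe_barBeta l _)
    (coe_fullBetaC kA M l)
  compat_α₂ := hs₂ ▸ monoSheetZero_compat hqM hA _ _ _ (monoSwap_barIncl hqM _ _)
    (monoSheetInf_compat hqM hA _ _ _ (RingHom.id _) (RingHom.id _)
      (RingHom.id _) (fun _ => rfl) (fun _ => rfl) (coe_barIncl _) (coe_fullAlphaC kA M l))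
  compat_β₂ := hs₂ ▸ monoSheetZero_compat hqM hA _ _ _
    (monoSwap_barBeta hqM (not_dvd_mul_level M l hqM hlq) _)
    (monoSheetInf_compat hqM hA _ _ _ (qExpand A l) (qExpand Qbar l)
      (qExpand kA l) (coeffMap_qExpand _ l) (coeffMap_qExpand _ l) (coe_barBeta l _)
      (coe_fullBetaC kA M l))
  surj₁ := monoSheetInf_surjective _ hA
  surj₂ := monoSheetZero_surjective _ hA
  finite_ab := finite_fullAlphaC A hA M l hqM hlq
  finite_bb := finite_fullBetaC A hA M l hqM hlq
  finrank_eq := finrankAlong_fullAlphaC_eq_barIncl hqM hA hlq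
  isFunctionField := isFunctionField_special A hA M hqM
  hasDiv := haveI := isFunctionField_special_mul A hA M l hqM hlq; inferInstance
  poles w := poles_fullAlphaC_iff_fullBetaC (by
    rw [hs₁, hx, coe_monoSheetInf_rd, (rawInf_jFq hqM hA).2]) w

/-- **The data of `T_l`, `l ∤ qM`, on a datum with the two sheets of `X₀(qM)`.** -/
def heckeCorrData
    (D : MazurDatum (IsLocalRing.residue A) (modularFunctionFieldBar (q * M))
      (modularFunctionFieldFullC kA M) q)
    (hs₁ : D.s₁ = monoSheetInf hqM hA) (hs₂ : D.s₂ = monoSheetZero hqM hA)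
    (hx : D.x = jFq q M) (hu : D.u = deltaUnit Qbar (dvd_mul_right q M)) (hl : ¬ l ∣ q * M)
    (hlq : ¬ q ∣ l) :
    D.CorrData (modularFunctionFieldBar (q * (M * l)))
      (modularFunctionFieldFullC kA (M * l)) where
  toCorrBase := heckeCorrBase hqM hA D hs₁ hs₂ hx hlq
  eis := l + 1
  norm_u := ⟨1, one_ne_zero, by
    rw [one_smul]
    show normAlong (barIncl Qbar (mul_dvd_mul_left q (dvd_mul_right M l)))
      (barBeta Qbar l (dvd_of_eq (mul_assoc q M l)) D.u) = _
    rw [hu, normAlong_barIncl_barBeta (mul_assoc q M l)]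
    exact (normAlong_deltaUnit ⟨l, Fact.out⟩ _ hl).trans (zpow_natCast _ _).symm⟩

end Corr

end FermatLib.MazurP

end
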