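import Fermat.Agent.Galois.MazurP.WildMove
import Fermat.Agent.EC.InertiaIntegers
import Fermat.Agent.Galois.FrobeniusElement
import Mathlib.FieldTheory.Galois.Infinite

/-!
The constants of Mazur's argument: the inertia field as a closed fixed field, its extensions by
wild uniformisers, and the value group of `Q̄`.
-/

set_option autoImplicit false

noncomputable section

open Polynomial
open scoped Pointwise IntermediateField

namespace FermatLib.MazurP

local notation "Qbar" => AlgebraicClosure ℚ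
local notation "Γℚ" => (AlgebraicClosure ℚ ≃ₐ[ℚ] AlgebraicClosure ℚ)

variable {A : ValuationSubring Qbar} {p : ℕ}

/-- Inertia is closed. -/
theorem isClosed_inertiaSubgroupIn (hp : p.Prime) (hA : A.LiesOverPrime p) :
    IsClosed (A.inertiaSubgroupIn ℚ : Set Γℚ) := by
  have hset : (A.inertiaSubgroupIn ℚ : Set Γℚ) =
      ⋂ b ∈ {b : Qbar | IsIntegral ℤ b}, {σ : Γℚ | σ b - b ∈ A.nonunits} := by
    ext σ
    simp only [Set.mem_iInter, Set.mem_ofPred_eq, SetLike.mem_coe]
    exact ⟨fun hσ b hb => ((FermatLib.Galois.mem_inertiaSubgroupIn_iff_forall_mem (K := ℚ)).mp hσ).2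
      b (Basic.valuationSubring_mem_of_isIntegral A hb),
      FermatLib.EC.mem_inertiaSubgroupIn_of_forall_isIntegral A hp hA⟩
  rw [hset]
  refine isClosed_biInter fun b _ => ?_
  rw [← isOpen_compl_iff, isOpen_iff_forall_mem_open]
  intro σ hσ
  have : Algebra.IsAlgebraic ℚ Qbar := AlgebraicClosure.isAlgebraic ℚ
  have : Algebra.IsIntegral ℚ Qbar := Algebra.IsAlgebraic.isIntegral
  refine ⟨(fun τ : Γℚ => σ⁻¹ * τ) ⁻¹' (MulAction.stabilizer Γℚ b : Set Γℚ), fun τ hτ => ?_,
    (stabilizer_isOpen_of_isIntegral (K := ℚ) b).preimage (continuous_const_mul _), ?_⟩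
  · intro h
    refine hσ ?_
    have hb : σ⁻¹ (τ b) = b := MulAction.mem_stabilizer_iff.mp hτ
    have : τ b = σ b := (σ.apply_symm_apply (τ b)).symm.trans (congrArg σ hb)
    show σ b - b ∈ A.nonunits
    rw [← this]
    exact h
  · show σ⁻¹ * σ ∈ MulAction.stabilizer Γℚ b
    rw [inv_mul_cancel]
    exact one_mem _

/-- The automorphisms fixing the inertia field are the inertia elements. -/
theorem fixingSubgroup_inertiaField (hp : p.Prime) (hA : A.LiesOverPrime p) :
    (inertiaField A).fixingSubgroup = A.inertiaSubgroupIn ℚ := by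
  have : Algebra.IsAlgebraic ℚ Qbar := AlgebraicClosure.isAlgebraic ℚ
  have : IsAlgClosure ℚ Qbar := ⟨inferInstance, inferInstance⟩
  have : Normal ℚ Qbar := IsAlgClosure.normal ℚ Qbar
  have : IsGalois ℚ Qbar := { }
  exact InfiniteGalois.fixingSubgroup_fixedField
    ⟨A.inertiaSubgroupIn ℚ, isClosed_inertiaSubgroupIn hp hA⟩

/-- The field `K₀(π)`. -/
def wildField (A : ValuationSubring Qbar) (π : Qbar) : IntermediateField ℚ Qbar :=
  ((inertiaField A)⟮π⟯).restrictScalars ℚ

variable {π : Qbar}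

theorem mem_wildField_self : π ∈ wildField A π :=
  IntermediateField.mem_adjoin_simple_self _ π

theorem inertiaField_le_wildField {c : Qbar} (hc : c ∈ inertiaField A) : c ∈ wildField A π :=
  ((inertiaField A)⟮π⟯).algebraMap_mem ⟨c, hc⟩

/-- The automorphisms fixing `K₀(π)`. -/
theorem mem_fixingSubgroup_wildField (hp : p.Prime) (hA : A.LiesOverPrime p) {σ : Γℚ}
    (hσ : σ ∈ (wildField A π).fixingSubgroup) :
    σ ∈ A.inertiaSubgroupIn ℚ ∧ σ π = π := by
  rw [IntermediateField.mem_fixingSubgroup_iff] at hσ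
  refine ⟨?_, hσ π mem_wildField_self⟩
  rw [← fixingSubgroup_inertiaField hp hA, IntermediateField.mem_fixingSubgroup_iff]
  exact fun c hc => hσ c (inertiaField_le_wildField hc)

/-- Every value of `Q̄` is commensurable with that of `p`. -/
theorem valueGroupQbar (hp : p.Prime) (hA : A.LiesOverPrime p) :
    ∀ c : Qbar, c ≠ 0 → ∃ (m : ℕ) (z : ℤ), 0 < m ∧
      A.valuation c ^ m = A.valuation (p : Qbar) ^ z := by
  classical
  intro c hc
  set v := A.valuation
  have hvp0 : v (p : Qbar) ≠ 0 := Galois.Flat.valuation_prime_ne_zero hp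
  have hint : IsIntegral (inertiaField A) c :=
    ((AlgebraicClosure.isAlgebraic ℚ).isAlgebraic c).isIntegral.tower_top
  set f := minpoly (inertiaField A) c
  have hne : f.support.Nonempty := support_nonempty.mpr (minpoly.ne_zero hint)
  have hsum : ∑ i ∈ f.support, (f.coeff i : Qbar) * c ^ i = 0 := by
    have h1 : aeval c f = 0 := minpoly.aeval _ c
    rw [aeval_eq_sum_range, ← Finset.sum_subset
      (supp_subset_range (Nat.lt_succ_self f.natDegree))] at h1
    · exact h1
    · intro i _ hi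
      rw [notMem_support_iff.mp hi, zero_smul]
  obtain ⟨j, hj, hmax⟩ := f.support.exists_max_image
    (fun i => v ((f.coeff i : Qbar) * c ^ i)) hne
  have hcj : (f.coeff j : Qbar) ≠ 0 := fun e => mem_support_iff.mp hj (Subtype.ext e)
  obtain ⟨i, hi, hij, heq⟩ : ∃ i ∈ f.support, i ≠ j ∧ v ((f.coeff i : Qbar) * c ^ i) =
      v ((f.coeff j : Qbar) * c ^ j) := by
    by_contra hcon
    push Not at hcon
    have := v.map_sum_eq_of_lt hj fun i hi =>
      lt_of_le_of_ne (hmax i (Finset.mem_sdiff.mp hi).1) (hcon i (Finset.mem_sdiff.mp hi).1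
        fun e => (Finset.mem_sdiff.mp hi).2 (Finset.mem_singleton.mpr e))
    rw [hsum, map_zero] at this
    exact v.ne_zero_iff.mpr (mul_ne_zero hcj (pow_ne_zero _ hc)) this.symm
  obtain ⟨k, hk⟩ := exists_valuation_eq_zpow_of_mem hp hA (f.coeff i).2
    (fun e => mem_support_iff.mp hi (Subtype.ext e))
  obtain ⟨l, hl⟩ := exists_valuation_eq_zpow_of_mem hp hA (f.coeff j).2 hcj
  rw [map_mul, map_mul, map_pow, map_pow, hk, hl] at heq
  have hvc : v c ≠ 0 := v.ne_zero_iff.mpr hc
  have hd : v c ^ ((i : ℤ) - j) = v (p : Qbar) ^ (l - k) := by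
    rw [zpow_sub₀ hvc, zpow_sub₀ hvp0, zpow_natCast, zpow_natCast,
      div_eq_div_iff (pow_ne_zero _ hvc) (zpow_ne_zero _ hvp0), mul_comm]
    exact heq
  rcases Int.natAbs_eq ((i : ℤ) - j) with h | h
  · exact ⟨((i : ℤ) - j).natAbs, l - k, Int.natAbs_pos.mpr (by omega),
      by rw [← zpow_natCast, ← h, hd]⟩
  · refine ⟨((i : ℤ) - j).natAbs, -(l - k), Int.natAbs_pos.mpr (by omega), ?_⟩
    rw [← zpow_natCast, zpow_neg, ← hd, ← zpow_neg]
    congr 1
    omega

/-- Residues come from the inertia field. -/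
theorem exists_inertiaField_residue (hp : p.Prime) (hA : A.LiesOverPrime p) {k : Type*} [Field k]
    {φ : A →+* k} (hφ : ∀ a : A, φ a = 0 ↔ ¬ IsUnit a) (hs : Function.Surjective φ) (r : k) :
    ∃ a : A, (a : Qbar) ∈ inertiaField A ∧ φ a = r := by
  obtain ⟨a, rfl⟩ := hs r
  obtain ⟨b, hb, hbA, h⟩ := exists_inertiaField_sub_lt hp hA a.2
  refine ⟨⟨b, hbA⟩, hb, (sub_eq_zero.mp ?_).symm⟩
  rw [← map_sub, hφ]
  intro hu
  exact h.ne ((A.valuation_eq_one_iff (a - ⟨b, hbA⟩)).mp hu)

/-- Integers of `K₀(π)` move by less than `σπ/π - 1`. -/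
theorem IsWildUniformiser.valuation_sub_lt (h : IsWildUniformiser A p π) (hp : p.Prime)
    (hA : A.LiesOverPrime p) {σ : Γℚ} (hσ : σ ∈ A.inertiaSubgroupIn ℚ)
    (hne : σ π / π - 1 ≠ 0) {a : Qbar} (ha : a ∈ wildField A π) (haA : a ∈ A) :
    A.valuation (σ a - a) < A.valuation (σ π / π - 1) := by
  have hπ0 : π ≠ 0 := fun e => by
    have h1 := h.val_pow
    rw [e, map_zero, zero_pow hp.ne_zero] at h1
    exact Galois.Flat.valuation_prime_ne_zero hp h1.symm
  refine (h.valuation_sub_le hp hA hσ ha haA).trans_lt ?_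
  rw [show σ π - π = (σ π / π - 1) * π by field_simp, map_mul]
  exact mul_lt_of_lt_one_right (zero_lt_iff.mpr (A.valuation.ne_zero_iff.mpr hne))
    (h.valuation_lt_one hp hA)

end FermatLib.MazurP

end
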