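import Fermat.Agent.Galois.MazurP.InstanceRat
import Fermat.Agent.Galois.MazurP.InstanceField
import Fermat.Agent.Galois.MazurP.DeltaUnitSeries
import Fermat.Agent.Galois.MazurP.DeltaUnitIntegral
import Fermat.Agent.Galois.Flat.Valuation
import Fermat.Agent.Igusa.MonoTwoSheets
import Fermat.Agent.Modular.LaurentInstances

/-!
The datum of Mazur's argument on `X₀(qM)`: the two sheets over `q` with orthogonality on each of
them and the unit `Δ(τ)/Δ(qτ)`.
-/

set_option autoImplicit false
set_option synthInstance.maxHeartbeats 400000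
set_option maxHeartbeats 1000000

noncomputable section

open AlgebraicCurve ModularCurve IntermediateField FermatLib.Igusa FermatLib.Igusa.Mono

namespace FermatLib.MazurP

open scoped FermatLib.LaurentInstances

attribute [local instance 100000] monoLaurentModule monoLaurentSMul

local notation "Qb" => AlgebraicClosure ℚ

variable {q : ℕ} [Fact q.Prime] {M : ℕ} [NeZero M] (hqM : ¬ q ∣ M)
  {A : ValuationSubring (AlgebraicClosure ℚ)} (hA : A.LiesOverPrime q)

local notation "kA" => IsLocalRing.ResidueField A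
local notation "FqM" => modularFunctionFieldBar (q * M)

theorem coeffSheet_monoSheetInf :
    CoeffSheet (monoSheetInf hqM hA) (iotaInf q M) (modularFunctionFieldFullC kA M).val where
  ratio f hf := by
    obtain ⟨y, z, h⟩ := hf
    refine ⟨y, z, h, ?_⟩
    show ((monoSheetInf hqM hA).rd f : LaurentSeries kA) * _ = _
    rw [coe_monoSheetInf_rd, rawInf, (seriesSheet_rd _ _ _ _ h).2, div_mul_cancel₀ _ h.red_ne]
  mem _ y z h := ⟨y, z, h⟩

theorem coeffSheet_monoSheetZero :
    CoeffSheet (monoSheetZero hqM hA) (iotaZero hqM) (modularFunctionFieldFullC kA M).val where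
  ratio f hf := by
    obtain ⟨y, z, h⟩ := hf
    refine ⟨y, z, h, ?_⟩
    show ((monoSheetZero hqM hA).rd f : LaurentSeries kA) * _ = _
    rw [coe_monoSheetZero_rd, rawZero, (seriesSheet_rd _ _ _ _ h).2, div_mul_cancel₀ _ h.red_ne]
  mem _ y z h := ⟨y, z, h⟩

theorem deltaUnit_sheetInf :
    deltaUnit Qb (dvd_mul_right q M) ∈ (monoSheetInf hqM hA).W ∧
      (monoSheetInf hqM hA).rd (deltaUnit Qb (dvd_mul_right q M)) ≠ 0 := by
  have hq : q.Prime := Fact.out
  have : NeZero q := ⟨hq.ne_zero⟩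
  obtain ⟨hm, hr⟩ := deltaUnit_rd_inf (A := A) (π := IsLocalRing.residue A)
    monoResidue_eq_zero_iff hq (monoResidue_natCast hA) (exists_fraction_inf hqM)
    (dvd_mul_right q M) (ι := iotaInf q M) fun _ => rfl
  refine ⟨hm, fun h0 => Mazur.Classes.uModC_ne_zero kA q (hr.symm.trans ?_)⟩
  exact (coe_monoSheetInf_rd hqM hA _).symm.trans (by rw [h0]; rfl)

theorem deltaUnit_sheetZero :
    ((q : Qb) ^ 12)⁻¹ • deltaUnit Qb (dvd_mul_right q M) ∈ (monoSheetZero hqM hA).W ∧
      (monoSheetZero hqM hA).rd (((q : Qb) ^ 12)⁻¹ • deltaUnit Qb (dvd_mul_right q M)) ≠ 0 := by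
  have hq : q.Prime := Fact.out
  have : NeZero q := ⟨hq.ne_zero⟩
  obtain ⟨hm, hr⟩ := deltaUnit_rd_zero (A := A) (π := IsLocalRing.residue A)
    monoResidue_eq_zero_iff hq (monoResidue_natCast hA) (exists_fraction_zero hqM)
    (dvd_mul_right q M) (c := (q : Qb) ^ 12)
    (pow_ne_zero _ (Nat.cast_ne_zero.mpr hq.ne_zero)) (ι := iotaZero hqM)
    (coe_monoSwap_deltaUnit hqM)
  refine ⟨hm, fun h0 => Mazur.Classes.vModC_ne_zero kA q (hr.symm.trans ?_)⟩
  exact (coe_monoSheetZero_rd hqM hA _).symm.trans (by rw [h0]; rfl)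

variable (MD : MonoDatum (IsLocalRing.residue A) ↥(modularFunctionFieldBar (q * M))
    ↥(modularFunctionFieldFullC (IsLocalRing.ResidueField A) M) q)
  (h₁ : MD.s₁ = monoSheetInf hqM hA) (h₂ : MD.s₂ = monoSheetZero hqM hA)
  (hx : MD.x = jFq q M)

/-- The datum of Mazur's argument on `X₀(qM)`. -/
def mazurDatumX0 : MazurDatum (IsLocalRing.residue A) FqM (modularFunctionFieldFullC kA M) q where
  toMonoDatum := MD
  orth₁ := by
    rw [h₁]
    exact (coeffSheet_monoSheetInf hqM hA).sheetOrth (Fact.out : q.Prime) (monoResidue_natCast hA)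
      (exists_fraction_inf hqM)
  orth₂ := by
    rw [h₂]
    exact (coeffSheet_monoSheetZero hqM hA).sheetOrth (Fact.out : q.Prime)
      (monoResidue_natCast hA) (exists_fraction_zero hqM)
  q_ne := Nat.cast_ne_zero.mpr (Fact.out : q.Prime).ne_zero
  q_small := Galois.Flat.valuation_prime_lt_one hA
  valueGroup := valueGroupQbar (Fact.out : q.Prime) hA
  u := deltaUnit Qb (dvd_mul_right q M)
  u_ne := deltaUnit_ne_zero Qb _
  u_pole := by
    have : NeZero q := ⟨(Fact.out : q.Prime).ne_zero⟩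
    have := MD.rrF.principal
    refine deltaUnit_pole Qb (dvd_mul_right q M) (x := MD.x) ?_ MD.Px_apply
    rw [hx, coe_jFq, coeffEmb, ← jqModC_rat, coeffMap_jqModC]
  u_mem₁ := h₁ ▸ (deltaUnit_sheetInf hqM hA).1
  u_red₁ := h₁ ▸ (deltaUnit_sheetInf hqM hA).2
  u_mem₂ := h₂ ▸ (deltaUnit_sheetZero hqM hA).1
  u_red₂ := h₂ ▸ (deltaUnit_sheetZero hqM hA).2

theorem isX0Model_mazurDatumX0 :
    IsX0Model (mazurDatumX0 hqM hA MD h₁ h₂ hx) (monoSwap hqM)
      (modularFunctionFieldFullC kA M).val where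
  w_galois σ f := monoSwap_arithmeticGalois hqM σ f
  sheet₁ := h₁.symm ▸ coeffSheet_monoSheetInf hqM hA
  sheet₂ := h₂.symm ▸ coeffSheet_monoSheetZero hqM hA
  fraction₁ := exists_fraction_inf hqM
  fraction₂ := exists_fraction_zero hqM
  x_fixed σ := by
    show _ • MD.x = MD.x
    rw [hx]
    refine Subtype.ext ?_
    rw [coe_arithmeticGalois_smul, coe_jFq, coeffMap_jqModC]
  u_fixed σ := arithmeticGalois_smul_deltaUnit σ (dvd_mul_right q M)
  prime := Fact.out
  natCast_eq_zero := monoResidue_natCast hA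

end FermatLib.MazurP

end
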