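import Fermat.Agent.Galois.MazurP.AwayThreeRoot
import Fermat.Agent.Galois.MazurP.InstanceCorr
import Fermat.Agent.Galois.MazurP.AwayOps
import Fermat.Agent.Galois.MazurP.DeltaUnitSeries
import Fermat.Agent.Galois.MazurP.InstanceDatum
import Fermat.Agent.Galois.MazurP.DeltaUnitIntegral
import Fermat.Agent.Igusa.GenusCompare
import Fermat.Agent.Igusa.MonoModular

/-!
# `T_l`, `l ≡ 2 (mod 3)`, sends divisors divisible by `3` off the points with an automorphism of
order `3` to divisors divisible by `3`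

On `X₀(Ml)` mod `q` the function `u(τ) u(lτ)` is a cube and `ū(lτ)/ū(τ)` has no zeros away from
the cusps, so `ord ū(lτ) ≡ 0 (mod 3)` there: an index of ramification of `τ ↦ lτ` is divisible
by `3` above a point where `ord ū` is not.
-/

set_option autoImplicit false
set_option linter.style.haveILetI false
set_option synthInstance.maxHeartbeats 400000
set_option maxHeartbeats 400000

noncomputable section

open AlgebraicCurve ModularCurve IntermediateField
open FermatLib.Igusa FermatLib.Igusa.Mono FermatLib.Modular.Corr FermatLib.Mazur.Classes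

namespace FermatLib.MazurP

section Push

variable {K F F' : Type*} [Field K] [Field F] [Algebra K F] [Field F'] [Algebra K F']

theorem dvd_pushforwardAlong {φ : F →ₐ[K] F'} (hφ : φ.toRingHom.IsIntegral) {D : Divisor K F'}
    {v : Place K F} (n : ℤ) (h : ∀ w, w.restrictAlong φ hφ = v → n ∣ D w) :
    n ∣ Divisor.pushforwardAlong φ hφ D v := by
  classical
  letI := algebraAlong φ
  haveI := isScalarTower_along φ
  haveI := isIntegral_along φ hφ
  show n ∣ Divisor.pushforward F D v
  rw [Divisor.pushforward_apply]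
  refine Finset.dvd_sum fun w _ => ?_
  by_cases hw : w.restrict F = v
  · rw [if_pos hw]; exact dvd_mul_of_dvd_left (h w hw) _
  · rw [if_neg hw]; exact dvd_zero _

end Push

universe uL uF uk uKb uF' uKb'

namespace MazurDatum.CorrBase

variable {L : Type uL} {k : Type uk} [Field L] [Field k] {A : ValuationSubring L} {π : A →+* k}
  {F : Type uF} {Kb : Type uKb} [Field F] [Algebra L F] [Field Kb] [Algebra k Kb] {q : ℕ}
  {M : MazurDatum π F Kb q} {F' : Type uF'} {Kb' : Type uKb'} [Field F'] [Algebra L F']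
  [Field Kb'] [Algebra k Kb'] (C : M.CorrBase F' Kb')

/-- If `3 ∣ ord (bb ū)` away from the cusps, the correspondence preserves divisibility by `3`. -/
theorem three_dvd_dvK
    (h : ∀ w : Place k Kb', 0 ≤ w.ord (C.ab (M.s₁.rd M.x)) → (3 : ℤ) ∣ w.ord (C.bb M.ub₁))
    {E : Divisor k Kb} (hE : ∀ v, M.P₁ v = 0 → (3 : ℤ) ∣ M.h₁ v → (3 : ℤ) ∣ E v)
    {v : Place k Kb} (hv : M.P₁ v = 0) : (3 : ℤ) ∣ C.dvK E v := by
  haveI := C.hasDiv
  refine dvd_pushforwardAlong (finiteAlong_isIntegral C.finite_ab) 3 fun w hw => ?_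
  rw [Divisor.pullbackAlong_apply]
  set v' := w.restrictAlong C.bb (finiteAlong_isIntegral C.finite_bb)
  have hv' : M.P₁ v' = 0 := (C.pole_iff w).mp (by rw [hw, hv])
  by_cases h3 : (3 : ℤ) ∣ M.h₁ v'
  · exact dvd_mul_of_dvd_right (hE v' hv' h3) _
  refine dvd_mul_of_dvd_left ?_ _
  have hx : 0 ≤ w.ord (C.ab (M.s₁.rd M.x)) := by
    rw [Place.ord_restrictAlong C.ab (finiteAlong_isIntegral C.finite_ab), hw]
    have := M.P₁_apply v
    rw [hv] at this
    exact mul_nonneg (Int.natCast_nonneg _) (by omega)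
  have h1 := h w hx
  rw [Place.ord_restrictAlong C.bb (finiteAlong_isIntegral C.finite_bb)] at h1
  refine (Int.prime_three.dvd_or_dvd h1).resolve_right fun h4 => h3 ?_
  rwa [M.h₁_apply, if_pos hv']

end MazurDatum.CorrBase

section Series

variable (R : Type*) [CommRing R] (a b : ℕ) [NeZero a] [NeZero b]

/-- `ū(bτ) ū_b(τ) = ū(τ) ū_b(aτ)`. -/
theorem qExpand_uModC_mul :
    qExpand R b (uModC R a) * uModC R b = uModC R a * qExpand R a (uModC R b) := by
  have h1 : qExpand R b (etaUnitC R) * qExpand R b (etaUnitInvC R) = 1 := by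
    rw [← map_mul, etaUnitC_mul_inv, map_one]
  have h2 : qExpand R a (etaUnitInvC R) * qExpand R a (etaUnitC R) = 1 := by
    rw [← map_mul, mul_comm, etaUnitC_mul_inv, map_one]
  simp only [uModC, map_mul, qExpand_single, qExpand_qExpand]
  rw [qExpand_congr (mul_comm b a)]
  set s : ℤ → LaurentSeries R := fun i => HahnSeries.single i 1
  have hs : ∀ i j, s i * s j = s (i + j) := fun i j => by
    simp [s, HahnSeries.single_mul_single]
  calc s ((b : ℤ) * (1 - a)) * (qExpand R b (etaUnitC R) * qExpand R (a * b) (etaUnitInvC R)) *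
        (s (1 - b) * (etaUnitC R * qExpand R b (etaUnitInvC R)))
      = s ((b : ℤ) * (1 - a)) * s (1 - b) * (etaUnitC R * qExpand R (a * b) (etaUnitInvC R)) *
          (qExpand R b (etaUnitC R) * qExpand R b (etaUnitInvC R)) := by ring
    _ = s (1 - a) * s ((a : ℤ) * (1 - b)) * (etaUnitC R * qExpand R (a * b) (etaUnitInvC R)) *
          (qExpand R a (etaUnitInvC R) * qExpand R a (etaUnitC R)) := by
      rw [hs, hs, h1, h2]; congr 3; ring
    _ = _ := by ring

end Series

local notation "Qb" => AlgebraicClosure ℚ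

variable {q : ℕ} [Fact q.Prime] {N : ℕ} [NeZero N] (hqN : ¬ q ∣ N)
  {A : ValuationSubring (AlgebraicClosure ℚ)} (hA : A.LiesOverPrime q)

local notation "kA" => IsLocalRing.ResidueField A

attribute [local instance] neZero_mul'
attribute [local instance 100000] monoLaurentModule monoLaurentSMul

include hqN hA in
theorem uModC_mem_special {d : ℕ} [NeZero d] (hd : d ∣ N) :
    uModC kA d ∈ modularFunctionFieldFullC kA N ∧ vModC kA d ∈ modularFunctionFieldFullC kA N := by
  have hq : q.Prime := Fact.out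
  obtain ⟨-, hr⟩ := deltaUnit_rd_inf (A := A) (π := IsLocalRing.residue A)
    monoResidue_eq_zero_iff hq (monoResidue_natCast hA) (exists_fraction_inf hqN)
    (dvd_mul_of_dvd_right hd q) (ι := iotaInf q N) fun _ => rfl
  have h := ((monoSheetInf hqN hA).rd (deltaUnit Qb (dvd_mul_of_dvd_right hd q))).2
  rw [coe_monoSheetInf_rd, show (rawInf hqN hA).rd _ = uModC kA d from hr] at h
  refine ⟨h, ?_⟩
  rw [← inv_eq_of_mul_eq_one_right (uModC_mul_vModC kA d)]
  exact inv_mem h

/-- The reduced unit of level `d ∣ N` in the special field. -/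
def unitBar {d : ℕ} [NeZero d] (hd : d ∣ N) : modularFunctionFieldFullC kA N :=
  ⟨uModC kA d, (uModC_mem_special hqN hA hd).1⟩

include hqN hA in
theorem ord_unitBar {d : ℕ} [NeZero d] (hd : d ∣ N)
    (v : Place kA (modularFunctionFieldFullC kA N)) (hv : 0 ≤ v.ord (jBarK N A)) :
    v.ord (unitBar hqN hA hd) = 0 := by
  have hk : ((N : ℕ) : kA) ≠ 0 := monoLevel_natCast_ne_zero hqN hA
  have hD := degreeInput_of_ne_zero A (IsLocalRing.residue A) N hk
  have hv' : 0 ≤ v.ord (specialFun A (IsLocalRing.residue A) N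
      (jInt A (IsLocalRing.residue A) N)) := by
    convert hv using 2
    exact Subtype.ext (coeffMap_jqModC _)
  have key : ∀ (y : LaurentSeries A) (f : laurentBaseChange Qb (modularFunctionFieldFull N))
      (hy : coeffMap A.subtype y = (f : LaurentSeries Qb))
      (hyk : coeffMap (IsLocalRing.residue A) y ∈ modularFunctionFieldFullC kA N),
      (∀ P : Place Qb (laurentBaseChange Qb (modularFunctionFieldFull N)),
        0 ≤ P.ord (Modular.jElem Qb N) → 0 ≤ P.ord f) →
      0 ≤ v.ord (⟨_, hyk⟩ : modularFunctionFieldFullC kA N) := by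
    intro y f hy hyk hf
    have hym : coeffMap A.subtype y ∈ laurentBaseChange Qb (modularFunctionFieldFull N) :=
      hy.symm ▸ f.2
    let Y : integralSeries A (IsLocalRing.residue A) N := ⟨y, hym, hyk⟩
    have h := ord_gaussRed_nonneg (residue_eq_zero_of_not_isUnit A) IsLocalRing.residue_surjective
      (transcendental_genericFun_jInt A (IsLocalRing.residue A) N)
      (transcendental_specialFun_jInt A (IsLocalRing.residue A) N) hD.pos hD.finrank_generic
      hD.finrank_special ⟨_, genericFun_mem_gaussRing A (IsLocalRing.residue A) N Y⟩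
      (isIntegral_of_forall_pole hD _ fun P hP => ?_) v hv'
    · rw [gaussRed_genericFun] at h
      exact h
    · rw [show genericFun A (IsLocalRing.residue A) N (jInt A (IsLocalRing.residue A) N) =
        Modular.jElem Qb N from Subtype.ext ((coe_genericFun_jInt A (IsLocalRing.residue A) N).trans
          (jqModC_eq_coeffEmb Qb))]
      by_contra hc
      have h0 := hf P (not_lt.mp hc)
      rw [show f = genericFun A (IsLocalRing.residue A) N Y from Subtype.ext hy.symm] at h0
      exact absurd hP (not_lt.mpr h0)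
  obtain ⟨hu, hu'⟩ := uModC_mem_special hqN hA hd
  have h1 := key (uModC A d) (deltaUnit Qb hd) (coe_deltaUnit_eq_coeffMap hd).symm
    (by rwa [coeffMap_uModC]) fun P hP => (ord_deltaUnit_eq_zero Qb hd P hP).ge
  have h2 := key (vModC A d) (deltaUnit Qb hd)⁻¹ (coe_deltaUnit_inv_eq_coeffMap hd).symm
    (by rwa [coeffMap_vModC]) fun P hP => by
      rw [P.ord_inv, ord_deltaUnit_eq_zero Qb hd P hP, neg_zero]
  rw [show (⟨_, _⟩ : modularFunctionFieldFullC kA N) = unitBar hqN hA hd from
    Subtype.ext (coeffMap_uModC d _)] at h1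
  rw [show (⟨_, _⟩ : modularFunctionFieldFullC kA N) = (unitBar hqN hA hd)⁻¹ from
    Subtype.ext ((coeffMap_vModC d _).trans
      (inv_eq_of_mul_eq_one_right (uModC_mul_vModC kA d)).symm), Place.ord_inv] at h2
  omega

include hqN hA in
/-- `ū(lτ)` and `ū(τ)` have the same orders away from the cusps. -/
theorem ord_eq_of_series {l : ℕ} [NeZero l] (hl : l ∣ N)
    {x y : modularFunctionFieldFullC kA N} (hxs : (x : LaurentSeries kA) = uModC kA q)
    (hys : (y : LaurentSeries kA) = qExpand kA l (uModC kA q))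
    (w : Place kA (modularFunctionFieldFullC kA N)) (hw : 0 ≤ w.ord (jBarK N A)) :
    w.ord y = w.ord x := by
  haveI := monoResidue_charP (q := q) hA
  set e := unitBar hqN hA hl
  have he0 : e ≠ 0 := fun h => uModC_ne_zero kA l (congrArg Subtype.val h)
  have hx0 : x ≠ 0 := fun h => uModC_ne_zero kA q (hxs.symm.trans (congrArg Subtype.val h))
  have hy0 : y ≠ 0 := fun h => (map_ne_zero (qExpand kA l)).mpr (uModC_ne_zero kA q)
    (hys.symm.trans (congrArg Subtype.val h))
  have hP := monoP₁_apply' hqN hA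
  have hw0 : monoP₁ hqN hA w = 0 := by rw [hP]; omega
  have hreg : ∀ c : modularFunctionFieldFullC kA N,
      (∀ z : Place kA (modularFunctionFieldFullC kA N), 0 ≤ z.ord (jBarK N A) → 0 ≤ z.ord c) →
      c ≠ 0 → 0 ≤ w.ord (monoPhi kA q N c) := fun c hc hc0 =>
    ((monoPhi_reg kA q N (monoLevel_natCast_ne_zero hqN hA) (y := jBarK N A) rfl hP
      (fun z hz => Or.inr (hc z (by rw [hP] at hz; omega)))) w hw0).resolve_left
        ((map_ne_zero _).mpr hc0)
  have h1 := hreg e (fun z hz => (ord_unitBar hqN hA _ z hz).ge) he0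
  have h2 := hreg e⁻¹ (fun z hz => by rw [z.ord_inv, ord_unitBar hqN hA _ z hz, neg_zero])
    (inv_ne_zero he0)
  rw [map_inv₀, w.ord_inv] at h2
  have hrel : y * e = x * monoPhi kA q N e := Subtype.ext (by
    rw [IntermediateField.coe_mul, IntermediateField.coe_mul, hxs, hys, coe_monoPhi]
    exact qExpand_uModC_mul kA q l)
  have h := congrArg w.ord hrel
  rw [w.ord_mul hy0 he0, w.ord_mul hx0 ((map_ne_zero _).mpr he0),
    ord_unitBar hqN hA _ w hw] at h
  omega

omit [Fact q.Prime] [NeZero N] in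
/-- A function of level `qN` whose cube is a product of two functions with nonzero reductions
reduces to a cube root of the product of the reductions. -/
theorem exists_sheet_root {L k F Kb : Type*} [Field L] [Field k] [Field F] [Algebra L F] [Field Kb]
    [Algebra k Kb] {B : ValuationSubring L} {π : B →+* k} {t : Sheet π F Kb} {G a b : F}
    (hG : G ^ 3 = a * b) (ha : a ∈ t.W) (hb : b ∈ t.W) :
    t.rd G ^ 3 = t.rd a * t.rd b := by
  have hG3 : G ^ 3 ∈ t.W := hG ▸ mul_mem ha hb
  have hGW : G ∈ t.W := by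
    rcases t.W.mem_or_inv_mem G with h | h
    · exact h
    rcases eq_or_ne G 0 with h0 | h0
    · exact h0 ▸ zero_mem _
    have := mul_mem hG3 (mul_mem h h)
    rwa [show G ^ 3 * (G⁻¹ * G⁻¹) = G by field_simp] at this
  rw [← Sheet.rd_pow hGW, hG, Sheet.rd_mul ha hb]

section Level

variable {M : ℕ} [NeZero M] (hqM : ¬ q ∣ M) {l : ℕ} [Fact l.Prime] [NeZero l]

include hqM hA in
theorem coe_rd_deltaUnit :
    ((monoSheetInf hqM hA).rd (deltaUnit Qb (dvd_mul_right q M)) : LaurentSeries kA) =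
      uModC kA q :=
  (coe_monoSheetInf_rd hqM hA _).trans (deltaUnit_rd_inf (A := A) (π := IsLocalRing.residue A)
    monoResidue_eq_zero_iff Fact.out (monoResidue_natCast hA) (exists_fraction_inf hqM)
    (dvd_mul_right q M) (ι := iotaInf q M) fun _ => rfl).2

include hqM hA in
/-- `3 ∣ ord ū(lτ)` away from the cusps of `X₀(Ml)` mod `q`. -/
theorem three_dvd_ord_beta (hlq : ¬ q ∣ l) (h2 : l % 3 = 2)
    {x : modularFunctionFieldFullC kA M} (hx : (x : LaurentSeries kA) = uModC kA q)
    (hxu : (monoSheetInf hqM hA).rd (deltaUnit Qb (dvd_mul_right q M)) = x)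
    (w : Place kA (modularFunctionFieldFullC kA (M * l))) (hw : 0 ≤ w.ord (jBarK (M * l) A)) :
    (3 : ℤ) ∣ w.ord (fullBetaC kA M l x) := by
  have hqMl := not_dvd_mul_level M l hqM hlq
  have hx0 : x ≠ 0 := fun h => uModC_ne_zero kA q (hx.symm.trans (congrArg Subtype.val h))
  have heq := ord_eq_of_series hqMl hA (dvd_mul_left l M)
    ((coe_fullAlphaC kA M l x).trans hx) ((coe_fullBetaC kA M l x).trans (congrArg _ hx)) w hw
  obtain ⟨s, hsmem, hs⟩ := exists_root_mem_full (N := q * (M * l)) (q := q) (l := l)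
    (mul_dvd_mul_left q (dvd_mul_left l M)) (by omega)
  have hu := deltaUnit_sheetInf hqM hA
  obtain ⟨ha, hra⟩ := monoSheetInf_compat hqM hA (hqM' := hqMl)
    (barIncl Qb (mul_dvd_mul_left q (dvd_mul_right M l))) (fullAlphaC kA M l) (RingHom.id _)
    (RingHom.id _) (RingHom.id _) (fun _ => rfl) (fun _ => rfl) (coe_barIncl _)
    (coe_fullAlphaC kA M l) _ hu.1
  obtain ⟨hb, hrb⟩ := monoSheetInf_compat hqM hA (hqM' := hqMl)
    (barBeta Qb l (dvd_of_eq (mul_assoc q M l))) (fullBetaC kA M l) (qExpand A l) (qExpand Qb l)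
    (qExpand kA l) (coeffMap_qExpand _ l) (coeffMap_qExpand _ l) (coe_barBeta l _)
    (coe_fullBetaC kA M l) _ hu.1
  have hr := exists_sheet_root
    (G := (⟨coeffEmb Qb s, coeffEmb_mem_laurentBaseChange Qb hsmem⟩ :
      modularFunctionFieldBar (q * (M * l))))
    (Subtype.ext (by
      rw [IntermediateField.coe_pow, IntermediateField.coe_mul, coe_barIncl, coe_barBeta,
        coe_deltaUnit, ← coeffEmb_qExpand, ← map_mul, ← hs, map_pow])) ha hb
  rw [hra, hrb, hxu] at hr
  have h := congrArg w.ord hr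
  rw [ord_pow, w.ord_mul ((map_ne_zero _).mpr hx0) ((map_ne_zero _).mpr hx0)] at h
  omega

/-- **For `l ≡ 2 (mod 3)` the correspondence `T_l` preserves divisibility by `3`.** -/
theorem three_dvd_heckeCorrData
    (D : MazurDatum (IsLocalRing.residue A) (modularFunctionFieldBar (q * M))
      (modularFunctionFieldFullC kA M) q)
    (hs₁ : D.s₁ = monoSheetInf hqM hA) (hs₂ : D.s₂ = monoSheetZero hqM hA)
    (hx : D.x = jFq q M) (hu : D.u = deltaUnit Qb (dvd_mul_right q M)) (hl : ¬ l ∣ q * M)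
    (hlq : ¬ q ∣ l) (h2 : l % 3 = 2) {E : Divisor kA (modularFunctionFieldFullC kA M)}
    (hE : ∀ v, D.P₁ v = 0 → (3 : ℤ) ∣ D.h₁ v → (3 : ℤ) ∣ E v)
    {v : Place kA (modularFunctionFieldFullC kA M)} (hv : D.P₁ v = 0) :
    (3 : ℤ) ∣ (heckeCorrData hqM hA D hs₁ hs₂ hx hu hl hlq).sheetOp.dv E v := by
  refine (heckeCorrData hqM hA D hs₁ hs₂ hx hu hl hlq).toCorrBase.three_dvd_dvK (fun w hw => ?_) hE hv
  have hD : D.ub₁ = (monoSheetInf hqM hA).rd (deltaUnit Qb (dvd_mul_right q M)) := by
    show D.s₁.rd D.u = _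
    rw [hs₁, hu]
  refine three_dvd_ord_beta hA hqM hlq h2 (x := D.ub₁) ?_ hD.symm w ?_
  · rw [hD]; exact coe_rd_deltaUnit hA hqM
  · have hj : fullAlphaC kA M l (D.s₁.rd D.x) = jBarK (M * l) A := Subtype.ext (by
      rw [coe_fullAlphaC, hs₁, hx, coe_monoSheetInf_rd, (rawInf_jFq hqM hA).2]
      rfl)
    exact hj ▸ hw

end Level

variable {M : ℕ} [NeZero M] (hqM : ¬ q ∣ M) [NeZero (q * M)]

include hqM hA in
/-- **The field `AwayData.hecke`** for a datum on the two sheets of `X₀(qM)`. -/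
theorem exists_sheetOp_awayData
    (D : MazurDatum (IsLocalRing.residue A) (modularFunctionFieldBar (q * M))
      (modularFunctionFieldFullC kA M) q)
    (hs₁ : D.s₁ = monoSheetInf hqM hA) (hs₂ : D.s₂ = monoSheetZero hqM hA)
    (hx : D.x = jFq q M) (hu : D.u = deltaUnit Qb (dvd_mul_right q M)) (ℓ : Nat.Primes)
    (hℓ : ¬ (ℓ : ℕ) ∣ q * M) :
    ∃ O : D.SheetOp, O.eis = (ℓ : ℤ) + 1 ∧
      O.toEndo.Realises (fun x => heckeOperatorBar (q * M) ℓ (x : JZero (q * M))) ∧
      (q ≠ 3 → (ℓ : ℕ) % 3 = 2 → ∀ E : Divisor kA (modularFunctionFieldFullC kA M),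
        (∀ v, D.P₁ v = 0 → (3 : ℤ) ∣ D.h₁ v → (3 : ℤ) ∣ E v) →
          ∀ v, D.P₁ v = 0 → ¬ (3 : ℤ) ∣ D.h₁ v → (3 : ℤ) ∣ O.dv E v) := by
  haveI : Fact (ℓ : ℕ).Prime := ⟨ℓ.2⟩
  haveI : NeZero (ℓ : ℕ) := ⟨ℓ.2.ne_zero⟩
  have hlq : ¬ q ∣ (ℓ : ℕ) := fun h =>
    hℓ (((Nat.prime_dvd_prime_iff_eq Fact.out ℓ.2).mp h) ▸ dvd_mul_right q M)
  exact ⟨(heckeCorrData hqM hA D hs₁ hs₂ hx hu hℓ hlq).sheetOp, rfl,
    heckeCorrBase_realises hqM hA D hs₁ hs₂ hx ℓ hlq,
    fun _ h2 E hE v hv _ => three_dvd_heckeCorrData hA hqM D hs₁ hs₂ hx hu hℓ hlq h2 hE hv⟩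

end FermatLib.MazurP

end
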