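import Fermat.Agent.Curve.ConstExt.LeadingTerm
import Fermat.Agent.Curve.Descent.CoeffDescent
import Fermat.Agent.Igusa.RRField
import Fermat.Agent.Igusa.OrderPlace
import Fermat.Agent.AV.MW.Galois
import Fermat.Prelude.Def_ModularCurve_ArithmeticGalois
import Mathlib.FieldTheory.Galois.Infinite
import Fermat.Agent.Modular.LaurentInstances

/-!
Descent on `X₀(N)` to a field `K` of algebraic numbers: the functions fixed by `Gal(Q̄/K)`, the
rationality of Galois fixed divisors, and a fixed divisor in every fixed class.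
-/

set_option autoImplicit false
set_option synthInstance.maxHeartbeats 400000
set_option maxHeartbeats 1000000

noncomputable section

open AlgebraicCurve FermatLib.Igusa

namespace FermatLib.MazurP

open scoped FermatLib.LaurentInstances

/-! ### Generic curves -/

section Curve

variable {L E : Type*} [Field L] [Field E] [Algebra L E] {g : ℕ}

/-- If `L(G - P) = 0`, then `L(G)` is at most a line. -/
theorem exists_smul_of_space_eq_bot {P : Place L E} (hP : P.deg = 1) {G : Divisor L E}
    (hbot : riemannRochSpace (G - Finsupp.single P 1) = ⊥) {f f' : E}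
    (hf : f ∈ riemannRochSpace G) (hf' : f' ∈ riemannRochSpace G) (hf0 : f ≠ 0) :
    ∃ c : L, f' = c • f := by
  classical
  have hout : ∀ x ∈ riemannRochSpace G, x ∈ Curve.ordGE P (-G P + 1) → x = 0 := fun x hx hxP => by
    have hx' : x ∈ riemannRochSpace (G - Finsupp.single P 1) := by
      rw [Curve.mem_riemannRochSpace] at hx ⊢
      intro v
      rw [Finsupp.sub_apply]
      rcases eq_or_ne P v with rfl | hne
      · rw [Finsupp.single_eq_same, neg_sub, sub_eq_neg_add, add_comm]
        simpa [add_comm] using hxP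
      · rw [Finsupp.single_eq_of_ne hne.symm, sub_zero]
        exact hx v
    simpa [hbot] using hx'
  have hfP : f ∈ Curve.ordGE P (-G P) := (Curve.mem_riemannRochSpace.mp hf) P
  have hord : P.ord f = -G P := by
    refine le_antisymm ?_ (Curve.le_ord_of_mem hfP hf0)
    by_contra hlt
    exact hf0 (hout f hf (Curve.mem_ordGE_of_le (v := P) (by omega)))
  obtain ⟨c, hc⟩ := Curve.exists_sub_smul_mem_ordGE P hP hf0 hord
    (Curve.mem_riemannRochSpace.mp hf' P)
  exact ⟨c, sub_eq_zero.mp (hout _ (sub_mem hf' (Submodule.smul_mem _ c hf)) hc)⟩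

theorem space_eq_bot_of_degree_neg (hF : RRField L E g) {G : Divisor L E}
    (hG : Divisor.degree G < 0) : riemannRochSpace G = ⊥ := by
  refine (Submodule.eq_bot_iff _).mpr fun f hf => ?_
  by_contra hf0
  obtain ⟨P, hP, hPdeg⟩ := hF.principal.exists_divisor f hf0
  rw [mem_riemannRochSpace_iff] at hf
  have h : 0 ≤ P + G := Finsupp.le_def.mpr fun v => by
    have := (hf v).resolve_left hf0
    rw [Finsupp.add_apply, hP]
    simp only [Finsupp.coe_zero, Pi.zero_apply]
    omega
  have := degree_nonneg h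
  rw [map_add, hPdeg] at this
  omega

/-- A function without zeros and poles is a constant. -/
theorem exists_eq_smul_one_of_ord_eq_zero (hF : RRField L E g) {h : E}
    (h0 : ∀ v : Place L E, v.ord h = 0) : ∃ c : L, h = c • (1 : E) := by
  obtain ⟨P⟩ := hF.nonempty_place
  refine exists_smul_of_space_eq_bot (hF.deg_one P) (G := 0)
    (space_eq_bot_of_degree_neg hF ?_) (mem_riemannRochSpace_iff.mpr fun v => Or.inr (by simp))
    (mem_riemannRochSpace_iff.mpr fun v => Or.inr (by simp [h0])) one_ne_zero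
  rw [map_sub, map_zero, Divisor.degree_single, hF.deg_one]
  norm_num

/-- The image of a Riemann–Roch space. -/
theorem smul_mem_space (s : SemilinearAut L E) {D : Divisor L E} {f : E}
    (hf : f ∈ riemannRochSpace D) : s • f ∈ riemannRochSpace (s • D) := by
  rw [mem_riemannRochSpace_iff] at hf ⊢
  intro w
  rcases hf (s⁻¹ • w) with h0 | hle
  · exact Or.inl (by rw [h0, smul_zero])
  · right
    have h1 := SemilinearAut.ord_smul s (s⁻¹ • w) f
    rw [smul_inv_smul] at h1
    rwa [SemilinearAut.divisor_smul_apply, h1]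

/-- A class fixed by semilinear automorphisms fixing a place contains a fixed divisor. -/
theorem exists_fixed_divisor (hF : RRField L E g) (P : Place L E) (S : Set (SemilinearAut L E))
    (hP : ∀ s ∈ S, s • P = P) {D₀ : Divisor L E} (hdeg : Divisor.degree D₀ = 0)
    (hx : ∀ s ∈ S, Divisor.IsPrincipal (s • D₀ - D₀)) :
    ∃ D : Divisor L E, Divisor.IsPrincipal (D - D₀) ∧ ∀ s ∈ S, s • D = D := by
  classical
  set at' : ℤ → Divisor L E := fun n => Finsupp.single P n with hat
  have hdeg' : ∀ m : ℤ, Divisor.degree (D₀ + at' m) = m := fun m => by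
    rw [map_add, hdeg, zero_add, Divisor.degree_single, hF.deg_one, Nat.cast_one, mul_one]
  have hex : ∃ n : ℕ, riemannRochSpace (D₀ + at' n) ≠ ⊥ := by
    refine ⟨2 * g, fun h => ?_⟩
    have h1 := hF.finrank_space (D₀ + at' (2 * g : ℕ))
      (by rw [hdeg']; push_cast; omega)
    rw [h, finrank_bot, hdeg'] at h1
    push_cast at h1
    omega
  set n := Nat.find hex
  have hbot : riemannRochSpace (D₀ + at' ((n : ℤ) - 1)) = ⊥ := by
    rcases Nat.eq_zero_or_pos n with h | h
    · refine space_eq_bot_of_degree_neg hF ?_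
      rw [hdeg', h]
      norm_num
    · have := Nat.find_min hex (show n - 1 < n by omega)
      rw [not_not] at this
      rwa [show (n : ℤ) - 1 = ((n - 1 : ℕ) : ℤ) by omega]
  have hfind : riemannRochSpace (D₀ + at' (n : ℤ)) ≠ ⊥ := Nat.find_spec hex
  obtain ⟨f, hf, hf0⟩ := Submodule.exists_mem_ne_zero_of_ne_bot hfind
  obtain ⟨P₀, hP₀, -⟩ := hF.principal.exists_divisor f hf0
  refine ⟨D₀ + P₀, ⟨f, hf0, fun v => by simp [hP₀]⟩, fun s hs => ?_⟩
  obtain ⟨e, he0, he⟩ : Divisor.IsPrincipal (s • (D₀ + P₀) - (D₀ + P₀)) := by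
    obtain ⟨e, he0, he⟩ := hx s hs
    refine ⟨e * (s • f) / f, ?_, fun v => ?_⟩
    · exact div_ne_zero (mul_ne_zero he0 ((smul_ne_zero_iff_ne s).mpr hf0)) hf0
    · have h1 : (s • P₀) v = v.ord (s • f) := by
        rw [SemilinearAut.divisor_smul_apply, hP₀]
        have h := SemilinearAut.ord_smul s (s⁻¹ • v) f
        rw [smul_inv_smul] at h
        exact h.symm
      have h2 := he v
      rw [smul_add, Finsupp.sub_apply, Finsupp.add_apply, Finsupp.add_apply, h1, hP₀,
        div_eq_mul_inv, v.ord_mul (mul_ne_zero he0 ((smul_ne_zero_iff_ne s).mpr hf0))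
          (inv_ne_zero hf0), v.ord_mul he0 ((smul_ne_zero_iff_ne s).mpr hf0), v.ord_inv]
      rw [Finsupp.sub_apply] at h2
      omega
  have hsP : s • at' (n : ℤ) = at' n := by
    simp only [hat]
    rw [SemilinearAut.smul_single, hP s hs]
  have hnn : ∀ v, 0 ≤ (D₀ + P₀) v + at' (n : ℤ) v := fun v => by
    have := (mem_riemannRochSpace_iff.mp hf v).resolve_left hf0
    rw [Finsupp.add_apply] at this ⊢
    rw [hP₀]
    omega
  have h1 : (1 : E) ∈ riemannRochSpace (D₀ + P₀ + at' n) := by
    refine mem_riemannRochSpace_iff.mpr fun v => Or.inr ?_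
    have := hnn v
    simp only [Finsupp.add_apply] at this ⊢
    simp
    omega
  have h2 : e ∈ riemannRochSpace (D₀ + P₀ + at' n) := by
    refine mem_riemannRochSpace_iff.mpr fun v => Or.inr ?_
    have hv := he v
    have := hnn (s⁻¹ • v)
    have hv2 : (s • at' (n : ℤ)) v = at' n v := by rw [hsP]
    rw [Finsupp.sub_apply, SemilinearAut.divisor_smul_apply] at hv
    rw [SemilinearAut.divisor_smul_apply] at hv2
    rw [Finsupp.add_apply]
    omega
  obtain ⟨c, hc⟩ := exists_smul_of_space_eq_bot (hF.deg_one P) (G := D₀ + P₀ + at' n) (by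
    refine (Submodule.eq_bot_iff _).mpr fun u hu => ?_
    by_contra hu0
    have hmem : f * u ∈ riemannRochSpace (D₀ + at' ((n : ℤ) - 1)) := by
      refine mem_riemannRochSpace_iff.mpr fun v => Or.inr ?_
      have h3 := (mem_riemannRochSpace_iff.mp hu v).resolve_left hu0
      have h4 : at' ((n : ℤ) - 1) v = at' n v - Finsupp.single P 1 v := by
        simp only [hat, Finsupp.single_sub, Finsupp.sub_apply]
      rw [v.ord_mul hf0 hu0]
      simp only [Finsupp.sub_apply, Finsupp.add_apply, hP₀] at h3 ⊢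
      omega
    rw [hbot, Submodule.mem_bot] at hmem
    exact mul_ne_zero hf0 hu0 hmem) h1 h2 one_ne_zero
  have he1 : ∀ v : Place L E, v.ord e = 0 := fun v => by
    rw [hc, Algebra.smul_def, mul_one]
    exact ord_algebraMap v c
  refine Finsupp.ext fun v => ?_
  have := he v
  rw [Finsupp.sub_apply, he1] at this
  omega

end Curve

/-! ### The curve `X₀(N)` over `Q̄` -/

open ModularCurve

local notation "Qbar" => AlgebraicClosure ℚ
local notation "Γℚ" => (AlgebraicClosure ℚ ≃ₐ[ℚ] AlgebraicClosure ℚ)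

variable {N : ℕ}

set_option quotPrecheck false in
local notation "FN" => ↥(modularFunctionFieldBar N)
set_option quotPrecheck false in
local notation "𝔤" => arithmeticGalois (modularFunctionFieldFull N)

variable (N) in
/-- The functions fixed by every automorphism fixing `K`. -/
def ratFunctions (K : IntermediateField ℚ Qbar) : Subfield FN where
  carrier := {f | ∀ σ ∈ K.fixingSubgroup, 𝔤 σ • f = f}
  mul_mem' hf hg σ hσ := by rw [smul_mul', hf σ hσ, hg σ hσ]
  one_mem' σ _ := smul_one _
  add_mem' hf hg σ hσ := by rw [smul_add, hf σ hσ, hg σ hσ]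
  zero_mem' σ _ := smul_zero _
  neg_mem' hf σ hσ := by rw [smul_neg, hf σ hσ]
  inv_mem' f hf σ hσ := by rw [smul_inv'', hf σ hσ]

variable {K : IntermediateField ℚ Qbar}

theorem coeff_galois_smul (σ : Γℚ) (f : FN) (i : ℤ) :
    ((𝔤 σ • f : FN) : LaurentSeries Qbar).coeff i = σ ((f : LaurentSeries Qbar).coeff i) := rfl

theorem isGalois_algebraicClosureRat : IsGalois ℚ Qbar :=
  have : Algebra.IsAlgebraic ℚ Qbar := AlgebraicClosure.isAlgebraic ℚ
  have : IsAlgClosure ℚ Qbar := ⟨inferInstance, inferInstance⟩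
  have : Normal ℚ Qbar := IsAlgClosure.normal ℚ Qbar
  { }

/-- Fixed functions have coefficients in `K`. -/
theorem coeff_mem_of_mem_ratFunctions {f : FN} (hf : f ∈ ratFunctions N K) (i : ℤ) :
    (f : LaurentSeries Qbar).coeff i ∈ K := by
  have := isGalois_algebraicClosureRat
  rw [← InfiniteGalois.fixedField_fixingSubgroup K, IntermediateField.mem_fixedField_iff]
  intro σ hσ
  rw [← coeff_galois_smul σ f i, hf σ hσ]

theorem algebraMap_mem_ratFunctions {c : Qbar} (hc : c ∈ K) :
    algebraMap Qbar FN c ∈ ratFunctions N K := fun σ hσ => by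
  rw [SemilinearAut.smul_algebraMap]
  exact congrArg _ ((IntermediateField.mem_fixingSubgroup_iff _ _).mp hσ c hc)

/-- The coefficient vector of a function. -/
def coeffVec : FN →ₗ[Qbar] (ℤ → Qbar) where
  toFun f i := (f : LaurentSeries Qbar).coeff i
  map_add' _ _ := rfl
  map_smul' c f := funext fun i => by
    rw [Algebra.smul_def, MulMemClass.coe_mul]
    show (algebraMap Qbar (LaurentSeries Qbar) c * (f : LaurentSeries Qbar)).coeff i = _
    rw [algebraMap_laurentSeries_eq_single, HahnSeries.coeff_single_zero_mul]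
    rfl

theorem coeffVec_apply (f : FN) (i : ℤ) : coeffVec f i = (f : LaurentSeries Qbar).coeff i := rfl

theorem coeffVec_injective : Function.Injective (coeffVec (N := N)) := fun _ _ h =>
  Subtype.ext (HahnSeries.ext h)

/-- Linear disjointness. -/
theorem linearIndependent_of_ratFunctions {ι : Type*} [Fintype ι] {f : ι → FN}
    (hf : ∀ i, f i ∈ ratFunctions N K)
    (h : ∀ c : ι → Qbar, (∀ i, c i ∈ K) → ∑ i, c i • f i = 0 → ∀ i, c i = 0) :
    LinearIndependent Qbar f := by
  set v : ι → ℤ → K := fun i j => ⟨_, coeff_mem_of_mem_ratFunctions (hf i) j⟩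
  have hv : LinearIndependent K v := by
    rw [Fintype.linearIndependent_iff]
    intro c hc i
    refine Subtype.ext (h (fun i => (c i : Qbar)) (fun i => (c i).2) (coeffVec_injective ?_) i)
    rw [map_sum, map_zero]
    funext j
    have := congrArg Subtype.val (congrFun hc j)
    simpa [Finset.sum_apply, v, coeffVec_apply] using this
  have := FermatLib.Curve.linearIndependent_vecMap (L := Qbar) hv
  exact LinearIndependent.of_comp coeffVec this

/-- A stable finite dimensional space is spanned by fixed functions. -/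
theorem le_span_ratFunctions (V : Submodule Qbar FN) [FiniteDimensional Qbar V]
    (hV : ∀ σ ∈ K.fixingSubgroup, ∀ f ∈ V, 𝔤 σ • f ∈ V) :
    V ≤ Submodule.span Qbar {f | f ∈ V ∧ f ∈ ratFunctions N K} := by
  classical
  let P : ℕ → Prop := fun d => ∃ s : Finset ℤ, s.card = d ∧
    ∀ f ∈ V, (∀ i ∈ s, coeffVec f i = 0) → f = 0
  have hex : ∃ d, P d := by
    suffices ∀ d : ℕ, ∀ W : Submodule Qbar FN, W ≤ V → Module.finrank Qbar W ≤ d →
        ∃ s : Finset ℤ, ∀ f ∈ W, (∀ i ∈ s, coeffVec f i = 0) → f = 0 by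
      obtain ⟨s, hs⟩ := this _ V le_rfl le_rfl
      exact ⟨_, s, rfl, hs⟩
    intro d
    induction d with
    | zero =>
      intro W hW hd
      have := Submodule.finiteDimensional_of_le hW
      exact ⟨∅, fun f hf _ => by
        rw [Submodule.finrank_eq_zero.mp (Nat.le_zero.mp hd), Submodule.mem_bot] at hf
        exact hf⟩
    | succ d ih =>
      intro W hW hd
      by_cases hW0 : W = ⊥
      · exact ⟨∅, fun f hf _ => by rwa [hW0, Submodule.mem_bot] at hf⟩
      obtain ⟨w, hw, hw0⟩ := Submodule.exists_mem_ne_zero_of_ne_bot hW0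
      obtain ⟨i, hi⟩ := Function.ne_iff.mp (coeffVec_injective.ne hw0 : coeffVec w ≠ coeffVec 0)
      rw [map_zero] at hi
      let W' := W ⊓ LinearMap.ker ((LinearMap.proj i).comp coeffVec)
      have hlt : W' < W := lt_of_le_of_ne inf_le_left fun he => hi (by
        simpa [W'] using (he.ge hw).2)
      have := Submodule.finiteDimensional_of_le hW
      obtain ⟨s, hs⟩ := ih W' (inf_le_left.trans hW) (by
        have := Submodule.finrank_lt_finrank_of_lt hlt
        omega)
      exact ⟨insert i s, fun f hf h => hs f ⟨hf, by simpa using h i (Finset.mem_insert_self _ _)⟩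
        fun j hj => h j (Finset.mem_insert_of_mem hj)⟩
  obtain ⟨s, hscard, hs⟩ := Nat.find_spec hex
  set T : V →ₗ[Qbar] (s → Qbar) :=
    LinearMap.pi fun i => (LinearMap.proj (i : ℤ)).comp (coeffVec.comp V.subtype)
  have hTinj : Function.Injective T := LinearMap.ker_eq_bot.mp <|
    (Submodule.eq_bot_iff _).mpr fun f hf => Subtype.ext <|
      hs f f.2 fun i hi => congrFun (LinearMap.mem_ker.mp hf) ⟨i, hi⟩
  have hTsurj : Function.Surjective T := by
    rw [← LinearMap.range_eq_top]
    by_contra hne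
    obtain ⟨φ, hφ0, hφ⟩ := Submodule.exists_dual_map_eq_bot_of_lt_top (lt_top_iff_ne_top.mpr hne)
      inferInstance
    obtain ⟨i, hi⟩ : ∃ i : s, φ (Pi.single i 1) ≠ 0 := by
      by_contra h
      push Not at h
      exact hφ0 (LinearMap.pi_ext' fun i => LinearMap.ext_ring (by simpa using h i))
    refine Nat.find_min hex (show (s.erase i).card < Nat.find hex from
      hscard ▸ Finset.card_lt_card (Finset.erase_ssubset i.2)) ⟨_, rfl, fun f hf h => hs f hf ?_⟩
    have hTf : T ⟨f, hf⟩ = coeffVec f i • (Pi.single i 1 : s → Qbar) := funext fun j => by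
      rcases eq_or_ne j i with rfl | hji
      · simp [T]
      · have := h j (Finset.mem_erase.mpr ⟨fun e => hji (Subtype.ext e), j.2⟩)
        simpa [T, hji] using this
    have hz : φ (T ⟨f, hf⟩) = 0 := by
      have : φ (T ⟨f, hf⟩) ∈ Submodule.map φ (LinearMap.range T) :=
        ⟨_, LinearMap.mem_range_self _ _, rfl⟩
      rwa [hφ, Submodule.mem_bot] at this
    rw [hTf, map_smul, smul_eq_mul, mul_eq_zero, or_iff_left hi] at hz
    intro j hj
    rcases eq_or_ne j (i : ℤ) with rfl | hji
    · exact hz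
    · exact h j (Finset.mem_erase.mpr ⟨hji, hj⟩)
  choose e he using fun i : s => hTsurj (Pi.single i 1)
  have hfix : ∀ i, (e i : FN) ∈ ratFunctions N K := fun i σ hσ => by
    have : (⟨_, hV σ hσ _ (e i).2⟩ : V) = e i := hTinj (funext fun j => by
      have h := congrFun (he i) j
      show coeffVec (𝔤 σ • (e i : FN)) j = T (e i) j
      rw [coeffVec_apply, coeff_galois_smul, h]
      have h' : ((e i : FN) : LaurentSeries Qbar).coeff j = (Pi.single i 1 : s → Qbar) j := h
      rw [h']
      rcases eq_or_ne j i with rfl | hji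
      · simp
      · simp [hji])
    exact congrArg Subtype.val this
  intro f hf
  have hsum : (⟨f, hf⟩ : V) = ∑ i, T ⟨f, hf⟩ i • e i := hTinj (by
    rw [map_sum]
    simp only [map_smul, he]
    exact (pi_eq_sum_univ' _))
  have hsum' := congrArg V.subtype hsum
  simp only [map_sum, map_smul, Submodule.subtype_apply] at hsum'
  rw [hsum']
  exact Submodule.sum_mem _ fun i _ =>
    Submodule.smul_mem _ _ (Submodule.subset_span ⟨(e i).2, hfix i⟩)

variable {g : ℕ} (hF : RRField Qbar ↥(modularFunctionFieldBar N) g)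

include hF in
/-- The spaces of a fixed divisor are spanned by fixed functions. -/
theorem space_le_span_ratFunctions {D : Divisor Qbar FN}
    (hD : ∀ σ ∈ K.fixingSubgroup, 𝔤 σ • D = D) :
    riemannRochSpace D ≤
      Submodule.span Qbar {f | f ∈ riemannRochSpace D ∧ f ∈ ratFunctions N K} := by
  have : FiniteDimensional Qbar (riemannRochSpace D) := hF.finite_space D
  refine le_span_ratFunctions _ fun σ hσ f hf => ?_
  have h := smul_mem_space (𝔤 σ) hf
  rwa [hD σ hσ] at h

theorem order_coeffMap_of_injective {R : Type*} [Field R] (φ : R →+* R)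
    (hφ : Function.Injective φ) (x : LaurentSeries R) :
    (coeffMap φ x).order = x.order := by
  rcases eq_or_ne x 0 with rfl | hx
  · rw [map_zero]
  refine le_antisymm (HahnSeries.order_le_of_coeff_ne_zero ?_)
    (HahnSeries.order_le_of_coeff_ne_zero ?_)
  · rw [coeffMap_coeff, map_ne_zero_iff _ hφ]
    exact mt HahnSeries.coeff_order_eq_zero.mp hx
  · intro h
    refine mt HahnSeries.coeff_order_eq_zero.mp
      (show coeffMap φ x ≠ 0 from fun h0 => mt HahnSeries.coeff_order_eq_zero.mp hx (hφ ?_)) ?_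
    · rw [← coeffMap_coeff, h0, HahnSeries.coeff_zero, map_zero]
    · rw [coeffMap_coeff, h, map_zero]

/-- A Galois fixed place. -/
theorem exists_fixed_place : ∃ P : Place Qbar FN, IsOrderPlace _ P ∧ ∀ σ : Γℚ, 𝔤 σ • P = P := by
  obtain ⟨P, hP⟩ := exists_isOrderPlace_baseChange Qbar N
  refine ⟨P, hP, fun σ => ?_⟩
  set s := 𝔤 σ
  refine FermatLib.AV.MW.place_ext_ord fun f => ?_
  have h := SemilinearAut.ord_smul s P (s⁻¹ • f)
  rw [smul_inv_smul] at h
  rw [h, hP, hP]
  conv_rhs => rw [← smul_inv_smul s f, coe_arithmeticGalois_smul]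
  exact (order_coeffMap_of_injective _ (σ : Qbar →+* Qbar).injective _).symm

include hF in
/-- A fixed torsion class has a fixed representative with a fixed function. -/
theorem exists_ratDivisor {p : ℕ} (x : JZero N) (hx : ∀ σ ∈ K.fixingSubgroup, σ • x = x)
    (hp : p • x = 0) :
    ∃ (D : Divisor.degZero (K := Qbar) (F := FN)) (f : FN), Pic0.mk D = x ∧ f ≠ 0 ∧
      f ∈ ratFunctions N K ∧ (∀ v, (p : ℤ) * (D : Divisor Qbar FN) v = v.ord f) ∧
      ∀ σ ∈ K.fixingSubgroup, 𝔤 σ • (D : Divisor Qbar FN) = D := by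
  obtain ⟨P, hP, hPfix⟩ := exists_fixed_place (N := N)
  obtain ⟨D₀, rfl⟩ := Pic0.mk_surjective x
  set S : Set (SemilinearAut Qbar FN) := Set.image 𝔤 K.fixingSubgroup with hS
  have hSP : ∀ s ∈ S, s • P = P := by
    intro s hs
    obtain ⟨σ, -, rfl⟩ := (Set.mem_image _ _ _).mp hs
    exact hPfix σ
  have hSx : ∀ s ∈ S,
      Divisor.IsPrincipal (s • (D₀ : Divisor Qbar FN) - (D₀ : Divisor Qbar FN)) := by
    intro s hs
    obtain ⟨σ, hσ, rfl⟩ := (Set.mem_image _ _ _).mp hs
    have h := hx σ hσ
    rw [galois_smul_pic0_def, SemilinearAut.pic0_smul_mk] at h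
    have h' := AddSubgroup.mem_addSubgroupOf.mp (QuotientAddGroup.eq_iff_sub_mem.mp h)
    rw [Divisor.mem_principal] at h'
    exact h'
  have hD₀ : Divisor.degree (D₀ : Divisor Qbar FN) = 0 := D₀.2
  obtain ⟨D, hD, hDfix'⟩ := exists_fixed_divisor hF P S hSP hD₀ hSx
  have hDfix : ∀ σ ∈ K.fixingSubgroup, 𝔤 σ • D = D := fun σ hσ =>
    hDfix' _ ((Set.mem_image _ _ _).mpr ⟨σ, hσ, rfl⟩)
  have hdeg : Divisor.degree D = 0 := by
    obtain ⟨e, he0, he⟩ := hD
    obtain ⟨E, hE, hE0⟩ := hF.principal.exists_divisor e he0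
    have : D = D₀ + E := Finsupp.ext fun v => by
      have := he v
      rw [Finsupp.sub_apply] at this
      rw [Finsupp.add_apply, hE]
      omega
    rw [this, map_add, hE0, add_zero]
    exact hD₀
  set D' : Divisor.degZero (K := Qbar) (F := FN) := ⟨D, hdeg⟩
  have hmk : Pic0.mk D' = Pic0.mk D₀ := QuotientAddGroup.eq_iff_sub_mem.mpr
    (by simpa [AddSubgroup.mem_addSubgroupOf, Divisor.mem_principal] using hD)
  obtain ⟨f, hf0, hf⟩ : Divisor.IsPrincipal (p • D) := by
    have h : Pic0.mk (p • D') = 0 := by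
      rw [← hp, ← hmk]
      rfl
    have h' := (QuotientAddGroup.eq_zero_iff _).mp h
    simpa [AddSubgroup.mem_addSubgroupOf, Divisor.mem_principal, D'] using h'
  set a := (f : LaurentSeries Qbar).coeff (f : LaurentSeries Qbar).order
  have ha : a ≠ 0 := mt HahnSeries.coeff_order_eq_zero.mp (by simpa using hf0)
  have hford : ∀ v : Place Qbar FN, v.ord (a⁻¹ • f) = v.ord f := fun v => by
    rw [Algebra.smul_def, v.ord_mul (by simpa using ha) hf0, ord_algebraMap, zero_add]
  have hdiv : ∀ v, (p : ℤ) * D v = v.ord (a⁻¹ • f) := fun v => by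
    rw [hford, ← hf v, Finsupp.smul_apply, nsmul_eq_mul]
  have hf1 : a⁻¹ • f ≠ 0 := smul_ne_zero (inv_ne_zero ha) hf0
  refine ⟨D', a⁻¹ • f, hmk, hf1, fun σ hσ => ?_, hdiv, hDfix⟩
  set h := a⁻¹ • f
  have hh : 𝔤 σ • h ≠ 0 := (smul_ne_zero_iff_ne _).mpr hf1
  have hord : ∀ v : Place Qbar FN, v.ord (𝔤 σ • h) = v.ord h := fun v => by
    have h1 := SemilinearAut.ord_smul (𝔤 σ) ((𝔤 σ)⁻¹ • v) h
    rw [smul_inv_smul] at h1
    rw [h1, ← hdiv, ← hdiv, ← SemilinearAut.divisor_smul_apply, hDfix σ hσ]
  obtain ⟨c, hc⟩ := exists_eq_smul_one_of_ord_eq_zero hF (h := (𝔤 σ • h) / h) fun v => by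
    rw [div_eq_mul_inv, v.ord_mul hh (inv_ne_zero hf1), v.ord_inv, hord, add_neg_cancel]
  rw [div_eq_iff hf1, smul_mul_assoc, one_mul] at hc
  have hlead : coeffVec h ((f : LaurentSeries Qbar).order) = 1 := by
    rw [map_smul, Pi.smul_apply, coeffVec_apply, smul_eq_mul]
    exact inv_mul_cancel₀ ha
  have h2 : σ (coeffVec h ((f : LaurentSeries Qbar).order)) =
      c * coeffVec h ((f : LaurentSeries Qbar).order) := by
    rw [coeffVec_apply, ← coeff_galois_smul, ← coeffVec_apply, hc, map_smul]
    rfl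
  rw [hlead, map_one, mul_one] at h2
  rw [hc, ← h2, one_smul]

end FermatLib.MazurP

end
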