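import Fermat.Agent.Galois.MazurP.Datum

/-!
Rational forms of the two sheets over a discretely valued subfield of the constants, and the
action of an automorphism moving a uniformiser a little.
-/

set_option autoImplicit false

noncomputable section

open AlgebraicCurve FermatLib.Igusa FermatLib.Igusa.Mono

namespace FermatLib.MazurP

universe uL uF uk uKb

variable {L : Type uL} {k : Type uk} [Field L] [Field k] {A : ValuationSubring L} {π : A →+* k}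
  {F : Type uF} {Kb : Type uKb} [Field F] [Algebra L F] [Field Kb] [Algebra k Kb] {q : ℕ}

namespace MazurDatum

variable (M : MazurDatum π F Kb q)

/-- A rational form over a subfield `K` with value group generated by `ϖ`, residue field `k`,
and absolute ramification index `e`. -/
structure RatForm where
  K : Subfield L
  FK : Subfield F
  algebraMap_mem : ∀ c ∈ K, algebraMap L F c ∈ FK
  linDisjoint : ∀ (n : ℕ) (f : Fin n → F), (∀ i, f i ∈ FK) →
    (∀ c : Fin n → L, (∀ i, c i ∈ K) → ∑ i, c i • f i = 0 → ∀ i, c i = 0) →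
      LinearIndependent L f
  ϖ : L
  ϖ_mem : ϖ ∈ K
  e : ℕ
  e_pos : 0 < e
  ϖ_pow : A.valuation ϖ ^ e = A.valuation (q : L)
  valueK : ∀ c ∈ K, c ≠ 0 → ∃ z : ℤ, A.valuation c = A.valuation ϖ ^ z
  residueK : ∀ r : k, ∃ a : A, (a : L) ∈ K ∧ π a = r
  x_mem : M.x ∈ FK
  u_mem : M.u ∈ FK
  scale₁ : ∀ f ∈ FK, f ≠ 0 → ∃ c ∈ K, c • f ∈ M.s₁.W ∧ M.s₁.rd (c • f) ≠ 0
  scale₂ : ∀ f ∈ FK, f ≠ 0 → ∃ c ∈ K, c • f ∈ M.s₂.W ∧ M.s₂.rd (c • f) ≠ 0

variable {M}

namespace RatForm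

variable (R : M.RatForm)

/-- The spaces `L(D + n Px)` are spanned by their rational elements. -/
def IsRat (D : Divisor L F) : Prop :=
  ∀ n : ℕ, riemannRochSpace (D + n • M.Px) ≤
    Submodule.span L {f | f ∈ riemannRochSpace (D + n • M.Px) ∧ f ∈ R.FK}

/-- Torsion data defined over the rational form. -/
structure IsRatTors {p : ℕ} (T : M.TorsData p) : Prop where
  rat : R.IsRat T.D
  rat_neg : R.IsRat (-T.D)
  g_mem : T.g ∈ R.FK
  γ₁_mem : (T.γ₁ : L) ∈ R.K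
  γ₂_mem : (T.γ₂ : L) ∈ R.K

/-- An automorphism of `(L, F)` preserving the sheets and reductions, fixing `x` and `u`, which
multiplies the uniformiser by `1 + c₀` and moves rational integral functions by less than
`c₀`. -/
structure Move where
  σL : L ≃+* L
  σ : F ≃+* F
  comm : ∀ c : L, σ (algebraMap L F c) = algebraMap L F (σL c)
  place : Place L F ≃ Place L F
  ord_place : ∀ v f, (place v).ord (σ f) = v.ord f
  σ_x : σ M.x = M.x
  σ_u : σ M.u = M.u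
  c₀ : L
  c₀_mem : c₀ ∈ A
  c₀_def : σL R.ϖ = R.ϖ * (1 + c₀)
  c₀_ne : c₀ ≠ 0
  c₀_small : A.valuation c₀ < 1
  mem₁ : ∀ f ∈ M.s₁.W, σ f ∈ M.s₁.W ∧ M.s₁.rd (σ f) = M.s₁.rd f
  mem₂ : ∀ f ∈ M.s₂.W, σ f ∈ M.s₂.W ∧ M.s₂.rd (σ f) = M.s₂.rd f
  move₁ : ∀ f ∈ R.FK, f ∈ M.s₁.W →
    c₀⁻¹ • (σ f - f) ∈ M.s₁.W ∧ M.s₁.rd (c₀⁻¹ • (σ f - f)) = 0
  move₂ : ∀ f ∈ R.FK, f ∈ M.s₂.W →
    c₀⁻¹ • (σ f - f) ∈ M.s₂.W ∧ M.s₂.rd (c₀⁻¹ • (σ f - f)) = 0

end RatForm

end MazurDatum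

end FermatLib.MazurP

end
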