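import Fermat.Agent.Galois.MazurP.InstanceSheet
import Fermat.Agent.Galois.MazurP.InstanceDescent
import Fermat.Agent.Galois.MazurP.RatForm
import Fermat.Agent.Galois.FrobeniusElement
import Fermat.Agent.Modular.LaurentInstances

/-!
Rational forms, rational torsion data and moves for a datum on `X₀(N)` whose two sheets reduce
the expansions at `∞` and after an automorphism `w` coefficientwise.
-/

set_option autoImplicit false
set_option synthInstance.maxHeartbeats 400000
set_option maxHeartbeats 1000000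

noncomputable section

open AlgebraicCurve ModularCurve FermatLib.Igusa FermatLib.Igusa.Mono

namespace FermatLib.MazurP

open scoped FermatLib.LaurentInstances

attribute [local instance 100000] monoLaurentModule monoLaurentSMul

local notation "Qbar" => AlgebraicClosure ℚ
local notation "Γℚ" => (AlgebraicClosure ℚ ≃ₐ[ℚ] AlgebraicClosure ℚ)

universe uk uKb

variable {A : ValuationSubring Qbar} {k : Type uk} [Field k] {π : A →+* k}
  {Kb : Type uKb} [Field Kb] [Algebra k Kb] {N p : ℕ}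

local notation "𝔤" => arithmeticGalois (modularFunctionFieldFull N)

/-- The two sheets of `D` reduce expansions coefficientwise; `x` and `u` are rational. -/
structure IsX0Model (D : MazurDatum π (modularFunctionFieldBar N) Kb p)
    (w : modularFunctionFieldBar N ≃ₐ[Qbar] modularFunctionFieldBar N)
    (emb : Kb →ₐ[k] LaurentSeries k) : Prop where
  w_galois : ∀ (σ : Γℚ) (f : modularFunctionFieldBar N), w (𝔤 σ • f) = 𝔤 σ • w f
  sheet₁ : CoeffSheet D.s₁ (modularFunctionFieldBar N).val emb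
  sheet₂ : CoeffSheet D.s₂ ((modularFunctionFieldBar N).val.comp w.toAlgHom) emb
  fraction₁ : ∀ f : modularFunctionFieldBar N, ∃ z : modularFunctionFieldBar N, z ≠ 0 ∧
    (modularFunctionFieldBar N).val z ∈ intSpan Qbar ∧
    (modularFunctionFieldBar N).val (f * z) ∈ intSpan Qbar
  fraction₂ : ∀ f : modularFunctionFieldBar N, ∃ z : modularFunctionFieldBar N, z ≠ 0 ∧
    (modularFunctionFieldBar N).val.comp w.toAlgHom z ∈ intSpan Qbar ∧
    (modularFunctionFieldBar N).val.comp w.toAlgHom (f * z) ∈ intSpan Qbar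
  x_fixed : ∀ σ : Γℚ, 𝔤 σ • D.x = D.x
  u_fixed : ∀ σ : Γℚ, 𝔤 σ • D.u = D.u
  prime : p.Prime
  natCast_eq_zero : (p : k) = 0

namespace IsX0Model

variable {D : MazurDatum π (modularFunctionFieldBar N) Kb p}
  {w : modularFunctionFieldBar N ≃ₐ[Qbar] modularFunctionFieldBar N}
  {emb : Kb →ₐ[k] LaurentSeries k} (hD : IsX0Model D w emb)

set_option linter.unusedSectionVars false in
include hD in
theorem coeffIn₁ {K : IntermediateField ℚ Qbar} {f : modularFunctionFieldBar N}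
    (hf : f ∈ ratFunctions N K) : CoeffIn K.toSubfield ((modularFunctionFieldBar N).val f) :=
  fun i => coeff_mem_of_mem_ratFunctions hf i

include hD in
theorem w_mem {K : IntermediateField ℚ Qbar} {f : modularFunctionFieldBar N}
    (hf : f ∈ ratFunctions N K) : w f ∈ ratFunctions N K := fun σ hσ => by
  rw [← hD.w_galois, hf σ hσ]

include hD in
theorem coeffIn₂ {K : IntermediateField ℚ Qbar} {f : modularFunctionFieldBar N}
    (hf : f ∈ ratFunctions N K) :
    CoeffIn K.toSubfield ((modularFunctionFieldBar N).val.comp w.toAlgHom f) :=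
  fun i => coeff_mem_of_mem_ratFunctions (hD.w_mem hf) i

include hD in
theorem scale₁ {K : IntermediateField ℚ Qbar} {f : modularFunctionFieldBar N}
    (hf : f ∈ ratFunctions N K) (hf0 : f ≠ 0) :
    ∃ c ∈ K.toSubfield, c • f ∈ D.s₁.W ∧ D.s₁.rd (c • f) ≠ 0 :=
  hD.sheet₁.exists_scale_in hD.prime hD.natCast_eq_zero D.π_eq_zero hD.fraction₁
    (hD.coeffIn₁ hf) hf0

include hD in
theorem scale₂ {K : IntermediateField ℚ Qbar} {f : modularFunctionFieldBar N}
    (hf : f ∈ ratFunctions N K) (hf0 : f ≠ 0) :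
    ∃ c ∈ K.toSubfield, c • f ∈ D.s₂.W ∧ D.s₂.rd (c • f) ≠ 0 :=
  hD.sheet₂.exists_scale_in hD.prime hD.natCast_eq_zero D.π_eq_zero hD.fraction₂
    (hD.coeffIn₂ hf) hf0

/-- The rational form over `K`. -/
def ratForm (K : IntermediateField ℚ Qbar) (ϖ : Qbar) (hϖ : ϖ ∈ K) (e : ℕ) (he : 0 < e)
    (hpow : A.valuation ϖ ^ e = A.valuation (p : Qbar))
    (hval : ∀ c ∈ K, c ≠ 0 → ∃ z : ℤ, A.valuation c = A.valuation ϖ ^ z)
    (hres : ∀ r : k, ∃ a : A, (a : Qbar) ∈ K ∧ π a = r) : D.RatForm where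
  K := K.toSubfield
  FK := ratFunctions N K
  algebraMap_mem _ hc := algebraMap_mem_ratFunctions hc
  linDisjoint _ _ hf h := linearIndependent_of_ratFunctions hf h
  ϖ := ϖ
  ϖ_mem := hϖ
  e := e
  e_pos := he
  ϖ_pow := hpow
  valueK := hval
  residueK := hres
  x_mem σ _ := hD.x_fixed σ
  u_mem σ _ := hD.u_fixed σ
  scale₁ _ hf hf0 := hD.scale₁ hf hf0
  scale₂ _ hf hf0 := hD.scale₂ hf hf0

include hD in
theorem galois_smul_Px (σ : Γℚ) : 𝔤 σ • D.Px = D.Px := by
  refine Finsupp.ext fun v => ?_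
  rw [SemilinearAut.divisor_smul_apply, D.Px_apply, D.Px_apply]
  have h := SemilinearAut.ord_smul (𝔤 σ) ((𝔤 σ)⁻¹ • v) D.x
  rw [smul_inv_smul, hD.x_fixed] at h
  rw [h]

variable {K : IntermediateField ℚ Qbar} {R : D.RatForm}

include hD in
/-- Fixed divisors are rational. -/
theorem isRat (hR : R.FK = ratFunctions N K)
    {E : Divisor Qbar (modularFunctionFieldBar N)}
    (hE : ∀ σ ∈ K.fixingSubgroup, 𝔤 σ • E = E) : R.IsRat E := by
  intro n
  rw [hR]
  exact space_le_span_ratFunctions D.rrF fun σ hσ => by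
    rw [smul_add, smul_comm (𝔤 σ) n D.Px, hD.galois_smul_Px, hE σ hσ]

include hD in
theorem isRat_zero (hR : R.FK = ratFunctions N K) :
    R.IsRat (0 : Divisor Qbar (modularFunctionFieldBar N)) :=
  hD.isRat hR fun _ _ => smul_zero _

include hD in
/-- A fixed torsion class is given by rational torsion data. -/
theorem exists_torsData (hR : R.FK = ratFunctions N K) (hRK : R.K = K.toSubfield) {n : ℕ}
    (x : JZero N) (hn : (n : ℤ) • x = 0) (hx : ∀ σ ∈ K.fixingSubgroup, σ • x = x) :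
    ∃ T : D.TorsData n, R.IsRatTors T ∧
      ∃ h : T.D ∈ Divisor.degZero (K := Qbar) (F := modularFunctionFieldBar N),
        Pic0.mk ⟨T.D, h⟩ = x := by
  obtain ⟨E, g, hE, hg0, hg, hdiv, hfix⟩ :=
    exists_ratDivisor D.rrF x hx (p := n) (by rwa [← natCast_zsmul])
  obtain ⟨c₁, hc₁, hm₁, hr₁⟩ := hD.scale₁ hg hg0
  obtain ⟨c₂, hc₂, hm₂, hr₂⟩ := hD.scale₂ hg hg0
  have h₁ : c₁ ≠ 0 := fun h => hr₁ (by rw [h, zero_smul, Sheet.rd_zero])
  have h₂ : c₂ ≠ 0 := fun h => hr₂ (by rw [h, zero_smul, Sheet.rd_zero])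
  refine ⟨{
    D := (E : Divisor Qbar (modularFunctionFieldBar N))
    g := g
    g_ne := hg0
    div := hdiv
    γ₁ := (Units.mk0 c₁ h₁)⁻¹
    γ₂ := (Units.mk0 c₂ h₂)⁻¹
    g_mem₁ := by simpa using hm₁
    g_red₁ := by simpa using hr₁
    g_mem₂ := by simpa using hm₂
    g_red₂ := by simpa using hr₂ }, ⟨?_, ?_, ?_, ?_, ?_⟩, E.2, hE⟩
  · exact hD.isRat hR hfix
  · exact hD.isRat hR fun σ hσ => by rw [smul_neg, hfix σ hσ]
  · rw [hR]; exact hg
  · rw [hRK]; simpa using inv_mem hc₁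
  · rw [hRK]; simpa using inv_mem hc₂

end IsX0Model

/-! ### The move of an inertia element -/

section Inertia

variable {σ : Γℚ}

theorem apply_mem_of_inertia (hσ : σ ∈ A.inertiaSubgroupIn ℚ) {a : Qbar} (ha : a ∈ A) :
    σ a ∈ A := by
  have h := ((FermatLib.Galois.mem_inertiaSubgroupIn_iff_forall_mem (K := ℚ)).mp hσ).2 a ha
  have := add_mem (A.nonunits_le h) ha
  rwa [sub_add_cancel] at this

/-- An inertia element as an endomorphism of `A`. -/
def inertiaEnd (hσ : σ ∈ A.inertiaSubgroupIn ℚ) : A →+* A :=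
  ((σ : Qbar →+* Qbar).comp A.subtype).codRestrict A.toSubring fun a =>
    apply_mem_of_inertia hσ a.2

theorem residue_inertiaEnd (hπ : ∀ a : A, π a = 0 ↔ ¬ IsUnit a)
    (hσ : σ ∈ A.inertiaSubgroupIn ℚ) (a : A) : π (inertiaEnd hσ a) = π a := by
  rw [← sub_eq_zero, ← map_sub, hπ]
  intro hu
  have h := ((FermatLib.Galois.mem_inertiaSubgroupIn_iff_forall_mem (K := ℚ)).mp hσ).2 a a.2
  rw [ValuationSubring.mem_nonunits_iff] at h
  have h1 : A.valuation ((inertiaEnd hσ a - a : A) : Qbar) = 1 :=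
    (A.valuation_eq_one_iff _).mp hu
  exact h.ne h1

end Inertia

namespace IsX0Model

variable {D : MazurDatum π (modularFunctionFieldBar N) Kb p}
  {w : modularFunctionFieldBar N ≃ₐ[Qbar] modularFunctionFieldBar N}
  {emb : Kb →ₐ[k] LaurentSeries k} (hD : IsX0Model D w emb)
  {K : IntermediateField ℚ Qbar} {R : D.RatForm}

/-- An inertia element moving the uniformiser by `1 + c₀` and integers of `K` by less than
`c₀`. -/
def move (hR : R.FK = ratFunctions N K) {σ : Γℚ} (hσ : σ ∈ A.inertiaSubgroupIn ℚ) {c₀ : Qbar}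
    (hc₀ : c₀ ≠ 0) (hsmall : A.valuation c₀ < 1) (hdef : σ R.ϖ = R.ϖ * (1 + c₀))
    (hmove : ∀ a : A, (a : Qbar) ∈ K → A.valuation (σ a - a) < A.valuation c₀) : R.Move where
  σL := σ.toRingEquiv
  σ := SemilinearAut.toRingAut (𝔤 σ)
  comm c := SemilinearAut.smul_algebraMap (𝔤 σ) c
  place := MulAction.toPerm (𝔤 σ)
  ord_place v f := SemilinearAut.ord_smul (𝔤 σ) v f
  σ_x := hD.x_fixed σ
  σ_u := hD.u_fixed σ
  c₀ := c₀
  c₀_mem := (A.valuation_le_one_iff _).mp hsmall.le
  c₀_def := hdef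
  c₀_ne := hc₀
  c₀_small := hsmall
  mem₁ _ hf := hD.sheet₁.map_mem (inertiaEnd hσ) (residue_inertiaEnd D.π_eq_zero hσ)
    (σL := (σ : Qbar →+* Qbar)) (σF := SemilinearAut.toRingAut (𝔤 σ)) (fun _ => rfl) (fun g => coe_arithmeticGalois_smul _ σ g) hf
  mem₂ _ hf := hD.sheet₂.map_mem (inertiaEnd hσ) (residue_inertiaEnd D.π_eq_zero hσ)
    (σL := (σ : Qbar →+* Qbar)) (σF := SemilinearAut.toRingAut (𝔤 σ)) (fun _ => rfl) (fun g =>
      (congrArg Subtype.val (hD.w_galois σ g)).trans (coe_arithmeticGalois_smul _ σ (w g))) hf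
  move₁ _ hf hfW := hD.sheet₁.move hD.prime hD.natCast_eq_zero D.π_eq_zero hD.fraction₁
    (inertiaEnd hσ) (residue_inertiaEnd D.π_eq_zero hσ) (σL := (σ : Qbar →+* Qbar)) (σF := SemilinearAut.toRingAut (𝔤 σ))
    (fun _ => rfl) (fun g => coe_arithmeticGalois_smul _ σ g) hc₀ (K := K.toSubfield)
    (fun a ha => hmove a ha) (hD.coeffIn₁ (hR ▸ hf)) hfW
  move₂ _ hf hfW := hD.sheet₂.move hD.prime hD.natCast_eq_zero D.π_eq_zero hD.fraction₂
    (inertiaEnd hσ) (residue_inertiaEnd D.π_eq_zero hσ) (σL := (σ : Qbar →+* Qbar)) (σF := SemilinearAut.toRingAut (𝔤 σ))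
    (fun _ => rfl) (fun g =>
      (congrArg Subtype.val (hD.w_galois σ g)).trans (coe_arithmeticGalois_smul _ σ (w g)))
    hc₀ (K := K.toSubfield) (fun a ha => hmove a ha) (hD.coeffIn₂ (hR ▸ hf)) hfW

end IsX0Model

end FermatLib.MazurP

end
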