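import Fermat.Agent.Galois.MazurP.AwayDefs
import Fermat.Agent.Galois.MazurP.InstanceField
import Fermat.Agent.Galois.MazurP.InstanceRat

/-!
The rational form over the inertia field needed by the principle away from `p`: rational torsion
representatives of every order for the classes fixed by inertia.
-/

set_option autoImplicit false
set_option synthInstance.maxHeartbeats 400000

noncomputable section

open AlgebraicCurve ModularCurve

namespace FermatLib.MazurP

attribute [local instance 100000] FermatLib.Igusa.Mono.monoLaurentModule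
  FermatLib.Igusa.Mono.monoLaurentSMul

local notation "Qbar" => AlgebraicClosure ℚ

universe uk uKb

variable {A : ValuationSubring Qbar} {k : Type uk} [Field k] {π : A →+* k}
  {Kb : Type uKb} [Field Kb] [Algebra k Kb] {q M : ℕ}

/-- The field `forms` of `AwayData` for a datum whose sheets reduce expansions. -/
theorem IsX0Model.awayForms [NeZero (q * M)]
    {D : MazurDatum π (modularFunctionFieldBar (q * M)) Kb q}
    {w : modularFunctionFieldBar (q * M) ≃ₐ[Qbar] modularFunctionFieldBar (q * M)}
    {emb : Kb →ₐ[k] LaurentSeries k} (hD : IsX0Model D w emb) (hA : A.LiesOverPrime q) :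
    ∃ R₀ : D.RatForm, R₀.e = 1 ∧ R₀.IsRat (0 : Divisor Qbar _) ∧
      ∀ (p : ℕ) (x : JZero (q * M)), (p : ℤ) • x = 0 →
        (∀ σ ∈ A.inertiaSubgroupIn ℚ, σ • x = x) →
        ∃ T : D.TorsData p, R₀.IsRatTors T ∧ MazurDatum.HasClass T.D x := by
  have hq := hD.prime
  exact ⟨hD.ratForm (inertiaField A) (q : Qbar) (natCast_mem _ q) 1 Nat.one_pos (pow_one _)
      (fun c hc h0 => exists_valuation_eq_zpow_of_mem hq hA hc h0)
      (exists_inertiaField_residue hq hA D.π_eq_zero D.π_surjective),
    rfl, hD.isRat_zero rfl, fun p x hx hfix => hD.exists_torsData rfl rfl x hx fun σ hσ =>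
      hfix σ (fixingSubgroup_inertiaField hq hA ▸ hσ)⟩

end FermatLib.MazurP

end
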