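import Fermat.Agent.Galois.MazurP.AwayPrinciple2
import Fermat.Agent.Galois.MazurP.AwayMain
import Fermat.Agent.Galois.MazurP.AwayThree
import Fermat.Agent.Galois.MazurP.AwaySwap
import Fermat.Agent.Galois.MazurP.InstanceAwayForms
import Fermat.Agent.Galois.MazurP.AtP

/-!
# The data of the Mazur principle at `q ≠ p` on `X₀(qM)`, and the principle
-/

set_option autoImplicit false
set_option linter.style.haveILetI false
set_option synthInstance.maxHeartbeats 400000
set_option maxHeartbeats 1000000

noncomputable section

open AlgebraicCurve ModularCurve FermatLib.Igusa FermatLib.Igusa.Mono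

namespace FermatLib.MazurP

attribute [local instance 100000] monoLaurentModule monoLaurentSMul

local notation "Qbar" => AlgebraicClosure ℚ

/-- `AwayData` on the modular datum of level `qM`. -/
theorem exists_awayData (q M : ℕ) [NeZero M] [NeZero (q * M)] (hq : q.Prime) (hqM : ¬ q ∣ M)
    (A : ValuationSubring Qbar) (hA : A.LiesOverPrime q) :
    ∃ D : MazurDatum (IsLocalRing.residue A) (modularFunctionFieldBar (q * M))
        (modularFunctionFieldFullC (IsLocalRing.ResidueField A) M) q, AwayData D := by
  haveI : Fact q.Prime := ⟨hq⟩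
  haveI : NeZero q := ⟨hq.ne_zero⟩
  obtain ⟨MD, h₁, h₂, hx, hΦ⟩ := exists_monoDatum_sheets' hqM hA
  exact ⟨mazurDatumX0 hqM hA MD h₁ h₂ hx,
    { forms := (isX0Model_mazurDatumX0 hqM hA MD h₁ h₂ hx).awayForms hA
      swap := swap_of_monoSheets hqM hA _ h₁ h₂ hx hΦ
      special := awaySpecial_of_monoSheets hqM hA _ h₁ h₂ hx
      hecke := exists_sheetOp_awayData hA hqM _ h₁ h₂ hx rfl }⟩

/-- **The Mazur principle at `q ≠ p` on torsion points.** -/
theorem principleAway : PrincipleAway := principleAway_of_awayData exists_awayData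

/-- **`MLT.Odd.MazurNonScalar`**. -/
theorem mazurNonScalar : FermatLib.MLT.Odd.MazurNonScalar :=
  mazurNonScalar_of_principle principleAway atPSpecializationInput

end FermatLib.MazurP

end
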