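import Fermat.Agent.Galois.MazurP.DeltaUnit
import Fermat.Agent.Igusa.MonoSwap
import Fermat.Agent.Modular.MeroField
import Fermat.Agent.Modular.Newforms.AtkinLehner
import Mathlib.Analysis.Complex.Polynomial.Basic

/-!
# The Atkin–Lehner image of `u = Δ (τ) / Δ (q τ)` at level `q M` is `q ^ 12 / u`

`W = (q α, x; q M z, q w) = γ₁ · diag (q, 1)` with `γ₁ = (α, x; M z, q w)`.
-/

set_option autoImplicit false

noncomputable section

open UpperHalfPlane ModularCurve CongruenceSubgroup
open scoped MatrixGroups ModularForm Manifold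

namespace FermatLib.MazurP

open FermatLib.Modular FermatLib.Igusa

local notation "Qb" => AlgebraicClosure ℚ

variable {q M : ℕ} [NeZero q]

/-- `(α, x; M z, q w)`. -/
def alGamma (D : Newforms.ALData q M) : SL(2, ℤ) :=
  ⟨!![D.α, D.x; (M : ℤ) * D.z, (q : ℤ) * D.w],
    by rw [Matrix.det_fin_two_of]; linear_combination D.eq⟩

/-- `(q α, x; M z, w)`. -/
def alGamma' (D : Newforms.ALData q M) : SL(2, ℤ) :=
  ⟨!![(q : ℤ) * D.α, D.x; (M : ℤ) * D.z, D.w],
    by rw [Matrix.det_fin_two_of]; linear_combination D.eq⟩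

/-- The point `W τ`. -/
def alPoint (D : Newforms.ALData q M) (τ : ℍ) : ℍ :=
  alGamma D • (ModularForm.heckeDiagMatrix q • τ)

variable (D : Newforms.ALData q M)

theorem diag_smul_alPoint (τ : ℍ) :
    ModularForm.heckeDiagMatrix q • alPoint D τ = alGamma' D • τ := by
  have hd := UpperHalfPlane.denom_ne_zero (alGamma' D) τ
  have hd' : UpperHalfPlane.denom (alGamma D) (ModularForm.heckeDiagMatrix q • τ : ℍ) ≠ 0 :=
    UpperHalfPlane.denom_ne_zero _ _
  rw [ModularGroup.denom_apply] at hd hd'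
  simp [alGamma, alGamma', ModularForm.coe_heckeDiagMatrix_smul (NeZero.ne q)] at hd hd'
  apply UpperHalfPlane.ext
  rw [ModularForm.coe_heckeDiagMatrix_smul (NeZero.ne q), alPoint,
    UpperHalfPlane.coe_specialLinearGroup_apply, UpperHalfPlane.coe_specialLinearGroup_apply,
    ModularForm.coe_heckeDiagMatrix_smul (NeZero.ne q)]
  simp only [algebraMap_int_eq, eq_intCast, alGamma, alGamma', Matrix.of_apply, Matrix.cons_val',
    Matrix.cons_val_zero, Matrix.cons_val_one, Matrix.cons_val_fin_one, Complex.ofReal_intCast]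
  push_cast
  rw [mul_div_assoc', div_eq_div_iff hd' hd]
  ring

theorem denom_alGamma (τ : ℍ) :
    UpperHalfPlane.denom (alGamma D) (ModularForm.heckeDiagMatrix q • τ : ℍ) =
      (q : ℂ) * UpperHalfPlane.denom (alGamma' D) τ := by
  rw [ModularGroup.denom_apply, ModularGroup.denom_apply]
  simp [alGamma, alGamma', ModularForm.coe_heckeDiagMatrix_smul (NeZero.ne q)]
  ring

theorem deltaUnitFun_alPoint (τ : ℍ) :
    deltaUnitFun q (alPoint D τ) = (q : ℂ) ^ 12 * deltaQuotFun q τ := by
  have hg : UpperHalfPlane.denom (alGamma' D) τ ≠ 0 := UpperHalfPlane.denom_ne_zero _ _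
  rw [deltaUnitFun_eq, diag_smul_alPoint, discriminant_smul (alGamma' D), alPoint,
    discriminant_smul (alGamma D), denom_alGamma, deltaQuotFun]
  field_simp

theorem jFun_alPoint (τ : ℍ) : jFun (alPoint D τ) = jScaleFun q τ := by
  rw [alPoint, jFun_smul, jScaleFun_apply]

theorem jScaleFun_alPoint [NeZero M] (τ : ℍ) :
    jScaleFun (q * M) (alPoint D τ) = jScaleFun M τ := by
  have h : ModularForm.heckeDiagMatrix (q * M) • alPoint D τ =
      ModularForm.heckeDiagMatrix M • (ModularForm.heckeDiagMatrix q • alPoint D τ) := by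
    apply UpperHalfPlane.ext
    rw [ModularForm.coe_heckeDiagMatrix_smul (mul_ne_zero (NeZero.ne q) (NeZero.ne M)),
      ModularForm.coe_heckeDiagMatrix_smul (NeZero.ne M),
      ModularForm.coe_heckeDiagMatrix_smul (NeZero.ne q)]
    push_cast
    ring
  rw [jScaleFun_apply, h, diag_smul_alPoint, ← jScaleFun_apply,
    jScaleFun_smul_of_mem (γ := alGamma' D) (dvd_mul_right _ _)]

theorem alPoint_surjective : Function.Surjective (alPoint D) := fun τ =>
  ⟨(ModularForm.heckeDiagMatrix q)⁻¹ • ((alGamma D)⁻¹ • τ), by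
    rw [alPoint, smul_inv_smul, smul_inv_smul]⟩

theorem alPoint_vadd_one (τ : ℍ) :
    ∃ γ ∈ Gamma0 (q * M), alPoint D ((1 : ℝ) +ᵥ τ) = γ • alPoint D τ := by
  have h : ModularForm.heckeDiagMatrix q • ((1 : ℝ) +ᵥ τ) =
      ModularGroup.T ^ (q : ℤ) • (ModularForm.heckeDiagMatrix q • τ) := by
    apply UpperHalfPlane.ext
    rw [ModularGroup.coe_T_zpow_smul_eq, ModularForm.coe_heckeDiagMatrix_smul (NeZero.ne q),
      ModularForm.coe_heckeDiagMatrix_smul (NeZero.ne q), UpperHalfPlane.coe_vadd]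
    push_cast
    ring
  refine ⟨alGamma D * ModularGroup.T ^ (q : ℤ) * (alGamma D)⁻¹, ?_, ?_⟩
  · rw [Gamma0_mem_iff_dvd]
    refine ⟨-(M : ℤ) * D.z * D.z, ?_⟩
    rw [Matrix.SpecialLinearGroup.coe_mul, Matrix.SpecialLinearGroup.coe_mul,
      Matrix.SpecialLinearGroup.coe_inv, ModularGroup.coe_T_zpow, Matrix.adjugate_fin_two]
    simp [alGamma, Matrix.mul_apply, Fin.sum_univ_two]
    ring
  · rw [alPoint, h, mul_smul, mul_smul, alPoint, inv_smul_smul]

theorem comp_alPoint_mem_qMero [NeZero M] {G : ℍ → ℂ} (hG : G ∈ weakMod (Gamma0 (q * M))) :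
    (fun τ => G (alPoint D τ)) ∈ qMero := by
  obtain ⟨hmd, hinv, hcusp⟩ := mem_weakMod.mp hG
  refine mem_qMero.mpr ⟨fun τ => ?_, ?_, ?_⟩
  · obtain ⟨γ, hγ, h⟩ := alPoint_vadd_one D τ
    rw [h, hinv γ hγ]
  · exact (mdifferentiable_comp_smul hmd (alGamma D)).comp
      (UpperHalfPlane.mdifferentiable_smul (ModularForm.det_heckeDiagMatrix_pos q))
  · obtain ⟨m, hm⟩ := hcusp (alGamma D)
    refine ⟨q * m, ?_⟩
    have hq : (0 : ℝ) < q := by exact_mod_cast Nat.pos_of_ne_zero (NeZero.ne q)
    have h := isBoundedAtImInfty_comp_triangular (b := 0) hm hq one_pos (k := q) (by simp)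
    simpa [alPoint, ModularForm.heckeDiagMatrix, NeZero.ne q] using h

variable [NeZero M]

/-- `G ↦ G ∘ W` on weakly holomorphic functions, as series. -/
def alSeries : weakMod (Gamma0 (q * M)) →+* LaurentSeries ℂ :=
  qExpLHom.toRingHom.comp
    { toFun := fun G => ⟨fun τ => (G : ℍ → ℂ) (alPoint D τ), comp_alPoint_mem_qMero D G.2⟩
      map_one' := rfl
      map_mul' := fun _ _ => rfl
      map_zero' := rfl
      map_add' := fun _ _ => rfl }

theorem alSeries_apply (G : weakMod (Gamma0 (q * M))) :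
    alSeries D G = qExpL (fun τ => (G : ℍ → ℂ) (alPoint D τ)) := rfl

theorem alSeries_injective : Function.Injective (alSeries D) := by
  intro G H h
  have h' := Subtype.ext_iff.mp (qExpLHom_injective h)
  apply Subtype.ext
  funext τ
  obtain ⟨σ, rfl⟩ := alPoint_surjective D τ
  exact congrFun h' σ

set_option synthInstance.maxHeartbeats 100000 in
/-- An endomorphism exchanging `j` with `j_q` and `j_{qM}` with `j_M` sends `u` to `q ^ 12 / u`. -/
theorem map_deltaUnit_of_swap (hco : q.Coprime M)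
    (w : modularFunctionFieldBar (q * M) →ₐ[Qb] modularFunctionFieldBar (q * M))
    (h1 : ((w (jElem Qb (q * M)) : modularFunctionFieldBar (q * M)) : LaurentSeries Qb) =
      coeffEmb Qb (qExpand ℚ q jq))
    (hN : ((w (jScaleElem Qb (q * M)) : modularFunctionFieldBar (q * M)) : LaurentSeries Qb) =
      coeffEmb Qb (qExpand ℚ M jq)) :
    w (deltaUnit Qb (dvd_mul_right q M)) =
      algebraMap Qb _ ((q : Qb) ^ 12) * (deltaUnit Qb (dvd_mul_right q M))⁻¹ := by
  obtain ⟨D⟩ := Newforms.exists_alData hco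
  haveI : Algebra.IsAlgebraic ℚ Qb := AlgebraicClosure.isAlgebraic ℚ
  let ι : Qb →+* ℂ := (IsAlgClosed.lift : Qb →ₐ[ℚ] ℂ).toRingHom
  obtain ⟨Ψ, hΨ⟩ :=
    exists_lift_modularFunctionFieldCx (q * M) (alSeries D) (alSeries_injective D)
  -- the image of the expansion of `G`
  have key : ∀ (x : modularFunctionFieldBar (q * M)) (G : weakMod (Gamma0 (q * M))),
      coeffMap ι (x : LaurentSeries Qb) = qExpL (G : ℍ → ℂ) →
      Ψ (barToCx ι (q * M) x) = alSeries D G := by
    intro x G h
    have hx : barToCx ι (q * M) x =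
        ⟨qExpWeak (q * M) G, qExpL_mem_modularFunctionFieldCx _ G.2⟩ :=
      Subtype.ext (by rw [coe_barToCx, h]; rfl)
    rw [hx]
    exact hΨ G _
  have hj : coeffMap ι ((w (jElem Qb (q * M)) : modularFunctionFieldBar (q * M)) :
      LaurentSeries Qb) = Ψ (barToCx ι (q * M) (jElem Qb (q * M))) := by
    rw [key (jElem Qb (q * M)) ⟨jFun, jFun_mem_weakMod _⟩
        (by rw [coe_jElem, coeffMap_coeffEmb_of_ringHom, ← qExpL_jFun]),
      alSeries_apply, h1, coeffMap_coeffEmb_of_ringHom, ← qExpL_jScaleFun]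
    exact congrArg qExpL (funext fun τ => (jFun_alPoint D τ).symm)
  have hjN : coeffMap ι ((w (jScaleElem Qb (q * M)) : modularFunctionFieldBar (q * M)) :
      LaurentSeries Qb) = Ψ (barToCx ι (q * M) (jScaleElem Qb (q * M))) := by
    rw [key (jScaleElem Qb (q * M)) ⟨jScaleFun (q * M), jScaleFun_mem_weakMod dvd_rfl⟩
        (by rw [coe_jScaleElem, coeffMap_coeffEmb_of_ringHom, ← qExpL_jScaleFun]),
      alSeries_apply, hN, coeffMap_coeffEmb_of_ringHom, ← qExpL_jScaleFun]
    exact congrArg qExpL (funext fun τ => (jScaleFun_alPoint D τ).symm)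
  have hc : ∀ c : Qb, coeffMap ι
      ((w (algebraMap Qb _ c) : modularFunctionFieldBar (q * M)) : LaurentSeries Qb) =
      Ψ (barToCx ι (q * M) (algebraMap Qb _ c)) := by
    intro c
    have hco : ((algebraMap Qb (modularFunctionFieldBar (q * M)) c : modularFunctionFieldBar (q * M)) :
        LaurentSeries Qb) = algebraMap Qb (LaurentSeries Qb) c := rfl
    rw [AlgHom.commutes, key _ (algebraMap ℂ _ (ι c)) ?_, alSeries_apply, hco,
      algebraMap_laurentSeries_eq_single, coeffMap_single, ← algebraMap_laurentSeries_eq_single]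
    · exact (qExpL_algebraMap (ι c)).symm
    · rw [hco, algebraMap_laurentSeries_eq_single, coeffMap_single,
        ← algebraMap_laurentSeries_eq_single]
      exact (qExpL_algebraMap (ι c)).symm
  have hall : ∀ x : modularFunctionFieldBar (q * M),
      coeffMap ι ((w x : modularFunctionFieldBar (q * M)) : LaurentSeries Qb) =
        Ψ (barToCx ι (q * M) x) := by
    intro x
    have hx : x ∈ IntermediateField.adjoin Qb {jElem Qb (q * M), jScaleElem Qb (q * M)} := by
      rw [adjoin_jElem_jScaleElem]; exact IntermediateField.mem_top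
    induction hx using IntermediateField.adjoin_induction with
    | mem y hy =>
      rcases hy with rfl | rfl
      · exact hj
      · exact hjN
    | algebraMap c => exact hc c
    | add a b _ _ ha hb =>
      simp only [map_add, IntermediateField.coe_add, ha, hb]
    | inv a _ ha => simp only [map_inv₀, IntermediateField.coe_inv, ha]
    | mul a b _ _ ha hb =>
      simp only [map_mul, IntermediateField.coe_mul, ha, hb]
  apply Subtype.ext
  apply (coeffMap ι).injective
  rw [hall, key _ ⟨deltaUnitFun q, deltaUnitFun_mem_weakMod (dvd_mul_right q M)⟩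
    (by rw [coe_deltaUnit, coeffMap_coeffEmb_of_ringHom, ← qExpL_deltaUnitFun]), alSeries_apply]
  have h : (fun τ => deltaUnitFun q (alPoint D τ)) =
      (algebraMap ℂ (ℍ → ℂ) ((q : ℂ) ^ 12)) * deltaQuotFun q :=
    funext fun τ => deltaUnitFun_alPoint D τ
  simp only []
  rw [h, qExpL_mul (qMero.algebraMap_mem _)
    (weakMod_Gamma0_le_qMero q (deltaQuotFun_mem_weakMod (N := q) dvd_rfl)),
    qExpL_algebraMap, qExpL_deltaQuotFun, IntermediateField.coe_mul, IntermediateField.coe_inv,
    coe_deltaUnit, map_mul, map_inv₀, map_inv₀, coeffMap_coeffEmb_of_ringHom]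
  congr 1
  show _ = coeffMap ι (algebraMap Qb (LaurentSeries Qb) ((q : Qb) ^ 12))
  rw [algebraMap_laurentSeries_eq_single Qb, coeffMap_single,
    ← algebraMap_laurentSeries_eq_single]
  simp only [map_pow, map_natCast]

/-- `w_q u = q ^ 12 / u`. -/
theorem monoSwap_deltaUnit {p : ℕ} [Fact p.Prime] {M : ℕ} [NeZero M] (hpM : ¬ p ∣ M) :
    haveI : NeZero p := ⟨(Fact.out : p.Prime).ne_zero⟩
    Mono.monoSwap hpM (deltaUnit Qb (dvd_mul_right p M)) =
      algebraMap Qb _ ((p : Qb) ^ 12) * (deltaUnit Qb (dvd_mul_right p M))⁻¹ := by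
  haveI : NeZero p := ⟨(Fact.out : p.Prime).ne_zero⟩
  have hp := (Fact.out : p.Prime)
  have hgen : ∀ e : Mono.LevelDiv p M,
      coeffEmb Qb (qExpand ℚ (e : ℕ) jq) = Mono.levelGen p M e := fun e => by
    rw [coeffEmb_qExpand, Mono.levelGen]
    congr 1
    rw [← jqModC_rat, coeffEmb, coeffMap_jqModC]
  refine map_deltaUnit_of_swap (hp.coprime_iff_not_dvd.mpr hpM)
    (Mono.monoSwap hpM).toAlgHom ?_ ?_
  · let e₁ : Mono.LevelDiv p M :=
      ⟨1, Nat.mem_divisors.mpr ⟨one_dvd _, Mono.monoLevel_ne_zero⟩⟩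
    have hs : ((Mono.swapDiv hpM e₁ : Mono.LevelDiv p M) : ℕ) = p := by
      show (if p ∣ 1 then _ else _) = p
      rw [if_neg hp.not_dvd_one, mul_one]
    have h := Mono.coe_monoSwap_of_eq hpM (e := e₁) (x := jElem Qb (p * M)) (by
      rw [coe_jElem, ← hgen]; simp [e₁, qExpand_one_apply])
    rw [← hgen] at h
    simp only [hs] at h
    exact h
  · let eN : Mono.LevelDiv p M :=
      ⟨p * M, Nat.mem_divisors.mpr ⟨dvd_rfl, Mono.monoLevel_ne_zero⟩⟩
    have hs : ((Mono.swapDiv hpM eN : Mono.LevelDiv p M) : ℕ) = M := by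
      show (if p ∣ p * M then _ else _) = M
      rw [if_pos (dvd_mul_right p M), Nat.mul_div_cancel_left _ hp.pos]
    have h := Mono.coe_monoSwap_of_eq hpM (e := eN) (x := jScaleElem Qb (p * M)) (by
      rw [coe_jScaleElem, ← hgen])
    rw [← hgen] at h
    simp only [hs] at h
    exact h

end FermatLib.MazurP

end
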