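import Fermat.Agent.Galois.TransferHecke
import Fermat.Agent.Galois.MazurP.InertiaField

/-!
# The core of the Mazur principle at `q ≠ p`

A nonzero Galois stable group of `p`-torsion points of `J₀(qM)`, `q ∤ M`, killed by a
non-Eisenstein system of Hecke eigenvalues mod `p` (with the operators `U_ℓ`, `ℓ ∣ M`), fixed by
inertia at `q` and without a nonzero Galois stable subgroup on which Frobenius is a toric scalar
`c`, `c ^ 2 = q ^ 2`, forces that system to occur in level `M`.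
-/

set_option autoImplicit false

noncomputable section

namespace FermatLib.MazurP

open ModularCurve FermatLib.Galois

local notation "Qbar" => AlgebraicClosure ℚ
local notation "Γℚ" => (AlgebraicClosure ℚ ≃ₐ[ℚ] AlgebraicClosure ℚ)

variable {k : Type} [Field k]

/-- The system `ψ` occurs in level `M`: it factors through the Hecke algebra of level `M`. -/
def OccursAtLevel (M : ℕ) [NeZero M] (S : Set ℕ) (ψ : awayHeckeAlg S →+* k) : Prop :=
  ∀ t : awayHeckeAlg S, formsHeckeEval M (t : HeckeAlg) = 0 → ψ t = 0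

/-- A group of points of `J₀(N)` in the eigenspace of the system `ψ`, stable under Galois. -/
structure EigenGroup (N p : ℕ) [NeZero N] (S : Set ℕ) (ψ : awayHeckeAlg S →+* k)
    (V : AddSubgroup (JZero N)) : Prop where
  ne_bot : V ≠ ⊥
  torsion : ∀ x ∈ V, p • x = 0
  galois : ∀ (σ : Γℚ), ∀ x ∈ V, σ • x ∈ V
  hecke : ∀ t : awayHeckeAlg S, ∀ x ∈ V, (letI := heckeModuleBar N; (t : HeckeAlg) • x ∈ V)
  eigen : ∀ t : awayHeckeAlg S, ψ t = 0 → ∀ x ∈ V,
    (letI := heckeModuleBar N; (t : HeckeAlg) • x = 0)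

/-- `V` is fixed by inertia at `A` and no nonzero Galois stable subgroup of it is toric. -/
structure UnrNonToricGroup {N : ℕ} [NeZero N] (A : ValuationSubring Qbar) (p q : ℕ)
    (V : AddSubgroup (JZero N)) : Prop where
  fixed : ∀ σ ∈ A.inertiaSubgroupIn ℚ, ∀ x ∈ V, σ • x = x
  moved : ∀ W : AddSubgroup (JZero N), W ≤ V → W ≠ ⊥ → (∀ (σ : Γℚ), ∀ x ∈ W, σ • x ∈ W) →
    ∀ F : Γℚ, A.IsFrobeniusAt F q → ∀ c : ℤ, (p : ℤ) ∣ c ^ 2 - (q : ℤ) ^ 2 →
      ∃ x ∈ W, F • x ≠ c • x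

/-- `ψ` is not Eisenstein outside any finite set of primes. -/
def NotEisensteinSystem (N : ℕ) {S : Set ℕ} (ψ : awayHeckeAlg S →+* k) : Prop :=
  ∀ T : Finset ℕ, ∃ ℓ : ℕ, ℓ.Prime ∧ ℓ ∉ S ∧ ℓ ∉ T ∧ ¬ ℓ ∣ N ∧
    ψ (awayHeckeGen S ℓ) ≠ (ℓ : k) + 1

/-- The Mazur principle at `q ≠ p` on torsion points. For `p = 3` the system is required to have
a nonzero eigenvalue at some prime `2 (mod 3)`: this separates it from the classes supported on
the nodes with extra automorphisms. -/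
def PrincipleAway : Prop :=
  ∀ (p q M : ℕ), p.Prime → p ≠ 2 → q.Prime → q ≠ p → ¬ q ∣ M → ∀ [NeZero M] [NeZero (q * M)]
    (k : Type) [Field k] [Finite k] [CharP k p] (S : Finset ℕ), q ∈ S →
    ∀ (ψ : awayHeckeAlg (↑S : Set ℕ) →+* k), NotEisensteinSystem (q * M) ψ →
    (p = 3 → ∃ ℓ : ℕ, ℓ.Prime ∧ ℓ ∉ S ∧ ¬ ℓ ∣ q * M ∧ ℓ % 3 = 2 ∧
      ψ (awayHeckeGen (↑S : Set ℕ) ℓ) ≠ 0) →
    ∀ (V : AddSubgroup (JZero (q * M))), EigenGroup (q * M) p (↑S : Set ℕ) ψ V →
    ∀ A : ValuationSubring Qbar, A.LiesOverPrime q → UnrNonToricGroup A p q V →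
      OccursAtLevel M (↑S : Set ℕ) ψ

end FermatLib.MazurP

end
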