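import Fermat.Agent.Galois.MazurP.Ops
import Fermat.Agent.Galois.MazurP.AwayCore
import Fermat.Agent.Igusa.MonoSqFrob

/-!
# What the Mazur principle at `q ≠ p` needs from the model of `X₀(qM)` at `q`

Operators on the two sheets realising endomorphisms of the jacobian, an automorphism of
Frobenius type exchanging the sheets, and `AwayData`, the inputs from the modular instance. None
of them mentions `p`.
-/

set_option autoImplicit false
set_option linter.style.haveILetI false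

noncomputable section

open AlgebraicCurve ModularCurve FermatLib.Igusa FermatLib.Igusa.Mono

namespace FermatLib.MazurP

universe uL uF uk uKb

namespace MazurDatum

variable {L : Type uL} {k : Type uk} [Field L] [Field k] {A : ValuationSubring L} {π : A →+* k}
  {F : Type uF} {Kb : Type uKb} [Field F] [Algebra L F] [Field Kb] [Algebra k Kb] {q : ℕ}
  (M : MazurDatum π F Kb q)

/-- A multiplicative operator on functions compatible with the reductions on both sheets. -/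
structure SheetEndo where
  fn : F → F
  fnK : Kb → Kb
  dv : Divisor k Kb →+ Divisor k Kb
  fn_ne : ∀ f, f ≠ 0 → fn f ≠ 0
  fn_mul : ∀ f g, f ≠ 0 → g ≠ 0 → fn (f * g) = fn f * fn g
  fn_const : ∀ c : L, c ≠ 0 → ∃ c' : L, c' ≠ 0 ∧ fn (algebraMap L F c) = algebraMap L F c'
  rd₁ : ∀ f ∈ M.s₁.W, M.s₁.rd f ≠ 0 →
    fn f ∈ M.s₁.W ∧ M.s₁.rd (fn f) = fnK (M.s₁.rd f)
  rd₂ : ∀ f ∈ M.s₂.W, M.s₂.rd f ≠ 0 →
    fn f ∈ M.s₂.W ∧ M.s₂.rd (fn f) = fnK (M.s₂.rd f)
  fnK_ne : ∀ f, f ≠ 0 → fnK f ≠ 0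
  dv_div : ∀ (f : Kb) (E : Divisor k Kb), f ≠ 0 → (∀ v, E v = v.ord f) →
    ∀ v, dv E v = v.ord (fnK f)

variable {M}

/-- Forget the value on `u`. -/
def SheetOp.toEndo (O : M.SheetOp) : M.SheetEndo where
  fn := O.fn
  fnK := O.fnK
  dv := O.dv
  fn_ne := O.fn_ne
  fn_mul := O.fn_mul
  fn_const := O.fn_const
  rd₁ := O.rd₁
  rd₂ := O.rd₂
  fnK_ne := O.fnK_ne
  dv_div := O.dv_div

/-- The operator on functions induces `η` on classes: if `p E = div f` then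
`p E' = div (fn f)` for some `E'` of class `η [E]`. -/
def SheetEndo.Realises (O : M.SheetEndo) (η : Pic0 L F → Pic0 L F) : Prop :=
  ∀ (p : ℕ) (E : Divisor.degZero (K := L) (F := F)) (f : F), f ≠ 0 →
    (∀ v, (p : ℤ) * (E : Divisor L F) v = v.ord f) →
    ∃ E' : Divisor.degZero (K := L) (F := F),
      (∀ v, (p : ℤ) * (E' : Divisor L F) v = v.ord (O.fn f)) ∧ Pic0.mk E' = η (Pic0.mk E)

/-- The class of a divisor. -/
def HasClass (D : Divisor L F) (x : Pic0 L F) : Prop :=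
  ∃ h : D ∈ Divisor.degZero (K := L) (F := F), Pic0.mk ⟨D, h⟩ = x

variable (M)

/-- An automorphism keeping the poles of `x` which carries each sheet to the other through `φ`, where `Φ ∘ φ` is
the `e`-th power map on regular functions (the Atkin-Lehner involution after an arithmetic
Frobenius, `e = q`). -/
structure SwapFrobenius (g : SemilinearAut L F) (e : ℕ) where
  φ : Kb →+* Kb
  x_pole : ∃ c : ℕ, g • M.x ∈ riemannRochSpace (c • M.Px)
  mem₁ : ∀ a ∈ M.s₂.W, g • a ∈ M.s₁.W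
  rd₁ : ∀ a ∈ M.s₂.W, M.s₁.rd (g • a) = φ (M.s₂.rd a)
  mem₂ : ∀ a ∈ M.s₁.W, g • a ∈ M.s₂.W
  rd₂' : ∀ a ∈ M.s₁.W, M.s₂.rd (g • a) = φ (M.s₁.rd a)
  φ_reg : ∀ c ∈ Reg M.P₁, φ c ∈ Reg M.P₁
  frob : ∀ c ∈ Reg M.P₁, M.Φ (φ c) = c ^ e

end MazurDatum

local notation "Qbar" => AlgebraicClosure ℚ
local notation "Γℚ" => (AlgebraicClosure ℚ ≃ₐ[ℚ] AlgebraicClosure ℚ)

variable {A : ValuationSubring Qbar} {k : Type uk} [Field k] {π : A →+* k}
  {Kb : Type uKb} [Field Kb] [Algebra k Kb] {q M : ℕ} [NeZero M] [NeZero (q * M)]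
  (D : MazurDatum π (modularFunctionFieldBar (q * M)) Kb q)

local notation "J" => Pic0 Qbar (modularFunctionFieldBar (q * M))

/-- What the modular instance provides for a datum of level `qM` at a place over `q`. -/
structure AwayData : Prop where
  forms : ∃ R₀ : D.RatForm, R₀.e = 1 ∧ R₀.IsRat (0 : Divisor Qbar _) ∧
    ∀ (p : ℕ) (x : JZero (q * M)), (p : ℤ) • x = 0 →
      (∀ σ ∈ A.inertiaSubgroupIn ℚ, σ • x = x) →
      ∃ T : D.TorsData p, R₀.IsRatTors T ∧ MazurDatum.HasClass T.D x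
  swap : ∃ w : JZero (q * M) →+ JZero (q * M), (∀ x, w (w x) = x) ∧
    (∀ (σ : Γℚ) (x), w (σ • x) = σ • w x) ∧
    ∀ σ : Γℚ, A.IsFrobeniusAt σ q →
      ∃ g : SemilinearAut Qbar (modularFunctionFieldBar (q * M)),
        Nonempty (D.SwapFrobenius g q) ∧ ∀ x : J, g • x = w (σ • (x : JZero (q * M)))
  special : ∀ t : Galois.awayHeckeAlg ({q} : Set ℕ),
    (∀ z : JZero M, letI := heckeModuleBar M; (t : HeckeAlg) • z = 0) →
    ∃ O : D.SheetEndo,
      O.Realises (fun x => (letI := heckeModuleBar (q * M); (t : HeckeAlg) • (x : JZero (q * M)))) ∧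
        ∀ E : Divisor k Kb, Divisor.degree E = 0 → MazurDatum.IsPrincipal (O.dv E)
  hecke : ∀ ℓ : Nat.Primes, ¬ (ℓ : ℕ) ∣ q * M →
    ∃ O : D.SheetOp, O.eis = (ℓ : ℤ) + 1 ∧
      O.toEndo.Realises (fun x => heckeOperatorBar (q * M) ℓ (x : JZero (q * M))) ∧
      (q ≠ 3 → (ℓ : ℕ) % 3 = 2 → ∀ E : Divisor k Kb,
        (∀ v, D.P₁ v = 0 → (3 : ℤ) ∣ D.h₁ v → (3 : ℤ) ∣ E v) →
          ∀ v, D.P₁ v = 0 → ¬ (3 : ℤ) ∣ D.h₁ v → (3 : ℤ) ∣ O.dv E v)

end FermatLib.MazurP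

end
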