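import Mathlib.RingTheory.Nakayama
import Mathlib.RingTheory.Artinian.Module

/-!
# An element killed by an ideal containing the annihilator of a finite module
-/

set_option autoImplicit false

namespace FermatLib.MazurP

/-- In a finite module, a maximal ideal containing the annihilator kills a nonzero element. -/
theorem exists_ne_zero_forall_smul_eq_zero {A M : Type*} [CommRing A] [AddCommGroup M] [Module A M]
    [Finite M] (m : Ideal A) (hann : ∀ t : A, (∀ x : M, t • x = 0) → t ∈ m) (hm : m ≠ ⊤) :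
    ∃ x : M, x ≠ 0 ∧ ∀ t ∈ m, t • x = 0 := by
  -- the chain `m ^ n • M` is stationary
  let F : ℕ →o (Submodule A M)ᵒᵈ :=
    ⟨fun n => OrderDual.toDual (m ^ n • (⊤ : Submodule A M)), monotone_nat_of_le_succ fun n => by
      show m ^ (n + 1) • (⊤ : Submodule A M) ≤ m ^ n • (⊤ : Submodule A M)
      exact Submodule.smul_mono_left (Ideal.pow_le_pow_right n.le_succ)⟩
  obtain ⟨n, hn⟩ := WellFoundedGT.monotone_chain_condition (α := (Submodule A M)ᵒᵈ) F
  have hle : m ^ n • (⊤ : Submodule A M) ≤ m • (m ^ n • (⊤ : Submodule A M)) := by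
    rw [← Submodule.mul_smul, ← pow_succ']
    exact (congrArg OrderDual.ofDual (hn (n + 1) n.le_succ)).le
  obtain ⟨r, hr1, hr⟩ :=
    Submodule.exists_sub_one_mem_and_smul_eq_zero_of_fg_of_le_smul m _
      (IsNoetherian.noetherian _) hle
  obtain ⟨y, hy⟩ : ∃ y : M, r • y ≠ 0 := by
    by_contra! h
    refine hm ((Ideal.eq_top_iff_one m).mpr ?_)
    simpa using m.sub_mem (hann r h) hr1
  have hkill : ∀ t ∈ m ^ n, t • (r • y) = 0 := fun t ht => by
    rw [smul_comm]
    exact hr _ (Submodule.smul_mem_smul ht Submodule.mem_top)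
  -- descend to exponent one
  have hdesc : ∀ k : ℕ, ∀ x : M, x ≠ 0 → (∀ t ∈ m ^ k, t • x = 0) →
      ∃ x : M, x ≠ 0 ∧ ∀ t ∈ m, t • x = 0 := by
    intro k
    induction k with
    | zero =>
      intro x hx h
      exact absurd (by simpa using h 1 (by simp)) hx
    | succ k ih =>
      intro x hx h
      by_cases hk : ∀ t ∈ m ^ k, t • x = 0
      · exact ih x hx hk
      push Not at hk
      obtain ⟨t, ht, htx⟩ := hk
      refine ⟨t • x, htx, fun s hs => ?_⟩
      rw [smul_smul]
      exact h _ (by rw [pow_succ']; exact Ideal.mul_mem_mul hs ht)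
  exact hdesc n (r • y) hy hkill

end FermatLib.MazurP
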