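import Fermat.Agent.Galois.AttachKummer
import Fermat.Agent.Galois.MazurP.KilledElement
import Fermat.Agent.Modular.KummerHecke
import Mathlib.RingTheory.Polynomial.ScaleRoots
import Mathlib.LinearAlgebra.Matrix.Charpoly.Coeff
import Mathlib.RingTheory.Ideal.Maps

/-!
# The eigenspace in `J₀(N)[p]` of a mod `p` Hecke character

For a character `θ` with values in a field of characteristic `p` of the Hecke algebra away
from `S` (the operators at the level outside `S` included), some nonzero `p`-torsion point of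
`J₀(N)` is killed by the kernel of `θ`.
-/

set_option autoImplicit false

noncomputable section

open ModularCurve AlgebraicCurve CongruenceSubgroup Polynomial
open FermatLib.Galois FermatLib.Galois.Attach

namespace FermatLib.MazurP

local notation "Qbar" => AlgebraicClosure ℚ

variable (N : ℕ) [NeZero N] {p : ℕ} [Fact p.Prime] {k : Type} [Field k]
  {S : Set ℕ}

/-- The Hecke polynomials acting on `J₀(N)`. -/
abbrev jEval : HeckeAlg →+* Module.End ℤ (JZero N) :=
  heckeEvalBar (FermatLib.Modular.heckeOperatorsCommuteBar N)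

variable {N}

/-- A Hecke polynomial killing `J₀(N)[p]` is killed by every character of characteristic `p`. -/
theorem heckeChar_eq_zero_of_kills [CharP k p] (θ : CuspForm.heckeAlgebra N 2 S →+* k)
    (t : awayHeckeAlg S) (ht : ∀ x : JZero N, p • x = 0 → jEval N t x = 0) :
    θ (awayHeckeEval N S t) = 0 := by
  classical
  let e := FermatLib.Modular.cuspidalHomsEquiv N ℤ ℤ
  let r := FermatLib.Modular.cuspRank N
  let act : CuspForm.heckeAlgebra N 2 (∅ : Set ℕ) →+* Matrix (Fin r) (Fin r) ℤ :=
    ((LinearMap.toMatrixAlgEquiv' (R := ℤ) (n := Fin r)).toRingEquiv.toRingHom).comp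
      (e.conjRingEquiv.toRingHom.comp (FermatLib.Modular.heckeCuspAct N ℤ ℤ))
  have hact : Function.Injective act :=
    (LinearMap.toMatrixAlgEquiv' (R := ℤ) (n := Fin r)).injective.comp
      (e.conjRingEquiv.injective.comp (FermatLib.Modular.heckeCuspAct_injective N ℤ ℤ))
  let ι : CuspForm.heckeAlgebra N 2 S →+* CuspForm.heckeAlgebra N 2 (∅ : Set ℕ) :=
    (Subalgebra.inclusion (CuspForm.heckeAlgebra_mono (Set.empty_subset S))).toRingHom
  let a := act.comp ι
  have ha : Function.Injective a :=
    hact.comp (Subalgebra.inclusion_injective _)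
  have hau : a (awayHeckeEval N S t) = act (formsHeckeEval N (t : HeckeAlg)) :=
    congrArg act (inclusion_awayHeckeEval N S t)
  have htop : (t : HeckeAlg) ∈ awayHeckeAlg (∅ : Set ℕ) :=
    awayHeckeAlg_le (fun ℓ h => absurd h (Set.notMem_empty _)) t.2
  obtain ⟨ψ, hψ⟩ :=
    exists_kummer_zmod (FermatLib.Modular.kummerHeckeEquiv N p (Fact.out : p.Prime)) 1
  have hdiv : ∀ i j, (p : ℤ) ∣ a (awayHeckeEval N S t) i j := by
    intro i j
    rw [hau]
    let cz : ℤ →+ ZMod (p ^ 1) := Int.castAddHom _
    let φ : FermatLib.Modular.cuspidalHoms ℤ (Gamma0 N) ℤ := e.symm (Pi.single j 1)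
    obtain ⟨x, hxφ⟩ := ψ.surjective ⟨cz.comp φ.1, φ.2.comp cz⟩
    have hx : p • (x : JZero N) = 0 := by
      simpa using (mem_torsion_iff_pow 1 _).mp x.2
    have h1 := kummer_heckeEvalBar (FermatLib.Modular.heckeOperatorsCommuteBar N) ψ
      (fun ℓ _ => hψ ℓ) htop x 0 (ht _ hx).symm
    rw [map_zero, ZeroMemClass.coe_zero, hxφ, FermatLib.Modular.heckeHomEval_comp_left] at h1
    have hu : act (formsHeckeEval N (t : HeckeAlg)) i j =
        FermatLib.Modular.heckeHomEval N ℤ ℤ (t : HeckeAlg) φ.1
          (Additive.ofMul (FermatLib.Modular.cuspBasisElt N i)) := by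
      show LinearMap.toMatrix' (e.conj (FermatLib.Modular.heckeCuspAct N ℤ ℤ
        (formsHeckeEval N (t : HeckeAlg)))) i j = _
      rw [LinearMap.toMatrix'_apply, LinearEquiv.conj_apply_apply,
        RingHom.congr_fun formsHeckeEval_eq_heckeEvalForms (t : HeckeAlg),
        FermatLib.Modular.heckeCuspAct_heckeEvalForms]
      congr
    have h2 := DFunLike.congr_fun h1 (Additive.ofMul (FermatLib.Modular.cuspBasisElt N i))
    rw [AddMonoidHom.zero_apply, AddMonoidHom.comp_apply] at h2
    rw [hu, ← pow_one (p : ℤ), ← Nat.cast_pow]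
    exact (ZMod.intCast_zmod_eq_zero_iff_dvd _ _).mp h2.symm
  choose d hd using hdiv
  let D : Matrix (Fin r) (Fin r) ℤ := Matrix.of d
  have hD : a (awayHeckeEval N S t) = algebraMap ℤ (Matrix (Fin r) (Fin r) ℤ) p * D := by
    rw [← Algebra.smul_def]
    ext i j
    rw [hd i j]
    rfl
  have h0 : aeval (a (awayHeckeEval N S t)) (scaleRoots D.charpoly (p : ℤ)) = 0 := by
    rw [hD]
    exact scaleRoots_aeval_eq_zero (Matrix.aeval_self_charpoly D)
  have h1 : aeval (awayHeckeEval N S t) (scaleRoots D.charpoly (p : ℤ)) = 0 := by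
    refine ha ?_
    rw [map_zero, ← h0]
    exact (aeval_algHom_apply a.toIntAlgHom _ _).symm
  have h2 := congrArg θ h1
  rw [map_zero, aeval_def, Polynomial.hom_eval₂, ← eval_map] at h2
  rw [RingHom.ext_int (θ.comp _) (Int.castRingHom k), map_scaleRoots _ _ _ (by
      rw [(Matrix.charpoly_monic D).leadingCoeff, map_one]; exact one_ne_zero),
    show Int.castRingHom k ((p : ℕ) : ℤ) = 0 by simp, scaleRoots_zero] at h2
  rw [((Matrix.charpoly_monic D).map _).leadingCoeff, one_smul, eval_pow, eval_X] at h2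
  exact eq_zero_of_pow_eq_zero h2

/-- The `p`-torsion points killed by the kernel of `θ`. -/
def heckeEigenTorsion (p : ℕ) (θ : CuspForm.heckeAlgebra N 2 S →+* k) : AddSubgroup (JZero N) where
  carrier := {x | p • x = 0 ∧
    ∀ t : awayHeckeAlg S, θ (awayHeckeEval N S t) = 0 → jEval N t x = 0}
  zero_mem' := ⟨nsmul_zero _, fun _ _ => map_zero _⟩
  add_mem' {x y} hx hy := ⟨by rw [nsmul_add, hx.1, hy.1, add_zero],
    fun t ht => by rw [map_add, hx.2 t ht, hy.2 t ht, add_zero]⟩
  neg_mem' {x} hx := ⟨by rw [neg_nsmul, hx.1, neg_zero],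
    fun t ht => by rw [map_neg, hx.2 t ht, neg_zero]⟩

omit [Fact p.Prime] in
theorem jEval_mem_heckeEigenTorsion {θ : CuspForm.heckeAlgebra N 2 S →+* k} (t : awayHeckeAlg S)
    {x : JZero N} (hx : x ∈ heckeEigenTorsion p θ) : jEval N t x ∈ heckeEigenTorsion p θ :=
  ⟨by rw [← map_nsmul, hx.1, map_zero], fun s hs => by
    rw [← Module.End.mul_apply, ← map_mul, mul_comm, map_mul, Module.End.mul_apply, hx.2 s hs,
      map_zero]⟩

/-- The eigenspace is nonzero. -/
theorem exists_ne_zero_mem_heckeEigenTorsion [CharP k p]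
    (θ : CuspForm.heckeAlgebra N 2 S →+* k) :
    ∃ x ∈ heckeEigenTorsion p θ, x ≠ 0 := by
  let := Module.compHom (JZero N) ((jEval N).comp (awayHeckeAlg S).val.toRingHom)
  let M : Submodule (awayHeckeAlg S) (JZero N) :=
    { carrier := {x | p • x = 0}
      zero_mem' := nsmul_zero _
      add_mem' := fun {x y} hx hy => by
        show p • (x + y) = 0
        rw [nsmul_add, show p • x = 0 from hx, show p • y = 0 from hy, add_zero]
      smul_mem' := fun t x hx => by
        show p • jEval N t x = 0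
        rw [← map_nsmul, show p • x = 0 from hx, map_zero] }
  have hcard := natCard_torsion_pow
    (FermatLib.Modular.kummerHeckeEquiv N p (Fact.out : p.Prime)) 1
  have : Finite M := by
    refine Nat.finite_of_card_ne_zero ?_
    rw [show Nat.card M = Nat.card {x : JZero N // p ^ 1 • x = 0} from
      Nat.card_congr (Equiv.subtypeEquivRight fun x => by rw [pow_one]; rfl), hcard]
    exact pow_ne_zero _ (pow_ne_zero _ (Fact.out : p.Prime).ne_zero)
  obtain ⟨y, hy0, hy⟩ := exists_ne_zero_forall_smul_eq_zero (M := M)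
    (RingHom.ker (θ.comp (awayHeckeEval N S)))
    (fun t ht => heckeChar_eq_zero_of_kills θ t fun x hx => congrArg Subtype.val (ht ⟨x, hx⟩))
    (RingHom.ker_ne_top _)
  exact ⟨y.1, ⟨y.2, fun t ht => congrArg Subtype.val (hy t ht)⟩, fun h => hy0 (Subtype.ext h)⟩

end FermatLib.MazurP

end
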