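import Fermat.Agent.Galois.MazurP.RatForm

/-!
Operators on functions compatible with both sheets (Hecke polynomials), and the two statements
proved by the abstract Mazur argument: a rational torsion divisor killed by a non-Eisenstein
operator is principal, provided the classes it leaves on the special sheet are principal.
-/

set_option autoImplicit false

noncomputable section

open AlgebraicCurve FermatLib.Igusa FermatLib.Igusa.Mono

namespace FermatLib.MazurP

universe uL uF uk uKb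

variable {L : Type uL} {k : Type uk} [Field L] [Field k] {A : ValuationSubring L} {π : A →+* k}
  {F : Type uF} {Kb : Type uKb} [Field F] [Algebra L F] [Field Kb] [Algebra k Kb] {q : ℕ}

namespace MazurDatum

variable (M : MazurDatum π F Kb q)

/-- A divisor is principal. -/
def IsPrincipal {K E : Type*} [Field K] [Field E] [Algebra K E] (D : Divisor K E) : Prop :=
  ∃ e : E, e ≠ 0 ∧ ∀ v, D v = v.ord e

/-- A multiplicative operator on functions, compatible with the reductions on both sheets, acting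
on divisors of the special sheet, and sending `u` to a constant times `u ^ eis`. -/
structure SheetOp where
  fn : F → F
  fnK : Kb → Kb
  dv : Divisor k Kb →+ Divisor k Kb
  eis : ℤ
  fn_ne : ∀ f, f ≠ 0 → fn f ≠ 0
  fn_mul : ∀ f g, f ≠ 0 → g ≠ 0 → fn (f * g) = fn f * fn g
  fn_const : ∀ c : L, c ≠ 0 → ∃ c' : L, c' ≠ 0 ∧ fn (algebraMap L F c) = algebraMap L F c'
  rd₁ : ∀ f ∈ M.s₁.W, M.s₁.rd f ≠ 0 →
    fn f ∈ M.s₁.W ∧ M.s₁.rd (fn f) = fnK (M.s₁.rd f)
  rd₂ : ∀ f ∈ M.s₂.W, M.s₂.rd f ≠ 0 →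
    fn f ∈ M.s₂.W ∧ M.s₂.rd (fn f) = fnK (M.s₂.rd f)
  fnK_ne : ∀ f, f ≠ 0 → fnK f ≠ 0
  dv_div : ∀ (f : Kb) (E : Divisor k Kb), f ≠ 0 → (∀ v, E v = v.ord f) →
    ∀ v, dv E v = v.ord (fnK f)
  dv_on : ∀ E : Divisor k Kb, (∀ v, M.P₁ v = 0 → E v = 0) → ∀ v, M.P₁ v = 0 → dv E v = 0
  dv_off : ∀ E : Divisor k Kb, (∀ v, M.P₁ v ≠ 0 → E v = 0) → ∀ v, M.P₁ v ≠ 0 → dv E v = 0
  fn_u : ∃ c : L, c ≠ 0 ∧ fn M.u = c • M.u ^ eis

variable {M}

/-- The operator sends `g` to a constant times a `p`-th power. -/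
def SheetOp.Kills {p : ℕ} (O : M.SheetOp) (T : M.TorsData p) : Prop :=
  ∃ (c : L) (φ : F), c ≠ 0 ∧ φ ≠ 0 ∧ O.fn T.g = c • φ ^ p

/-- On divisors divisible by `3` at the regular places where the order of `ū` is, the operator is
its Eisenstein value modulo `3` at the regular places. -/
def SheetOp.EisModThree (O : M.SheetOp) : Prop :=
  ∀ E : Divisor k Kb, (∀ v, M.P₁ v = 0 → (3 : ℤ) ∣ M.h₁ v → (3 : ℤ) ∣ E v) →
    ∀ v, M.P₁ v = 0 → (3 : ℤ) ∣ O.dv E v - O.eis * E v

variable (M)

/-- The classes left on the special sheet by `T` are principal. -/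
def KillsSpecial {p : ℕ} (T : M.TorsData p) : Prop :=
  ∀ E : Divisor k Kb, Divisor.degree E = 0 → IsPrincipal ((p : ℤ) • E) →
    (∀ O : M.SheetOp, O.Kills T → IsPrincipal (O.dv E)) → IsPrincipal E

/-- Residue characteristic `p`, rational over a tame form: the class is trivial. At `p = 3` the
operator has to be Eisenstein modulo `3` at the nodes with extra automorphisms. -/
def PrincipalTame : Prop :=
  ∀ R : M.RatForm, R.e = 1 → R.IsRat (0 : Divisor L F) → ∀ T : M.TorsData q, R.IsRatTors T →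
    ∀ O : M.SheetOp, O.Kills T → ¬ (q : ℤ) ∣ O.eis → (q = 3 → O.EisModThree) →
      M.KillsSpecial T → IsPrincipal T.D

/-- Residue characteristic `p`, rational over a very little ramified form: the class is
trivial. -/
def PrincipalWild : Prop :=
  ∀ R₀ : M.RatForm, R₀.e = 1 → R₀.IsRat (0 : Divisor L F) →
    ∀ R : M.RatForm, R.e = q → R.IsRat (0 : Divisor L F) → ∀ V : R.Move,
    (∀ c ∈ R₀.K, c ∈ R.K ∧ V.σL c = c) →
    A.valuation R.ϖ < A.valuation V.c₀ →
    A.valuation (V.c₀ * R.ϖ) ^ (q - 1) ≤ A.valuation (q : L) →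
    ∀ T : M.TorsData q, R.IsRatTors T →
    ∀ O : M.SheetOp, O.Kills T → ¬ (q : ℤ) ∣ O.eis → (q = 3 → O.EisModThree) →
      M.KillsSpecial T → IsPrincipal T.D

end MazurDatum

end FermatLib.MazurP

end
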