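import Fermat.Agent.Galois.MazurP.Grid
import Fermat.Agent.Galois.MazurP.Ops

/-!
An operator killing the class removes its component part, and the classes left on the special
sheet: the reductions of `g` on both sheets are `p`-th powers.
-/

set_option autoImplicit false

noncomputable section

open AlgebraicCurve FermatLib.Igusa FermatLib.Igusa.Mono

namespace FermatLib.MazurP

universe uL uF uk uKb

namespace MazurDatum

variable {L : Type uL} {k : Type uk} [Field L] [Field k] [IsAlgClosed k] {A : ValuationSubring L}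
  {π : A →+* k} {F : Type uF} {Kb : Type uKb} [Field F] [Algebra L F] [Field Kb] [Algebra k Kb]
  {q : ℕ} {M : MazurDatum π F Kb q} {p : ℕ}

omit [IsAlgClosed k] in
/-- Functions with nonzero reductions differing by a constant have proportional reductions. -/
theorem rd_eq_of_eq_smul (s : Sheet π F Kb) (hπ : ∀ a : A, π a = 0 ↔ ¬ IsUnit a) {f g : F} {c : L}
    (h : f = c • g) (hf : f ∈ s.W) (hf0 : s.rd f ≠ 0) (hg : g ∈ s.W) (hg0 : s.rd g ≠ 0) :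
    ∃ a : k, a ≠ 0 ∧ s.rd f = a • s.rd g := by
  have hg' : g ≠ 0 := fun e => hg0 (by rw [e, Sheet.rd_zero])
  have hfg : algebraMap L F c = f * g⁻¹ := by
    rw [h, Algebra.smul_def, mul_inv_cancel_right₀ hg']
  have hc : c ∈ A := Sheet.mem_of_algebraMap_mem hπ
    (hfg ▸ mul_mem hf (Sheet.inv_mem_of_rd_ne hg hg0) : algebraMap L F c ∈ s.W)
  have e := Sheet.rd_smul hc hg
  rw [← h] at e
  exact ⟨π ⟨c, hc⟩, fun h0 => hf0 (by rw [e, h0, zero_smul]), e⟩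

namespace SheetOp

variable (O : M.SheetOp) (T : M.TorsData p)

omit [IsAlgClosed k] in
theorem ord_smul {v : Place k Kb} {a : k} (ha : a ≠ 0) {f : Kb} (hf : f ≠ 0) :
    v.ord (a • f) = v.ord f := by
  rw [Algebra.smul_def, v.ord_mul (by simpa using ha) hf, ord_algebraMap, zero_add]

omit [IsAlgClosed k] in
/-- The operator sends the reduction of `g` on a sheet to a constant times a `p`-th power. -/
theorem exists_ord_fnK (h : O.Kills T) (s : Sheet π F Kb)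
    (hrd : ∀ f ∈ s.W, s.rd f ≠ 0 → O.fn f ∈ s.W ∧ s.rd (O.fn f) = O.fnK (s.rd f))
    (hscale : ∀ f : F, f ≠ 0 → ∃ c : L, c • f ∈ s.W ∧ s.rd (c • f) ≠ 0) (γ : Lˣ)
    (hg : (γ : L)⁻¹ • T.g ∈ s.W) (hg0 : s.rd ((γ : L)⁻¹ • T.g) ≠ 0) :
    ∃ φ : Kb, φ ≠ 0 ∧ ∀ v : Place k Kb,
      v.ord (O.fnK (s.rd ((γ : L)⁻¹ • T.g))) = p * v.ord φ := by
  obtain ⟨c, φ, hc, hφ, hfn⟩ := h
  obtain ⟨d, hd, hd0⟩ := hscale φ hφ
  have hdne : d ≠ 0 := fun e => hd0 (by rw [e, zero_smul, Sheet.rd_zero])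
  obtain ⟨c', hc', hγ⟩ := O.fn_const (γ : L)⁻¹ (inv_ne_zero γ.ne_zero)
  obtain ⟨hW, hrd'⟩ := hrd _ hg hg0
  have heq : O.fn ((γ : L)⁻¹ • T.g) = (c' * c / d ^ p) • (d • φ) ^ p := by
    rw [Algebra.smul_def, O.fn_mul _ _ ((map_ne_zero _).mpr (inv_ne_zero γ.ne_zero)) T.g_ne, hγ,
      hfn, ← Algebra.smul_def, smul_smul, smul_pow, smul_smul,
      div_mul_cancel₀ _ (pow_ne_zero _ hdne)]
  have hpow : s.rd ((d • φ) ^ p) ≠ 0 := by
    rw [Sheet.rd_pow hd]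
    exact pow_ne_zero _ hd0
  obtain ⟨a, ha, e⟩ := rd_eq_of_eq_smul s M.π_eq_zero heq hW
    (by rw [hrd']; exact O.fnK_ne _ hg0) (pow_mem hd p) hpow
  refine ⟨_, hd0, fun v => ?_⟩
  rw [← hrd', e, ord_smul ha hpow, Sheet.rd_pow hd, ord_pow]

omit [IsAlgClosed k] in
/-- The divisor of the finite part of `ū` is multiplied by `eis`. -/
theorem dv_h₁ {v : Place k Kb} (hv : M.P₁ v = 0) : O.dv M.h₁ v = O.eis * M.h₁ v := by
  obtain ⟨c, hc, hfn⟩ := O.fn_u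
  obtain ⟨hW, hrd⟩ := O.rd₁ _ M.u_mem₁ M.u_red₁
  obtain ⟨hzW, hz⟩ := sheet_zpow M.u_mem₁ M.u_red₁ O.eis
  have hz0 : M.s₁.rd (M.u ^ O.eis) ≠ 0 := by
    rw [hz]
    exact zpow_ne_zero _ M.u_red₁
  obtain ⟨a, ha, e⟩ := rd_eq_of_eq_smul M.s₁ M.π_eq_zero hfn hW
    (by rw [hrd]; exact O.fnK_ne _ M.u_red₁) hzW hz0
  obtain ⟨E, hE, -⟩ := M.rrK.exists_div (show M.ub₁ ≠ 0 from M.u_red₁)
  have h1 := O.dv_div M.ub₁ E M.u_red₁ hE v
  rw [show O.fnK M.ub₁ = _ from hrd.symm.trans e, ord_smul ha hz0, hz, v.ord_zpow] at h1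
  have h2 : O.dv (E - M.h₁) v = 0 := O.dv_on (E - M.h₁) (fun w hw => by
    rw [Finsupp.sub_apply, hE, M.h₁_apply, if_pos hw, sub_self]) v hv
  rw [map_sub, Finsupp.sub_apply, sub_eq_zero] at h2
  rw [← h2, h1, M.h₁_apply, if_pos hv]
  rfl

end SheetOp

omit [IsAlgClosed k] in
/-- An operator carrying divisors divisible by `p` away from the poles to divisors with the same
property. -/
theorem SheetOp.dvd_dv (O : M.SheetOp) (E : Divisor k Kb)
    (hE : ∀ v, M.P₁ v = 0 → (p : ℤ) ∣ E v) {v : Place k Kb} (hv : M.P₁ v = 0) :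
    (p : ℤ) ∣ O.dv E v := by
  set E' := E.mapRange (fun x => x / (p : ℤ)) (Int.zero_ediv _) with hE'
  have h0 : O.dv (E - (p : ℤ) • E') v = 0 := O.dv_on _ (fun w hw => by
    rw [Finsupp.sub_apply, Finsupp.smul_apply, hE', Finsupp.mapRange_apply, smul_eq_mul,
      Int.mul_ediv_cancel' (hE w hw), sub_self]) v hv
  rw [map_sub, map_zsmul, Finsupp.sub_apply, Finsupp.smul_apply, sub_eq_zero, smul_eq_mul] at h0
  exact ⟨_, h0⟩

variable (T : M.TorsData p)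

/-- An operator killing the class whose Eisenstein value is prime to `p` removes the component
part, given the congruences at the nodes; at `p = 3` it is also used at the nodes where `ū` has
order prime to `3`. -/
theorem dvd_a_of_kills (O : M.SheetOp) (hO : O.Kills T) (hp : p.Prime) (hp2 : p ≠ 2)
    (heis : ¬ (p : ℤ) ∣ O.eis) (hmod : p = 3 → O.EisModThree) (lam : ℤ)
    (hoff₁ : ∀ v, (∀ z ∈ M.nodes, z.1 ≠ v) → M.h₁ v = 0 ∧ (p : ℤ) ∣ T.a₁ v)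
    (hoff₂ : ∀ v, (∀ z ∈ M.nodes, z.2 ≠ v) → (p : ℤ) ∣ T.a₂ v)
    (h12 : ∀ z ∈ M.nodes, M.h₁ z.1 ∣ (12 : ℤ))
    (hnode : ∀ z ∈ M.nodes, ∃ m : ℤ,
      (12 * p : ℤ) ∣ 12 * T.a₁ z.1 - (m * p + lam) * M.h₁ z.1 ∧
        (12 * p : ℤ) ∣ 12 * T.a₂ z.2 + (m * p + lam) * M.h₁ z.1) :
    (∀ v, (p : ℤ) ∣ T.a₁ v) ∧ (∀ v, (p : ℤ) ∣ T.a₂ v) ∧ (p : ℤ) ∣ lam := by
  classical
  have hpp : Prime (p : ℤ) := Nat.prime_iff_prime_int.mp hp
  have hp0 : (p : ℤ) ≠ 0 := hpp.ne_zero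
  suffices key : (∀ v, (p : ℤ) ∣ T.a₁ v) ∧ (p : ℤ) ∣ lam by
    refine ⟨key.1, fun v => ?_, key.2⟩
    by_cases hv : ∀ z ∈ M.nodes, z.2 ≠ v
    · exact hoff₂ v hv
    · push Not at hv
      obtain ⟨z, hz, rfl⟩ := hv
      obtain ⟨m, ⟨c, hc⟩, ⟨c', hc'⟩⟩ := hnode z hz
      exact (dvd_add_right (key.1 z.1)).mp ⟨c + c', by linarith⟩
  -- `12 = h₁ e` at a node gives `e a₁ ≡ lam`
  have hcong : ∀ z ∈ M.nodes, ∃ e : ℤ, (12 : ℤ) = M.h₁ z.1 * e ∧
      (p : ℤ) ∣ e * T.a₁ z.1 - lam := by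
    intro z hz
    obtain ⟨e, he⟩ := h12 z hz
    obtain ⟨m, ⟨c, hc⟩, -⟩ := hnode z hz
    refine ⟨e, he, e * c + m, ?_⟩
    refine mul_left_cancel₀ (a := M.h₁ z.1) (fun h => by rw [h, zero_mul] at he; norm_num at he) ?_
    linear_combination hc + ((p : ℤ) * c - T.a₁ z.1) * he
  obtain ⟨φ, -, hord⟩ := O.exists_ord_fnK T hO M.s₁ O.rd₁ M.scale₁ T.γ₁ T.g_mem₁ T.g_red₁
  have hdva : ∀ v, O.dv T.a₁ v = p * v.ord φ := fun v => by
    rw [O.dv_div T.gb₁ T.a₁ T.gb₁_ne T.a₁_apply, TorsData.gb₁, hord]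
  have hgood : ∀ z ∈ M.nodes, (p : ℤ) ∣ lam → (∀ e : ℤ, (12 : ℤ) = M.h₁ z.1 * e → ¬ (p : ℤ) ∣ e) →
      (p : ℤ) ∣ T.a₁ z.1 := fun z hz hlam hne => by
    obtain ⟨e, he, hd⟩ := hcong z hz
    exact (hpp.dvd_or_dvd ((dvd_sub_left hlam).mp hd)).resolve_left (hne e he)
  by_cases hall : ∀ z ∈ M.nodes, ∀ e : ℤ, (12 : ℤ) = M.h₁ z.1 * e → ¬ (p : ℤ) ∣ e
  · -- every `12 / h₁` is prime to `p`: write `h₁ = d H` with `d n = 12`
    obtain ⟨d, n, hdn, hn, hd⟩ : ∃ d n : ℤ, d * n = 12 ∧ ¬ (p : ℤ) ∣ n ∧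
        ∀ z ∈ M.nodes, d ∣ M.h₁ z.1 := by
      by_cases h3 : p = 3
      · subst h3
        refine ⟨3, 4, by norm_num, by norm_num, fun z hz => ?_⟩
        obtain ⟨e, he, -⟩ := hcong z hz
        refine (Int.prime_three.dvd_or_dvd (⟨4, he.symm⟩ : (3 : ℤ) ∣ M.h₁ z.1 * e)).resolve_right ?_
        exact_mod_cast hall z hz e he
      · refine ⟨1, 12, by norm_num, fun h => ?_, fun z _ => one_dvd _⟩
        have h' : p ∣ 12 := by exact_mod_cast h
        have := Nat.le_of_dvd (by norm_num) h'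
        interval_cases p <;> revert hp hp2 h3 h' <;> norm_num
    have hd0 : d ≠ 0 := by rintro rfl; simp at hdn
    set H := M.h₁.mapRange (fun x => x / d) (Int.zero_ediv _) with hHdef
    have hH : ∀ v, M.h₁ v = d * H v := fun v => by
      rw [hHdef, Finsupp.mapRange_apply, Int.mul_ediv_cancel']
      by_cases hv : ∀ z ∈ M.nodes, z.1 ≠ v
      · rw [(hoff₁ v hv).1]; exact dvd_zero _
      · push Not at hv
        obtain ⟨z, hz, rfl⟩ := hv
        exact hd z hz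
    have hmain : ∀ v, (p : ℤ) ∣ n * T.a₁ v - lam * H v := fun v => by
      by_cases hv : ∀ z ∈ M.nodes, z.1 ≠ v
      · obtain ⟨h0, ha⟩ := hoff₁ v hv
        rw [show H v = 0 by rw [hHdef, Finsupp.mapRange_apply, h0, Int.zero_ediv], mul_zero,
          sub_zero]
        exact ha.mul_left _
      · push Not at hv
        obtain ⟨z, hz, rfl⟩ := hv
        obtain ⟨e, he, c, hc⟩ := hcong z hz
        rw [hH z.1, ← hdn, mul_assoc] at he
        exact ⟨H z.1 * c, by linear_combination H z.1 * hc + T.a₁ z.1 * mul_left_cancel₀ hd0 he⟩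
    obtain ⟨z, hz⟩ := M.nodes_nonempty
    have hP := (M.P₁_of_node hz).1
    have hdvH : O.dv H z.1 = O.eis * H z.1 := by
      have h := O.dv_h₁ hP
      rw [show M.h₁ = d • H from Finsupp.ext fun w => by simp [hH w], map_zsmul,
        Finsupp.smul_apply, Finsupp.smul_apply, smul_eq_mul, smul_eq_mul, mul_left_comm] at h
      exact mul_left_cancel₀ hd0 h
    have h := O.dvd_dv (n • T.a₁ - lam • H) (fun w _ => by
      rw [Finsupp.sub_apply, Finsupp.smul_apply, Finsupp.smul_apply, smul_eq_mul, smul_eq_mul]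
      exact hmain w) hP
    rw [map_sub, map_zsmul, map_zsmul, Finsupp.sub_apply, Finsupp.smul_apply, Finsupp.smul_apply,
      hdvH, hdva, smul_eq_mul, smul_eq_mul] at h
    have hlam : (p : ℤ) ∣ lam := by
      refine (hpp.dvd_or_dvd ((dvd_sub_right ((dvd_mul_right (p : ℤ) _).mul_left n)).mp h)
        ).resolve_right fun hc => (hpp.dvd_or_dvd hc).elim heis fun hHd => ?_
      obtain ⟨e, he, -⟩ := hcong z hz
      rw [hH, ← hdn, mul_assoc] at he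
      exact hn (mul_left_cancel₀ hd0 he ▸ hHd.mul_right e)
    exact ⟨fun v => (hpp.dvd_or_dvd
      ((dvd_sub_left (hlam.mul_right (H v))).mp (hmain v))).resolve_left hn, hlam⟩
  · -- some node has `p ∣ 12 / h₁`, so `p = 3`
    push Not at hall
    obtain ⟨z₀, hz₀, e₀, he₀, hpe₀⟩ := hall
    have hlam : (p : ℤ) ∣ lam := by
      obtain ⟨e, he, hd⟩ := hcong z₀ hz₀
      have hh0 : M.h₁ z₀.1 ≠ 0 := fun h => by rw [h, zero_mul] at he; norm_num at he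
      rw [← mul_left_cancel₀ hh0 (he₀.symm.trans he)] at hd
      exact (dvd_sub_right (hpe₀.mul_right _)).mp hd
    have hp3 : p = 3 := by
      have hd12 : (p : ℤ) ∣ 12 := by rw [he₀]; exact hpe₀.mul_left _
      have h' : p ∣ 12 := by exact_mod_cast hd12
      have := Nat.le_of_dvd (by norm_num) h'
      interval_cases p <;> revert hp hp2 h' <;> norm_num
    subst hp3
    have hgood' : ∀ v, (3 : ℤ) ∣ M.h₁ v → (3 : ℤ) ∣ T.a₁ v := fun v h3 => by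
      by_cases hv : ∀ z ∈ M.nodes, z.1 ≠ v
      · exact_mod_cast (hoff₁ v hv).2
      · push Not at hv
        obtain ⟨z, hz, rfl⟩ := hv
        refine hgood z hz hlam fun e he h => ?_
        obtain ⟨e', rfl⟩ := h
        obtain ⟨h', hh'⟩ := h3
        rw [hh', Nat.cast_ofNat] at he
        have h9 : (9 : ℤ) ∣ 12 := ⟨h' * e', by rw [he]; ring⟩
        norm_num at h9
    refine ⟨fun v => ?_, hlam⟩
    by_cases h : (3 : ℤ) ∣ M.h₁ v
    · exact_mod_cast hgood' v h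
    have hP : M.P₁ v = 0 := by
      by_contra hP
      exact h (by rw [M.h₁_apply, if_neg hP]; exact dvd_zero _)
    have h' := hmod rfl T.a₁ (fun w _ hw => hgood' w hw) v hP
    rw [hdva] at h'
    exact (hpp.dvd_or_dvd ((dvd_sub_right (dvd_mul_right _ _)).mp h')).resolve_left heis

/-- If `p` divides the divisor of the reduction of `g` on a sheet, the reduction is a `p`-th
power. -/
theorem exists_root (hkill : M.KillsSpecial T) (hp : p ≠ 0) (s : Sheet π F Kb)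
    (hrd : ∀ (O : M.SheetOp), ∀ f ∈ s.W, s.rd f ≠ 0 →
      O.fn f ∈ s.W ∧ s.rd (O.fn f) = O.fnK (s.rd f))
    (hscale : ∀ f : F, f ≠ 0 → ∃ c : L, c • f ∈ s.W ∧ s.rd (c • f) ≠ 0) (γ : Lˣ)
    (hg : (γ : L)⁻¹ • T.g ∈ s.W) (hg0 : s.rd ((γ : L)⁻¹ • T.g) ≠ 0) (a : Divisor k Kb)
    (ha : ∀ v, a v = v.ord (s.rd ((γ : L)⁻¹ • T.g))) (hadeg : Divisor.degree a = 0)
    (hdvd : ∀ v, (p : ℤ) ∣ a v) :
    ∃ e : Kb, e ≠ 0 ∧ s.rd ((γ : L)⁻¹ • T.g) = e ^ p := by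
  classical
  have hp' : (p : ℤ) ≠ 0 := by exact_mod_cast hp
  set E := a.mapRange (fun x => x / (p : ℤ)) (Int.zero_ediv _)
  have hE : (p : ℤ) • E = a := Finsupp.ext fun v => by
    rw [Finsupp.smul_apply, Finsupp.mapRange_apply, smul_eq_mul, Int.mul_ediv_cancel' (hdvd v)]
  have hdeg : Divisor.degree E = 0 := by
    have := congrArg Divisor.degree hE
    rw [map_zsmul, hadeg, smul_eq_mul, mul_eq_zero] at this
    exact this.resolve_left hp'
  obtain ⟨e, he0, he⟩ := hkill E hdeg ⟨_, hg0, fun v => by rw [hE, ha]⟩ fun O hO => by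
    obtain ⟨φ, hφ, hord⟩ := O.exists_ord_fnK T hO s (hrd O) hscale γ hg hg0
    refine ⟨φ, hφ, fun v => ?_⟩
    have h := O.dv_div _ a hg0 ha v
    rw [hord, ← hE, map_zsmul, Finsupp.smul_apply, smul_eq_mul] at h
    exact mul_left_cancel₀ hp' h
  have hq0 : s.rd ((γ : L)⁻¹ • T.g) / e ^ p ∈ riemannRochSpace (0 : Divisor k Kb) := by
    rw [mem_riemannRochSpace_iff]
    intro v
    right
    rw [div_eq_mul_inv, v.ord_mul hg0 (inv_ne_zero (pow_ne_zero _ he0)), v.ord_inv, ord_pow,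
      ← he, ← ha, ← hE]
    simp
  obtain ⟨c, hc⟩ := M.rrK.exists_eq_algebraMap hq0
  obtain ⟨r, hr⟩ := IsAlgClosed.exists_pow_nat_eq c (Nat.pos_of_ne_zero hp)
  have hce : s.rd ((γ : L)⁻¹ • T.g) = (algebraMap k Kb r * e) ^ p := by
    rw [mul_pow, ← map_pow, hr, ← hc, div_mul_cancel₀ _ (pow_ne_zero _ he0)]
  exact ⟨_, fun h0 => hg0 (by rw [hce, h0, zero_pow hp]), hce⟩

/-- Both reductions of `g` are `p`-th powers. -/
theorem exists_roots (hkill : M.KillsSpecial T) (hp : p ≠ 0) (h₁ : ∀ v, (p : ℤ) ∣ T.a₁ v)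
    (h₂ : ∀ v, (p : ℤ) ∣ T.a₂ v) :
    ∃ e₁ e₂ : Kb, e₁ ≠ 0 ∧ e₂ ≠ 0 ∧ T.gb₁ = e₁ ^ p ∧ T.gb₂ = e₂ ^ p := by
  obtain ⟨e₁, he₁, h1⟩ := exists_root T hkill hp M.s₁ (fun O => O.rd₁) M.scale₁ T.γ₁ T.g_mem₁
    T.g_red₁ T.a₁ T.a₁_apply T.degree_a₁ h₁
  obtain ⟨e₂, he₂, h2⟩ := exists_root T hkill hp M.s₂ (fun O => O.rd₂) M.scale₂ T.γ₂ T.g_mem₂
    T.g_red₂ T.a₂ T.a₂_apply T.degree_a₂ h₂
  exact ⟨e₁, e₂, he₁, he₂, h1, h2⟩

end MazurDatum

end FermatLib.MazurP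

end
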