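import Fermat.Agent.Galois.MazurP.AwayDefs
import Fermat.Agent.Galois.MazurP.HeckeStep
import Fermat.Agent.Galois.MazurP.NormOp

/-!
# The component part and the special sheet at `q ≠ p`

An operator realising an endomorphism which is surjective on the classes, with value on `u`
divisible by `p`, removes the component part (with an extra vanishing at the nodes where `ū` has
order prime to `3` when `p = 3`). An operator acting as the identity on a class and as zero on the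
classes of the special sheet makes the reductions `p`-th powers.
-/

set_option autoImplicit false
set_option linter.style.haveILetI false

noncomputable section

open AlgebraicCurve FermatLib.Igusa FermatLib.Igusa.Mono

namespace FermatLib.MazurP

universe uL uF uk uKb

namespace MazurDatum

variable {L : Type uL} {k : Type uk} [Field L] [Field k] [IsAlgClosed k] {A : ValuationSubring L}
  {π : A →+* k} {F : Type uF} {Kb : Type uKb} [Field F] [Algebra L F] [Field Kb] [Algebra k Kb]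
  {q : ℕ} {M : MazurDatum π F Kb q} {p : ℕ}

omit [IsAlgClosed k] in
/-- `O - a` realises `η - a`. -/
theorem SheetOp.realises_subConst {O : M.SheetOp} {η : Pic0 L F → Pic0 L F}
    (hη : O.toEndo.Realises η) (a : ℤ) :
    (O.subConst a).toEndo.Realises (fun x => η x - a • x) := by
  intro n E f hf hE
  obtain ⟨E', hE', hc⟩ := hη n E f hf hE
  refine ⟨E' - a • E, fun v => ?_, ?_⟩
  · show _ = v.ord (O.fn f * f ^ (-a))
    rw [v.ord_mul (O.fn_ne f hf) (zpow_ne_zero _ hf), Place.ord_zpow, AddSubgroup.coe_sub,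
      AddSubgroup.coe_zsmul, Finsupp.sub_apply, Finsupp.smul_apply, smul_eq_mul,
      show v.ord (O.fn f) = v.ord (O.toEndo.fn f) from rfl, ← hE', ← hE]
    ring
  · show Pic0.mk (E' - a • E) = η (Pic0.mk E) - a • Pic0.mk E
    rw [← hc]
    rfl

variable (M) in
include M in
omit [IsAlgClosed k] in
/-- A function with trivial divisor is a constant. -/
theorem exists_const_of_ord_eq_zero (f : F) (hf : f ≠ 0) (h : ∀ v : Place L F, v.ord f = 0) :
    ∃ c : L, c ≠ 0 ∧ f = algebraMap L F c := by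
  have hm : f ∈ riemannRochSpace (0 : Divisor L F) := by
    rw [mem_riemannRochSpace_iff]
    intro v
    right
    simp [h v]
  obtain ⟨c, hc⟩ := M.rrF.exists_eq_algebraMap hm
  exact ⟨c, fun h0 => hf (by rw [hc, h0, map_zero]), hc⟩

omit [IsAlgClosed k] in
/-- Torsion data of `η y` differ from the image of those of `y` by a `p`-th power. -/
theorem SheetEndo.Realises.exists_fn_eq {O : M.SheetEndo} {η : Pic0 L F → Pic0 L F}
    (hη : O.Realises η) {T T' : M.TorsData p} {x y : Pic0 L F} (hx : HasClass T.D x)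
    (hy : HasClass T'.D y) (hxy : η y = x) :
    ∃ (c : L) (φ : F), c ≠ 0 ∧ φ ≠ 0 ∧ O.fn T'.g = c • (φ ^ p * T.g) := by
  obtain ⟨hdT, rfl⟩ := hx
  obtain ⟨hdT', rfl⟩ := hy
  obtain ⟨E', hE', hc⟩ := hη p ⟨T'.D, hdT'⟩ T'.g T'.g_ne T'.div
  rw [hxy] at hc
  have hsub : Pic0.mk (E' - ⟨T.D, hdT⟩) = (0 : Pic0 L F) := by
    show Pic0.mk E' - Pic0.mk ⟨T.D, hdT⟩ = 0
    rw [hc, sub_self]
  obtain ⟨φ, hφ, hφd⟩ := AddSubgroup.mem_addSubgroupOf.mp ((QuotientAddGroup.eq_zero_iff _).mp hsub)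
  have hr : φ ^ p * T.g ≠ 0 := mul_ne_zero (pow_ne_zero _ hφ) T.g_ne
  obtain ⟨c, hc0, heq⟩ := exists_const_of_ord_eq_zero M (O.fn T'.g * (φ ^ p * T.g)⁻¹)
    (mul_ne_zero (O.fn_ne _ T'.g_ne) (inv_ne_zero hr)) fun v => by
      have h1 := hφd v
      rw [AddSubgroup.coe_sub, Finsupp.sub_apply] at h1
      rw [v.ord_mul (O.fn_ne _ T'.g_ne) (inv_ne_zero hr), v.ord_inv,
        v.ord_mul (pow_ne_zero _ hφ) T.g_ne, ord_pow, ← hE', ← T.div, ← h1]
      ring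
  refine ⟨c, φ, hc0, hφ, ?_⟩
  rw [Algebra.smul_def, ← heq, inv_mul_cancel_right₀ hr]

omit [IsAlgClosed k] in
/-- The divisors of the reductions of such data on a sheet. -/
theorem SheetEndo.exists_ord_fnK (O : M.SheetEndo) {T T' : M.TorsData p} {c : L} {φ : F}
    (hc : c ≠ 0) (hφ : φ ≠ 0) (hfn : O.fn T'.g = c • (φ ^ p * T.g)) (s : Sheet π F Kb)
    (hrd : ∀ f ∈ s.W, s.rd f ≠ 0 → O.fn f ∈ s.W ∧ s.rd (O.fn f) = O.fnK (s.rd f))
    (hscale : ∀ f : F, f ≠ 0 → ∃ c : L, c • f ∈ s.W ∧ s.rd (c • f) ≠ 0) (γ γ' : Lˣ)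
    (hg : (γ : L)⁻¹ • T.g ∈ s.W) (hg0 : s.rd ((γ : L)⁻¹ • T.g) ≠ 0)
    (hg' : (γ' : L)⁻¹ • T'.g ∈ s.W) (hg0' : s.rd ((γ' : L)⁻¹ • T'.g) ≠ 0) :
    ∃ φb : Kb, φb ≠ 0 ∧ ∀ v : Place k Kb, v.ord (O.fnK (s.rd ((γ' : L)⁻¹ • T'.g))) =
      v.ord (s.rd ((γ : L)⁻¹ • T.g)) + p * v.ord φb := by
  obtain ⟨d, hd, hd0⟩ := hscale φ hφ
  have hdne : d ≠ 0 := fun e => hd0 (by rw [e, zero_smul, Sheet.rd_zero])
  obtain ⟨c', hc', hγ⟩ := O.fn_const (γ' : L)⁻¹ (inv_ne_zero γ'.ne_zero)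
  obtain ⟨hW, hrd'⟩ := hrd _ hg' hg0'
  have heq : O.fn ((γ' : L)⁻¹ • T'.g) =
      (c' * c / d ^ p * γ) • ((d • φ) ^ p * ((γ : L)⁻¹ • T.g)) := by
    rw [Algebra.smul_def (γ' : L)⁻¹, O.fn_mul _ _ ((map_ne_zero _).mpr (inv_ne_zero γ'.ne_zero))
      T'.g_ne, hγ, hfn, ← Algebra.smul_def, smul_smul, smul_pow, smul_mul_smul_comm, smul_smul]
    congr 1
    field_simp [pow_ne_zero p hdne, γ.ne_zero]
  have hm : (d • φ) ^ p * ((γ : L)⁻¹ • T.g) ∈ s.W := mul_mem (pow_mem hd p) hg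
  have hm0 : s.rd ((d • φ) ^ p * ((γ : L)⁻¹ • T.g)) ≠ 0 := by
    rw [Sheet.rd_mul (pow_mem hd p) hg, Sheet.rd_pow hd]
    exact mul_ne_zero (pow_ne_zero _ hd0) hg0
  obtain ⟨a, ha, e⟩ := rd_eq_of_eq_smul s M.π_eq_zero heq hW
    (by rw [hrd']; exact O.fnK_ne _ hg0') hm hm0
  refine ⟨_, hd0, fun v => ?_⟩
  rw [← hrd', e, SheetOp.ord_smul ha hm0, Sheet.rd_mul (pow_mem hd p) hg, Sheet.rd_pow hd,
    v.ord_mul (pow_ne_zero _ hd0) hg0, ord_pow, add_comm]

namespace RatForm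

variable (R : M.RatForm)

variable (T : M.TorsData p)

/-- The congruences of the component part at the places away from the poles. -/
theorem component_congr (hp : p ≠ 0) (he : R.e = 1) (hR : R.RatLevel) (hT : R.IsRatTors T)
    (v : Place k Kb) :
    ∃ t : ℤ, (12 * p : ℤ) ∣ 12 * T.a₁ v - (t * p + R.delta T) * M.h₁ v := by
  by_cases hv : ∀ z ∈ M.nodes, z.1 ≠ v
  · obtain ⟨h0, hd⟩ := R.off_nodes₁ T hp hT hv
    exact ⟨0, by rw [h0, mul_zero, sub_zero]; exact mul_dvd_mul_left 12 hd⟩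
  · push Not at hv
    obtain ⟨z, hz, rfl⟩ := hv
    obtain ⟨t, ht⟩ := R.exists_freeAt T hp hT hR hz
    refine ⟨t, ?_⟩
    have := (R.free_congr T hp hT hz ht).1
    rwa [he, Nat.cast_one, mul_one] at this

/-- If `p` divides the divisor of `ḡ₁` it divides that of `ḡ₂`. -/
theorem dvd_a₂ (hp : p ≠ 0) (he : R.e = 1) (hR : R.RatLevel) (hT : R.IsRatTors T)
    (h : ∀ v, (p : ℤ) ∣ T.a₁ v) (v : Place k Kb) : (p : ℤ) ∣ T.a₂ v := by
  by_cases hv : ∀ z ∈ M.nodes, z.2 ≠ v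
  · exact (R.off_nodes₂ T hp hT hv).2
  · push Not at hv
    obtain ⟨z, hz, rfl⟩ := hv
    obtain ⟨t, ht⟩ := R.exists_freeAt T hp hT hR hz
    obtain ⟨c1, c2⟩ := R.free_congr T hp hT hz ht
    rw [he, Nat.cast_one, mul_one] at c1 c2
    have h1 : (12 * p : ℤ) ∣ (t * p + R.delta T) * M.h₁ z.1 :=
      (dvd_sub_right (mul_dvd_mul_left 12 (h z.1))).mp c1
    exact Int.dvd_of_mul_dvd_mul_left (by norm_num) ((dvd_add_left h1).mp c2)

/-- With `H = h₁ / d` and `n = 12 / d` the component part is `δ H` modulo `p`. -/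
theorem congr_div (hp : p ≠ 0) (he : R.e = 1) (hR : R.RatLevel) (hT : R.IsRatTors T) {d n : ℤ}
    (hd : d * n = 12) {H : Divisor k Kb} {v : Place k Kb} (hH : M.h₁ v = d * H v) :
    (p : ℤ) ∣ n * T.a₁ v - R.delta T * H v := by
  obtain ⟨t, c, hc⟩ := R.component_congr T hp he hR hT v
  have hd0 : d ≠ 0 := by rintro rfl; simp at hd
  rw [hH] at hc
  exact ⟨n * c + t * H v, mul_left_cancel₀ hd0 (by linear_combination hc +
    (T.a₁ v - (p : ℤ) * c) * hd)⟩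

/-- **The component part dies.** -/
theorem component_kill (hp : p.Prime) (hp2 : p ≠ 2) (he : R.e = 1) (hR : R.RatLevel)
    (hT : R.IsRatTors T) {T' : M.TorsData p} (hT' : R.IsRatTors T') (O : M.SheetOp)
    (heis : (p : ℤ) ∣ O.eis)
    (hrel : ∀ v, M.P₁ v = 0 → (p : ℤ) ∣ T.a₁ v - O.dv T'.a₁ v)
    (h3 : p = 3 → ∀ E : Divisor k Kb,
      (∀ v, M.P₁ v = 0 → (3 : ℤ) ∣ M.h₁ v → (3 : ℤ) ∣ E v) →
        ∀ v, M.P₁ v = 0 → ¬ (3 : ℤ) ∣ M.h₁ v → (3 : ℤ) ∣ O.dv E v) :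
    (∀ v, (p : ℤ) ∣ T.a₁ v) ∧ (∀ v, (p : ℤ) ∣ T.a₂ v) ∧ (p : ℤ) ∣ R.delta T := by
  classical
  have hp0 := hp.ne_zero
  have hpp : Prime (p : ℤ) := Nat.prime_iff_prime_int.mp hp
  have hoff : ∀ v, M.P₁ v ≠ 0 → M.h₁ v = 0 := fun v hv => by rw [M.h₁_apply, if_neg hv]
  suffices key : (∀ v, M.P₁ v = 0 → (p : ℤ) ∣ T.a₁ v) ∧ (p : ℤ) ∣ R.delta T by
    have h1 : ∀ v, (p : ℤ) ∣ T.a₁ v := fun v => by
      by_cases hv : ∀ z ∈ M.nodes, z.1 ≠ v
      · exact (R.off_nodes₁ T hp0 hT hv).2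
      · push Not at hv
        obtain ⟨z, hz, rfl⟩ := hv
        exact key.1 _ (M.P₁_of_node hz).1
    exact ⟨h1, R.dvd_a₂ T hp0 he hR hT h1, key.2⟩
  -- the generic argument for a choice of `d * n = 12`
  have generic : ∀ (d n : ℤ) (H : Divisor k Kb), d * n = 12 → ¬ (p : ℤ) ∣ n →
      (∀ v, M.h₁ v = d * H v) → (∃ v, M.P₁ v = 0 ∧ ¬ (p : ℤ) ∣ H v) →
      (∀ v, M.P₁ v = 0 → (p : ℤ) ∣ T.a₁ v) ∧ (p : ℤ) ∣ R.delta T := by
    intro d n H hd hn hH ⟨v₀, hv₀, hHv₀⟩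
    have hd0 : d ≠ 0 := by rintro rfl; simp at hd
    have hdvH : ∀ v, M.P₁ v = 0 → O.dv H v = O.eis * H v := fun v hv => by
      have h := O.dv_h₁ hv
      rw [show M.h₁ = d • H from Finsupp.ext fun w => by simp [hH w], map_zsmul,
        Finsupp.smul_apply, Finsupp.smul_apply, smul_eq_mul, smul_eq_mul,
        mul_left_comm] at h
      exact mul_left_cancel₀ hd0 h
    have ha : ∀ v, M.P₁ v = 0 → (p : ℤ) ∣ T.a₁ v := fun v hv => by
      have h := O.dvd_dv (p := p) (n • T'.a₁ - R.delta T' • H) (fun w _ => by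
        rw [Finsupp.sub_apply, Finsupp.smul_apply, Finsupp.smul_apply, smul_eq_mul, smul_eq_mul]
        exact R.congr_div T' hp0 he hR hT' hd (hH w)) hv
      rw [map_sub, map_zsmul, map_zsmul, Finsupp.sub_apply, Finsupp.smul_apply, Finsupp.smul_apply,
        hdvH v hv, smul_eq_mul, smul_eq_mul] at h
      have h2 : (p : ℤ) ∣ n * O.dv T'.a₁ v :=
        (dvd_sub_left ((heis.mul_right _).mul_left _)).mp h
      have h3 : (p : ℤ) ∣ O.dv T'.a₁ v := (hpp.dvd_or_dvd h2).resolve_left hn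
      exact (dvd_sub_left h3).mp (hrel v hv)
    refine ⟨ha, ?_⟩
    exact (hpp.dvd_or_dvd ((dvd_sub_right ((ha v₀ hv₀).mul_left n)).mp
      (R.congr_div T hp0 he hR hT hd (hH v₀)))).resolve_right hHv₀
  obtain ⟨z, hz⟩ := M.nodes_nonempty
  rcases Nat.lt_or_ge p 5 with h5 | h5
  · obtain rfl : p = 3 := by
      have := hp.two_le
      interval_cases p
      · exact absurd rfl hp2
      · rfl
      · exact absurd hp (by decide)
    by_cases hall : ∀ v, (3 : ℤ) ∣ M.h₁ v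
    · set H := M.h₁.mapRange (fun x => x / (3 : ℤ)) (Int.zero_ediv _) with hHdef
      have hH : ∀ v, M.h₁ v = 3 * H v := fun v => by
        rw [hHdef, Finsupp.mapRange_apply, Int.mul_ediv_cancel' (hall v)]
      refine generic 3 4 H (by norm_num) (by norm_num) hH ⟨z.1, (M.P₁_of_node hz).1, fun h => ?_⟩
      have h9 : (9 : ℤ) ∣ 12 := by
        refine dvd_trans ?_ (R.h₁_dvd_twelve he hR hz)
        rw [hH]
        exact mul_dvd_mul_left (3 : ℤ) h
      norm_num at h9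
    · push Not at hall
      obtain ⟨v₀, hv₀⟩ := hall
      have h3p : Prime (3 : ℤ) := by exact_mod_cast hpp
      have hd : ∀ (T'' : M.TorsData 3), R.IsRatTors T'' → (3 : ℤ) ∣ R.delta T'' := by
        intro T'' hT''
        obtain ⟨t, ht⟩ := R.component_congr T'' hp0 he hR hT'' v₀
        push_cast at ht
        have h : (3 : ℤ) ∣ (t * 3 + R.delta T'') * M.h₁ v₀ :=
          (dvd_sub_right (by omega : (3 : ℤ) ∣ 12 * T''.a₁ v₀)).mp ((by norm_num : (3 : ℤ) ∣ 12 * 3).trans ht)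
        exact (dvd_add_right (dvd_mul_left _ _)).mp ((h3p.dvd_or_dvd h).resolve_right hv₀)
      have hz3 : ∀ (T'' : M.TorsData 3), R.IsRatTors T'' → ∀ v, (3 : ℤ) ∣ M.h₁ v →
          (3 : ℤ) ∣ T''.a₁ v := by
        intro T'' hT'' v ⟨m, hm⟩
        obtain ⟨t, ht⟩ := R.component_congr T'' hp0 he hR hT'' v
        obtain ⟨s, hs⟩ := hd T'' hT''
        push_cast at ht
        rw [hs, hm, show 12 * T''.a₁ v - (t * 3 + 3 * s) * (3 * m) =
          3 * (4 * T''.a₁ v - 3 * ((t + s) * m)) by ring, show (36 : ℤ) = 3 * 12 by ring] at ht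
        have h := (by norm_num : (3 : ℤ) ∣ 12).trans
          (Int.dvd_of_mul_dvd_mul_left (by norm_num) ht)
        omega
      refine ⟨fun v hv => ?_, by exact_mod_cast hd T hT⟩
      by_cases h3v : (3 : ℤ) ∣ M.h₁ v
      · exact_mod_cast hz3 T hT v h3v
      · have h := h3 rfl T'.a₁ (fun w _ hw => hz3 T' hT' w hw) v hv h3v
        exact (dvd_sub_left (by exact_mod_cast h)).mp (hrel v hv)
  · have h12 : ¬ (p : ℤ) ∣ 12 := by
      intro h
      have h' : p ∣ 12 := by exact_mod_cast h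
      have := Nat.le_of_dvd (by norm_num) h'
      interval_cases p <;> revert hp h' <;> norm_num
    exact generic 1 12 M.h₁ (by norm_num) h12 (fun v => (one_mul _).symm)
      ⟨z.1, (M.P₁_of_node hz).1, R.not_dvd_h₁ he hR hp h5 hz⟩

end RatForm

/-- **Roots on a sheet.** If `O` fixes the class and kills the classes of degree zero of the
special sheet, a reduction of `g` with divisor divisible by `p` is a `p`-th power. -/
theorem SheetEndo.exists_root (O : M.SheetEndo) {T : M.TorsData p} (hp : p ≠ 0)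
    (hO : ∀ E : Divisor k Kb, Divisor.degree E = 0 → IsPrincipal (O.dv E)) {c : L} {φ : F}
    (hc : c ≠ 0) (hφ : φ ≠ 0) (hfn : O.fn T.g = c • (φ ^ p * T.g)) (s : Sheet π F Kb)
    (hrd : ∀ f ∈ s.W, s.rd f ≠ 0 → O.fn f ∈ s.W ∧ s.rd (O.fn f) = O.fnK (s.rd f))
    (hscale : ∀ f : F, f ≠ 0 → ∃ c : L, c • f ∈ s.W ∧ s.rd (c • f) ≠ 0) (γ : Lˣ)
    (hg : (γ : L)⁻¹ • T.g ∈ s.W) (hg0 : s.rd ((γ : L)⁻¹ • T.g) ≠ 0) (a : Divisor k Kb)
    (ha : ∀ v, a v = v.ord (s.rd ((γ : L)⁻¹ • T.g))) (hadeg : Divisor.degree a = 0)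
    (hdvd : ∀ v, (p : ℤ) ∣ a v) :
    ∃ e : Kb, e ≠ 0 ∧ s.rd ((γ : L)⁻¹ • T.g) = e ^ p := by
  have hp' : (p : ℤ) ≠ 0 := by exact_mod_cast hp
  set E := a.mapRange (fun x => x / (p : ℤ)) (Int.zero_ediv _)
  have hE : (p : ℤ) • E = a := Finsupp.ext fun v => by
    rw [Finsupp.smul_apply, Finsupp.mapRange_apply, smul_eq_mul, Int.mul_ediv_cancel' (hdvd v)]
  have hdeg : Divisor.degree E = 0 := by
    have := congrArg Divisor.degree hE
    rw [map_zsmul, hadeg, smul_eq_mul, mul_eq_zero] at this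
    exact this.resolve_left hp'
  obtain ⟨φb, hφb, hord⟩ := O.exists_ord_fnK hc hφ hfn s hrd hscale γ γ hg hg0 hg hg0
  obtain ⟨e₀, he₀, he⟩ := hO E hdeg
  set e := e₀ * φb⁻¹ with hedef
  have he0 : e ≠ 0 := mul_ne_zero he₀ (inv_ne_zero hφb)
  have hEv : ∀ v, E v = v.ord e := fun v => by
    have h := O.dv_div _ a hg0 ha v
    rw [hord, ← ha, ← hE, map_zsmul, Finsupp.smul_apply, Finsupp.smul_apply, smul_eq_mul,
      smul_eq_mul, he, ← mul_add] at h
    rw [hedef, v.ord_mul he₀ (inv_ne_zero hφb), v.ord_inv]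
    have := mul_left_cancel₀ hp' h
    omega
  have hq0 : s.rd ((γ : L)⁻¹ • T.g) / e ^ p ∈ riemannRochSpace (0 : Divisor k Kb) := by
    rw [mem_riemannRochSpace_iff]
    intro v
    right
    rw [div_eq_mul_inv, v.ord_mul hg0 (inv_ne_zero (pow_ne_zero _ he0)), v.ord_inv, ord_pow,
      ← hEv, ← ha, ← hE]
    simp
  obtain ⟨c', hc'⟩ := M.rrK.exists_eq_algebraMap hq0
  obtain ⟨r, hr⟩ := IsAlgClosed.exists_pow_nat_eq c' (Nat.pos_of_ne_zero hp)
  have hce : s.rd ((γ : L)⁻¹ • T.g) = (algebraMap k Kb r * e) ^ p := by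
    rw [mul_pow, ← map_pow, hr, ← hc', div_mul_cancel₀ _ (pow_ne_zero _ he0)]
  exact ⟨_, fun h0 => hg0 (by rw [hce, h0, zero_pow hp]), hce⟩

end MazurDatum

end FermatLib.MazurP

end
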