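import Fermat.Agent.Galois.MazurP.AwayDefs
import Fermat.Agent.Galois.MazurP.Frames

/-!
# Frobenius on twists, composed with the exchange of the sheets

`g = w ∘ Frob` acts as `-q` on the classes of twists; torsion data with a frame are twists.
-/

set_option autoImplicit false
set_option linter.style.haveILetI false

noncomputable section

open AlgebraicCurve FermatLib.Igusa FermatLib.Igusa.Mono

namespace FermatLib.MazurP

universe uL uF uk uKb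

namespace MazurDatum

variable {L : Type uL} {k : Type uk} [Field L] [Field k] {A : ValuationSubring L} {π : A →+* k}
  {F : Type uF} {Kb : Type uKb} [Field F] [Algebra L F] [Field Kb] [Algebra k Kb] {q : ℕ}
  {M : MazurDatum π F Kb q} {g : SemilinearAut L F} {e : ℕ}

namespace SwapFrobenius

variable (hg : M.SwapFrobenius g e)
include hg

theorem φ_algebraMap (c : k) : hg.φ (algebraMap k Kb c) = algebraMap k Kb (c ^ e) := by
  apply (M.Φ : Kb →+* Kb).injective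
  show M.Φ (hg.φ (algebraMap k Kb c)) = M.Φ (algebraMap k Kb (c ^ e))
  rw [hg.frob _ (algebraMap_mem_reg _ c), AlgHom.commutes, map_pow]

theorem integral {a : F} (ha : Integral₂ M.s₁ M.s₂ a) : Integral₂ M.s₁ M.s₂ (g • a) :=
  ⟨hg.mem₁ a ha.2, hg.mem₂ a ha.1⟩

theorem Px_smul : ∃ c : ℕ, ∀ v : Place L F, M.Px (g⁻¹ • v) ≤ c * M.Px v := by
  obtain ⟨c, hc⟩ := hg.x_pole
  refine ⟨c, fun v => ?_⟩
  have h0 : (0 : ℤ) ≤ c * M.Px v :=
    mul_nonneg (Int.natCast_nonneg c) (M.Px_apply v ▸ le_max_right _ _)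
  rcases mem_riemannRochSpace_iff.mp hc v with hx | hx
  · have hx0 : M.x = 0 := (smul_eq_zero_iff_eq g).mp hx
    rw [M.Px_apply, hx0, Place.ord_zero, neg_zero, max_self]
    exact h0
  · have h := SemilinearAut.ord_smul g (g⁻¹ • v) M.x
    rw [smul_inv_smul] at h
    rw [Finsupp.smul_apply, nsmul_eq_mul] at hx
    rw [M.Px_apply, ← h]
    exact max_le (by linarith) h0

theorem smul_mem_rr : ∃ c : ℕ, ∀ {D : Divisor L F} {n : ℕ} {a : F},
    a ∈ riemannRochSpace (D + n • M.Px) →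
      g • a ∈ riemannRochSpace (g • D + (c * n) • M.Px) := by
  obtain ⟨c, hc⟩ := hg.Px_smul
  refine ⟨c, fun {D n a} ha => ?_⟩
  rw [mem_riemannRochSpace_iff] at ha ⊢
  intro v
  refine (ha (g⁻¹ • v)).imp (fun h => by rw [h, smul_zero]) fun h => ?_
  have h2 := SemilinearAut.ord_smul g (g⁻¹ • v) a
  rw [smul_inv_smul] at h2
  rw [Finsupp.add_apply, Finsupp.smul_apply, nsmul_eq_mul] at h
  rw [Finsupp.add_apply, Finsupp.smul_apply, SemilinearAut.divisor_smul_apply, h2, nsmul_eq_mul,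
    Nat.cast_mul]
  nlinarith [mul_le_mul_of_nonneg_left (hc v) (Int.natCast_nonneg n)]

/-- At a node `φ` exchanges the two values and raises them to the power `e`. -/
theorem valAt_φ {z : Place k Kb × Place k Kb} (hz : z ∈ M.nodes) {c : Kb} (hc : c ∈ Reg M.P₁) :
    valAt z.1 (hg.φ c) = valAt z.2 c ^ e ∧ valAt z.2 (hg.φ c) = valAt z.1 c ^ e := by
  have hd := M.rrK.deg_one
  have hφ := hg.φ_reg c hc
  obtain ⟨z1, z2⟩ := M.P₁_of_node hz
  have h1 := hz.2.2 _ (M.pair_mem_U hφ)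
  have h2 := hz.2.2 _ (M.pair'_mem_U hφ)
  simp only [hg.frob c hc] at h1 h2
  rw [valAt_pow_reg hd hc z2] at h1
  rw [valAt_pow_reg hd hc z1] at h2
  exact ⟨h1, h2.symm⟩

/-- **`g = -e` on twists.** -/
theorem smul_twist_eq [IsAlgClosed k] {d : ℕ} (hd : 1 ≤ d) (hdk : (d : k) ≠ 0)
    (T : M.Twist d) :
    g • Pic0.mk ⟨T.D, T.degree_D⟩ = -(e : ℤ) • Pic0.mk ⟨T.D, T.degree_D⟩ := by
  have hgg : g • T.g ≠ 0 := (smul_ne_zero_iff_ne g).mpr T.g_ne
  have hge : T.g ^ e ≠ 0 := pow_ne_zero _ T.g_ne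
  have hr1 : M.s₁.rd T.g = algebraMap k Kb T.c₁ := congrArg Prod.fst T.rd_g
  have hr2 : M.s₂.rd T.g = algebraMap k Kb T.c₂ := congrArg Prod.snd T.rd_g
  set γ : k := (T.c₁ * T.c₂) ^ e with hγ
  have hγ0 : γ ≠ 0 := pow_ne_zero _ (mul_ne_zero T.c₁_ne T.c₂_ne)
  obtain ⟨a₀, ha₀⟩ := M.π_surjective γ⁻¹
  have ha0 : (a₀ : L) ≠ 0 := fun h => inv_ne_zero hγ0 (by
    rw [← ha₀, show a₀ = 0 from Subtype.ext h, map_zero])
  set Dz := g • T.D + (e : ℤ) • T.D with hDz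
  set gz := algebraMap L F (a₀ : L) * ((g • T.g) * T.g ^ e) with hgzdef
  have hint : Integral₂ M.s₁ M.s₂ ((g • T.g) * T.g ^ e) :=
    (hg.integral T.g_int).mul (T.g_int.pow e)
  have hgzi : Integral₂ M.s₁ M.s₂ gz :=
    ⟨mul_mem (Sheet.algebraMap_mem a₀.2) hint.1, mul_mem (Sheet.algebraMap_mem a₀.2) hint.2⟩
  have hgz : rd₂ M.s₁ M.s₂ gz = 1 := by
    refine Prod.ext ?_ ?_
    · show M.s₁.rd gz = 1
      rw [hgzdef, Sheet.rd_mul (Sheet.algebraMap_mem a₀.2) hint.1, Sheet.rd_algebraMap a₀.2,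
        Sheet.rd_mul (hg.mem₁ _ T.g_int.2) (T.g_int.pow e).1, hg.rd₁ _ T.g_int.2, hr2,
        hg.φ_algebraMap, Sheet.rd_pow T.g_int.1, hr1, ← map_pow, ← map_mul, ← map_mul,
        show (⟨(a₀ : L), a₀.2⟩ : A) = a₀ from rfl, ha₀, ← mul_pow, mul_comm T.c₂, ← hγ,
        inv_mul_cancel₀ hγ0, map_one]
    · show M.s₂.rd gz = 1
      rw [hgzdef, Sheet.rd_mul (Sheet.algebraMap_mem a₀.2) hint.2, Sheet.rd_algebraMap a₀.2,
        Sheet.rd_mul (hg.mem₂ _ T.g_int.1) (T.g_int.pow e).2, hg.rd₂' _ T.g_int.1, hr1,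
        hg.φ_algebraMap, Sheet.rd_pow T.g_int.2, hr2, ← map_pow, ← map_mul, ← map_mul,
        show (⟨(a₀ : L), a₀.2⟩ : A) = a₀ from rfl, ha₀, ← mul_pow, ← hγ,
        inv_mul_cancel₀ hγ0, map_one]
  have hgz0 : gz ≠ 0 := mul_ne_zero (by simpa using ha0) (mul_ne_zero hgg hge)
  let Tz : M.Twist d :=
    { D := Dz, g := gz, g_ne := hgz0
      div := fun v => by
        have h3 := SemilinearAut.ord_smul g (g⁻¹ • v) T.g
        rw [smul_inv_smul] at h3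
        rw [hgzdef, v.ord_mul (by simpa using ha0) (mul_ne_zero hgg hge), ord_algebraMap,
          v.ord_mul hgg hge, ord_pow, h3, ← T.div, ← T.div, hDz,
          Finsupp.add_apply, SemilinearAut.divisor_smul_apply, Finsupp.smul_apply, smul_eq_mul]
        ring
      degree_D := by
        rw [hDz, map_add, SemilinearAut.degree_smul, map_zsmul, T.degree_D, smul_zero, add_zero]
      g_int := hgzi, c₁ := 1, c₂ := 1
      c₁_ne := one_ne_zero, c₂_ne := one_ne_zero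
      rd_g := by rw [hgz, map_one]; rfl }
  have hdiag : ∀ z ∈ M.nodes, ∃ m, ∃ w ∈ M.twistLevel Tz.D m,
      valAt z.1 w.1 ≠ 0 ∧ valAt z.1 w.1 = valAt z.2 w.2 := by
    intro z hz
    obtain ⟨N, hN, hlev⟩ := MonoDatum.exists_twist_level T hd
    obtain ⟨l, -, hex⟩ := hlev N le_rfl
    obtain ⟨ab, hab, hab1⟩ := hex z hz
    obtain ⟨hm1, hm2⟩ := T.mem_rr hd hN hab
    obtain ⟨c, hc⟩ := hg.smul_mem_rr
    have hab2 : valAt z.2 ab.2 ≠ 0 := fun h => hab1 ((T.valAt_eq_zero_iff hd hN hab hz).mpr h)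
    obtain ⟨a, ha, hai, rfl⟩ := hab
    have ha0' : a ≠ 0 := by rintro rfl; simp at hab1
    have hint' : Integral₂ M.s₁ M.s₂ ((g • a) * a ^ e) := (hg.integral hai).mul (hai.pow _)
    refine ⟨c * N + e * N, _, rd₂_mem_redSpace M.π_surjective ?_ hint', ?_⟩
    · rw [mem_riemannRochSpace_iff]
      intro v
      right
      have hga : g • a ≠ 0 := (smul_ne_zero_iff_ne g).mpr ha0'
      have h1 := ((mem_riemannRochSpace_iff.mp (hc ha)) v).resolve_left hga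
      have h2 := ((mem_riemannRochSpace_iff.mp ha) v).resolve_left ha0'
      rw [v.ord_mul hga (pow_ne_zero _ ha0'), ord_pow]
      show -(Dz + (c * N + e * N) • M.Px) v ≤ _
      rw [Finsupp.add_apply, Finsupp.smul_apply, nsmul_eq_mul] at h1 h2
      rw [Nat.cast_mul] at h1
      rw [hDz, Finsupp.add_apply, Finsupp.add_apply, Finsupp.smul_apply, Finsupp.smul_apply,
        nsmul_eq_mul, smul_eq_mul, Nat.cast_add, Nat.cast_mul, Nat.cast_mul]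
      nlinarith [mul_le_mul_of_nonneg_left h2 (Int.natCast_nonneg e)]
    · have hd1 := M.rrK.deg_one
      have hreg1 : M.s₁.rd a ∈ Reg M.P₁ := rrSpace_nsmul_le_reg _ _ hm1
      have hreg2 : M.s₂.rd a ∈ Reg M.P₁ := M.reg_P₂ ▸ rrSpace_nsmul_le_reg _ _ hm2
      have hpow : ∀ {u : Kb}, u ∈ Reg M.P₁ → ∀ i : ℕ, u ^ i ∈ Reg M.P₁ := by
        intro u hu i
        induction i with
        | zero => simpa using one_mem_reg M.P₁
        | succ i ih => rw [pow_succ]; exact mul_mem_reg ih hu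
      obtain ⟨hz1, hz2⟩ := M.P₁_of_node hz
      have e1 : (rd₂ M.s₁ M.s₂ ((g • a) * a ^ e)).1 = hg.φ (M.s₂.rd a) * M.s₁.rd a ^ e := by
        show M.s₁.rd _ = _
        rw [Sheet.rd_mul (hg.mem₁ _ hai.2) (hai.pow _).1, hg.rd₁ _ hai.2, Sheet.rd_pow hai.1]
      have e2 : (rd₂ M.s₁ M.s₂ ((g • a) * a ^ e)).2 = hg.φ (M.s₁.rd a) * M.s₂.rd a ^ e := by
        show M.s₂.rd _ = _
        rw [Sheet.rd_mul (hg.mem₂ _ hai.1) (hai.pow _).2, hg.rd₂' _ hai.1, Sheet.rd_pow hai.2]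
      rw [e1, e2, valAt_mul_reg hd1 (hg.φ_reg _ hreg2) (hpow hreg1 e) hz1,
        valAt_mul_reg hd1 (hg.φ_reg _ hreg1) (hpow hreg2 e) hz2, (hg.valAt_φ hz hreg2).1,
        (hg.valAt_φ hz hreg1).2, valAt_pow_reg hd1 hreg1 hz1, valAt_pow_reg hd1 hreg2 hz2]
      exact ⟨mul_ne_zero (pow_ne_zero _ hab2) (pow_ne_zero _ hab1), mul_comm _ _⟩
  have hne := M.rr_ne_bot_of_trivial hd hdk Tz hgz hdiag
  obtain ⟨u, hu, hu0⟩ := Submodule.exists_mem_ne_zero_of_ne_bot hne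
  obtain ⟨E, hE, hE0⟩ := M.rrF.exists_div hu0
  have hneg : -Tz.D = E := by
    refine eq_of_le_of_degree_eq M.rrF.deg_one (Finsupp.le_def.mpr fun v => ?_)
      (by rw [map_neg, Tz.degree_D, neg_zero, hE0])
    rw [Finsupp.neg_apply, hE]
    exact ((mem_riemannRochSpace_iff.mp hu) v).resolve_left hu0
  have hprin : Dz ∈ Divisor.principal (K := L) (F := F) := by
    have hEp : E ∈ Divisor.principal (K := L) (F := F) := ⟨u, hu0, hE⟩
    rw [← hneg] at hEp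
    simpa using neg_mem hEp
  rw [neg_smul, eq_neg_iff_add_eq_zero]
  have hmk : g • Pic0.mk ⟨T.D, T.degree_D⟩ + (e : ℤ) • Pic0.mk ⟨T.D, T.degree_D⟩ =
      Pic0.mk (SemilinearAut.degZeroSMulHom g ⟨T.D, T.degree_D⟩ +
        (e : ℤ) • (⟨T.D, T.degree_D⟩ : Divisor.degZero (K := L) (F := F))) := rfl
  rw [hmk]
  refine (QuotientAddGroup.eq_zero_iff _).mpr ?_
  rw [AddSubgroup.mem_addSubgroupOf]
  exact hprin

end SwapFrobenius

variable (M) in
/-- A function which is normalised for a prescribed shift on the two sheets. -/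
theorem exists_normalised_pair [IsAlgClosed k] (β₁ β₂ : Lˣ) :
    ∃ f : (M.shift β₁ β₂).lat, ((M.shift β₁ β₂).red f).1 ≠ 0 ∧
      ((M.shift β₁ β₂).red f).2 ≠ 0 := by
  obtain ⟨v, hv⟩ : ∃ v, M.P₁ v ≠ 0 :=
    Finsupp.support_nonempty_iff.mpr M.P₁_ne_zero |>.imp fun v hv => Finsupp.mem_support_iff.mp hv
  have hv2 : M.P₂ v ≠ 0 := fun h => hv ((M.supp v).mpr h)
  obtain ⟨-, z, -, -, hz1, hz2, hz0, hzne, -⟩ := M.exists_top₁ v hv
  obtain ⟨-, z', -, -, hz2', hz1', hz0', hzne', -⟩ := M.exists_top₂ v hv2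
  have small : ∀ (s : Sheet π F Kb), (∀ f : F, f ≠ 0 → ∃ c : L, c • f ∈ s.W ∧ s.rd (c • f) ≠ 0) →
      ∀ {w : F}, w ≠ 0 → w ∈ s.W → s.rd w = 0 → ∀ c : L,
        ∃ m : ℕ, ∀ n, m ≤ n → c • w ^ n ∈ s.W ∧ s.rd (c • w ^ n) = 0 := by
    intro s hs w hw hwW hw0 c
    obtain ⟨d, hd, hd0⟩ := hs w hw
    have hdne : d ≠ 0 := fun h => hd0 (by rw [h, zero_smul, Sheet.rd_zero])
    have hsmall : A.valuation d⁻¹ < 1 := by
      rw [map_inv₀, inv_lt_one₀ (zero_lt_iff.mpr (by simpa using hdne))]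
      by_contra hle
      push Not at hle
      have hdA : d ∈ A := (A.valuation_le_one_iff d).mp hle
      exact hd0 (by rw [Sheet.rd_smul hdA hwW, hw0, smul_zero])
    obtain ⟨i, hi⟩ := M.exists_pow_mul_le_one c hsmall
    refine ⟨i + 1, fun n hn => ?_⟩
    have hlt : A.valuation (c * d⁻¹ ^ n) < 1 := by
      obtain ⟨j, rfl⟩ := Nat.exists_eq_add_of_le hn
      rw [pow_add, pow_succ, ← mul_assoc, ← mul_assoc, map_mul, map_mul, mul_assoc, ← map_mul]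
      refine mul_lt_one_of_nonneg_of_lt_one_right hi zero_le ?_
      rw [map_mul, map_pow]
      exact mul_lt_one_of_nonneg_of_lt_one_left zero_le hsmall (pow_le_one₀ zero_le hsmall.le)
    have hm := (A.valuation_le_one_iff _).mp hlt.le
    have he : c • w ^ n = (c * d⁻¹ ^ n) • (d • w) ^ n := by
      rw [smul_pow, smul_smul, mul_assoc, ← mul_pow, inv_mul_cancel₀ hdne, one_pow, mul_one]
    rw [he, Sheet.rd_smul hm (pow_mem hd n),
      M.res_eq_zero _ fun hu => hlt.ne ((A.valuation_eq_one_iff _).mp hu), zero_smul]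
    exact ⟨Sheet.smul_mem hm (pow_mem hd n), rfl⟩
  obtain ⟨m, hm⟩ := small M.s₂ M.scale₂ (fun h => hzne (by rw [h, Sheet.rd_zero])) hz2 hz0
    ((β₂ : L)⁻¹ * β₁)
  obtain ⟨m', hm'⟩ := small M.s₁ M.scale₁ (fun h => hzne' (by rw [h, Sheet.rd_zero])) hz1' hz0'
    ((β₁ : L)⁻¹ * β₂)
  obtain ⟨hw₂, h₂0⟩ := hm (m + m') (Nat.le_add_right _ _)
  obtain ⟨hw₁, h₁0⟩ := hm' (m + m') (Nat.le_add_left _ _)
  set n := m + m'
  set f : F := (β₁ : L) • z ^ n + (β₂ : L) • z' ^ n with hf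
  have e₁ : (β₁ : L)⁻¹ • f = z ^ n + ((β₁ : L)⁻¹ * β₂) • z' ^ n := by
    rw [hf, smul_add, smul_smul, smul_smul, inv_mul_cancel₀ β₁.ne_zero, one_smul]
  have e₂ : (β₂ : L)⁻¹ • f = ((β₂ : L)⁻¹ * β₁) • z ^ n + z' ^ n := by
    rw [hf, smul_add, smul_smul, smul_smul, inv_mul_cancel₀ β₂.ne_zero, one_smul]
  have m₁ : (β₁ : L)⁻¹ • f ∈ M.s₁.W := e₁ ▸ add_mem (pow_mem hz1 n) hw₁
  have m₂ : (β₂ : L)⁻¹ • f ∈ M.s₂.W := e₂ ▸ add_mem hw₂ (pow_mem hz2' n)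
  refine ⟨⟨f, m₁, m₂⟩, ?_, ?_⟩
  · show M.s₁.rd ((β₁ : L)⁻¹ • f) ≠ 0
    rw [e₁, Sheet.rd_add (pow_mem hz1 n) hw₁, h₁0, add_zero, Sheet.rd_pow hz1]
    exact pow_ne_zero _ hzne
  · show M.s₂.rd ((β₂ : L)⁻¹ • f) ≠ 0
    rw [e₂, Sheet.rd_add hw₂ (pow_mem hz2' n), h₂0, zero_add, Sheet.rd_pow hz2']
    exact pow_ne_zero _ hzne'

variable [IsAlgClosed k] {R : M.RatForm} {p : ℕ} {T : M.TorsData p}

/-- Torsion data with a frame are linearly equivalent to a twist. -/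
theorem Frame.exists_twist (Fr : Frame R T) {x : Pic0 L F} (hx : HasClass T.D x) :
    ∃ Tw : M.Twist p, Pic0.mk ⟨Tw.D, Tw.degree_D⟩ = x := by
  obtain ⟨f, hf₁, hf₂⟩ := M.exists_normalised_pair 1 (R.pw Fr.t)
  obtain ⟨hI, hr⟩ := Fr.rd_monomial (f := f) (f' := f) (i := 0) (Nat.zero_le _)
  obtain ⟨h, h', hi, hi', n₁, n₂, q₁, q₂⟩ := M.exists_lift_pair
    (u₁ := Fr.e₁ * ((M.shift 1 (R.pw Fr.t)).red f).1)
    (u₂ := Fr.e₂ * ((M.shift 1 (R.pw Fr.t)).red f).2)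
    (mul_ne_zero Fr.e₁_ne hf₁) (mul_ne_zero Fr.e₂_ne hf₂)
  have m₁ : M.s₁.rd h ≠ 0 := by rw [q₁]; exact mul_ne_zero (mul_ne_zero Fr.e₁_ne hf₁) n₁
  have m₂ : M.s₂.rd h ≠ 0 := by rw [q₂]; exact mul_ne_zero (mul_ne_zero Fr.e₂_ne hf₂) n₂
  have hh0 : h ≠ 0 := by rintro rfl; simp at m₁
  have hh'0 : h' ≠ 0 := by rintro rfl; simp at n₁
  have hf0 : (f : F) ≠ 0 := fun h0 => hf₁ (by
    rw [show f = 0 from Subtype.ext h0, map_zero, Prod.fst_zero])
  have hiinv : Integral₂ M.s₁ M.s₂ h⁻¹ :=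
    ⟨Sheet.inv_mem_of_rd_ne hi.1 m₁, Sheet.inv_mem_of_rd_ne hi.2 m₂⟩
  obtain ⟨Df, hDf, hDf0⟩ := M.rrF.exists_div hf0
  obtain ⟨Dh, hDh, hDh0⟩ := M.rrF.exists_div hh0
  obtain ⟨Dh', hDh', hDh'0⟩ := M.rrF.exists_div hh'0
  set g₁ : F := ((T.γ₁ : L)⁻¹ • T.g) * ((f : F) ^ (p - 0) * (f : F) ^ 0) with hg₁
  have hg₁0 : g₁ ≠ 0 := mul_ne_zero (smul_ne_zero (inv_ne_zero T.γ₁.ne_zero) T.g_ne)
    (mul_ne_zero (pow_ne_zero _ hf0) (pow_ne_zero _ hf0))
  have hq : h' * h⁻¹ ≠ 0 := mul_ne_zero hh'0 (inv_ne_zero hh0)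
  set Dt := T.D + Df + (Dh' - Dh) with hDt
  obtain ⟨hdeg, rfl⟩ := hx
  have hDt0 : Divisor.degree Dt = 0 := by
    rw [hDt, map_add, map_add, map_sub, hDf0, hDh0, hDh'0, Divisor.mem_degZero.mp hdeg]
    simp
  let Tw : M.Twist p :=
    { D := Dt, g := g₁ * (h' * h⁻¹) ^ p, g_ne := mul_ne_zero hg₁0 (pow_ne_zero _ hq)
      div := fun v => by
        rw [v.ord_mul hg₁0 (pow_ne_zero _ hq), ord_pow, v.ord_mul hh'0 (inv_ne_zero hh0),
          v.ord_inv, hg₁, v.ord_mul (smul_ne_zero (inv_ne_zero T.γ₁.ne_zero) T.g_ne)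
            (mul_ne_zero (pow_ne_zero _ hf0) (pow_ne_zero _ hf0)), Algebra.smul_def,
          v.ord_mul (by simp) T.g_ne, ord_algebraMap, pow_zero, mul_one, Nat.sub_zero, ord_pow,
          ← T.div, ← hDh, ← hDh', ← hDf, hDt, Finsupp.add_apply, Finsupp.add_apply,
          Finsupp.sub_apply]
        ring
      degree_D := hDt0
      g_int := hI.mul ((hi'.mul hiinv).pow p)
      c₁ := 1, c₂ := 1, c₁_ne := one_ne_zero, c₂_ne := one_ne_zero
      rd_g := by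
        have hmi := hi'.mul hiinv
        rw [rd₂_mul hI (hmi.pow p), hr, rd₂_pow hmi, rd₂_mul hi' hiinv]
        simp only [Frame.e, Nat.sub_zero, pow_zero, mul_one, map_one]
        refine Prod.ext ?_ ?_
        · simp only [Prod.fst_mul, Prod.pow_fst]
          show _ * (M.s₁.rd h' * M.s₁.rd h⁻¹) ^ p = 1
          rw [Sheet.rd_inv hi.1 m₁, q₁, ← mul_pow, ← mul_assoc,
            mul_inv_cancel₀ (mul_ne_zero (mul_ne_zero Fr.e₁_ne hf₁) n₁), one_pow]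
        · simp only [Prod.snd_mul, Prod.pow_snd]
          show _ * (M.s₂.rd h' * M.s₂.rd h⁻¹) ^ p = 1
          rw [Sheet.rd_inv hi.2 m₂, q₂, ← mul_pow, ← mul_assoc,
            mul_inv_cancel₀ (mul_ne_zero (mul_ne_zero Fr.e₂_ne hf₂) n₂), one_pow] }
  refine ⟨Tw, ?_⟩
  rw [← sub_eq_zero]
  refine (QuotientAddGroup.eq_zero_iff _).mpr ?_
  rw [AddSubgroup.mem_addSubgroupOf]
  show Dt - T.D ∈ Divisor.principal
  rw [hDt, add_assoc, add_sub_cancel_left]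
  exact add_mem (⟨(f : F), hf0, hDf⟩ : Df ∈ Divisor.principal)
    (sub_mem ⟨h', hh'0, hDh'⟩ ⟨h, hh0, hDh⟩)

end MazurDatum

end FermatLib.MazurP

end
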