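import Fermat.Agent.Galois.MazurP.AwayKill
import Fermat.Agent.Galois.MazurP.AwayToric
import Fermat.Agent.Galois.MazurP.Tame
import Fermat.Agent.Galois.MazurP.LevelMVanish
import Fermat.Agent.Galois.PlaceBasic
import Fermat.Agent.Basic.FrobeniusExists

/-!
# The Mazur principle at `q ≠ p` from the data of level `qM`

If the system does not occur in level `M`, an operator `T_ℓ - ℓ - 1` removes the component part of
every point `x` of the eigen group, and a Hecke polynomial killing level `M` and acting as the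
identity makes both reductions `p`-th powers. So `x` is a twist, `w ∘ Frob = -q` on it, and an
eigenspace of `w` is a toric subgroup.
-/

set_option autoImplicit false
set_option linter.style.haveILetI false
set_option synthInstance.maxHeartbeats 400000
set_option maxHeartbeats 1000000

noncomputable section

open AlgebraicCurve ModularCurve

namespace FermatLib.MazurP

local notation "Qbar" => AlgebraicClosure ℚ
local notation "Γℚ" => (AlgebraicClosure ℚ ≃ₐ[ℚ] AlgebraicClosure ℚ)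

universe uk uKb

/-- The eigen group of a system is in the image of every operator with nonzero eigenvalue. -/
theorem EigenGroup.exists_smul_eq {k : Type} [Field k] [Finite k] {N p : ℕ} [NeZero N]
    {S : Set ℕ} {ψ : Galois.awayHeckeAlg S →+* k} {V : AddSubgroup (JZero N)}
    (hV : EigenGroup N p S ψ V) {t : Galois.awayHeckeAlg S} (ht : ψ t ≠ 0) {x : JZero N}
    (hx : x ∈ V) : ∃ y ∈ V, (letI := heckeModuleBar N; (t : HeckeAlg) • y = x) := by
  classical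
  cases nonempty_fintype k
  letI := heckeModuleBar N
  have h1 := Fintype.one_lt_card (α := k)
  obtain ⟨m, hm⟩ := Nat.exists_eq_succ_of_ne_zero (show Fintype.card k - 1 ≠ 0 by omega)
  have h0 : ψ (1 - t ^ (Fintype.card k - 1)) = 0 := by
    rw [map_sub, map_one, map_pow, FiniteField.pow_card_sub_one_eq_one _ ht, sub_self]
  refine ⟨((t ^ m : Galois.awayHeckeAlg S) : HeckeAlg) • x, hV.hecke _ x hx, ?_⟩
  have h := hV.eigen _ h0 x hx
  rw [Subalgebra.coe_sub, Subalgebra.coe_one, sub_smul, one_smul, sub_eq_zero, hm, pow_succ',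
    Subalgebra.coe_mul, mul_smul] at h
  exact h.symm

variable {A : ValuationSubring Qbar} {kA : Type uk} [Field kA] [IsAlgClosed kA] {π : A →+* kA}
  {Kb : Type uKb} [Field Kb] [Algebra kA Kb] {q M : ℕ} [NeZero M] [NeZero (q * M)]
  {D : MazurDatum π (modularFunctionFieldBar (q * M)) Kb q}

/-- In a system not occurring in level `M`, `w ∘ Frob` is `-q` on the eigen group. -/
theorem AwayData.swap_frobenius_eq (h : AwayData D) {p : ℕ} (hp : p.Prime) (hp2 : p ≠ 2)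
    (hqp : q ≠ p) (hpA : (p : kA) ≠ 0) {k : Type} [Field k] [Finite k] [CharP k p] {S : Finset ℕ}
    (hqS : q ∈ S) {ψ : Galois.awayHeckeAlg (↑S : Set ℕ) →+* k}
    (hne : NotEisensteinSystem (q * M) ψ)
    (h3 : p = 3 → ∃ ℓ : ℕ, ℓ.Prime ∧ ℓ ∉ S ∧ ¬ ℓ ∣ q * M ∧ ℓ % 3 = 2 ∧
      ψ (Galois.awayHeckeGen (↑S : Set ℕ) ℓ) ≠ 0)
    {V : AddSubgroup (JZero (q * M))} (hV : EigenGroup (q * M) p (↑S : Set ℕ) ψ V)
    (hfix : ∀ σ ∈ A.inertiaSubgroupIn ℚ, ∀ x ∈ V, σ • x = x)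
    {t : Galois.awayHeckeAlg (↑S : Set ℕ)} (ht : Galois.formsHeckeEval M (t : HeckeAlg) = 0)
    (hψt : ψ t ≠ 0) {g : SemilinearAut Qbar (modularFunctionFieldBar (q * M))}
    (hg : D.SwapFrobenius g q) {x : JZero (q * M)} (hx : x ∈ V) :
    g • (x : Pic0 Qbar (modularFunctionFieldBar (q * M))) = -(q : ℤ) • x := by
  classical
  obtain ⟨R, hRe, hR0, hrat⟩ := h.forms
  have hR : R.RatLevel := hR0
  have hp0 := hp.ne_zero
  have hT' := Modular.heckeOperatorsCommuteBar (q * M)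
  letI := heckeModuleBar (q * M)
  have htors : ∀ y ∈ V, ∃ T : D.TorsData p, R.IsRatTors T ∧ MazurDatum.HasClass T.D y :=
    fun y hy => hrat p y (by rw [natCast_zsmul]; exact hV.torsion y hy)
      (fun σ hσ => hfix σ hσ y hy)
  obtain ⟨T, hT, hTx⟩ := htors x hx
  -- the operator removing the component part
  obtain ⟨ℓ, hℓ, hℓS, hℓN, hψℓ, hℓ3⟩ : ∃ ℓ : ℕ, ℓ.Prime ∧ ℓ ∉ S ∧ ¬ ℓ ∣ q * M ∧
      ψ (Galois.awayHeckeGen (↑S : Set ℕ) ℓ) ≠ (ℓ : k) + 1 ∧ (p = 3 → ℓ % 3 = 2) := by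
    by_cases hp3 : p = 3
    · obtain ⟨ℓ, hℓ, hℓS, hℓN, hℓ3, hψ⟩ := h3 hp3
      refine ⟨ℓ, hℓ, hℓS, hℓN, ?_, fun _ => hℓ3⟩
      have h0 : ((ℓ + 1 : ℕ) : k) = 0 :=
        (CharP.cast_eq_zero_iff k p (ℓ + 1)).mpr (by rw [hp3]; omega)
      push_cast at h0
      rwa [h0]
    · obtain ⟨ℓ, hℓ, hℓS, -, hℓN, hψ⟩ := hne ∅
      exact ⟨ℓ, hℓ, fun h => hℓS (Finset.mem_coe.mpr h), hℓN, hψ, fun h => absurd h hp3⟩
  set τ : Galois.awayHeckeAlg (↑S : Set ℕ) :=
    Galois.awayHeckeGen (↑S : Set ℕ) ℓ - ((ℓ : ℤ) + 1 : ℤ) with hτ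
  have hψτ : ψ τ ≠ 0 := by
    rw [hτ, map_sub, map_intCast, sub_ne_zero]
    push_cast
    exact hψℓ
  have hτs : ∀ y : JZero (q * M),
      (τ : HeckeAlg) • y = heckeOperatorBar (q * M) ⟨ℓ, hℓ⟩ y - ((ℓ : ℤ) + 1) • y := fun y => by
    rw [hτ, Subalgebra.coe_sub, sub_smul, Galois.coe_awayHeckeGen hℓ
      (fun h => hℓS (Finset.mem_coe.mp h))]
    refine congrArg₂ (· - ·) (heckeModuleBar_heckeGen_smul hT' ⟨ℓ, hℓ⟩ y) ?_
    rw [SubringClass.coe_intCast, Int.cast_smul_eq_zsmul]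
  obtain ⟨y, hy, hyx⟩ := hV.exists_smul_eq hψτ hx
  obtain ⟨T', hT'', hTy⟩ := htors y hy
  obtain ⟨O, hOe, hOr, hO3⟩ := h.hecke ⟨ℓ, hℓ⟩ hℓN
  have hreal := MazurDatum.SheetOp.realises_subConst hOr ((ℓ : ℤ) + 1)
  set O' := O.subConst ((ℓ : ℤ) + 1) with hO'
  obtain ⟨c, φ, hc, hφ, hfn⟩ := hreal.exists_fn_eq hTx hTy ((hτs y).symm.trans hyx)
  obtain ⟨φb, -, hord⟩ := O'.toEndo.exists_ord_fnK hc hφ hfn D.s₁ O'.rd₁ D.scale₁ T.γ₁ T'.γ₁
    T.g_mem₁ T.g_red₁ T'.g_mem₁ T'.g_red₁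
  obtain ⟨ha₁, ha₂, hδ⟩ := R.component_kill T hp hp2 hRe hR hT hT'' O'
    (by rw [hO', MazurDatum.SheetOp.subConst_eis, hOe, sub_self]; exact dvd_zero _)
    (fun v _ => by
      have e : O'.dv T'.a₁ v = v.ord (O'.fnK T'.gb₁) :=
        O'.dv_div _ _ T'.g_red₁ T'.a₁_apply v
      refine ⟨-v.ord φb, ?_⟩
      rw [T.a₁_apply, e]
      show v.ord (D.s₁.rd _) - v.ord (O'.toEndo.fnK (D.s₁.rd _)) = _
      rw [hord]
      ring)
    (fun hp3 E hE v hv hnv => by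
      rw [hO', MazurDatum.SheetOp.subConst_dv, Finsupp.sub_apply, Finsupp.smul_apply, smul_eq_mul]
      refine dvd_sub (hO3 (fun h => hqp (h.trans hp3.symm)) (hℓ3 hp3) E hE v hv hnv)
        (dvd_mul_of_dvd_left ?_ _)
      have := hℓ3 hp3
      omega)
  -- an operator killing level `M` which is the identity on `V`
  cases nonempty_fintype k
  have hu : ψ (1 - t ^ (Fintype.card k - 1)) = 0 := by
    rw [map_sub, map_one, map_pow, FiniteField.pow_card_sub_one_eq_one _ hψt, sub_self]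
  have hle : Galois.awayHeckeAlg (↑S : Set ℕ) ≤ Galois.awayHeckeAlg ({q} : Set ℕ) :=
    Algebra.adjoin_mono fun z ⟨l, hl, hz⟩ =>
      ⟨l, fun h => hl (by rw [Set.mem_singleton_iff.mp h]; exact Finset.mem_coe.mpr hqS), hz⟩
  obtain ⟨P, hPr, hPp⟩ := h.special ⟨((t ^ (Fintype.card k - 1) :) : HeckeAlg),
    hle (t ^ (Fintype.card k - 1)).2⟩ fun z => by
      have h1 := Fintype.one_lt_card (α := k)
      obtain ⟨m, hm⟩ := Nat.exists_eq_succ_of_ne_zero (show Fintype.card k - 1 ≠ 0 by omega)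
      letI := heckeModuleBar M
      show ((t ^ (Fintype.card k - 1) : Galois.awayHeckeAlg (↑S : Set ℕ)) : HeckeAlg) • z = 0
      rw [hm, pow_succ', Subalgebra.coe_mul, mul_smul]
      exact smul_eq_zero_of_forms M _ ht _
  have hfix' : ((t ^ (Fintype.card k - 1) : Galois.awayHeckeAlg (↑S : Set ℕ)) : HeckeAlg) • x =
      x := by
    have h1 := hV.eigen _ hu x hx
    rw [Subalgebra.coe_sub, Subalgebra.coe_one, sub_smul, one_smul, sub_eq_zero] at h1
    exact h1.symm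
  obtain ⟨c', φ', hc', hφ', hfn'⟩ := hPr.exists_fn_eq hTx hTx hfix'
  obtain ⟨e₁, he₁, r₁⟩ := P.exists_root hp0 hPp hc' hφ' hfn' D.s₁ P.rd₁ D.scale₁ T.γ₁ T.g_mem₁
    T.g_red₁ T.a₁ T.a₁_apply T.degree_a₁ ha₁
  obtain ⟨e₂, he₂, r₂⟩ := P.exists_root hp0 hPp hc' hφ' hfn' D.s₂ P.rd₂ D.scale₂ T.γ₂ T.g_mem₂
    T.g_red₂ T.a₂ T.a₂_apply T.degree_a₂ ha₂
  obtain ⟨s, hs⟩ := hδ
  obtain ⟨Fr, -⟩ := R.exists_frame T hp0 hT (t := -s) (by rw [hs]; ring) he₁ he₂ r₁ r₂
  obtain ⟨Tw, hTw⟩ := Fr.exists_twist hTx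
  have := hg.smul_twist_eq hp.one_lt.le hpA Tw
  rwa [hTw] at this

/-- **The principle at `q ≠ p` at one place, from the data.** -/
theorem AwayData.occursAtLevel (h : AwayData D) {p : ℕ} (hp : p.Prime) (hp2 : p ≠ 2)
    (hq : q.Prime) (hqp : q ≠ p) (hA : A.LiesOverPrime q) (hpA : (p : kA) ≠ 0) {k : Type} [Field k] [Finite k] [CharP k p]
    {S : Finset ℕ} (hqS : q ∈ S) {ψ : Galois.awayHeckeAlg (↑S : Set ℕ) →+* k}
    (hne : NotEisensteinSystem (q * M) ψ)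
    (h3 : p = 3 → ∃ ℓ : ℕ, ℓ.Prime ∧ ℓ ∉ S ∧ ¬ ℓ ∣ q * M ∧ ℓ % 3 = 2 ∧
      ψ (Galois.awayHeckeGen (↑S : Set ℕ) ℓ) ≠ 0)
    {V : AddSubgroup (JZero (q * M))} (hV : EigenGroup (q * M) p (↑S : Set ℕ) ψ V)
    (hU : UnrNonToricGroup A p q V) : OccursAtLevel M (↑S : Set ℕ) ψ := by
  classical
  intro t ht
  by_contra hψt
  obtain ⟨w, hww, hwσ, hswap⟩ := h.swap
  obtain ⟨F, hF⟩ := FermatLib.Basic.exists_isFrobeniusAt hq A hA
  obtain ⟨g, ⟨hg⟩, hgw⟩ := hswap F hF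
  have hzero : ∀ σ : Γℚ, σ • (0 : JZero (q * M)) = 0 := fun σ =>
    map_zero (DistribSMul.toAddMonoidHom (JZero (q * M)) σ)
  have hadd : ∀ (σ : Γℚ) (x y : JZero (q * M)), σ • (x + y) = σ • x + σ • y := fun σ x y =>
    map_add (DistribSMul.toAddMonoidHom (JZero (q * M)) σ) x y
  have hneg : ∀ (σ : Γℚ) (x : JZero (q * M)), σ • (-x) = -(σ • x) := fun σ x =>
    map_neg (DistribSMul.toAddMonoidHom (JZero (q * M)) σ) x
  have hwF : ∀ x ∈ V, w (F • x) = -(q : ℤ) • x := fun x hx =>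
    (hgw x).symm.trans (h.swap_frobenius_eq hp hp2 hqp hpA hqS hne h3 hV hU.fixed ht hψt hg hx)
  -- `w` preserves `V` and `F = -q w` on it
  have hFx : ∀ x ∈ V, F • x = -(q : ℤ) • w x := fun x hx => by
    rw [← map_zsmul, ← hwF x hx, hww]
  have hwV : ∀ x ∈ V, w x ∈ V := fun x hx => by
    have hm := hV.galois F⁻¹ x hx
    rw [show w x = w (F • F⁻¹ • x) by rw [smul_inv_smul], hwF _ hm]
    exact V.zsmul_mem hm _
  -- an eigenspace of `w` is toric
  have key : ∀ ε : ℤ, ε * ε = 1 → ∀ x ∈ V, w x = ε • x → x = 0 := by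
    intro ε hε x hx hwx
    by_contra hx0
    let W : AddSubgroup (JZero (q * M)) :=
      { carrier := {y | y ∈ V ∧ w y = ε • y}
        zero_mem' := ⟨zero_mem _, by rw [map_zero, zsmul_zero]⟩
        add_mem' := fun {a b} ha hb => ⟨add_mem ha.1 hb.1, by rw [map_add, ha.2, hb.2, zsmul_add]⟩
        neg_mem' := fun {a} ha => ⟨neg_mem ha.1, by rw [map_neg, ha.2, zsmul_neg]⟩ }
    obtain ⟨y, ⟨hy, hwy⟩, hy'⟩ := hU.moved W (fun y hy => hy.1)
      (fun hW => hx0 (by simpa [hW] using (show x ∈ W from ⟨hx, hwx⟩)))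
      (fun σ y hy => ⟨hV.galois σ y hy.1, by
        rw [hwσ, hy.2]
        exact (map_zsmul (DistribSMul.toAddMonoidHom (JZero (q * M)) σ) ε y)⟩)
      F hF (-(q : ℤ) * ε) (by rw [mul_pow, neg_sq, sq ε, hε, mul_one, sub_self]; exact dvd_zero _)
    exact hy' (by rw [hFx y hy, hwy, smul_smul])
  refine hV.ne_bot ((AddSubgroup.eq_bot_iff_forall _).mpr fun x hx => ?_)
  have h1 := key 1 (by norm_num) (x + w x) (add_mem hx (hwV x hx))
    (by rw [map_add, hww, one_zsmul, add_comm])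
  have h2 := key (-1) (by norm_num) (x - w x) (sub_mem hx (hwV x hx))
    (by rw [map_sub, hww, neg_one_zsmul, neg_sub])
  have h2x : (2 : ℕ) • x = 0 := by
    rw [two_nsmul, show x + x = (x + w x) + (x - w x) by abel, h1, h2, add_zero]
  have hcop : Nat.Coprime 2 p := (Nat.coprime_primes Nat.prime_two hp).mpr (Ne.symm hp2)
  have := Nat.dvd_gcd (addOrderOf_dvd_iff_nsmul_eq_zero.mpr h2x)
    (addOrderOf_dvd_iff_nsmul_eq_zero.mpr (hV.torsion x hx))
  rw [hcop.gcd_eq_one, Nat.dvd_one, AddMonoid.addOrderOf_eq_one_iff] at this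
  exact this

/-- **The Mazur principle at `q ≠ p`** from data at every level `qM` and place over `q`. -/
theorem principleAway_of_awayData
    (h : ∀ (q M : ℕ) [NeZero M] [NeZero (q * M)], q.Prime → ¬ q ∣ M →
      ∀ A : ValuationSubring Qbar, A.LiesOverPrime q →
        ∃ D : MazurDatum (IsLocalRing.residue A) (modularFunctionFieldBar (q * M))
            (modularFunctionFieldFullC (IsLocalRing.ResidueField A) M) q,
          AwayData D) : PrincipleAway := by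
  intro p q M hp hp2 hq hqp hqM _ _ k _ _ _ S hqS ψ hne h3 V hV A hA hU
  obtain ⟨D, hD⟩ := h q M hq hqM A hA
  have : IsAlgClosed (IsLocalRing.ResidueField A) := Galois.isAlgClosed_residueField A
  have : CharP (IsLocalRing.ResidueField A) q := Galois.charP_residueField hq hA
  exact hD.occursAtLevel hp hp2 hq hqp hA
    (fun h0 => hqp ((Nat.prime_dvd_prime_iff_eq hq hp).mp
      ((CharP.cast_eq_zero_iff _ q p).mp h0))) hqS hne h3 hV hU

end FermatLib.MazurP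

end
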