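import Fermat.Agent.Galois.MazurP.DeltaUnitNorm
import Mathlib.NumberTheory.ModularForms.DedekindEta
import Fermat.Agent.Mazur.Classes.UnitSeries

/-!
# A cube root of `u(τ) u(lτ)`, `u = Δ(τ)/Δ(qτ)`, on `X₀(N)` for `q l ∣ N`, `3 ∣ l + 1`

`η⁸` has weight `4` with a character of order `3` of `SL₂(ℤ)`, which is inverted by
`γ ↦ diag(l, 1) γ diag(1/l, 1)` when `l ≡ 2 (mod 3)`.
-/

set_option autoImplicit false

noncomputable section

open UpperHalfPlane hiding I
open Filter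
open ModularCurve CongruenceSubgroup
open scoped MatrixGroups ModularForm Manifold

namespace FermatLib.MazurP

open FermatLib.Modular FermatLib.Igusa

local notation "Δ" => ModularForm.discriminant

/-- `η ^ 8` on the upper half plane. -/
def etaEight (τ : ℍ) : ℂ := ModularForm.eta τ ^ 8

theorem etaEight_ne_zero (τ : ℍ) : etaEight τ ≠ 0 := pow_ne_zero _ (ModularForm.eta_ne_zero τ.2)

theorem etaEight_pow_three (τ : ℍ) : etaEight τ ^ 3 = Δ τ := by
  rw [etaEight, ← pow_mul]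
  rfl

theorem mdifferentiable_etaEight : MDiff etaEight := by
  rw [UpperHalfPlane.mdifferentiable_iff]
  refine DifferentiableOn.congr (f := fun z => ModularForm.eta z ^ 8) (fun z hz => ?_) fun z hz => ?_
  · exact ((ModularForm.differentiableAt_eta_of_mem_upperHalfPlaneSet hz).pow 8).differentiableWithinAt
  · simp [etaEight, UpperHalfPlane.ofComplex_apply_of_im_pos hz]

/-- The exponent of the character of `η ^ 8`. -/
def etaChar (a b c d : ZMod 3) : ZMod 3 := (a + d) * c + b * d * (1 - c ^ 2)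

theorem etaChar_mul_T : ∀ a b c d : ZMod 3, a * d - b * c = 1 →
    etaChar a (a + b) c (c + d) = etaChar a b c d + 1 := by
  unfold etaChar; decide

theorem etaChar_mul_S : ∀ a b c d : ZMod 3, a * d - b * c = 1 →
    etaChar b (-a) d (-c) = etaChar a b c d := by
  unfold etaChar; decide

theorem etaChar_conj : ∀ a b c d : ZMod 3,
    etaChar a b c d + etaChar a (-b) (-c) d = 0 := by
  unfold etaChar; decide

/-- The exponent of the character of `η ^ 8` at a matrix. -/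
def etaExp (γ : SL(2, ℤ)) : ZMod 3 :=
  etaChar ((γ 0 0 : ℤ) : ZMod 3) ((γ 0 1 : ℤ) : ZMod 3) ((γ 1 0 : ℤ) : ZMod 3)
    ((γ 1 1 : ℤ) : ZMod 3)

theorem etaExp_one : etaExp 1 = 0 := by
  simp [etaExp, etaChar]

theorem det_entries_zmod (γ : SL(2, ℤ)) :
    ((γ 0 0 : ℤ) : ZMod 3) * (γ 1 1 : ℤ) - ((γ 0 1 : ℤ) : ZMod 3) * (γ 1 0 : ℤ) = 1 := by
  have h := γ.2
  rw [Matrix.det_fin_two] at h
  have h' := congrArg (fun z : ℤ => (z : ZMod 3)) h
  simpa using h'

theorem etaExp_mul_T (γ : SL(2, ℤ)) : etaExp (γ * ModularGroup.T) = etaExp γ + 1 := by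
  rw [etaExp, etaExp, ← etaChar_mul_T _ _ _ _ (det_entries_zmod γ)]
  simp [Matrix.SpecialLinearGroup.coe_mul, ModularGroup.coe_T, Matrix.mul_apply, Fin.sum_univ_two]

theorem etaExp_mul_S (γ : SL(2, ℤ)) : etaExp (γ * ModularGroup.S) = etaExp γ := by
  rw [etaExp, etaExp, ← etaChar_mul_S _ _ _ _ (det_entries_zmod γ)]
  simp [Matrix.SpecialLinearGroup.coe_mul, ModularGroup.coe_S, Matrix.mul_apply, Fin.sum_univ_two]

local notation "ζ₃" => Complex.exp (2 * Real.pi * Complex.I / 3)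

theorem zeta_three_pow : (ζ₃ : ℂ) ^ 3 = 1 := by
  rw [← Complex.exp_nat_mul]
  convert Complex.exp_two_pi_mul_I using 2
  push_cast
  ring

theorem zeta_pow_val_add (a b : ZMod 3) :
    (ζ₃ : ℂ) ^ (a + b).val = ζ₃ ^ a.val * ζ₃ ^ b.val := by
  rw [← pow_add, ZMod.val_add]
  conv_rhs => rw [← Nat.div_add_mod (a.val + b.val) 3, pow_add, pow_mul, zeta_three_pow, one_pow,
    one_mul]

theorem etaEight_slash_T : etaEight ∣[(4 : ℤ)] ModularGroup.T = (ζ₃ : ℂ) • etaEight := by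
  ext z
  rw [ModularForm.SL_slash_apply, denom, modular_T_smul, ModularGroup.T]
  simp [etaEight, ModularForm.eta, ModularForm.eta_q, Function.Periodic.qParam, mul_pow,
    ← Complex.exp_nat_mul]
  rw [← mul_assoc, ← Complex.exp_add]
  congr 1
  · congr 1
    ring
  · congr 1
    refine tprod_congr fun n => ?_
    rw [mul_add, mul_add, mul_one, Complex.exp_add, ← Nat.cast_one, ← Nat.cast_add,
      Complex.exp_nat_mul_two_pi_mul_I, one_mul]

theorem etaEight_slash_S : etaEight ∣[(4 : ℤ)] ModularGroup.S = etaEight := by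
  ext z
  rw [ModularForm.SL_slash_apply, UpperHalfPlane.modular_S_smul]
  have h := ModularForm.eta_comp_eq_csqrt_I_inv z.2
  simp only [Function.comp_apply, Pi.smul_apply, Pi.mul_apply, smul_eq_mul] at h
  simp only [etaEight, denom, ModularGroup.S]
  simp [neg_div, one_div] at h ⊢
  rw [h, mul_pow, mul_pow, inv_pow]
  have hsq : ∀ w : ℂ, Complex.sqrt w ^ 8 = w ^ 4 := fun w => by
    rcases eq_or_ne w 0 with rfl | hw
    · simp [Complex.sqrt]
    rw [sqrt_eq_exp hw, ← Complex.exp_nat_mul,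
      show ((8 : ℕ) : ℂ) * (Complex.log w / 2) = (4 : ℕ) * Complex.log w by push_cast; ring,
      Complex.exp_nat_mul, Complex.exp_log hw]
  rw [hsq, hsq, Complex.I_pow_four, inv_one, one_mul]
  field_simp [z.ne_zero]

/-- `η ^ 8` has weight `4` with character `ζ₃ ^ etaExp`. -/
theorem etaEight_slash (γ : SL(2, ℤ)) :
    etaEight ∣[(4 : ℤ)] γ = ((ζ₃ : ℂ) ^ (etaExp γ).val) • etaEight := by
  have hγ : γ ∈ Subgroup.closure {ModularGroup.S, ModularGroup.T} := by
    simp [SpecialLinearGroup.SL2Z_generators]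
  induction hγ using Subgroup.closure_induction_right with
  | one => simp [etaExp_one]
  | mul_right x _ y hy ih =>
    rw [SlashAction.slash_mul, ih, ModularForm.SL_smul_slash]
    rcases hy with rfl | rfl
    · rw [etaEight_slash_S, etaExp_mul_S]
    · rw [etaEight_slash_T, smul_smul, etaExp_mul_T, zeta_pow_val_add, ZMod.val_one, pow_one]
  | mul_inv_cancel x _ y hy ih =>
    rw [SlashAction.slash_mul, ih, ModularForm.SL_smul_slash]
    rcases hy with rfl | rfl
    · have h : etaEight ∣[(4 : ℤ)] ModularGroup.S⁻¹ = etaEight := by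
        conv_lhs => rw [← etaEight_slash_S]
        rw [← SlashAction.slash_mul, mul_inv_cancel, SlashAction.slash_one]
      rw [h, ← etaExp_mul_S (x * ModularGroup.S⁻¹), inv_mul_cancel_right]
    · have h : etaEight ∣[(4 : ℤ)] ModularGroup.T⁻¹ = (ζ₃ : ℂ) ^ 2 • etaEight := by
        conv_lhs => rw [show etaEight = ((ζ₃ : ℂ) ^ 2) • ((ζ₃ : ℂ) • etaEight) by
          rw [smul_smul, ← pow_succ, zeta_three_pow, one_smul]]
        rw [ModularForm.SL_smul_slash, ← etaEight_slash_T, ← SlashAction.slash_mul, mul_inv_cancel,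
          SlashAction.slash_one]
      have he : etaExp (x * ModularGroup.T⁻¹) = etaExp x + 2 := by
        have := etaExp_mul_T (x * ModularGroup.T⁻¹)
        rw [inv_mul_cancel_right] at this
        rw [this, add_assoc, show (1 : ZMod 3) + 2 = 0 by decide, add_zero]
      rw [h, smul_smul, he, zeta_pow_val_add, show (2 : ZMod 3).val = 2 by decide]

theorem etaEight_smul (γ : SL(2, ℤ)) (τ : ℍ) :
    etaEight (γ • τ) = (ζ₃ : ℂ) ^ (etaExp γ).val * denom γ τ ^ 4 * etaEight τ := by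
  have h := congrFun (etaEight_slash γ) τ
  rw [ModularForm.SL_slash_apply, Pi.smul_apply, smul_eq_mul] at h
  have hd : denom γ τ ≠ 0 := denom_ne_zero γ τ
  rw [zpow_neg, ← div_eq_mul_inv, div_eq_iff (zpow_ne_zero _ hd), zpow_ofNat] at h
  rw [h]
  ring

/-- `η⁸(τ) η⁸(lτ)`. -/
def etaPair (l : ℕ) (τ : ℍ) : ℂ := etaEight τ * etaEight (ModularForm.heckeDiagMatrix l • τ)

theorem denom_lowerDiv {N d : ℕ} [NeZero N] [NeZero d] (hd : d ∣ N) (γ : Gamma0 N) (τ : ℍ) :
    denom (lowerDiv hd γ) (ModularForm.heckeDiagMatrix d • τ : ℍ) =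
      denom (γ : SL(2, ℤ)) τ := by
  obtain ⟨c, hc⟩ := (Int.natCast_dvd_natCast.mpr hd).trans (Modular.Gamma0_mem_iff_dvd.mp γ.2)
  have hd0 : (d : ℤ) ≠ 0 := by exact_mod_cast NeZero.ne d
  simp [denom, lowerDiv, ModularForm.coe_heckeDiagMatrix_smul (NeZero.ne d), hc,
    Int.mul_ediv_cancel_left _ hd0]
  ring

theorem etaExp_add_lowerDiv {N l : ℕ} [NeZero N] [NeZero l] (hl : l ∣ N) (h3 : 3 ∣ l + 1)
    (γ : Gamma0 N) : etaExp (γ : SL(2, ℤ)) + etaExp (lowerDiv hl γ) = 0 := by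
  obtain ⟨c, hc⟩ := (Int.natCast_dvd_natCast.mpr hl).trans (Modular.Gamma0_mem_iff_dvd.mp γ.2)
  have hl0 : (l : ℤ) ≠ 0 := by exact_mod_cast NeZero.ne l
  have hl3 : (l : ZMod 3) = -1 := by
    rw [eq_neg_iff_add_eq_zero]
    have h := (ZMod.natCast_eq_zero_iff (l + 1) 3).mpr h3
    simpa using h
  simp [etaExp, lowerDiv, hc, Int.mul_ediv_cancel_left _ hl0, hl3]
  have h := etaChar_conj (((γ : SL(2, ℤ)) 0 0 : ℤ) : ZMod 3) (((γ : SL(2, ℤ)) 0 1 : ℤ) : ZMod 3)
    (-(c : ZMod 3)) (((γ : SL(2, ℤ)) 1 1 : ℤ) : ZMod 3)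
  rwa [neg_neg] at h

theorem etaPair_smul {N l : ℕ} [NeZero N] [NeZero l] (hl : l ∣ N) (h3 : 3 ∣ l + 1)
    (γ : Gamma0 N) (τ : ℍ) :
    etaPair l ((γ : SL(2, ℤ)) • τ) = denom (γ : SL(2, ℤ)) τ ^ 8 * etaPair l τ := by
  have h := zeta_pow_val_add (etaExp (γ : SL(2, ℤ))) (etaExp (lowerDiv hl γ))
  rw [etaExp_add_lowerDiv hl h3, ZMod.val_zero, pow_zero] at h
  rw [etaPair, etaPair, diag_smul_eq_lowerDiv hl, etaEight_smul, etaEight_smul, denom_lowerDiv hl]
  linear_combination -(denom (γ : SL(2, ℤ)) τ ^ 8 * etaEight τ *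
    etaEight (ModularForm.heckeDiagMatrix l • τ)) * h

/-- `η⁸(τ) η⁸(lτ) / (η⁸(qτ) η⁸(qlτ))`. -/
def rootUnitFun (q l : ℕ) (τ : ℍ) : ℂ :=
  etaPair l τ / etaPair l (ModularForm.heckeDiagMatrix q • τ)

theorem etaPair_ne_zero (l : ℕ) (τ : ℍ) : etaPair l τ ≠ 0 :=
  mul_ne_zero (etaEight_ne_zero _) (etaEight_ne_zero _)

variable {N q l : ℕ} [NeZero N] [NeZero q] [NeZero l]

theorem rootUnitFun_pow_three (τ : ℍ) :
    rootUnitFun q l τ ^ 3 =
      deltaUnitFun q τ * deltaUnitFun q (ModularForm.heckeDiagMatrix l • τ) := by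
  have h : ModularForm.heckeDiagMatrix l • (ModularForm.heckeDiagMatrix q • τ) =
      ModularForm.heckeDiagMatrix q • (ModularForm.heckeDiagMatrix l • τ) := by
    apply UpperHalfPlane.ext
    simp only [ModularForm.coe_heckeDiagMatrix_smul (NeZero.ne l),
      ModularForm.coe_heckeDiagMatrix_smul (NeZero.ne q)]
    ring
  rw [rootUnitFun, etaPair, etaPair, div_pow, mul_pow, mul_pow, etaEight_pow_three,
    etaEight_pow_three, etaEight_pow_three, etaEight_pow_three, deltaUnitFun_eq, deltaUnitFun_eq,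
    h, mul_div_mul_comm]

theorem rootUnitFun_smul (hql : q * l ∣ N) (h3 : 3 ∣ l + 1) (γ : Gamma0 N) (τ : ℍ) :
    rootUnitFun q l ((γ : SL(2, ℤ)) • τ) = rootUnitFun q l τ := by
  have hq : q ∣ N := (dvd_mul_right q l).trans hql
  have hl : l ∣ N := (dvd_mul_left l q).trans hql
  have hmem : lowerDiv hq γ ∈ Gamma0 l := by
    obtain ⟨c, hc⟩ := (Int.natCast_dvd_natCast.mpr hq).trans (Modular.Gamma0_mem_iff_dvd.mp γ.2)
    have hd := (Int.natCast_dvd_natCast.mpr hql).trans (Modular.Gamma0_mem_iff_dvd.mp γ.2)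
    have hq0 : (q : ℤ) ≠ 0 := by exact_mod_cast NeZero.ne q
    refine Modular.Gamma0_mem_iff_dvd.mpr ?_
    show (l : ℤ) ∣ (γ : SL(2, ℤ)) 1 0 / q
    rw [hc, Int.mul_ediv_cancel_left _ hq0]
    rw [hc, Nat.cast_mul] at hd
    exact (mul_dvd_mul_iff_left hq0).mp hd
  rw [rootUnitFun, rootUnitFun, diag_smul_eq_lowerDiv hq, etaPair_smul hl h3,
    etaPair_smul (dvd_refl l) h3 ⟨_, hmem⟩, denom_lowerDiv hq,
    mul_div_mul_left _ _ (pow_ne_zero _ (denom_ne_zero _ τ))]

theorem mdifferentiable_etaPair : MDiff (etaPair l) :=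
  mdifferentiable_etaEight.mul (mdifferentiable_etaEight.comp
    (UpperHalfPlane.mdifferentiable_smul (ModularForm.det_heckeDiagMatrix_pos l)))

theorem rootUnitFun_mem_weakMod (hql : q * l ∣ N) (h3 : 3 ∣ l + 1) :
    rootUnitFun q l ∈ weakMod (Gamma0 N) := by
  have hdiag := UpperHalfPlane.mdifferentiable_smul (ModularForm.det_heckeDiagMatrix_pos q)
  refine mem_weakMod.mpr ⟨mdifferentiable_etaPair.div (mdifferentiable_etaPair.comp hdiag)
    fun τ => etaPair_ne_zero _ _, fun γ hγ τ => rootUnitFun_smul hql h3 ⟨γ, hγ⟩ τ, fun γ => ?_⟩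
  have : NeZero (l * q) := ⟨Nat.mul_ne_zero (NeZero.ne l) (NeZero.ne q)⟩
  have hlq : l * q ∣ N := mul_comm q l ▸ hql
  -- the cube is a product of units
  have hcube : rootUnitFun q l ^ 3 =
      deltaUnitFun q * (deltaQuotFun l * deltaUnitFun (l * q)) := by
    funext τ
    rw [Pi.pow_apply, rootUnitFun_pow_three, Pi.mul_apply, Pi.mul_apply]
    refine congrArg (deltaUnitFun q τ * ·) ?_
    have hdd : ModularForm.heckeDiagMatrix (l * q) • τ =
        ModularForm.heckeDiagMatrix q • (ModularForm.heckeDiagMatrix l • τ) := by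
      apply UpperHalfPlane.ext
      simp only [ModularForm.coe_heckeDiagMatrix_smul (NeZero.ne q),
        ModularForm.coe_heckeDiagMatrix_smul (NeZero.ne l),
        ModularForm.coe_heckeDiagMatrix_smul (NeZero.ne (l * q))]
      push_cast
      ring
    rw [deltaUnitFun_eq, deltaUnitFun_eq, deltaQuotFun, hdd]
    field_simp [ModularForm.discriminant_ne_zero]
  have h3mem : rootUnitFun q l ^ 3 ∈ weakMod (Gamma0 N) := hcube ▸
    mul_mem (deltaUnitFun_mem_weakMod ((dvd_mul_right q l).trans hql))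
      (mul_mem (deltaQuotFun_mem_weakMod ((dvd_mul_left l q).trans hql))
        (deltaUnitFun_mem_weakMod hlq))
  obtain ⟨m, hm⟩ := (mem_weakMod.mp h3mem).2.2 γ
  have hm3 : IsBoundedAtImInfty _ :=
    BoundedAtFilter.mul hm (isBoundedAtImInfty_discriminant_pow (2 * m))
  refine ⟨m, ?_⟩
  rw [isBoundedAtImInfty_iff] at hm3 ⊢
  obtain ⟨M, A, hMA⟩ := hm3
  refine ⟨max 1 M, A, fun z hz => ?_⟩
  have h := hMA z hz
  rw [show ((fun τ => (rootUnitFun q l ^ 3) (γ • τ)) * (Δ : ℍ → ℂ) ^ m * (Δ : ℍ → ℂ) ^ (2 * m)) z =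
      (rootUnitFun q l (γ • z) * Δ z ^ m) ^ 3 by
    simp only [Pi.mul_apply, Pi.pow_apply]; ring, norm_pow] at h
  rcases le_or_gt ‖rootUnitFun q l (γ • z) * Δ z ^ m‖ 1 with h1 | h1
  · exact le_max_of_le_left h1
  · exact le_max_of_le_right ((le_self_pow₀ h1.le (by norm_num)).trans h)

/-- `∏ (1 - Tⁿ)⁸`. -/
def etaEightSeries : LaurentSeries ℚ :=
  HahnSeries.ofPowerSeries ℤ ℚ ((etaProd ^ 8).map (Int.castRingHom ℚ))

theorem deltaSeries_eq_etaEightSeries :
    deltaSeries = HahnSeries.single (1 : ℤ) 1 * etaEightSeries ^ 3 := by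
  rw [FermatLib.Mazur.Classes.deltaSeries_eq, etaEightSeries, ← map_pow, ← map_pow, ← pow_mul]
  rfl

/-- The expansion of `u(τ) u(lτ)` is a cube. -/
theorem exists_series_pow_three (q l : ℕ) [NeZero q] [NeZero l] (h3 : 3 ∣ l + 1) :
    ∃ s : LaurentSeries ℚ,
      s ^ 3 = modularUnitSeries q * qExpand ℚ l (modularUnitSeries q) := by
  obtain ⟨m, hm⟩ := h3
  set H : LaurentSeries ℚ :=
    HahnSeries.single (m : ℤ) 1 * (etaEightSeries * qExpand ℚ l etaEightSeries)
  have hH : H ^ 3 = deltaSeries * qExpand ℚ l deltaSeries := by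
    rw [deltaSeries_eq_etaEightSeries, map_mul, map_pow, qExpand_single]
    simp only [H, mul_pow, HahnSeries.single_pow, one_pow]
    rw [show (3 : ℕ) • (m : ℤ) = 1 + (l : ℤ) * 1 by
      rw [nsmul_eq_mul]; omega]
    rw [mul_mul_mul_comm, HahnSeries.single_mul_single, one_mul]
  refine ⟨H / qExpand ℚ q H, ?_⟩
  rw [div_pow, ← map_pow, hH, modularUnitSeries, deltaSeriesN, map_mul, map_mul, map_inv₀,
    qExpand_qExpand, qExpand_qExpand, qExpand_congr (mul_comm q l), div_eq_mul_inv, mul_inv]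
  ring

/-- A cube root of `u(τ) u(lτ)` in the rational function field of `X₀(N)`. -/
theorem exists_root_mem_full (hql : q * l ∣ N) (h3 : 3 ∣ l + 1) :
    ∃ s ∈ modularFunctionFieldFull N,
      s ^ 3 = modularUnitSeries q * qExpand ℚ l (modularUnitSeries q) := by
  obtain ⟨s, hs⟩ := exists_series_pow_three q l h3
  have hG := rootUnitFun_mem_weakMod hql h3
  have hqG := weakMod_Gamma0_le_qMero N hG
  have hu : deltaUnitFun q ∈ qMero :=
    weakMod_Gamma0_le_qMero q (deltaUnitFun_mem_weakMod dvd_rfl)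
  have hq3 : qExpL (rootUnitFun q l) ^ 3 = coeffEmb ℂ s ^ 3 := by
    rw [← map_pow, hs, map_mul, coeffEmb_qExpand, ← qExpL_deltaUnitFun,
      ← qExpL_comp_diag hu l, ← qExpL_mul hu (comp_diag_mem_qMero hu l), pow_three,
      ← qExpL_mul hqG hqG, ← qExpL_mul hqG (mul_mem hqG hqG)]
    refine congrArg qExpL (funext fun τ => ?_)
    rw [Pi.mul_apply, Pi.mul_apply, Pi.mul_apply, ← rootUnitFun_pow_three]
    ring
  have hs0 : coeffEmb ℂ s ≠ 0 := by
    refine (map_ne_zero_iff _ (coeffEmb ℂ).injective).mpr fun h0 => ?_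
    rw [h0, zero_pow (by norm_num)] at hs
    exact mul_ne_zero (modularUnitSeries_ne_zero q)
      ((map_ne_zero _).mpr (modularUnitSeries_ne_zero q)) hs.symm
  have hG0 : qExpL (rootUnitFun q l) ≠ 0 := fun h0 => by
    rw [h0, zero_pow (by norm_num)] at hq3
    exact pow_ne_zero 3 hs0 hq3.symm
  obtain ⟨i, -, hi⟩ := ((Complex.isPrimitiveRoot_exp 3 (by norm_num)).map_of_injective
    (f := algebraMap ℂ (LaurentSeries ℂ)) (RingHom.injective _)).eq_pow_of_pow_eq_one
    (ξ := coeffEmb ℂ s / qExpL (rootUnitFun q l))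
    (by rw [div_pow, hq3, div_self (pow_ne_zero 3 hs0)])
  refine ⟨s, mem_of_coeffEmb_mem_laurentBaseChange (L := ℂ) ?_, hs⟩
  rw [eq_div_iff hG0] at hi
  rw [← hi, ← map_pow]
  exact mul_mem (IntermediateField.algebraMap_mem _ _) (qExpL_mem_modularFunctionFieldCx N hG)

end FermatLib.MazurP

end
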