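import Fermat.Prelude.Def_ModularCurve_HeckeModule
import Fermat.Prelude.Def_FLTPrelim_ModularRep
import Fermat.Agent.Galois.MazurP.InertiaField

/-!
# The core of the Mazur principle at `p`

A `p`-torsion point of `J₀(pM)`, `p ∤ M`, which is very little ramified at `p` and is an
eigenvector of a non-Eisenstein system of Hecke eigenvalues mod `p` away from a finite set of
primes, forces that system to occur in level `M`.
-/

set_option autoImplicit false

noncomputable section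

namespace FermatLib.MazurP

open ModularCurve ModularFormClass

local notation "Qbar" => AlgebraicClosure ℚ

/-- The system `a` occurs mod `p` in level `M`, away from `S`. -/
def OccursModP (p M : ℕ) (S : Finset ℕ) (a : ℕ → ℤ) : Prop :=
  ∃ (f : CuspForm (CongruenceSubgroup.Gamma0 M) 2) (𝔪 : Ideal (integralClosure ℤ ℂ)),
    f.IsNormalizedEigenform ∧ 𝔪.IsMaximal ∧ (p : integralClosure ℤ ℂ) ∈ 𝔪 ∧
    ∀ ℓ : ℕ, ℓ.Prime → ℓ ∉ S →
      ∃ α : integralClosure ℤ ℂ, (α : ℂ) = qCoeff f ℓ ∧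
        α - ((a ℓ : ℤ) : integralClosure ℤ ℂ) ∈ 𝔪

/-- A point of `J₀(N)` killed by `p` with Hecke eigenvalues `a` away from `S`. -/
structure EigenPoint (N p : ℕ) [NeZero N] (S : Finset ℕ) (a : ℕ → ℤ) (x : JZero N) : Prop where
  ne_zero : x ≠ 0
  torsion : (p : ℤ) • x = 0
  eigen : ∀ ℓ : Nat.Primes, (ℓ : ℕ) ∉ S → heckeOperatorBar N ℓ x = a ℓ • x

/-- The system `a` is not Eisenstein mod `p`. -/
def NotEisenstein (p : ℕ) (S : Finset ℕ) (a : ℕ → ℤ) : Prop :=
  ∃ ℓ : ℕ, ℓ.Prime ∧ ℓ ∉ S ∧ ¬ (p : ℤ) ∣ a ℓ - ℓ - 1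

/-- The Mazur principle at `p` on torsion points. -/
def PrincipleAtP : Prop :=
  ∀ (p M : ℕ), p.Prime → 5 ≤ p → ¬ p ∣ M → 0 < M → ∀ [NeZero (p * M)] (S : Finset ℕ),
    (∀ ℓ : ℕ, ℓ.Prime → ℓ ∣ p * M → ℓ ∈ S) →
    ∀ (a : ℕ → ℤ) (x : JZero (p * M)), EigenPoint (p * M) p S a x → NotEisenstein p S a →
      ∀ A : ValuationSubring Qbar, A.LiesOverPrime p → PeuPoint A p x → OccursModP p M S a

end FermatLib.MazurP

end
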