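import Fermat.Agent.Galois.MazurP.Diag
import Fermat.Agent.Igusa.MonoConnected

/-!
The two sheets of reduction of `X₀(qM)` with orthogonality on each sheet and the unit
`u = Δ(τ)/Δ(qτ)`: reductions for shifted lattices, torsion data, and the bound divisors.
-/

set_option autoImplicit false

noncomputable section

open AlgebraicCurve FermatLib.Igusa FermatLib.Igusa.Mono

namespace FermatLib.MazurP

universe uL uF uk uKb

variable {L : Type uL} {k : Type uk} [Field L] [Field k] {A : ValuationSubring L} {π : A →+* k}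
  {F : Type uF} {Kb : Type uKb} [Field F] [Algebra L F] [Field Kb] [Algebra k Kb]

/-- Every finite dimensional subspace has a basis of integral elements with independent
reductions on the sheet. -/
def SheetOrth (s : Sheet π F Kb) : Prop :=
  ∀ W : Submodule L F, FiniteDimensional L W → ∃ (n : ℕ) (e : Fin n → F),
    (∀ i, e i ∈ s.W) ∧ (∀ i, e i ∈ W) ∧ W ≤ Submodule.span L (Set.range e) ∧
      LinearIndependent k fun i => s.rd (e i)

/-- The lattice of a sheet. -/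
def sheetLat (s : Sheet π F Kb) (hs : SheetOrth s) (hsurj : Function.Surjective π)
    (hπ : ∀ a : A, ¬ IsUnit a → π a = 0) : LatRed A π F Kb where
  lat := s.W.toSubring.toAddSubgroup
  red :=
    { toFun := fun f => s.rd f
      map_zero' := s.rd_zero
      map_add' := fun f g => Sheet.rd_add f.2 g.2 }
  smul_mem a _ hf := Sheet.smul_mem a.2 hf
  red_smul a f := Sheet.rd_smul a.2 f.2
  surjective_res := hsurj
  res_eq_zero := hπ
  exists_orth W hW := by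
    obtain ⟨n, e, he, heW, hspan, hli⟩ := hs W hW
    exact ⟨n, fun i => ⟨e i, he i⟩, heW, hspan, hli⟩

/-- Two sheets with orthogonality on each of them and a unit `u` with `|u|₁ = 1`,
`|u|₂ = |q| ^ 12`, all of whose zeros and poles are poles of `x`. -/
structure MazurDatum {L : Type uL} {k : Type uk} [Field L] [Field k] {A : ValuationSubring L}
    (π : A →+* k) (F : Type uF) (Kb : Type uKb) [Field F] [Algebra L F] [Field Kb] [Algebra k Kb]
    (q : ℕ) extends MonoDatum π F Kb q where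
  orth₁ : SheetOrth toMonoDatum.s₁
  orth₂ : SheetOrth toMonoDatum.s₂
  q_ne : (q : L) ≠ 0
  q_small : A.valuation (q : L) < 1
  valueGroup : ∀ c : L, c ≠ 0 → ∃ (m : ℕ) (z : ℤ), 0 < m ∧
    A.valuation c ^ m = A.valuation (q : L) ^ z
  u : F
  u_ne : u ≠ 0
  u_pole : ∃ c : ℕ, u ∈ riemannRochSpace (c • toMonoDatum.Px) ∧
    u⁻¹ ∈ riemannRochSpace (c • toMonoDatum.Px)
  u_mem₁ : u ∈ toMonoDatum.s₁.W
  u_red₁ : toMonoDatum.s₁.rd u ≠ 0
  u_mem₂ : ((q : L) ^ 12)⁻¹ • u ∈ toMonoDatum.s₂.W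
  u_red₂ : toMonoDatum.s₂.rd (((q : L) ^ 12)⁻¹ • u) ≠ 0

namespace MazurDatum

variable {q : ℕ} (M : MazurDatum π F Kb q)

include M in
theorem res_eq_zero : ∀ a : A, ¬ IsUnit a → π a = 0 := fun a h => (M.π_eq_zero a).mpr h

/-- The lattice of the first sheet. -/
def lat₁ : LatRed A π F Kb := sheetLat M.s₁ M.orth₁ M.π_surjective M.res_eq_zero

/-- The lattice of the second sheet. -/
def lat₂ : LatRed A π F Kb := sheetLat M.s₂ M.orth₂ M.π_surjective M.res_eq_zero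

/-- Pairs of reductions after dividing by `β₁` on the first and `β₂` on the second sheet. -/
def shift (β₁ β₂ : Lˣ) : LatRed A π F (Kb × Kb) :=
  (M.lat₁.scale (β₁ : L) β₁.ne_zero).pair (M.lat₂.scale (β₂ : L) β₂.ne_zero)

/-- Reductions of a subspace for a shift. -/
abbrev sred (β₁ β₂ : Lˣ) (V : Submodule L F) : Submodule k (Kb × Kb) :=
  (M.shift β₁ β₂).redSpace V

theorem mem_sred {β₁ β₂ : Lˣ} {V : Submodule L F} {r : Kb × Kb} :
    r ∈ M.sred β₁ β₂ V ↔ ∃ f ∈ V, (β₁ : L)⁻¹ • f ∈ M.s₁.W ∧ (β₂ : L)⁻¹ • f ∈ M.s₂.W ∧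
      M.s₁.rd ((β₁ : L)⁻¹ • f) = r.1 ∧ M.s₂.rd ((β₂ : L)⁻¹ • f) = r.2 := by
  constructor
  · rintro ⟨⟨f, h₁, h₂⟩, hf, rfl⟩
    exact ⟨f, hf, h₁, h₂, rfl, rfl⟩
  · rintro ⟨f, hf, h₁, h₂, e₁, e₂⟩
    exact ⟨⟨f, h₁, h₂⟩, hf, Prod.ext e₁ e₂⟩

theorem finrank_sred (β₁ β₂ : Lˣ) (V : Submodule L F) [FiniteDimensional L V] :
    Module.finrank k (M.sred β₁ β₂ V) = Module.finrank L V :=
  (M.shift β₁ β₂).finrank_redSpace V

/-- The reduction of `u` on the first sheet. -/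
def ub₁ : Kb := M.s₁.rd M.u

/-- The reduction of `u / q ^ 12` on the second sheet. -/
def ub₂ : Kb := M.s₂.rd (((q : L) ^ 12)⁻¹ • M.u)

include M in
theorem exists_finite_part (f : Kb) (hf : f ≠ 0) (P : Divisor k Kb) :
    ∃ D : Divisor k Kb, ∀ v, D v = if P v = 0 then v.ord f else 0 := by
  classical
  obtain ⟨E, hE, -⟩ := M.rrK.exists_div hf
  refine ⟨Finsupp.onFinset E.support (fun v => if P v = 0 then v.ord f else 0) fun v hv => ?_,
    fun v => rfl⟩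
  rw [Finsupp.mem_support_iff, hE]
  intro h0
  simp [h0] at hv

/-- The orders of `ub₁` away from the poles. -/
def h₁ : Divisor k Kb := (M.exists_finite_part M.ub₁ M.u_red₁ M.P₁).choose

/-- The orders of `ub₂` away from the poles. -/
def h₂ : Divisor k Kb := (M.exists_finite_part M.ub₂ M.u_red₂ M.P₂).choose

theorem h₁_apply (v : Place k Kb) : M.h₁ v = if M.P₁ v = 0 then v.ord M.ub₁ else 0 :=
  (M.exists_finite_part M.ub₁ M.u_red₁ M.P₁).choose_spec v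

theorem h₂_apply (v : Place k Kb) : M.h₂ v = if M.P₂ v = 0 then v.ord M.ub₂ else 0 :=
  (M.exists_finite_part M.ub₂ M.u_red₂ M.P₂).choose_spec v

/-- A divisor whose `p`-th multiple is the divisor of `g`, with normalising constants of `g` on
the two sheets. -/
structure TorsData (p : ℕ) where
  D : Divisor L F
  g : F
  g_ne : g ≠ 0
  div : ∀ v, (p : ℤ) * D v = v.ord g
  γ₁ : Lˣ
  γ₂ : Lˣ
  g_mem₁ : (γ₁ : L)⁻¹ • g ∈ M.s₁.W
  g_red₁ : M.s₁.rd ((γ₁ : L)⁻¹ • g) ≠ 0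
  g_mem₂ : (γ₂ : L)⁻¹ • g ∈ M.s₂.W
  g_red₂ : M.s₂.rd ((γ₂ : L)⁻¹ • g) ≠ 0

variable {M} {p : ℕ}

namespace TorsData

variable (T : M.TorsData p)

/-- The reduction of `g` on the first sheet. -/
def gb₁ : Kb := M.s₁.rd ((T.γ₁ : L)⁻¹ • T.g)

/-- The reduction of `g` on the second sheet. -/
def gb₂ : Kb := M.s₂.rd ((T.γ₂ : L)⁻¹ • T.g)

theorem gb₁_ne : T.gb₁ ≠ 0 := T.g_red₁

theorem gb₂_ne : T.gb₂ ≠ 0 := T.g_red₂

/-- The divisor of `gb₁`. -/
def a₁ : Divisor k Kb := (M.rrK.exists_div T.gb₁_ne).choose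

/-- The divisor of `gb₂`. -/
def a₂ : Divisor k Kb := (M.rrK.exists_div T.gb₂_ne).choose

theorem a₁_apply (v : Place k Kb) : T.a₁ v = v.ord T.gb₁ :=
  (M.rrK.exists_div T.gb₁_ne).choose_spec.1 v

theorem a₂_apply (v : Place k Kb) : T.a₂ v = v.ord T.gb₂ :=
  (M.rrK.exists_div T.gb₂_ne).choose_spec.1 v

theorem degree_a₁ : Divisor.degree T.a₁ = 0 := (M.rrK.exists_div T.gb₁_ne).choose_spec.2

theorem degree_a₂ : Divisor.degree T.a₂ = 0 := (M.rrK.exists_div T.gb₂_ne).choose_spec.2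

theorem degree_D (hp : p ≠ 0) : Divisor.degree T.D = 0 := by
  obtain ⟨E, hE, hE0⟩ := M.rrF.exists_div T.g_ne
  have h : p • T.D = E := Finsupp.ext fun v => by
    rw [Finsupp.smul_apply, nsmul_eq_mul, hE, T.div]
  have h2 := congrArg Divisor.degree h
  rw [map_nsmul, hE0, nsmul_eq_mul, mul_eq_zero] at h2
  exact h2.resolve_left (by exact_mod_cast hp)

/-- The inverse data. -/
def neg : M.TorsData p where
  D := -T.D
  g := T.g⁻¹
  g_ne := inv_ne_zero T.g_ne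
  div v := by rw [Finsupp.neg_apply, mul_neg, T.div, v.ord_inv]
  γ₁ := T.γ₁⁻¹
  γ₂ := T.γ₂⁻¹
  g_mem₁ := by
    simpa [smul_inv₀] using Sheet.inv_mem_of_rd_ne T.g_mem₁ T.g_red₁
  g_red₁ := by
    have h := Sheet.rd_inv T.g_mem₁ T.g_red₁
    simp only [smul_inv₀, inv_inv] at h
    simpa [h] using T.g_red₁
  g_mem₂ := by
    simpa [smul_inv₀] using Sheet.inv_mem_of_rd_ne T.g_mem₂ T.g_red₂
  g_red₂ := by
    have h := Sheet.rd_inv T.g_mem₂ T.g_red₂
    simp only [smul_inv₀, inv_inv] at h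
    simpa [h] using T.g_red₂

theorem neg_gb₁ : T.neg.gb₁ = T.gb₁⁻¹ := by
  rw [gb₁, gb₁, ← Sheet.rd_inv T.g_mem₁ T.g_red₁]
  simp [neg, smul_inv₀]

theorem neg_gb₂ : T.neg.gb₂ = T.gb₂⁻¹ := by
  rw [gb₂, gb₂, ← Sheet.rd_inv T.g_mem₂ T.g_red₂]
  simp [neg, smul_inv₀]

theorem neg_a₁ : T.neg.a₁ = -T.a₁ :=
  Finsupp.ext fun v => by rw [Finsupp.neg_apply, a₁_apply, a₁_apply, neg_gb₁, v.ord_inv]

theorem neg_a₂ : T.neg.a₂ = -T.a₂ :=
  Finsupp.ext fun v => by rw [Finsupp.neg_apply, a₂_apply, a₂_apply, neg_gb₂, v.ord_inv]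

/-- The shift `(β₁, β₂)` balances `g ^ m` against `u ^ j`. -/
def Balanced (β₁ β₂ : Lˣ) (m : ℕ) (j : ℤ) : Prop :=
  A.valuation (β₂ : L) ^ (p * m) * A.valuation (T.γ₂ : L) ^ m =
    A.valuation (β₁ : L) ^ (p * m) * A.valuation (T.γ₁ : L) ^ m *
      A.valuation (q : L) ^ (12 * j)

theorem Balanced.neg {β₁ β₂ : Lˣ} {m : ℕ} {j : ℤ} (h : T.Balanced β₁ β₂ m j) :
    T.neg.Balanced β₁⁻¹ β₂⁻¹ m (-j) := by
  have := congrArg (·⁻¹) h
  simpa [Balanced, TorsData.neg, mul_inv, inv_pow, zpow_neg, mul_comm, mul_left_comm,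
    mul_assoc] using this

/-- `num₁ = m a₁ - j h₁`; a reduction has order at least `-num₁ / (p m)`. -/
def num₁ (m : ℕ) (j : ℤ) : Divisor k Kb := (m : ℤ) • T.a₁ - j • M.h₁

/-- `num₂ = m a₂ - j h₂`. -/
def num₂ (m : ℕ) (j : ℤ) : Divisor k Kb := (m : ℤ) • T.a₂ - j • M.h₂

theorem num₁_neg (m : ℕ) (j : ℤ) : T.neg.num₁ m (-j) = -T.num₁ m j := by
  rw [num₁, num₁, neg_a₁, smul_neg, neg_smul]
  abel

theorem num₂_neg (m : ℕ) (j : ℤ) : T.neg.num₂ m (-j) = -T.num₂ m j := by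
  rw [num₂, num₂, neg_a₂, smul_neg, neg_smul]
  abel

/-- The bound on the first sheet. -/
def B₁ (n m : ℕ) (j : ℤ) : Divisor k Kb :=
  n • M.P₁ + (T.num₁ m j).mapRange (fun x : ℤ => x / ((p * m : ℕ) : ℤ)) (Int.zero_ediv _)

/-- The bound on the second sheet. -/
def B₂ (n m : ℕ) (j : ℤ) : Divisor k Kb :=
  n • M.P₂ + (T.num₂ m j).mapRange (fun x : ℤ => x / ((p * m : ℕ) : ℤ)) (Int.zero_ediv _)

theorem B₁_apply (n m : ℕ) (j : ℤ) (v : Place k Kb) :
    T.B₁ n m j v = n * M.P₁ v + T.num₁ m j v / ((p * m : ℕ) : ℤ) := by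
  simp [B₁]

theorem B₂_apply (n m : ℕ) (j : ℤ) (v : Place k Kb) :
    T.B₂ n m j v = n * M.P₂ v + T.num₂ m j v / ((p * m : ℕ) : ℤ) := by
  simp [B₂]

end TorsData

end MazurDatum

end FermatLib.MazurP

end
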