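import Fermat.Agent.Galois.MazurP.DegeneracyHecke
import Fermat.Agent.Modular.CorrNorm
import Fermat.Agent.Igusa.CongruenceDivisor
import Fermat.Agent.Igusa.MonoPushModular

/-!
# The operator `U_q` on the torsion of `J₀(qM)` in the kernel of the degeneracy push-forward

The fibre product of two copies of `X₀(qM)` over `X₀(M)` is `X₀(q²M)` and one more copy of
`X₀(qM)`, the graph of `w_q`. Hence `U_q + w_q = π_q^* π_{1*}` on divisors, and `U_q = -w_q` on
torsion classes killed by `π_{1*}`.
-/

set_option autoImplicit false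
set_option linter.style.haveILetI false
set_option synthInstance.maxHeartbeats 200000

noncomputable section

open AlgebraicCurve ModularCurve

namespace FermatLib.MazurP

open FermatLib.Modular FermatLib.Modular.Corr FermatLib.Igusa FermatLib.Igusa.Mono

section Split

variable {K F₀ F₁ F F'' : Type*} [Field K] [Field F₀] [Field F₁] [Field F] [Field F'']
  [Algebra K F₀] [Algebra K F₁] [Algebra K F] [Algebra K F''] [CharZero F₀] [CharZero F]

/-- A square whose top field is the compositum and has degree one less is completed by a section: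
the norm is the product of the norm of the square and the value of the section. -/
theorem normAlong_eq_mul_of_section (a : F₀ →ₐ[K] F₁) (u : F₀ →ₐ[K] F) (b : F →ₐ[K] F'')
    (u' : F₁ →ₐ[K] F'') (s : F₁ →ₐ[K] F) (hcomm : u'.comp a = b.comp u) (hsa : s.comp a = u)
    (hfa : FiniteAlong K a) (hfb : FiniteAlong K b)
    (hdeg : finrankAlong K a = finrankAlong K b + 1) (htwo : 2 ≤ finrankAlong K b)
    (hgen : Subfield.closure (Set.range b ∪ Set.range u') = ⊤) (f : F₁) :
    u (normAlong a f) = normAlong b (u' f) * s f := by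
  classical
  letI := algebraAlong b
  haveI : Module.Finite F F'' := hfb
  let c : F →+* AlgebraicClosure F := algebraMap F (AlgebraicClosure F)
  let ψ : Option (F'' →ₐ[F] AlgebraicClosure F) → F₁ →+* AlgebraicClosure F := fun o =>
    o.elim (c.comp (s : F₁ →+* F)) fun σ => σ.toRingHom.comp (u' : F₁ →+* F'')
  have hψ : ∀ o x, ψ o (a x) = c.comp (u : F₀ →+* F) x := by
    rintro (_ | σ) x
    · exact congrArg c (DFunLike.congr_fun hsa x)
    · show σ (u' (a x)) = c (u x)
      rw [show u' (a x) = b (u x) from DFunLike.congr_fun hcomm x]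
      exact σ.commutes (u x)
  have hclos : ∀ S : Subfield F'', (∀ x, b x ∈ S) → (∀ y, u' y ∈ S) → ∀ z, z ∈ S := by
    intro S h1 h2 z
    have hle : Subfield.closure (Set.range b ∪ Set.range u') ≤ S := by
      rw [Subfield.closure_le]
      rintro _ (⟨x, rfl⟩ | ⟨y, rfl⟩)
      · exact h1 x
      · exact h2 y
    exact hle (hgen ▸ Subfield.mem_top z)
  have hne : ∀ σ : F'' →ₐ[F] AlgebraicClosure F,
      σ.toRingHom.comp (u' : F₁ →+* F'') ≠ c.comp (s : F₁ →+* F) := by
    intro σ h
    have hz := hclos (c.fieldRange.comap σ.toRingHom) (fun x => ⟨x, (σ.commutes x).symm⟩)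
      (fun y => ⟨s y, (RingHom.congr_fun h y).symm⟩)
    have h1 : finrankAlong K b ≤ 1 := finrank_le_one (1 : F'') fun z => by
      obtain ⟨w, hw⟩ := hz z
      refine ⟨w, σ.toRingHom.injective ?_⟩
      rw [Algebra.smul_def, mul_one]
      exact (σ.commutes w).trans hw
    omega
  have hinj : Function.Injective ψ := by
    rintro (_ | σ) (_ | τ) h
    · rfl
    · exact absurd h.symm (hne τ)
    · exact absurd h (hne σ)
    · refine congrArg some (AlgHom.ext fun z => ?_)
      exact hclos (σ.toRingHom.eqLocusField τ.toRingHom)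
        (fun x => (σ.commutes x).trans (τ.commutes x).symm) (fun y => RingHom.congr_fun h y) z
  have hcard : Fintype.card (Option (F'' →ₐ[F] AlgebraicClosure F)) = finrankAlong K a := by
    rw [Fintype.card_option, AlgHom.card, hdeg]
    rfl
  have h := map_normAlong_eq_prod a hfa (c.comp (u : F₀ →+* F)) ψ hψ hinj hcard f
  apply c.injective
  rw [map_mul]
  refine h.trans ?_
  rw [Fintype.prod_option, mul_comm]
  exact congrArg (· * c (s f))
    (Algebra.norm_eq_prod_embeddings F (AlgebraicClosure F) (u' f)).symm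

end Split

attribute [local instance] Corr.neZero_mul'

local notation "Qbar" => AlgebraicClosure ℚ
local notation "Γℚ" => (AlgebraicClosure ℚ ≃ₐ[ℚ] AlgebraicClosure ℚ)

variable {q : ℕ} [Fact q.Prime] {M : ℕ} [NeZero M] [NeZero q] [NeZero (q * M)]
  (hqM : ¬ q ∣ M)

/-- `w_q` on `J₀(qM)`. -/
def swapJ : JZero (q * M) →+ JZero (q * M) :=
  DistribSMul.toAddMonoidHom (Pic0 Qbar (modularFunctionFieldBar (q * M)))
    (SemilinearAut.ofAlgAut (monoSwap hqM))

/-- `w_q` is an involution. -/
theorem swapJ_swapJ (x : JZero (q * M)) : swapJ hqM (swapJ hqM x) = x := by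
  show (_ : SemilinearAut Qbar (modularFunctionFieldBar (q * M))) •
    ((_ : SemilinearAut Qbar (modularFunctionFieldBar (q * M))) • x) = x
  rw [← mul_smul, ← map_mul, show monoSwap hqM * monoSwap hqM = 1 from
    AlgEquiv.ext fun f => monoSwap_monoSwap hqM f, map_one, one_smul]

include hqM in
/-- The norm identity behind `U_q + w_q = π_q^* π_{1*}`. -/
theorem betaMap_normAlong_alphaMap (f : fieldBar Qbar (q * M)) :
    betaMap q M (normAlong (alphaMap q M) f) =
      normAlong (barIncl Qbar (dvd_mul_right (q * M) q))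
        (barBeta Qbar q (dvd_refl (q * M * q)) f) * monoSwap hqM f := by
  have h2 : finrankAlong Qbar (barIncl Qbar (dvd_mul_right (q * M) q)) = q := by
    have h := finrankAlong_barIncl_mul (levelFacts Qbar) (dvd_mul_right (q * M) q)
    rw [dedekindPsi_mul_prime (q * M) (Fact.out : q.Prime), if_pos (dvd_mul_right q M)] at h
    exact Nat.eq_of_mul_eq_mul_right (dedekindPsi_pos' (q * M)) h
  refine normAlong_eq_mul_of_section (alphaMap q M) (betaMap q M)
    (barIncl Qbar (dvd_mul_right (q * M) q)) (barBeta Qbar q (dvd_refl (q * M * q)))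
    (monoSwap hqM).toAlgHom
    (comp_eq_comp_of_coe _ _ _ _ fun x => by rw [coe_barBeta, coe_barIncl, coe_barIncl, coe_barBeta])
    (AlgHom.ext fun x => monoSwap_alphaMap hqM x)
    (finiteAlong_alphaMap q M) (finiteAlong_barIncl (levelFacts Qbar) _)
    (by rw [finrankAlong_alphaMap hqM, h2]) (h2.symm ▸ (Fact.out : q.Prime).two_le) ?_ f
  refine closure_range_union_eq_top
    (fieldBar_eq_adjoin_pair (q * M * q) ((levelFacts Qbar).generation (q * M * q))) _ _
    ⟨⟨jBar Qbar, jBar_mem_fieldBar _⟩, coe_barIncl _ _⟩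
    ⟨⟨qExpand Qbar (q * M) (jBar Qbar), qExpand_jBar_mem_fieldBar dvd_rfl⟩, ?_⟩
  rw [coe_barBeta, qExpand_qExpand]
  exact qExpand_congr (mul_comm _ _) _

/-- **`U_q = -w_q` on torsion classes killed by `π_{1*}`.** -/
theorem heckeOperatorBar_eq_neg_swapJ (h₁ : M * 1 ∣ q * M) {d : ℕ} (hd : 1 ≤ d)
    (x : JZero (q * M)) (hx : (d : ℤ) • x = 0) (h0 : degPush 1 h₁ x = 0) :
    heckeOperatorBar (q * M) ⟨q, Fact.out⟩ x = -swapJ hqM x := by
  obtain ⟨⟨D, hD0⟩, rfl⟩ := Pic0.mk_surjective x
  obtain ⟨f, hf0, hfD⟩ : Divisor.IsPrincipal ((d : ℤ) • D) := by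
    have h0 : Pic0.mk ((d : ℤ) • (⟨D, hD0⟩ :
        Divisor.degZero (K := Qbar) (F := fieldBar Qbar (q * M)))) = 0 := by
      rw [← hx]
      exact map_zsmul (QuotientAddGroup.mk' _) _ _
    have h1 := (QuotientAddGroup.eq_zero_iff _).mp h0
    rwa [AddSubgroup.mem_addSubgroupOf, AddSubgroupClass.coe_zsmul] at h1
  haveI : HasPrincipalDivisors Qbar (fieldBar Qbar (q * M)) :=
    (curveFacts Qbar).hasPrincipalDivisors (q * M)
  haveI : HasPrincipalDivisors Qbar (fieldBar Qbar (q * M * q)) :=
    (curveFacts Qbar).hasPrincipalDivisors (q * M * q)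
  set ab := barIncl Qbar (dvd_mul_right (q * M) q)
  set bb := barBeta Qbar q (dvd_refl (q * M * q))
  have hab := isIntegral_barIncl (levelFacts Qbar) (dvd_mul_right (q * M) q)
  have hbb := isIntegral_barBeta (levelFacts Qbar) q (dvd_refl (q * M * q))
  have hfab := finiteAlong_barIncl (levelFacts Qbar) (dvd_mul_right (q * M) q)
  have hα := finiteAlong_isIntegral (finiteAlong_alphaMap q M)
  have hβ : (betaMap q M).toRingHom.IsIntegral := isIntegral_barBeta (levelFacts Qbar) q _
  obtain ⟨E, hE, hUE⟩ := heckeOperatorBar_mk (q * M) ⟨q, Fact.out⟩ rfl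
    (⟨D, hD0⟩ : Divisor.degZero (K := Qbar) (F := fieldBar Qbar (q * M)))
  -- the push-forward of `D` is principal
  obtain ⟨φ, hφ0, hφ⟩ : Divisor.IsPrincipal (Divisor.pushforwardAlong (alphaMap q M) hα D) := by
    rw [degPush_mk] at h0
    have h1 := (QuotientAddGroup.eq_zero_iff _).mp h0
    rw [AddSubgroup.mem_addSubgroupOf] at h1
    have he : Divisor.pushforwardAlong (barBeta Qbar 1 h₁)
        (finiteAlong_isIntegral (finiteAlong_barBeta (levelFacts Qbar) 1 h₁)) =
          Divisor.pushforwardAlong (alphaMap q M) hα :=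
      pushforwardAlong_congr (AlgHom.ext fun y => Subtype.ext (by
        rw [coe_barBeta, qExpand_one_apply]; exact (coe_barIncl _ _).symm)) _ _
    rw [← he]
    exact h1
  set g := SemilinearAut.ofAlgAut (monoSwap hqM)
  have hwf : monoSwap hqM f ≠ 0 := (map_ne_zero _).mpr hf0
  have hsum : (E : Divisor Qbar (fieldBar Qbar (q * M))) + g • D =
      Divisor.pullbackAlong (betaMap q M) hβ (Divisor.pushforwardAlong (alphaMap q M) hα D) := by
    refine Finsupp.ext fun v => mul_left_cancel₀ (show (d : ℤ) ≠ 0 by omega) ?_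
    have h1 : Divisor.correspondence bb ab hbb hab ((d : ℤ) • D) v =
        v.ord (normAlong ab (bb f)) :=
      correspondence_apply_eq_ord_norm bb ab hbb hab hfab
        ((curveFacts Qbar).normFormula _ _ _ _) hf0 hfD v
    have h2 : ((d : ℤ) • D) (g⁻¹ • v) = v.ord (monoSwap hqM f) := by
      rw [hfD, ← SemilinearAut.ord_smul g (g⁻¹ • v) f, smul_inv_smul]
      rfl
    have h3 : Divisor.pushforwardAlong (alphaMap q M) hα ((d : ℤ) • D)
        (v.restrictAlong (betaMap q M) hβ) =
          (v.restrictAlong (betaMap q M) hβ).ord (normAlong (alphaMap q M) f) :=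
      pushforwardAlong_apply_of_normFormula hα (finiteAlong_alphaMap q M)
        ((curveFacts Qbar).normFormula _ _ _ _) hf0 hfD _
    have hn : normAlong ab (bb f) ≠ 0 := norm_ne_zero_along bb ab hfab hf0
    have key := congrArg v.ord (betaMap_normAlong_alphaMap hqM f)
    rw [v.ord_mul hn hwf] at key
    rw [map_zsmul, Finsupp.smul_apply, smul_eq_mul, ← hE] at h1
    rw [Finsupp.smul_apply, smul_eq_mul] at h2
    rw [map_zsmul, Finsupp.smul_apply, smul_eq_mul] at h3
    rw [Finsupp.add_apply, SemilinearAut.divisor_smul_apply, Divisor.pullbackAlong_apply, mul_add,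
      h1, h2, ← key, mul_left_comm, h3, ← Place.ord_restrictAlong]
  have hprin : (E : Divisor Qbar (fieldBar Qbar (q * M))) + g • D ∈
      Divisor.principal (K := Qbar) (F := fieldBar Qbar (q * M)) := by
    rw [hsum]
    refine ⟨betaMap q M φ, (map_ne_zero _).mpr hφ0, fun v => ?_⟩
    rw [Divisor.pullbackAlong_apply, hφ, ← Place.ord_restrictAlong]
  rw [hUE, eq_neg_iff_add_eq_zero]
  show Pic0.mk E + g • Pic0.mk ⟨D, hD0⟩ = 0
  rw [show Pic0.mk E + g • Pic0.mk ⟨D, hD0⟩ = Pic0.mk (E + SemilinearAut.degZeroSMulHom g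
    (⟨D, hD0⟩ : Divisor.degZero (K := Qbar) (F := fieldBar Qbar (q * M)))) from rfl]
  refine (QuotientAddGroup.eq_zero_iff _).mpr ?_
  rw [AddSubgroup.mem_addSubgroupOf]
  exact hprin

end FermatLib.MazurP

end
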