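import Fermat.Agent.Modular.FieldCx
import Fermat.Agent.Igusa.DegreeUnits
import Fermat.Prelude.Def_ModularCurve_ModularUnit

/-!
# The modular unit `u = Δ (τ) / Δ (d τ)` in the function field of `X₀(N)`, `d ∣ N`

Membership in the function field, and integrality of `u`, `u⁻¹` over `L[j]`.
-/

set_option autoImplicit false

noncomputable section

open UpperHalfPlane Filter ModularCurve CongruenceSubgroup
open scoped MatrixGroups ModularForm Manifold

namespace FermatLib.MazurP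

open FermatLib.Modular FermatLib.Igusa

local notation "Δ" => ModularForm.discriminant

/-- `τ ↦ Δ (τ) / Δ (d τ)`. -/
def deltaUnitFun (d : ℕ) : ℍ → ℂ := fun τ => (deltaQuotFun d τ)⁻¹

theorem deltaUnitFun_eq (d : ℕ) (τ : ℍ) :
    deltaUnitFun d τ = Δ τ / Δ (ModularForm.heckeDiagMatrix d • τ) := inv_div _ _

theorem deltaUnitFun_mul_quot (d : ℕ) : deltaUnitFun d * deltaQuotFun d = 1 :=
  funext fun τ => inv_mul_cancel₀ (deltaQuotFun_ne_zero d τ)

theorem mdifferentiable_deltaQuotFun (d : ℕ) : MDiff (deltaQuotFun d) := by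
  have hΔ : MDiff (Δ : ℍ → ℂ) := (mem_qMero.mp discriminant_mem_qMero).2.1
  exact (hΔ.comp (UpperHalfPlane.mdifferentiable_smul
    (ModularForm.det_heckeDiagMatrix_pos d))).div hΔ fun τ => ModularForm.discriminant_ne_zero τ

theorem mdifferentiable_deltaUnitFun (d : ℕ) : MDiff (deltaUnitFun d) := by
  have hΔ : MDiff (Δ : ℍ → ℂ) := (mem_qMero.mp discriminant_mem_qMero).2.1
  rw [show deltaUnitFun d = fun τ => Δ τ / Δ (ModularForm.heckeDiagMatrix d • τ) from
    funext (deltaUnitFun_eq d)]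
  exact hΔ.div (hΔ.comp (UpperHalfPlane.mdifferentiable_smul
    (ModularForm.det_heckeDiagMatrix_pos d))) fun τ => ModularForm.discriminant_ne_zero _

theorem exists_deltaUnitFun_smul (d : ℕ) [NeZero d] (γ : SL(2, ℤ)) :
    ∃ (a b e : ℝ) (ha : 0 < a) (he : 0 < e) (c : ℂ), a / e ≤ d ∧ c ≠ 0 ∧
      ∀ τ : ℍ, deltaUnitFun d (γ • τ) =
        c * Δ τ / Δ (ModularForm.upperTriangularGL a b e (mul_pos ha he).ne' • τ) := by
  obtain ⟨M, b, σ, hσ, h⟩ := exists_triData d γ
  have ha : (0 : ℝ) < triA d γ := by exact_mod_cast Nat.pos_of_ne_zero (triA_ne_zero d γ)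
  have he : (0 : ℝ) < triE d γ := by exact_mod_cast Nat.pos_of_ne_zero (triE_ne_zero d γ)
  refine ⟨triA d γ, b, triE d γ, ha, he, (triE d γ : ℂ) ^ 12, ?_, ?_, fun τ => ?_⟩
  · have h1 : (triA d γ : ℝ) ≤ d := by
      exact_mod_cast Nat.le_of_dvd (Nat.pos_of_ne_zero (NeZero.ne d)) (triA_dvd d γ)
    have h2 : (1 : ℝ) ≤ triE d γ := by
      exact_mod_cast Nat.pos_of_ne_zero (triE_ne_zero d γ)
    exact (div_le_self ha.le h2).trans h1
  · exact pow_ne_zero _ (by exact_mod_cast triE_ne_zero d γ)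
  · have hs : σ τ = ModularForm.upperTriangularGL (triA d γ : ℝ) b (triE d γ : ℝ)
        (mul_pos ha he).ne' • τ := by
      apply UpperHalfPlane.ext
      rw [hσ, coe_upperTriangularGL_smul ha he]
      push_cast
      rfl
    have hM : UpperHalfPlane.denom M (σ τ) ≠ 0 := UpperHalfPlane.denom_ne_zero M (σ τ)
    rw [deltaUnitFun_eq, (h τ).1, discriminant_smul, discriminant_smul, (h τ).2, ← hs]
    field_simp

variable {N d : ℕ} [NeZero N] [NeZero d]

theorem deltaUnitFun_mem_weakMod (hd : d ∣ N) : deltaUnitFun d ∈ weakMod (Gamma0 N) := by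
  refine mem_weakMod.mpr ⟨mdifferentiable_deltaUnitFun d,
    fun γ hγ τ => congrArg (·⁻¹) (deltaQuotFun_smul hd hγ τ), fun γ => ⟨d, ?_⟩⟩
  obtain ⟨a, b, e, ha, he, c, hk, -, h⟩ := exists_deltaUnitFun_smul d γ
  have h1 : IsBoundedAtImInfty ((fun τ => (Δ τ)⁻¹) * (Δ : ℍ → ℂ) ^ 1) := by
    rw [show (fun τ => (Δ τ)⁻¹) * (Δ : ℍ → ℂ) ^ 1 = fun _ => (1 : ℂ) from
      funext fun τ => by simp [ModularForm.discriminant_ne_zero τ]]
    exact const_boundedAtFilter _ _
  have h2 := BoundedAtFilter.mul (const_boundedAtFilter atImInfty c)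
    (BoundedAtFilter.mul (isBoundedAtImInfty_discriminant_pow 1)
      (isBoundedAtImInfty_comp_triangular (b := b) h1 ha he (k := d) hk))
  refine h2.congr_left fun τ => Eq.symm ?_
  simp only [Pi.mul_apply, Pi.pow_apply, Function.const_apply, h, mul_one, pow_one, div_eq_mul_inv]
  ring

theorem deltaQuotFun_mem_weakMod (hd : d ∣ N) : deltaQuotFun d ∈ weakMod (Gamma0 N) := by
  refine mem_weakMod.mpr ⟨mdifferentiable_deltaQuotFun d,
    fun γ hγ τ => deltaQuotFun_smul hd hγ τ, fun γ => ⟨1, ?_⟩⟩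
  obtain ⟨a, b, e, ha, he, c, -, hc, h⟩ := exists_deltaUnitFun_smul d γ
  have hΔ : IsBoundedAtImInfty (Δ : ℍ → ℂ) :=
    ModularForm.discriminant_isZeroAtImInfty.isBoundedAtImInfty
  have hΔg : IsBoundedAtImInfty ((Δ : ℍ → ℂ) ∘ fun τ =>
      ModularForm.upperTriangularGL a b e (mul_pos ha he).ne' • τ) :=
    hΔ.comp_tendsto (tendsto_upperTriangularGL_smul (b := b) ha he)
  have h2 := BoundedAtFilter.mul (const_boundedAtFilter atImInfty c⁻¹) hΔg
  refine h2.congr_left fun τ => Eq.symm ?_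
  have hτ := h τ
  rw [deltaUnitFun, inv_eq_iff_eq_inv] at hτ
  simp only [Pi.mul_apply, Function.comp_apply, Function.const_apply, hτ, pow_one]
  field_simp [ModularForm.discriminant_ne_zero]

theorem qExpL_discriminant : qExpL (Δ : ℍ → ℂ) = coeffEmb ℂ deltaSeries := by
  rw [qExpL_of_bounded discriminant_mem_qMero
    ModularForm.discriminant_isZeroAtImInfty.isBoundedAtImInfty, ← qExpDelta, qExpDelta_eq]

theorem qExpL_deltaUnitFun : qExpL (deltaUnitFun d) = coeffEmb ℂ (modularUnitSeries d) := by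
  have hu : deltaUnitFun d ∈ qMero :=
    weakMod_Gamma0_le_qMero d (deltaUnitFun_mem_weakMod dvd_rfl)
  have hΔd := comp_diag_mem_qMero discriminant_mem_qMero d
  have h : qExpL (deltaUnitFun d) *
      qExpL (fun τ => Δ (ModularForm.heckeDiagMatrix d • τ)) = qExpL (Δ : ℍ → ℂ) := by
    refine (qExpL_mul hu hΔd).symm.trans (congrArg qExpL (funext fun τ => ?_))
    rw [Pi.mul_apply, deltaUnitFun_eq, div_mul_cancel₀ _ (ModularForm.discriminant_ne_zero _)]
  have h' : qExpL (fun τ => Δ (ModularForm.heckeDiagMatrix d • τ)) =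
      qExpand ℂ d (qExpL (Δ : ℍ → ℂ)) :=
    qExpL_comp_diag (G := (Δ : ℍ → ℂ)) discriminant_mem_qMero d
  rw [h', qExpL_discriminant, ← coeffEmb_qExpand] at h
  rw [modularUnitSeries, map_mul, map_inv₀, eq_mul_inv_iff_mul_eq₀
    ((map_ne_zero_iff _ (coeffEmb ℂ).injective).mpr (deltaSeriesN_ne_zero d)), deltaSeriesN]
  exact h

theorem qExpL_deltaQuotFun : qExpL (deltaQuotFun d) = coeffEmb ℂ (modularUnitSeries d)⁻¹ := by
  have h := qExpL_mul (weakMod_Gamma0_le_qMero d (deltaUnitFun_mem_weakMod dvd_rfl))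
    (weakMod_Gamma0_le_qMero d (deltaQuotFun_mem_weakMod (N := d) dvd_rfl))
  rw [deltaUnitFun_mul_quot, qExpL_one, qExpL_deltaUnitFun] at h
  rw [map_inv₀]
  exact (inv_eq_of_mul_eq_one_right h.symm).symm

theorem modularUnitSeries_mem_full (hd : d ∣ N) :
    modularUnitSeries d ∈ modularFunctionFieldFull N := by
  refine mem_of_coeffEmb_mem_laurentBaseChange (L := ℂ) ?_
  rw [← qExpL_deltaUnitFun]
  exact qExpL_mem_modularFunctionFieldCx N (deltaUnitFun_mem_weakMod hd)

variable (L : Type*) [Field L] [Algebra ℚ L]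

/-- `u = Δ (τ) / Δ (d τ)` in `L(X₀(N))`. -/
def deltaUnit (hd : d ∣ N) : laurentBaseChange L (modularFunctionFieldFull N) :=
  ⟨coeffEmb L (modularUnitSeries d),
    coeffEmb_mem_laurentBaseChange L (modularUnitSeries_mem_full hd)⟩

@[simp]
theorem coe_deltaUnit (hd : d ∣ N) :
    (deltaUnit L hd : LaurentSeries L) = coeffEmb L (modularUnitSeries d) := rfl

theorem deltaUnit_ne_zero (hd : d ∣ N) : deltaUnit L hd ≠ 0 := by
  intro h
  have h1 := congrArg Subtype.val h
  rw [coe_deltaUnit, ZeroMemClass.coe_zero] at h1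
  exact modularUnitSeries_ne_zero d
    ((map_eq_zero_iff _ (coeffEmb L).injective).mp h1)

end FermatLib.MazurP

end
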