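import Fermat.Agent.Galois.MazurP.LatRed

/-!
Two lattices with orthogonal bases can be diagonalised simultaneously; hence the pair of the two
reductions again has orthogonal bases.
-/

set_option autoImplicit false

noncomputable section

namespace FermatLib.MazurP

namespace LatRed

variable {L F k V V₁ V₂ : Type*} [Field L] [AddCommGroup F] [Module L F] [Field k] [AddCommGroup V]
  [Module k V] [AddCommGroup V₁] [Module k V₁] [AddCommGroup V₂] [Module k V₂]
  {A : ValuationSubring L} {π : A →+* k}

theorem res_eq_one_or {a b : L} (ha : a ≠ 0) (hb : b ≠ 0) :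
    ∃ c : L, ∃ s t : A, c ≠ 0 ∧ (s : L) = c * a ∧ (t : L) = c * b ∧ (s = 1 ∨ t = 1) := by
  rcases A.mem_or_inv_mem (b / a) with h | h
  · exact ⟨a⁻¹, 1, ⟨_, h⟩, inv_ne_zero ha, (inv_mul_cancel₀ ha).symm,
      by rw [mul_comm, ← div_eq_mul_inv], Or.inl rfl⟩
  · rw [inv_div] at h
    exact ⟨b⁻¹, ⟨_, h⟩, 1, inv_ne_zero hb, by rw [mul_comm, ← div_eq_mul_inv],
      (inv_mul_cancel₀ hb).symm, Or.inr rfl⟩

/-- A simultaneous diagonalisation of two lattices on a finite dimensional subspace. -/
theorem exists_diag (R₁ : LatRed A π F V₁) (R₂ : LatRed A π F V₂) :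
    ∀ (n : ℕ) (W : Submodule L F), FiniteDimensional L W → Module.finrank L W = n →
      ∃ (x : Fin n → R₁.lat) (y : Fin n → R₂.lat) (b : Fin n → L),
        (∀ i, b i ≠ 0) ∧ (∀ i, (x i : F) = b i • (y i : F)) ∧ (∀ i, (x i : F) ∈ W) ∧
        W ≤ Submodule.span L (Set.range fun i => (x i : F)) ∧
        LinearIndependent k (fun i => R₁.red (x i)) ∧
        LinearIndependent k (fun i => R₂.red (y i)) := by
  classical
  intro n
  induction n with
  | zero =>
    intro W _ hn
    exact ⟨Fin.elim0, Fin.elim0, Fin.elim0, fun i => i.elim0, fun i => i.elim0, fun i => i.elim0,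
      by simp [Submodule.finrank_eq_zero.mp hn],
      linearIndependent_empty_type, linearIndependent_empty_type⟩
  | succ n ih =>
    intro W hfd hn
    obtain ⟨e₀, he₀W, he₀span, he₀li, -⟩ := R₁.exists_orth_basis W
    obtain ⟨f₀, hf₀W, hf₀span, hf₀li, -⟩ := R₂.exists_orth_basis W
    set e : Fin (n + 1) → R₁.lat := fun i => e₀ (Fin.cast hn.symm i) with he
    set f : Fin (n + 1) → R₂.lat := fun i => f₀ (Fin.cast hn.symm i) with hf
    have heW : ∀ i, (e i : F) ∈ W := fun i => he₀W _
    have hfW : ∀ i, (f i : F) ∈ W := fun i => hf₀W _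
    have heli : LinearIndependent k fun i => R₁.red (e i) :=
      he₀li.comp _ (Fin.cast_injective _)
    have hfli : LinearIndependent k fun i => R₂.red (f i) :=
      hf₀li.comp _ (Fin.cast_injective _)
    have hespan : Submodule.span L (Set.range fun i => (e i : F)) = W := by
      refine le_antisymm (Submodule.span_le.mpr (by rintro _ ⟨i, rfl⟩; exact heW i)) ?_
      refine he₀span.ge.trans (Submodule.span_mono ?_)
      rintro _ ⟨i, rfl⟩
      exact ⟨Fin.cast hn i, by simp [he]⟩
    have heL := R₁.linearIndependent_of_red heli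
    -- coordinates of the second basis on the first
    choose c hc using fun j =>
      (Submodule.mem_span_range_iff_exists_fun L).mp (hespan.ge (hfW j))
    have hex : ∃ p : Fin (n + 1) × Fin (n + 1), c p.2 p.1 ≠ 0 := by
      by_contra hcon
      push Not at hcon
      have h0 : (f 0 : F) = 0 := by
        rw [← hc 0]
        exact Finset.sum_eq_zero fun i _ => by rw [hcon (i, 0), zero_smul]
      exact hfli.ne_zero 0 (by rw [show f 0 = 0 from Subtype.ext h0, map_zero])
    obtain ⟨⟨i₀, j₀⟩, -, hmax⟩ := Finset.exists_max_image Finset.univ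
      (fun p : Fin (n + 1) × Fin (n + 1) => A.valuation (c p.2 p.1)) Finset.univ_nonempty
    set d := c j₀ i₀ with hd
    have hd0 : d ≠ 0 := fun h => by
      obtain ⟨p, hp⟩ := hex
      have := hmax p (Finset.mem_univ _)
      rw [h, map_zero, le_zero_iff] at this
      exact (Valuation.ne_zero_iff _).mpr hp this
    have hratio : ∀ i j, d⁻¹ * c j i ∈ A := fun i j => by
      rw [← A.valuation_le_one_iff, map_mul, map_inv₀]
      exact inv_mul_le_one_of_le₀ (hmax (i, j) (Finset.mem_univ _)) zero_le
    -- the new vector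
    set x₀ : R₁.lat := ∑ i, R₁.amul ⟨_, hratio i j₀⟩ (e i) with hx₀
    have hx₀F : (x₀ : F) = d⁻¹ • (f j₀ : F) := by
      rw [hx₀, AddSubmonoidClass.coe_finsetSum, ← hc j₀, Finset.smul_sum]
      exact Finset.sum_congr rfl fun i _ => by simp [smul_smul]
    have hx₀W : (x₀ : F) ∈ W := hx₀F ▸ W.smul_mem _ (hfW j₀)
    set W' := Submodule.span L (Set.range fun i : Fin n => (e (i₀.succAbove i) : F)) with hW'
    have hW'le : W' ≤ W := Submodule.span_le.mpr (by rintro _ ⟨i, rfl⟩; exact heW _)
    have : FiniteDimensional L W' := Submodule.finiteDimensional_of_le hW'le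
    have hW'n : Module.finrank L W' = n := by
      rw [hW', finrank_span_eq_card (R := L) (b := fun i : Fin n => (e (i₀.succAbove i) : F))
        (heL.comp _ (Fin.succAbove_right_injective)), Fintype.card_fin]
    -- coordinate `i₀` vanishes on `W'`
    have hcoord : ∀ a : Fin (n + 1) → L, ∑ i, a i • (e i : F) ∈ W' → a i₀ = 0 := by
      intro a ha
      obtain ⟨g, hg⟩ := (Submodule.mem_span_range_iff_exists_fun L).mp ha
      have hz : ∑ i, (a i - Fin.insertNth (α := fun _ => L) i₀ (0 : L) g i) • (e i : F) = 0 := by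
        simp only [sub_smul, Finset.sum_sub_distrib, sub_eq_zero]
        rw [← hg]
        refine (Eq.trans (Fin.sum_univ_succAbove _ i₀) ?_).symm
        simp
      have := Fintype.linearIndependent_iff.mp heL _ hz i₀
      simpa using this
    obtain ⟨x, y, b, hb, hxy, hxW, hspan, hxli, hyli⟩ := ih W' inferInstance hW'n
    have hxred : R₁.red x₀ ∉ R₁.redSpace W' := by
      rintro ⟨w, hw, hwr⟩
      obtain ⟨a, ha⟩ := (Submodule.mem_span_range_iff_exists_fun L).mp (hespan.ge (hW'le hw))
      have haA := R₁.coeff_mem heli ha.symm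
      have h1 := R₁.red_eq_sum (a := fun i => (⟨a i, haA i⟩ : A)) ha.symm
      rw [hwr, hx₀, map_sum] at h1
      simp only [red_amul] at h1
      have h2 := Fintype.linearIndependent_iff.mp heli
        (fun i => π ⟨_, hratio i j₀⟩ - π ⟨a i, haA i⟩)
        (by simp [sub_smul, Finset.sum_sub_distrib, h1]) i₀
      rw [show (⟨_, hratio i₀ j₀⟩ : A) = 1 from Subtype.ext (inv_mul_cancel₀ hd0),
        show (⟨a i₀, haA i₀⟩ : A) = 0 from Subtype.ext (hcoord a (ha ▸ hw)),
        map_one, map_zero, sub_zero] at h2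
      exact one_ne_zero h2
    have hyred : R₂.red (f j₀) ∉ R₂.redSpace W' := by
      rintro ⟨w, hw, hwr⟩
      have hf₁span : W ≤ Submodule.span L (Set.range fun i => (f i : F)) := by
        refine hf₀span.ge.trans (Submodule.span_mono ?_)
        rintro _ ⟨i, rfl⟩
        exact ⟨Fin.cast hn i, by simp [hf]⟩
      obtain ⟨a, ha⟩ := (Submodule.mem_span_range_iff_exists_fun L).mp (hf₁span (hW'le hw))
      have haA := R₂.coeff_mem hfli ha.symm
      have h1 := R₂.red_eq_sum (a := fun i => (⟨a i, haA i⟩ : A)) ha.symm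
      rw [hwr] at h1
      have h2 : ∀ j, π ⟨a j, haA j⟩ = if j = j₀ then 1 else 0 := fun j => by
        have := Fintype.linearIndependent_iff.mp hfli
          (fun i => π ⟨a i, haA i⟩ - if i = j₀ then 1 else 0)
          (by simp [sub_smul, Finset.sum_sub_distrib, ← h1]) j
        exact sub_eq_zero.mp this
      have h3 : (∑ i, (∑ j, a j * c j i) • (e i : F)) = (w : F) := by
        rw [← ha]
        simp only [Finset.sum_smul, mul_smul, ← hc, Finset.smul_sum]
        exact Finset.sum_comm
      have h4 := hcoord _ (h3 ▸ hw)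
      have h5 : ∑ j, (⟨a j, haA j⟩ : A) * ⟨_, hratio i₀ j⟩ = 0 := Subtype.ext (by
        simp only [AddSubmonoidClass.coe_finsetSum, MulMemClass.coe_mul, ZeroMemClass.coe_zero]
        rw [← mul_zero d⁻¹, ← h4, Finset.mul_sum]
        exact Finset.sum_congr rfl fun j _ => by ring)
      have h6 := congrArg π h5
      simp only [map_sum, map_mul, h2, map_zero] at h6
      rw [Finset.sum_eq_single j₀ (fun j _ hj => by rw [if_neg hj, zero_mul])
        (fun h => absurd (Finset.mem_univ _) h), if_pos rfl, one_mul,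
        show (⟨_, hratio i₀ j₀⟩ : A) = 1 from Subtype.ext (inv_mul_cancel₀ hd0), map_one] at h6
      exact one_ne_zero h6
    refine ⟨Fin.cons x₀ x, Fin.cons (f j₀) y, Fin.cons d⁻¹ b, ?_, ?_, ?_, ?_, ?_, ?_⟩
    · exact Fin.cases (by simpa using hd0) (fun i => by simpa using hb i)
    · exact Fin.cases (by simpa using hx₀F) (fun i => by simpa using hxy i)
    · exact Fin.cases (by simpa using hx₀W) (fun i => by simpa using hW'le (hxW i))
    · have hli : LinearIndependent L fun i : Fin (n + 1) =>
          ((Fin.cons x₀ x : Fin (n + 1) → R₁.lat) i : F) := by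
        refine R₁.linearIndependent_of_red ?_
        rw [show (fun i => R₁.red ((Fin.cons x₀ x : Fin (n + 1) → R₁.lat) i)) =
          Fin.cons (R₁.red x₀) (fun i => R₁.red (x i)) from
            funext (Fin.cases (by simp) (by simp)), linearIndependent_finCons]
        exact ⟨hxli, fun h => hxred (Submodule.span_le.mpr
          (by rintro _ ⟨i, rfl⟩; exact R₁.red_mem_redSpace (hxW i)) h)⟩
      refine le_of_eq (Submodule.eq_of_le_of_finrank_le (Submodule.span_le.mpr ?_) ?_).symm
      · rintro _ ⟨i, rfl⟩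
        exact Fin.cases (by simpa using hx₀W) (fun i => by simpa using hW'le (hxW i)) i
      · rw [finrank_span_eq_card hli, Fintype.card_fin, hn]
    · rw [show (fun i => R₁.red ((Fin.cons x₀ x : Fin (n + 1) → R₁.lat) i)) =
        Fin.cons (R₁.red x₀) (fun i => R₁.red (x i)) from
          funext (Fin.cases (by simp) (by simp)), linearIndependent_finCons]
      exact ⟨hxli, fun h => hxred (Submodule.span_le.mpr
        (by rintro _ ⟨i, rfl⟩; exact R₁.red_mem_redSpace (hxW i)) h)⟩
    · rw [show (fun i => R₂.red ((Fin.cons (f j₀) y : Fin (n + 1) → R₂.lat) i)) =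
        Fin.cons (R₂.red (f j₀)) (fun i => R₂.red (y i)) from
          funext (Fin.cases (by simp) (by simp)), linearIndependent_finCons]
      refine ⟨hyli, fun h => hyred (Submodule.span_le.mpr ?_ h)⟩
      rintro _ ⟨i, rfl⟩
      refine R₂.red_mem_redSpace ?_
      rw [← inv_smul_smul₀ (hb i) (y i : F), ← hxy i]
      exact W'.smul_mem _ (hxW i)

/-- The two lattices together, reducing to pairs. -/
def pair (R₁ : LatRed A π F V₁) (R₂ : LatRed A π F V₂) : LatRed A π F (V₁ × V₂) where
  lat := R₁.lat ⊓ R₂.lat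
  red :=
    { toFun := fun f => (R₁.red ⟨f, f.2.1⟩, R₂.red ⟨f, f.2.2⟩)
      map_zero' := Prod.ext (map_zero R₁.red) (map_zero R₂.red)
      map_add' := fun f g => by
        rw [Prod.mk_add_mk, ← map_add, ← map_add]
        rfl }
  smul_mem a f hf := ⟨R₁.smul_mem a f hf.1, R₂.smul_mem a f hf.2⟩
  red_smul a f := Prod.ext (R₁.red_smul a ⟨f, f.2.1⟩) (R₂.red_smul a ⟨f, f.2.2⟩)
  surjective_res := R₁.surjective_res
  res_eq_zero := R₁.res_eq_zero
  exists_orth W hW := by
    classical
    obtain ⟨x, y, b, hb, hxy, hxW, hspan, hxli, hyli⟩ := exists_diag R₁ R₂ _ W hW rfl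
    choose c s t hc hs ht hst using fun i => res_eq_one_or (A := A) one_ne_zero (hb i)
    have h1 : ∀ i, c i • (x i : F) ∈ R₁.lat := fun i => by
      have := R₁.smul_mem (s i) _ (x i).2
      rwa [hs i, mul_one] at this
    have h2 : ∀ i, c i • (x i : F) ∈ R₂.lat := fun i => by
      have := R₂.smul_mem (t i) _ (y i).2
      rwa [ht i, mul_smul, ← hxy] at this
    refine ⟨_, fun i => ⟨c i • (x i : F), h1 i, h2 i⟩, fun i => W.smul_mem _ (hxW i), ?_, ?_⟩
    · refine hspan.trans (Submodule.span_le.mpr ?_)
      rintro _ ⟨i, rfl⟩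
      show (x i : F) ∈ _
      rw [← inv_smul_smul₀ (hc i) (x i : F)]
      exact Submodule.smul_mem _ _ (Submodule.subset_span ⟨i, rfl⟩)
    · rw [Fintype.linearIndependent_iff]
      intro l hl
      have e1 : ∀ i, R₁.red ⟨c i • (x i : F), h1 i⟩ = π (s i) • R₁.red (x i) := fun i => by
        rw [← red_amul]
        exact R₁.red_congr (by simp [hs i])
      have e2 : ∀ i, R₂.red ⟨c i • (x i : F), h2 i⟩ = π (t i) • R₂.red (y i) := fun i => by
        rw [← red_amul]
        exact R₂.red_congr (by simp [ht i, mul_smul, hxy i])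
      have l1 := congrArg Prod.fst hl
      have l2 := congrArg Prod.snd hl
      simp only [AddMonoidHom.coe_mk, ZeroHom.coe_mk, Prod.smul_mk, Prod.fst_sum, Prod.snd_sum,
        Prod.fst_zero, Prod.snd_zero, e1, e2, smul_smul] at l1 l2
      intro i
      have k1 := Fintype.linearIndependent_iff.mp hxli _ l1 i
      have k2 := Fintype.linearIndependent_iff.mp hyli _ l2 i
      rcases hst i with h | h
      · simpa [h] using k1
      · simpa [h] using k2

/-- Scaling a lattice by a nonzero constant. -/
def scale (R : LatRed A π F V) (β : L) (hβ : β ≠ 0) : LatRed A π F V where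
  lat := R.lat.comap (DistribSMul.toAddMonoidHom F β⁻¹)
  red :=
    { toFun := fun f => R.red ⟨β⁻¹ • (f : F), f.2⟩
      map_zero' := by
        rw [R.red_congr (g := 0) (by simp), map_zero]
      map_add' := fun f g => by
        rw [← map_add]
        exact R.red_congr (by simp [smul_add]) }
  smul_mem a f hf := by
    show β⁻¹ • (a : L) • f ∈ R.lat
    rw [smul_comm]
    exact R.smul_mem a _ hf
  red_smul a f := by
    show R.red _ = π a • R.red _
    rw [← red_amul]
    exact R.red_congr (smul_comm β⁻¹ (a : L) (f : F))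
  surjective_res := R.surjective_res
  res_eq_zero := R.res_eq_zero
  exists_orth W hW := by
    obtain ⟨n, e, heW, hspan, hli⟩ := R.exists_orth W hW
    have hmem : ∀ i, β • (e i : F) ∈ R.lat.comap (DistribSMul.toAddMonoidHom F β⁻¹) :=
      fun i => by
        show β⁻¹ • β • (e i : F) ∈ R.lat
        rw [inv_smul_smul₀ hβ]
        exact (e i).2
    refine ⟨n, fun i => ⟨β • (e i : F), hmem i⟩, fun i => W.smul_mem _ (heW i), ?_, ?_⟩
    · refine hspan.trans (Submodule.span_le.mpr ?_)
      rintro _ ⟨i, rfl⟩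
      show (e i : F) ∈ _
      rw [← inv_smul_smul₀ hβ (e i : F)]
      exact Submodule.smul_mem _ _ (Submodule.subset_span ⟨i, rfl⟩)
    · convert hli using 1
      funext i
      exact R.red_congr (inv_smul_smul₀ hβ (e i : F))

end LatRed

end FermatLib.MazurP
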