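import Mathlib.LinearAlgebra.Matrix.Trace
import Mathlib.LinearAlgebra.Matrix.Determinant.Basic
import Mathlib.LinearAlgebra.Span.Basic
import Mathlib.Tactic.LinearCombination
import Mathlib.Tactic.Module
import Mathlib.Tactic.FinCases

/-!
# Modules on which every element satisfies the characteristic polynomial of a plane representation

If a group `G` acts on a nonzero `k`-space `V` so that each `g` is killed by the characteristic
polynomial of `r g`, where `r : G →* M₂(k)` spans `M₂(k)` and `2 ≠ 0` in `k`, then `r` embeds in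
`V` (Boston, Lenstra, Ribet).  On the span `B` of the pairs `(Φ g, r g)` the map
`z ↦ tr (z.2) - z` is an anti-involution; this forces the kernel of `B → M₂(k)` to vanish.
-/

set_option autoImplicit false

noncomputable section

namespace FermatLib.MazurP

open Matrix

local notation "M₂" k:max => Matrix (Fin 2) (Fin 2) k

/-- From a quadratic relation, `t - u = d u⁻¹`. -/
theorem smul_one_sub_eq_of_quadratic {k A : Type*} [CommRing k] [Ring A] [Algebra k A] {u u' : A}
    (hu : u' * u = 1) {t d : k} (h : u * u - t • u + d • 1 = 0) :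
    t • (1 : A) - u = d • u' := by
  have h' := congrArg (u' * ·) h
  simp only [mul_zero, mul_add, mul_sub, ← mul_assoc, hu, one_mul, mul_smul_comm, mul_one] at h'
  rw [← sub_eq_zero, ← neg_eq_zero, ← h']
  abel

theorem quadratic_fin_two {k : Type*} [CommRing k] (X : M₂ k) :
    X * X - X.trace • X + X.det • 1 = 0 := by
  ext i j
  fin_cases i <;> fin_cases j <;>
    simp [Matrix.mul_apply, Matrix.trace_fin_two, Matrix.det_fin_two] <;> ring

variable {G k V : Type*} [Group G] [Field k] [AddCommGroup V] [Module k V]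

/-- The conjugation `z ↦ tr (z.2) - z`. -/
def pairConj (k V : Type*) [Field k] [AddCommGroup V] [Module k V] :
    (Module.End k V × M₂ k) →ₗ[k] Module.End k V × M₂ k :=
  (((Matrix.traceLinearMap (Fin 2) k k).comp (LinearMap.snd k (Module.End k V) (M₂ k))).smulRight
    (1 : Module.End k V × M₂ k)) - LinearMap.id

theorem pairConj_apply (z : Module.End k V × M₂ k) : pairConj k V z = z.2.trace • 1 - z := rfl

theorem pairConj_pairConj (z : Module.End k V × M₂ k) : pairConj k V (pairConj k V z) = z := by
  have ht : (pairConj k V z).2.trace = z.2.trace := by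
    rw [pairConj_apply, Prod.snd_sub, Prod.smul_snd, Prod.snd_one, trace_sub, trace_smul,
      trace_one, Fintype.card_fin, smul_eq_mul]
    push_cast
    ring
  rw [pairConj_apply (z := pairConj k V z), ht, pairConj_apply]
  abel

/-- **Boston–Lenstra–Ribet**: a module killed by the characteristic polynomials of an absolutely
irreducible plane representation contains it. -/
theorem exists_equivariant_embedding [Nontrivial V] (h2 : (2 : k) ≠ 0)
    (Φ : G →* Module.End k V) (r : G →* M₂ k) (hspan : Submodule.span k (Set.range r) = ⊤)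
    (hquad : ∀ g, Φ g * Φ g - (r g).trace • Φ g + (r g).det • 1 = 0) :
    ∃ f : (Fin 2 → k) →ₗ[k] V, Function.Injective f ∧
      ∀ g x, f (r g *ᵥ x) = Φ g (f x) := by
  classical
  let ψ := Φ.prod r
  let B : Submodule k (Module.End k V × M₂ k) := Submodule.span k (Set.range ψ)
  set S := pairConj k V with hS
  have hψB : ∀ g, ψ g ∈ B := fun g => Submodule.subset_span ⟨g, rfl⟩
  have hSψ : ∀ g, S (ψ g) = (r g).det • ψ g⁻¹ := fun g => by
    refine Prod.ext ?_ ?_
    · exact smul_one_sub_eq_of_quadratic (u := Φ g) (u' := Φ g⁻¹)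
        (by rw [← map_mul, inv_mul_cancel, map_one]) (hquad g)
    · exact smul_one_sub_eq_of_quadratic (u := r g) (u' := r g⁻¹)
        (by rw [← map_mul, inv_mul_cancel, map_one]) (quadratic_fin_two (r g))
  -- `B` is a subalgebra stable under the anti-involution `S`
  have hmul : ∀ x ∈ B, ∀ y ∈ B, x * y ∈ B ∧ S (x * y) = S y * S x := by
    intro x hx y hy
    induction hx, hy using Submodule.span_induction₂ with
    | mem_mem x y hx hy =>
      obtain ⟨g, rfl⟩ := hx
      obtain ⟨h, rfl⟩ := hy
      rw [← map_mul]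
      refine ⟨hψB _, ?_⟩
      rw [hSψ, hSψ, hSψ, smul_mul_smul_comm, ← map_mul ψ, mul_inv_rev, map_mul r, det_mul,
        mul_comm]
    | zero_left y _ => simp
    | zero_right x _ => simp
    | add_left x x' y _ _ _ h1 h1' =>
      exact ⟨by rw [add_mul]; exact add_mem h1.1 h1'.1,
        by rw [add_mul, map_add, map_add, mul_add, h1.2, h1'.2]⟩
    | add_right x y y' _ _ _ h1 h1' =>
      exact ⟨by rw [mul_add]; exact add_mem h1.1 h1'.1,
        by rw [mul_add, map_add, map_add, add_mul, h1.2, h1'.2]⟩
    | smul_left c x y _ _ h1 =>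
      exact ⟨by rw [smul_mul_assoc]; exact B.smul_mem c h1.1,
        by rw [smul_mul_assoc, map_smul, map_smul, mul_smul_comm, h1.2]⟩
    | smul_right c x y _ _ h1 =>
      exact ⟨by rw [mul_smul_comm]; exact B.smul_mem c h1.1,
        by rw [mul_smul_comm, map_smul, map_smul, smul_mul_assoc, h1.2]⟩
  have hSB : ∀ x ∈ B, S x ∈ B := by
    intro x hx
    refine (Submodule.span_le.mpr ?_ : B ≤ B.comap S) hx
    rintro _ ⟨g, rfl⟩
    show S (ψ g) ∈ B
    rw [hSψ]
    exact B.smul_mem _ (hψB _)
  -- `B` maps onto `M₂(k)`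
  have hsurj : ∀ X : M₂ k, ∃ x ∈ B, x.2 = X := fun X => by
    have : B.map (LinearMap.snd k (Module.End k V) (M₂ k)) = ⊤ := by
      rw [Submodule.map_span, ← Set.range_comp]
      exact hspan
    obtain ⟨x, hx, hxX⟩ := Submodule.mem_map.mp (this ▸ Submodule.mem_top : X ∈ B.map _)
    exact ⟨x, hx, hxX⟩
  -- and injects
  have hker : ∀ z ∈ B, z.2 = 0 → z = 0 := by
    intro z hz hz2
    have hneg : ∀ u : Module.End k V × M₂ k, u.2 = 0 → S u = -u := fun u hu => by
      rw [hS, pairConj_apply, hu, trace_zero, zero_smul, zero_sub]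
    have hcomm : ∀ x ∈ B, x * z = z * S x := fun x hx => by
      have h1 := (hmul x hx z hz).2
      rw [hneg (x * z) (by rw [Prod.snd_mul, hz2, mul_zero]), hneg z hz2, neg_mul, neg_inj] at h1
      exact h1
    obtain ⟨x, hx, hx2⟩ := hsurj !![0, 1; 0, 0]
    obtain ⟨y, hy, hy2⟩ := hsurj !![0, 0; 1, 0]
    set w := x * y - y * x with hw
    have hwB : w ∈ B := sub_mem (hmul x hx y hy).1 (hmul y hy x hx).1
    have hwz : w * z = 0 := by
      have h1 : x * y * z = y * x * z := by
        rw [hcomm _ (hmul x hx y hy).1, (hmul x hx y hy).2, ← mul_assoc, ← hcomm y hy, mul_assoc,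
          ← hcomm x hx, ← mul_assoc]
      rw [hw, sub_mul, h1, sub_self]
    have hw2 : w.2 = !![1, 0; 0, -1] := by
      rw [hw, Prod.snd_sub, Prod.snd_mul, Prod.snd_mul, hx2, hy2]
      ext i j; fin_cases i <;> fin_cases j <;> simp
    set u := S w * w with hu
    have hSu : S u = u := by
      rw [hu, (hmul _ (hSB w hwB) w hwB).2, hS, pairConj_pairConj]
    have hu2 : u.2.trace = -2 := by
      rw [hu, Prod.snd_mul, hS, pairConj_apply, Prod.snd_sub, Prod.smul_snd, Prod.snd_one, hw2]
      simp [Matrix.trace_fin_two]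
      norm_num
    have hu1 : u = -1 := by
      rw [hS, pairConj_apply, sub_eq_iff_eq_add, hu2] at hSu
      refine smul_right_injective _ h2 ?_
      simp only [smul_neg, two_smul]
      rw [← hSu]
      module
    calc z = -(u * z) := by rw [hu1, neg_mul, one_mul, neg_neg]
      _ = 0 := by rw [hu, mul_assoc, hwz, mul_zero, neg_zero]
  -- invert the projection
  choose inv hinvB hinv using hsurj
  have huniq : ∀ (X : M₂ k) (x : Module.End k V × M₂ k), x ∈ B → x.2 = X → inv X = x :=
    fun X x hx hxX => sub_eq_zero.mp (hker _ (sub_mem (hinvB X) hx)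
      (by rw [Prod.snd_sub, hinv, hxX, sub_self]))
  let Ψ : M₂ k →ₗ[k] Module.End k V :=
    { toFun := fun X => (inv X).1
      map_add' := fun X Y => congrArg Prod.fst (huniq _ _ (add_mem (hinvB X) (hinvB Y))
        (by rw [Prod.snd_add, hinv, hinv]))
      map_smul' := fun c X => congrArg Prod.fst (huniq _ _ (B.smul_mem c (hinvB X))
        (by rw [Prod.smul_snd, hinv])) }
  have hΨmul : ∀ X Y, Ψ (X * Y) = Ψ X * Ψ Y := fun X Y =>
    congrArg Prod.fst (huniq _ _ (hmul _ (hinvB X) _ (hinvB Y)).1
      (by rw [Prod.snd_mul, hinv, hinv]))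
  have hΨr : ∀ g, Ψ (r g) = Φ g := fun g => congrArg Prod.fst (huniq _ _ (hψB g) rfl)
  have hΨ1 : Ψ 1 = 1 := by rw [← map_one r, hΨr, map_one]
  obtain ⟨v, hv⟩ := exists_ne (0 : V)
  obtain ⟨i, hi⟩ : ∃ i : Fin 2, Ψ (Matrix.single i i 1) v ≠ 0 := by
    by_contra! h
    refine hv ?_
    have h1 : (1 : M₂ k) = Matrix.single 0 0 1 + Matrix.single 1 1 1 := by
      ext a b; fin_cases a <;> fin_cases b <;> simp
    have := congrArg (fun X => Ψ X v) h1
    simp only [map_add, LinearMap.add_apply, h, add_zero, hΨ1, Module.End.one_apply] at this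
    exact this
  let f : (Fin 2 → k) →ₗ[k] V :=
    { toFun := fun x => Ψ (vecMulVec x (Pi.single i 1)) v
      map_add' := fun x y => by rw [add_vecMulVec, map_add, LinearMap.add_apply]
      map_smul' := fun c x => by
        rw [smul_vecMulVec, map_smul, LinearMap.smul_apply, RingHom.id_apply] }
  refine ⟨f, (injective_iff_map_eq_zero f).mpr fun x hx => ?_, fun g x => ?_⟩
  · by_contra hx0
    obtain ⟨j, hj⟩ := Function.ne_iff.mp hx0
    refine hi ?_
    have h1 : Matrix.single i i (1 : k) =
        vecMulVec (Pi.single i 1) (Pi.single j (x j)⁻¹) * vecMulVec x (Pi.single i 1) := by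
      rw [vecMulVec_mul_vecMulVec, single_dotProduct, inv_mul_cancel₀ hj, one_smul]
      ext a b
      simp only [Matrix.single_apply, vecMulVec_apply, Pi.single_apply, eq_comm, ite_and]
      split_ifs <;> simp_all
    rw [h1, hΨmul, Module.End.mul_apply, show Ψ (vecMulVec x (Pi.single i 1)) v = 0 from hx,
      map_zero]
  · show Ψ (vecMulVec (r g *ᵥ x) (Pi.single i 1)) v = _
    rw [← mul_vecMulVec, hΨmul, hΨr, Module.End.mul_apply]
    rfl

end FermatLib.MazurP

end
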