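import Fermat.Agent.Galois.MazurP.Core
import Fermat.Agent.Galois.MazurP.GaloisSideAlg
import Fermat.Agent.Galois.MazurP.KilledElement
import Fermat.Agent.Galois.AttachKummer
import Fermat.Agent.Galois.EigenformCharacter
import Fermat.Agent.Galois.LucasTrace
import Fermat.Agent.Galois.FrobeniusDensity
import Fermat.Agent.Modular.KummerHecke
import Fermat.Agent.MLT.ModTransfer.Torsion
import Fermat.Agent.MLT.ResidualTW
import Fermat.Agent.EC.AtP

/-!
# The plane `E[p]` inside the Hecke eigenspace of `J₀(N)[p]`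

If the system `ℓ ↦ a_ℓ(W)` mod `p` occurs in weight two and level `N`, the Hecke eigenspace `V` of
`J₀(N)[p]` is nonzero (faithfulness of the Hecke action on torsion), every Galois element
satisfies on it the characteristic polynomial of `E[p]` (congruence relation and Frobenius
density), so an absolutely irreducible `E[p]` embeds equivariantly in `V`.
-/

set_option autoImplicit false

noncomputable section

open scoped WeierstrassCurve.Affine Matrix

namespace FermatLib.MazurP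

open ModularCurve ModularFormClass FermatLib.Galois FermatLib.Galois.Attach FermatLib.AtP

local notation "Qbar" => AlgebraicClosure ℚ
local notation "Γℚ" => (AlgebraicClosure ℚ ≃ₐ[ℚ] AlgebraicClosure ℚ)
local notation "ZbarC" => integralClosure ℤ ℂ

variable {N p : ℕ} [NeZero N]

/-- The eigenspace of the system `a` away from `S` in the `p`-torsion of `J₀(N)`. -/
def eigenTorsion (N p : ℕ) [NeZero N] (S : Finset ℕ) (a : ℕ → ℤ) : AddSubgroup (JZero N) where
  carrier := {x | (p : ℤ) • x = 0 ∧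
    ∀ ℓ : Nat.Primes, (ℓ : ℕ) ∉ S → heckeOperatorBar N ℓ x = a ℓ • x}
  zero_mem' := ⟨smul_zero _, fun ℓ _ => by rw [map_zero, smul_zero]⟩
  add_mem' {x y} hx hy := ⟨by rw [zsmul_add, hx.1, hy.1, add_zero],
    fun ℓ hℓ => by rw [map_add, hx.2 ℓ hℓ, hy.2 ℓ hℓ, zsmul_add]⟩
  neg_mem' {x} hx := ⟨by rw [zsmul_neg, hx.1, neg_zero],
    fun ℓ hℓ => by rw [map_neg, hx.2 ℓ hℓ, zsmul_neg]⟩

theorem smul_mem_eigenTorsion {S : Finset ℕ} {a : ℕ → ℤ} (σ : Γℚ) {x : JZero N}
    (hx : x ∈ eigenTorsion N p S a) : σ • x ∈ eigenTorsion N p S a := by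
  let := heckeModuleBar N
  have hc := FermatLib.Modular.heckeOperatorsCommuteBar N
  have hz : ∀ (n : ℤ) (y : JZero N), σ • (n • y) = n • σ • y := fun n y =>
    map_zsmul (DistribSMul.toAddMonoidHom (JZero N) σ) n y
  refine ⟨(hz _ x).symm.trans ((congrArg _ hx.1).trans
    (map_zero (DistribSMul.toAddMonoidHom (JZero N) σ))), fun ℓ hℓ => ?_⟩
  rw [← heckeModuleBar_heckeGen_smul hc, ← galois_smul_heckeAlg, heckeModuleBar_heckeGen_smul hc,
    hx.2 ℓ hℓ, hz]

variable [Fact p.Prime]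

/-- A Hecke system congruent mod `p` to a form occurs in the `p`-torsion. -/
theorem exists_ne_zero_mem_eigenTorsion (hK : KummerHeckeEquiv N p) (S : Finset ℕ)
    (hSN : ∀ q : ℕ, q.Prime → q ∣ N → q ∈ S) (a : ℕ → ℤ)
    {f : CuspForm (CongruenceSubgroup.Gamma0 N) 2} (hf : f.IsNormalizedEigenform)
    {𝔪 : Ideal ZbarC} (hmax : 𝔪.IsMaximal) (hp : (p : ZbarC) ∈ 𝔪)
    (hcong : ∀ ℓ : ℕ, ℓ.Prime → ℓ ∉ S → ∃ α : ZbarC, (α : ℂ) = qCoeff f ℓ ∧
      α - ((a ℓ : ℤ) : ZbarC) ∈ 𝔪) :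
    ∃ x ∈ eigenTorsion N p S a, x ≠ 0 := by
  classical
  have hpp : p.Prime := Fact.out
  let k := ZbarC ⧸ 𝔪
  let := Ideal.Quotient.field 𝔪
  have : CharP k p := (CharP.charP_iff_prime_eq_zero hpp).mpr (by
    rw [← map_natCast (Ideal.Quotient.mk 𝔪)]; exact Ideal.Quotient.eq_zero_iff_mem.mpr hp)
  have : Module.Finite ℤ (CuspForm.heckeAlgebra N 2 (∅ : Set ℕ)) :=
    FermatLib.Modular.heckeAlgebra_moduleFinite N 2 ∅
  obtain ⟨ξ, -, hξT, -⟩ := exists_eigenformCharacter (S := (∅ : Set ℕ)) hf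
  let R := awayHeckeAlg (↑S : Set ℕ)
  let lam : HeckeAlg →+* ZMod p :=
    (MvPolynomial.aeval (R := ℤ) fun ℓ : Nat.Primes => (a ℓ : ZMod p)).toRingHom
  let c : ZMod p →+* k := ZMod.castHom (dvd_refl p) k
  have hchar : ∀ t ∈ R, Ideal.Quotient.mk 𝔪 (ξ (formsHeckeEval N t)) = c (lam t) := by
    intro t ht
    induction ht using Algebra.adjoin_induction with
    | mem t ht =>
      obtain ⟨ℓ, hℓ, rfl⟩ := ht
      obtain ⟨α, hα, hmem⟩ := hcong ℓ ℓ.2 hℓ
      have hℓN : ¬ (ℓ : ℕ) ∣ N := fun h => hℓ (hSN _ ℓ.2 h)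
      rw [formsHeckeEval_heckeGen, formsHeckeGen, dif_neg hℓN,
        show ξ (CuspForm.heckeAlgebra.T ℓ.2 hℓN (Set.notMem_empty _)) = α from
          Subtype.ext ((hξT _ _ _ _).trans hα.symm),
        show lam (heckeGen ℓ) = (a ℓ : ZMod p) from aeval_heckeGen _ _, map_intCast,
        Ideal.Quotient.eq.mpr hmem, map_intCast]
    | algebraMap r => simp
    | add x y _ _ hx hy => rw [map_add, map_add, map_add, hx, hy, map_add, map_add]
    | mul x y _ _ hx hy => rw [map_mul, map_mul, map_mul, hx, hy, map_mul, map_mul]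
  obtain ⟨j, hj⟩ := torsionFaithful_of_equiv hK 1
  let := heckeModuleBar N
  let M := Submodule.torsionBy R (JZero N) ((p ^ j : ℕ) : R)
  have hmemM : ∀ x : JZero N, x ∈ M ↔ p ^ j • x = 0 := fun x => by
    rw [Submodule.mem_torsionBy_iff, Nat.cast_smul_eq_nsmul]
  have : Finite M := Set.Finite.to_subtype ((Set.finite_coe_iff.mp
    (Nat.finite_of_card_ne_zero (α := {x : JZero N // p ^ j • x = 0})
      (by rw [natCard_torsion_pow hK]; exact pow_ne_zero _ (pow_ne_zero _ hpp.ne_zero)))).subset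
    fun x hx => (hmemM x).mp hx)
  let m : Ideal R := RingHom.ker (lam.comp R.val.toRingHom)
  obtain ⟨x, hx0, hx⟩ := exists_ne_zero_forall_smul_eq_zero (M := M) m
    (fun t ht => by
      obtain ⟨u, hu⟩ := hj (t : HeckeAlg)
        (awayHeckeAlg_le (fun ℓ hℓ => Finset.mem_coe.mpr (hSN _ ℓ.2 hℓ)) t.2)
        (fun x hx => congrArg Subtype.val (ht ⟨x, (hmemM x).mpr hx⟩))
      refine RingHom.mem_ker.mpr (c.injective ?_)
      show c (lam (t : HeckeAlg)) = c 0
      rw [← hchar _ t.2, hu, map_nsmul, map_nsmul, nsmul_eq_mul, pow_one, CharP.cast_eq_zero,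
        zero_mul, map_zero])
    (RingHom.ker_ne_top _)
  refine ⟨x, ⟨?_, fun ℓ hℓ => ?_⟩, fun h => hx0 (Subtype.ext h)⟩
  · have h := congrArg Subtype.val (hx ((p : ℤ) : R) (RingHom.mem_ker.mpr (by simp)))
    rw [Submodule.coe_smul, Int.cast_smul_eq_zsmul] at h
    exact h
  · let g : R := ⟨heckeGen ℓ, Algebra.subset_adjoin ⟨ℓ, hℓ, rfl⟩⟩
    have h := congrArg Subtype.val (hx (g - ((a ℓ : ℤ) : R)) (RingHom.mem_ker.mpr (by
      rw [map_sub, map_intCast, show (lam.comp R.val.toRingHom) g = (a ℓ : ZMod p) from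
        aeval_heckeGen _ _, sub_self])))
    rw [Submodule.coe_smul, sub_smul, Int.cast_smul_eq_zsmul, Submodule.coe_zero, sub_eq_zero]
      at h
    rw [← heckeModuleBar_heckeGen_smul (FermatLib.Modular.heckeOperatorsCommuteBar N)]
    exact h

/-- A nonzero Galois module killed by `p` on which the Frobenius elements outside `S` satisfy
`X² - a ℓ X + ℓ` contains every absolutely irreducible plane representation with these
characteristic polynomials. -/
theorem exists_embedding_of_frobenius {V : Type*} [AddCommGroup V] [DistribMulAction Γℚ V]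
    [Nontrivial V] (hp2 : p ≠ 2) (hpV : ∀ x : V, p • x = 0)
    (r : Γℚ →* Matrix (Fin 2) (Fin 2) (ZMod p))
    (hspan : Submodule.span (ZMod p) (Set.range r) = ⊤) (L : IntermediateField ℚ Qbar)
    [FiniteDimensional ℚ L]
    (hL : ∀ σ : Γℚ, (∀ y ∈ L, σ y = y) → (∀ x : V, σ • x = x) ∧ r σ = 1)
    (S : Finset ℕ) (a : ℕ → ℤ)
    (hfrob : ∀ ℓ : ℕ, ℓ.Prime → ℓ ∉ S → ∀ A : ValuationSubring Qbar, A.LiesOverPrime ℓ →
      ∀ σ : Γℚ, A.IsFrobeniusAt σ ℓ → (r σ).trace = ((a ℓ : ℤ) : ZMod p) ∧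
        (r σ).det = ((ℓ : ℕ) : ZMod p) ∧ ∀ x : V, σ • σ • x - a ℓ • σ • x + ℓ • x = 0) :
    ∃ ι : (Fin 2 → ZMod p) →+ V, Function.Injective ι ∧
      ∀ (σ : Γℚ) (x : Fin 2 → ZMod p), ι (r σ *ᵥ x) = σ • ι x := by
  let := AddCommGroup.zmodModule (n := p) hpV
  let Φ : Γℚ →* Module.End (ZMod p) V :=
    { toFun := fun σ => AddMonoidHom.toZModLinearMap p (DistribSMul.toAddMonoidHom V σ)
      map_one' := LinearMap.ext fun x => one_smul Γℚ x
      map_mul' := fun g h => LinearMap.ext fun x => mul_smul g h x }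
  have hΦ : ∀ (σ : Γℚ) (x : V), Φ σ x = σ • x := fun _ _ => rfl
  have hquad : ∀ g, Φ g * Φ g - (r g).trace • Φ g + (r g).det • 1 = 0 := by
    refine forall_of_forall_isFrobeniusAt (P := fun g => Φ g * Φ g - (r g).trace • Φ g
      + (r g).det • 1 = 0) S L ?_ ?_ ?_
    · intro g h hgh hg
      obtain ⟨h1, h2⟩ := hL (g⁻¹ * h) fun x hx => by
        rw [AlgEquiv.mul_apply, ← hgh x hx, ← AlgEquiv.mul_apply, inv_mul_cancel,
          AlgEquiv.one_apply]
      rw [show h = g * (g⁻¹ * h) by rw [mul_inv_cancel_left], map_mul Φ, map_mul r,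
        show Φ (g⁻¹ * h) = 1 from LinearMap.ext h1, h2, mul_one, mul_one]
      exact hg
    · intro σ b hσ
      have := lucasTrace_quadratic (algebraMap (ZMod p) (Module.End (ZMod p) V)) (Φ σ)
        (r σ).trace (r σ).det (fun t => Algebra.commutes t (Φ σ)) (by
          rw [← Algebra.smul_def, Algebra.algebraMap_eq_smul_one]; exact hσ) b
      rw [← trace_pow_eq_lucasTrace, ← Matrix.det_pow, ← Algebra.smul_def,
        Algebra.algebraMap_eq_smul_one, ← map_pow, ← map_pow] at this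
      exact this
    · intro ℓ hℓ hℓS A hA σ hσ
      obtain ⟨ht, hd, hq⟩ := hfrob ℓ hℓ hℓS A hA σ hσ
      refine LinearMap.ext fun x => ?_
      rw [ht, hd]
      simp only [LinearMap.add_apply, LinearMap.sub_apply, LinearMap.smul_apply,
        Module.End.mul_apply, Module.End.one_apply, LinearMap.zero_apply,
        Int.cast_smul_eq_zsmul, Nat.cast_smul_eq_nsmul, hΦ]
      exact hq x
  obtain ⟨F, hFinj, hFeq⟩ := exists_equivariant_embedding (V := V)
    (by
      intro h2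
      have : ((2 : ℕ) : ZMod p) = 0 := by exact_mod_cast h2
      rw [CharP.cast_eq_zero_iff (ZMod p) p] at this
      exact hp2 ((Nat.prime_dvd_prime_iff_eq Fact.out Nat.prime_two).mp this))
    Φ r hspan hquad
  exact ⟨F.toAddMonoidHom, hFinj, fun σ x => (hFeq σ x).trans (hΦ σ (F x))⟩

variable {W : WeierstrassCurve ℤ}

/-- `E[p]` embeds equivariantly in the eigenspace of its Hecke system. -/
theorem exists_eigen_embedding (hS37 : SpecializationInput N p) (hΔ : W.Δ ≠ 0) (hp2 : p ≠ 2)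
    (hirr : W.ModRepIsIrreducible p) (S : Finset ℕ) (hpS : p ∈ S)
    (hSN : ∀ q : ℕ, q.Prime → q ∣ N → q ∈ S)
    (hSΔ : ∀ q : ℕ, q.Prime → (q : ℤ) ∣ W.Δ → q ∈ S)
    {f : CuspForm (CongruenceSubgroup.Gamma0 N) 2} (hf : f.IsNormalizedEigenform)
    {𝔪 : Ideal ZbarC} (hmax : 𝔪.IsMaximal) (hp : (p : ZbarC) ∈ 𝔪)
    (hcong : ∀ ℓ : ℕ, ℓ.Prime → ℓ ∉ S → ∃ α : ZbarC, (α : ℂ) = qCoeff f ℓ ∧
      α - ((W.apOfModel ℓ : ℤ) : ZbarC) ∈ 𝔪) :
    ∃ ι : Tors W p →+ JZero N, Function.Injective ι ∧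
      (∀ (σ : Γℚ) (z : Tors W p), ι (σ • z) = σ • ι z) ∧
      ∀ z : Tors W p, z ≠ 0 → EigenPoint N p S (fun ℓ => W.apOfModel ℓ) (ι z) := by
  classical
  have hpp : p.Prime := Fact.out
  have hK := FermatLib.Modular.kummerHeckeEquiv N p hpp
  let a : ℕ → ℤ := fun ℓ => W.apOfModel ℓ
  obtain ⟨v, hv, hv0⟩ := exists_ne_zero_mem_eigenTorsion hK S hSN a hf hmax hp hcong
  let V := eigenTorsion N p S a
  have hpV : ∀ x : V, p • x = 0 := fun x => Subtype.ext (by
    rw [AddSubgroup.coe_nsmul, AddSubgroup.coe_zero, ← natCast_zsmul]; exact x.2.1)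
  have : Nontrivial V := ⟨⟨v, hv⟩, 0, fun h => hv0 (congrArg Subtype.val h)⟩
  let : DistribMulAction Γℚ V :=
    { smul := fun σ x => ⟨σ • (x : JZero N), smul_mem_eigenTorsion σ x.2⟩
      one_smul := fun x => Subtype.ext (one_smul Γℚ (x : JZero N))
      mul_smul := fun g h x => Subtype.ext (mul_smul g h (x : JZero N))
      smul_zero := fun σ => Subtype.ext (map_zero (DistribSMul.toAddMonoidHom (JZero N) σ))
      smul_add := fun σ x y =>
        Subtype.ext (map_add (DistribSMul.toAddMonoidHom (JZero N) σ) (x : JZero N) y) }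
  let ρ := MLT.curveResidualRep W hΔ p
  let r := residualMat ρ
  have hspan := ((isAbsolutelyIrreducible_iff_hasFullSpan ρ).mp
    (MLT.curveResidualRep_isAbsolutelyIrreducible W hΔ p hp2 hirr)).span_range_eq_top
  -- the level
  have hfin : {x : JZero N | x ∈ V}.Finite := (Set.finite_coe_iff.mp
    (Nat.finite_of_card_ne_zero (α := {x : JZero N // p ^ 1 • x = 0})
      (by rw [natCard_torsion_pow hK]; exact pow_ne_zero _ (pow_ne_zero _ hpp.ne_zero)))).subset
    fun x hx => by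
      show p ^ 1 • x = 0
      rw [pow_one, ← natCast_zsmul]; exact hx.1
  obtain ⟨L₁, hL₁, hfix₁⟩ := holdsNearOne_forall_mem hfin.toFinset (fun x σ => σ • x = x)
    fun x _ => holdsNearOne_smul_jzero x
  obtain ⟨L₂, hL₂, hfix₂⟩ := ρ.factorsThroughFiniteLevel
  obtain ⟨F, hFinj, hFeq⟩ := exists_embedding_of_frobenius (V := V) hp2 hpV r hspan (L₁ ⊔ L₂)
    (fun σ hσ => ⟨fun x => Subtype.ext (hfix₁ σ
        (fun y hy => hσ y ((le_sup_left : L₁ ≤ L₁ ⊔ L₂) hy)) x (hfin.mem_toFinset.mpr x.2)), by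
        show repMatrix _ _ _ = 1
        rw [repMatrix_apply, hfix₂ _ fun y hy => hσ y ((le_sup_right : L₂ ≤ L₁ ⊔ L₂) hy)]
        exact LinearMap.toMatrix_one _⟩)
    S a (fun ℓ hℓ hℓS A hA σ hσ => by
      have hℓp : ℓ ≠ p := fun h => hℓS (h ▸ hpS)
      have hℓNp : ¬ ℓ ∣ N * p := fun h => (hℓ.dvd_mul.mp h).elim (fun h => hℓS (hSN ℓ hℓ h))
        fun h => hℓp ((Nat.prime_dvd_prime_iff_eq hℓ hpp).mp h)
      refine ⟨?_, ?_, fun x => Subtype.ext ?_⟩
      · show (repMatrix _ _ σ).trace = _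
        rw [trace_repMatrix]
        exact MLT.galoisTrace_of_isFrobeniusAt hℓ (fun h => hℓS (hSΔ ℓ hℓ h)) hℓp hA hσ
      · show (repMatrix _ _ σ).det = _
        rw [det_repMatrix, MLT.curveResidualRep_det]
        exact MLT.cycloChar_of_isFrobeniusAt hℓ hℓp hA hσ
      · have hx : p • (x : JZero N) = 0 := by rw [← natCast_zsmul]; exact x.2.1
        have h := frobQuadratic_of_specialization hS37 ℓ hℓ hℓNp A hA σ hσ (x : JZero N)
          ⟨1, by rw [pow_one, hx]⟩
        rw [heckeModuleBar_heckeGen_smul (FermatLib.Modular.heckeOperatorsCommuteBar N),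
          (smul_mem_eigenTorsion σ x.2).2 ⟨ℓ, hℓ⟩ hℓS] at h
        simp only [AddSubgroup.coe_add, AddSubgroupClass.coe_sub, AddSubgroup.coe_zsmul,
          AddSubgroup.coe_nsmul, AddSubgroup.coe_zero]
        exact h)
  let b := residualBasis ρ
  let g : Tors W p →+ JZero N :=
    V.subtype.comp (F.comp b.equivFun.toLinearMap.toAddMonoidHom)
  have hgv : ∀ z : Tors W p, g z = ((F (b.equivFun z) : V) : JZero N) := fun _ => rfl
  refine ⟨g, fun z z' h => b.equivFun.injective (hFinj (Subtype.ext h)), fun σ z => ?_,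
    fun z hz => ?_⟩
  · refine Eq.trans ?_ (congrArg Subtype.val (hFeq σ (b.equivFun z)))
    rw [hgv]
    congr 2
    exact (LinearMap.toMatrix_mulVec_repr b b (ρ.ρ σ) z).symm
  · have hne : g z ≠ 0 := fun h => hz ((LinearEquiv.map_eq_zero_iff b.equivFun).mp
      (hFinj ((Subtype.ext h : F (b.equivFun z) = 0).trans (map_zero F).symm)))
    exact ⟨hne, (F (b.equivFun z)).2.1, (F (b.equivFun z)).2.2⟩

end FermatLib.MazurP

end
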