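import Fermat.Agent.Galois.MazurP.NormRed
import Fermat.Agent.Igusa.GaussPlaces
import Fermat.Agent.Igusa.DegreeInputModL
import Fermat.Agent.Modular.CorrDegree

/-!
# The Gauss sheet of `X₀(N)` and the degeneracy maps modulo a prime not dividing the level
-/

set_option autoImplicit false
set_option linter.style.haveILetI false
set_option synthInstance.maxHeartbeats 400000

noncomputable section

open HahnSeries ModularCurve AlgebraicCurve IntermediateField
open FermatLib.Igusa FermatLib.Igusa.Mono FermatLib.Modular.Corr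

namespace FermatLib.MazurP

section OfReduction

variable {L F k Fb : Type*} [Field L] [Field F] [Algebra L F] [Field k] [Field Fb] [Algebra k Fb]
  {A : ValuationSubring L} {π : A →+* k}

/-- A constant reduction is a sheet. -/
def sheetOfReduction (R : ConstantReduction A π F Fb) : Sheet π F Fb where
  W :=
    { R.ring with
      mem_or_inv_mem' := fun f => by
        rcases eq_or_ne f 0 with rfl | hf
        · exact Or.inl R.ring.zero_mem
        obtain ⟨c, h, hc, hh, hr⟩ := R.exists_smul_red_ne_zero hf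
        rcases A.mem_or_inv_mem c⁻¹ with hm | hm
        · refine Or.inl ?_
          have h1 := R.ring.mul_mem (R.algebraMap_mem ⟨c⁻¹, hm⟩) h.2
          rwa [hh, ← Algebra.smul_def, smul_smul, inv_mul_cancel₀ hc, one_smul] at h1
        · refine Or.inr ?_
          rw [inv_inv] at hm
          have h1 := R.ring.mul_mem (R.algebraMap_mem ⟨c, hm⟩) (R.inv_mem h hr)
          rwa [hh, Algebra.smul_def, mul_inv, ← mul_assoc, mul_inv_cancel₀ (by simpa using hc),
            one_mul] at h1 }
  red := R.red
  mem_algebraMap := R.algebraMap_mem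
  red_algebraMap := R.red_algebraMap
  isUnit_of_red_ne f hf := by
    have hne : (f : F) ≠ 0 := fun h0 => hf (by
      rw [show f = (0 : R.ring) from Subtype.ext h0]
      exact map_zero _)
    exact isUnit_iff_exists.mpr ⟨⟨_, R.inv_mem f hf⟩, Subtype.ext (mul_inv_cancel₀ hne),
      Subtype.ext (inv_mul_cancel₀ hne)⟩

end OfReduction

variable {L : Type*} [Field L] [Algebra ℚ L] {A : ValuationSubring L}
  {k : Type*} [Field k] {π : A →+* k}
  (hres : ∀ a : A, ¬ IsUnit a → π a = 0) (hunit : ∀ a : A, π a ≠ 0 → IsUnit a)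
  (hπ : Function.Surjective π)

/-- The Gauss sheet of level `N`. -/
def gaussSheet (N : ℕ) [NeZero N] (hk : (N : k) ≠ 0) :
    Sheet π (laurentBaseChange L (modularFunctionFieldFull N)) (modularFunctionFieldFullC k N) :=
  sheetOfReduction (gaussReduction hres hunit hπ (degreeInput_of_ne_zero A π N hk))

variable {N : ℕ} [NeZero N]

theorem gaussSheet_rd (hk : (N : k) ≠ 0)
    {f : laurentBaseChange L (modularFunctionFieldFull N)} {y z : integralSeries A π N}
    (hz : specialFun A π N z ≠ 0) (h : f * genericFun A π N z = genericFun A π N y) :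
    f ∈ (gaussSheet hres hunit hπ N hk).W ∧
      (gaussSheet hres hunit hπ N hk).rd f = specialFun A π N y / specialFun A π N z := by
  have hm : f ∈ (gaussSheet hres hunit hπ N hk).W := ⟨y, z, hz, h⟩
  exact ⟨hm, by rw [Sheet.rd_of_mem hm]; exact gaussRed_eq A π N ⟨f, y, z, hz, h⟩ hz h⟩

theorem gaussSheet_surjective (hk : (N : k) ≠ 0) (x : modularFunctionFieldFullC k N) :
    ∃ f ∈ (gaussSheet hres hunit hπ N hk).W, (gaussSheet hres hunit hπ N hk).rd f = x := by
  obtain ⟨f, rfl⟩ := gaussRed_surjective A π N hπ x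
  exact ⟨f, f.2, Sheet.rd_of_mem f.2⟩

/-- An expansion map between two levels commuting with all coefficient maps gives compatible
sheets. -/
theorem gaussSheet_compat {N' : ℕ} [NeZero N'] (hk : (N : k) ≠ 0) (hk' : (N' : k) ≠ 0)
    (φ : laurentBaseChange L (modularFunctionFieldFull N) →ₐ[L]
      laurentBaseChange L (modularFunctionFieldFull N'))
    (φb : modularFunctionFieldFullC k N →ₐ[k] modularFunctionFieldFullC k N')
    (eA : LaurentSeries A →+* LaurentSeries A) (eL : LaurentSeries L →+* LaurentSeries L)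
    (ek : LaurentSeries k →+* LaurentSeries k)
    (hL : ∀ y, coeffMap A.subtype (eA y) = eL (coeffMap A.subtype y))
    (hk1 : ∀ y, coeffMap π (eA y) = ek (coeffMap π y))
    (hφ : ∀ f, (φ f : LaurentSeries L) = eL (f : LaurentSeries L))
    (hφb : ∀ f, (φb f : LaurentSeries k) = ek (f : LaurentSeries k)) :
    SheetCompat (gaussSheet hres hunit hπ N hk) (gaussSheet hres hunit hπ N' hk') φ φb := by
  rintro f ⟨y, z, hz, h⟩
  have mem : ∀ w : integralSeries A π N, eA (w : LaurentSeries A) ∈ integralSeries A π N' := by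
    intro w
    rw [mem_integralSeries, hL, hk1]
    exact ⟨(hφ (genericFun A π N w)) ▸ SetLike.coe_mem _,
      (hφb (specialFun A π N w)) ▸ SetLike.coe_mem _⟩
  have hg : ∀ w, φ (genericFun A π N w) = genericFun A π N' ⟨_, mem w⟩ := fun w =>
    Subtype.ext ((hφ _).trans (hL _).symm)
  have hs : ∀ w, φb (specialFun A π N w) = specialFun A π N' ⟨_, mem w⟩ := fun w =>
    Subtype.ext ((hφb _).trans (hk1 _).symm)
  have hz' : specialFun A π N' ⟨_, mem z⟩ ≠ 0 := by
    rw [← hs]
    exact (map_ne_zero φb).mpr hz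
  obtain ⟨hm, hr⟩ := gaussSheet_rd hres hunit hπ hk' hz' (f := φ f) (y := ⟨_, mem y⟩)
    (by rw [← hg, ← hg, ← map_mul, h])
  refine ⟨hm, ?_⟩
  rw [hr, ← hs, ← hs, ← map_div₀, (gaussSheet_rd hres hunit hπ hk hz h).2]

section Degeneracy

variable (k)
variable (N l : ℕ) [NeZero N] [NeZero l]

/-- `τ ↦ τ` on the special function fields. -/
def fullAlphaC : modularFunctionFieldFullC k N →ₐ[k] modularFunctionFieldFullC k (N * l) :=
  haveI : NeZero (N * l) := ⟨Nat.mul_ne_zero (NeZero.ne N) (NeZero.ne l)⟩
  IntermediateField.inclusion (full_degeneracyC_le k (dvd_mul_right N l))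

/-- `τ ↦ l τ` on the special function fields. -/
def fullBetaC : modularFunctionFieldFullC k N →ₐ[k] modularFunctionFieldFullC k (N * l) :=
  ((qExpandAlgHomC k l).comp (modularFunctionFieldFullC k N).val).codRestrict
    (modularFunctionFieldFullC k (N * l)).toSubalgebra
    fun x => full_degeneracyC_map_le k N l ⟨x, x.2, rfl⟩

theorem coe_fullAlphaC (x : modularFunctionFieldFullC k N) :
    (fullAlphaC k N l x : LaurentSeries k) = x := IntermediateField.coe_inclusion _ x

omit [NeZero N] in
theorem coe_fullBetaC (x : modularFunctionFieldFullC k N) :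
    (fullBetaC k N l x : LaurentSeries k) = qExpand k l (x : LaurentSeries k) := rfl

variable {k} {N l}

omit [NeZero N] in
theorem adjoin_jqModC_le_full : k⟮jqModC k⟯ ≤ modularFunctionFieldFullC k N :=
  adjoin_simple_le_iff.mpr (jqModC_mem_full k N)

theorem relfinrank_fullC (hk : (N : k) ≠ 0) :
    relfinrank k⟮jqModC k⟯ (modularFunctionFieldFullC k N) = dedekindPsi N := by
  set E := modularFunctionFieldFullC k N
  set x : E := ⟨jqModC k, jqModC_mem_full k N⟩
  rw [← finrank_modularFunctionFieldFullC k N hk,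
    show k⟮jqModC k⟯ = (adjoin k {x}).map E.val from (lift_adjoin_simple k E x).symm]
  conv_lhs => arg 2; rw [show E = (⊤ : IntermediateField k E).map E.val from (lift_top k E).symm]
  rw [relfinrank_map_map, relfinrank_top_right]

theorem finrankAlong_fullAlphaC_mul (hk : (N * l : k) ≠ 0) :
    finrankAlong k (fullAlphaC k N l) * dedekindPsi N = dedekindPsi (N * l) := by
  haveI : NeZero (N * l) := ⟨Nat.mul_ne_zero (NeZero.ne N) (NeZero.ne l)⟩
  rw [← relfinrank_fullC (k := k) (N := N) (left_ne_zero_of_mul hk),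
    ← relfinrank_fullC (k := k) (N := N * l) (by exact_mod_cast hk),
    finrankAlong_eq_relfinrank _ (full_degeneracyC_le k (dvd_mul_right N l))
      (coe_fullAlphaC k N l), mul_comm]
  exact relfinrank_mul_relfinrank adjoin_jqModC_le_full
    (full_degeneracyC_le k (dvd_mul_right N l))

/-- The degree of `τ ↦ τ` is preserved by reduction. -/
theorem finrankAlong_fullAlphaC_eq (hk : (N * l : k) ≠ 0)
    (hL : LevelFacts L) :
    finrankAlong k (fullAlphaC k N l) = finrankAlong L (heckeAlphaBar L N l) := by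
  haveI : NeZero (N * l) := ⟨Nat.mul_ne_zero (NeZero.ne N) (NeZero.ne l)⟩
  have h := finrankAlong_barIncl_mul (M := N) (M' := N * l) hL (dvd_mul_right N l)
  rw [← heckeAlphaBar_eq_barIncl, ← finrankAlong_fullAlphaC_mul hk] at h
  exact Nat.eq_of_mul_eq_mul_right (dedekindPsi_pos' N) h.symm

theorem finiteAlong_fullAlphaC (hk : (N * l : k) ≠ 0) : FiniteAlong k (fullAlphaC k N l) := by
  refine finiteAlong_of_finrankAlong_pos (Nat.pos_of_ne_zero fun h => ?_)
  have := finrankAlong_fullAlphaC_mul hk
  haveI : NeZero (N * l) := ⟨Nat.mul_ne_zero (NeZero.ne N) (NeZero.ne l)⟩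
  rw [h, zero_mul] at *
  exact (dedekindPsi_pos' (N * l)).ne (by assumption)

variable (hk : (N : k) ≠ 0) (hkl : ((N * l : ℕ) : k) ≠ 0)

theorem gaussSheet_compat_alpha [NeZero (N * l)] :
    SheetCompat (gaussSheet hres hunit hπ N hk) (gaussSheet hres hunit hπ (N * l) hkl)
      (heckeAlphaBar L N l) (fullAlphaC k N l) :=
  gaussSheet_compat hres hunit hπ hk hkl _ _ (RingHom.id _) (RingHom.id _) (RingHom.id _)
    (fun _ => rfl) (fun _ => rfl) (coe_heckeAlphaBar N l) (coe_fullAlphaC k N l)

theorem gaussSheet_compat_beta [NeZero (N * l)] :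
    SheetCompat (gaussSheet hres hunit hπ N hk) (gaussSheet hres hunit hπ (N * l) hkl)
      (heckeBetaBar L N l) (fullBetaC k N l) :=
  gaussSheet_compat hres hunit hπ hk hkl _ _ (qExpand A l) (qExpand L l) (qExpand k l)
    (coeffMap_qExpand _ l) (coeffMap_qExpand _ l) (coe_heckeBetaBar N l) (coe_fullBetaC k N l)

end Degeneracy

end FermatLib.MazurP

end
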