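import Fermat.Agent.Galois.MazurP.PrincipleProof
import Fermat.Agent.Galois.MazurP.InstanceDatum
import Fermat.Agent.Galois.MazurP.InstanceHecke
import Fermat.Agent.Igusa.MonoModular

/-!
# The data of the Mazur principle at `p` on `X₀(pM)`

`PrincipleData` for the datum of the two modular sheets, and the principle from the existence of
a two-sheet datum on them.
-/

set_option autoImplicit false
set_option linter.style.haveILetI false
set_option synthInstance.maxHeartbeats 400000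
set_option maxHeartbeats 1000000

noncomputable section

open AlgebraicCurve ModularCurve FermatLib.Igusa FermatLib.Igusa.Mono

namespace FermatLib.MazurP

attribute [local instance 100000] monoLaurentModule monoLaurentSMul

local notation "Qbar" => AlgebraicClosure ℚ

section Forms

universe uk uKb

variable {A : ValuationSubring Qbar} {k : Type uk} [Field k] {π : A →+* k}
  {Kb : Type uKb} [Field Kb] [Algebra k Kb] {p M : ℕ} [NeZero (p * M)]

/-- The field `forms` of `PrincipleData`, from the coefficientwise sheets. -/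
theorem IsX0Model.exists_forms {D : MazurDatum π (modularFunctionFieldBar (p * M)) Kb p}
    {w : modularFunctionFieldBar (p * M) ≃ₐ[Qbar] modularFunctionFieldBar (p * M)}
    {emb : Kb →ₐ[k] LaurentSeries k} (hD : IsX0Model D w emb) (hA : A.LiesOverPrime p) :
    ∃ R₀ : D.RatForm, R₀.e = 1 ∧ R₀.IsRat (0 : Divisor Qbar _) ∧
    (∀ x : JZero (p * M), (p : ℤ) • x = 0 → (∀ σ ∈ A.inertiaSubgroupIn ℚ, σ • x = x) →
      ∃ T, R₀.IsRatTors T ∧ D.IsClassOf T x) ∧
    ∀ ϖ : Qbar, IsWildUniformiser A p ϖ → ∀ σ ∈ A.inertiaSubgroupIn ℚ,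
      σ ϖ / ϖ - 1 ≠ 0 → A.valuation (σ ϖ / ϖ - 1) < 1 →
      ∃ R : D.RatForm, R.e = p ∧ R.ϖ = ϖ ∧ R.IsRat (0 : Divisor Qbar _) ∧
        (∃ V : R.Move, V.c₀ = σ ϖ / ϖ - 1 ∧ ∀ c ∈ R₀.K, c ∈ R.K ∧ V.σL c = c) ∧
        ∀ x : JZero (p * M), (p : ℤ) • x = 0 →
          (∀ τ ∈ A.inertiaSubgroupIn ℚ, τ ϖ = ϖ → τ • x = x) →
          ∃ T, R.IsRatTors T ∧ D.IsClassOf T x := by
  have hp := hD.prime
  have hres : ∀ r : k, ∃ a : A, (a : Qbar) ∈ inertiaField A ∧ π a = r :=
    exists_inertiaField_residue hp hA D.π_eq_zero D.π_surjective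
  refine ⟨hD.ratForm (inertiaField A) (p : Qbar) (natCast_mem _ p) 1 Nat.one_pos (pow_one _)
      (fun c hc hc0 => exists_valuation_eq_zpow_of_mem hp hA hc hc0) hres,
    rfl, hD.isRat_zero rfl, fun x hx hfix => ?_, fun ϖ hϖ σ hσ hne hlt => ?_⟩
  · exact hD.exists_torsData rfl rfl x hx fun σ hσ =>
      hfix σ (fixingSubgroup_inertiaField hp hA ▸ hσ)
  have hϖ0 : ϖ ≠ 0 := fun e => by
    have h1 := hϖ.val_pow
    rw [e, map_zero, zero_pow hp.ne_zero] at h1
    exact Galois.Flat.valuation_prime_ne_zero hp h1.symm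
  refine ⟨hD.ratForm (wildField A ϖ) ϖ mem_wildField_self p hp.pos hϖ.val_pow
      (fun c hc hc0 => hϖ.exists_valuation_eq_zpow hp hA hc hc0)
      (fun r => (hres r).imp fun a ha => ⟨inertiaField_le_wildField ha.1, ha.2⟩),
    rfl, rfl, hD.isRat_zero rfl,
    ⟨hD.move rfl hσ hne hlt (show σ ϖ = ϖ * (1 + (σ ϖ / ϖ - 1)) by field_simp; ring)
        (fun a ha => hϖ.valuation_sub_lt hp hA hσ hne ha a.2), rfl,
      fun c hc => ⟨inertiaField_le_wildField hc, inertia_fix ⟨c, hc⟩ hσ⟩⟩,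
    fun x hx hfix => hD.exists_torsData rfl rfl x hx fun τ hτ =>
      (mem_fixingSubgroup_wildField hp hA hτ).elim fun h1 h2 => hfix τ h1 h2⟩

end Forms

variable {q : ℕ} [Fact q.Prime] {M : ℕ} [NeZero M] [NeZero (q * M)] (hqM : ¬ q ∣ M)
  {A : ValuationSubring (AlgebraicClosure ℚ)} (hA : A.LiesOverPrime q)
  (MD : MonoDatum (IsLocalRing.residue A) ↥(modularFunctionFieldBar (q * M))
    ↥(modularFunctionFieldFullC (IsLocalRing.ResidueField A) M) q)
  (h₁ : MD.s₁ = monoSheetInf hqM hA) (h₂ : MD.s₂ = monoSheetZero hqM hA)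
  (hx : MD.x = jFq q M)

/-- `PrincipleData` for the modular datum. -/
theorem principleData_mazurDatumX0 :
    PrincipleData (mazurDatumX0 hqM hA MD h₁ h₂ hx) where
  forms := (isX0Model_mazurDatumX0 hqM hA MD h₁ h₂ hx).exists_forms hA
  heckeKill := heckeKill_of_monoSheets hqM hA _ h₁ h₂ hx rfl
  special := special_of_monoSheets hqM hA _ h₁ h₂ hx rfl

end FermatLib.MazurP

namespace FermatLib.MazurP

/-- A two-sheet datum on the modular sheets exists at every `(q, M, A)`. -/
def ModularDatumInput : Prop :=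
  ∀ (q : ℕ) [Fact q.Prime] (M : ℕ) [NeZero M] (hqM : ¬ q ∣ M)
    (A : ValuationSubring (AlgebraicClosure ℚ)) (hA : A.LiesOverPrime q),
    ∃ MD : MonoDatum (IsLocalRing.residue A) ↥(modularFunctionFieldBar (q * M))
        ↥(modularFunctionFieldFullC (IsLocalRing.ResidueField A) M) q,
      MD.s₁ = monoSheetInf hqM hA ∧ MD.s₂ = monoSheetZero hqM hA ∧ MD.x = jFq q M

/-- **The Mazur principle at `p`** from the existence of the modular two-sheet datum. -/
theorem principleAtP_of_modularDatum (h : ModularDatumInput) : PrincipleAtP :=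
  principleAtP_of_inputs fun p M _ hp _ hpM hM A hA => by
    have : Fact p.Prime := ⟨hp⟩
    have : NeZero M := ⟨hM.ne'⟩
    obtain ⟨MD, h₁, h₂, hx⟩ := h p M hpM A hA
    exact ⟨mazurDatumX0 hpM hA MD h₁ h₂ hx, principleData_mazurDatumX0 hpM hA MD h₁ h₂ hx⟩

end FermatLib.MazurP

end
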