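import Fermat.Agent.Galois.MazurP.Datum
import Fermat.Agent.Igusa.MonoSeriesSheet
import Mathlib.LinearAlgebra.Dual.Lemmas

/-!
# Sheets given by coefficientwise reduction of expansions

Orthogonality on such a sheet, scaling of functions with coefficients in a subfield `K` by
elements of `K`, and the effect of an automorphism of the coefficients.
-/

set_option autoImplicit false

noncomputable section

open AlgebraicCurve ModularCurve
open FermatLib.Igusa FermatLib.Igusa.Mono

namespace FermatLib.MazurP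

attribute [local instance 100000] monoLaurentModule monoLaurentSMul

variable {L k F Kb : Type*} [Field L] [CharZero L] [Field k] [Field F] [Algebra L F] [Field Kb]
  [Algebra k Kb] {A : ValuationSubring L} {π : A →+* k}

/-- The sheet is given by ratios of `A`-integral series, reduced coefficientwise. -/
structure CoeffSheet (s : Sheet π F Kb) (ι : F →ₐ[L] LaurentSeries L)
    (emb : Kb →ₐ[k] LaurentSeries k) : Prop where
  ratio : ∀ f ∈ s.W, ∃ y z, IsRatio A π ι f y z ∧ emb (s.rd f) * coeffMap π z = coeffMap π y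
  mem : ∀ (f : F) (y z : LaurentSeries A), IsRatio A π ι f y z → f ∈ s.W

namespace CoeffSheet

variable {s : Sheet π F Kb} {ι : F →ₐ[L] LaurentSeries L} {emb : Kb →ₐ[k] LaurentSeries k}
  (hs : CoeffSheet s ι emb)

include hs in
theorem emb_rd {f : F} {y z : LaurentSeries A} (h : IsRatio A π ι f y z) :
    emb (s.rd f) = coeffMap π y / coeffMap π z := by
  obtain ⟨y', z', h', hr⟩ := hs.ratio f (hs.mem f y z h)
  rw [h.unique h', eq_div_iff h'.red_ne, hr]

include hs in
theorem rd_eq_zero {f : F} {y z : LaurentSeries A} (h : IsRatio A π ι f y z)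
    (hy : coeffMap π y = 0) : s.rd f = 0 :=
  emb.toRingHom.injective (show emb (s.rd f) = emb 0 by rw [hs.emb_rd h, hy, zero_div, map_zero])

include hs in
theorem rd_ne_zero {f : F} {y z : LaurentSeries A} (h : IsRatio A π ι f y z)
    (hy : coeffMap π y ≠ 0) : s.rd f ≠ 0 := fun h0 => by
  have h1 := hs.emb_rd h
  rw [h0, map_zero, eq_comm, div_eq_zero_iff] at h1
  exact h1.elim hy h.red_ne

include hs in
/-- Orthogonality on a single sheet. -/
theorem sheetOrth {q : ℕ} (hq : q.Prime) (hqk : (q : k) = 0)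
    (hfr : ∀ f : F, ∃ z : F, z ≠ 0 ∧ ι z ∈ intSpan L ∧ ι (f * z) ∈ intSpan L) :
    SheetOrth s := by
  classical
  intro V hV
  set B := Module.finBasis L V
  choose z hz0 hz hzf using fun i => hfr ((B i : V) : F)
  set Z : F := ∏ i, z i with hZ
  have hZ0 : Z ≠ 0 := Finset.prod_ne_zero_iff.mpr fun i _ => hz0 i
  have hmem : ∀ f ∈ V, ι (f * Z) ∈ intSpan L := by
    intro f hf
    have hrep : f = ∑ i, B.repr ⟨f, hf⟩ i • (B i : F) := by
      have h := congrArg V.subtype (B.sum_repr ⟨f, hf⟩)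
      simpa only [map_sum, map_smul, Submodule.subtype_apply] using h.symm
    rw [hrep, Finset.sum_mul, map_sum]
    refine sum_mem fun i _ => ?_
    rw [smul_mul_assoc, map_smul]
    refine (intSpan L).smul_mem ?_ _
    rw [hZ, ← Finset.mul_prod_erase _ _ (Finset.mem_univ i), ← mul_assoc, map_mul ι, map_prod]
    exact mul_mem (hzf i) (prod_mem fun j _ => hz j)
  obtain ⟨c₁, y₁, hc₁, hy₁, hy₁0⟩ := exists_scale_series π hq hqk
    (x := ι Z) (by rw [hZ, map_prod]; exact prod_mem fun j _ => hz j)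
    ((map_ne_zero_iff _ ι.injective).mpr hZ0)
  set T : F →ₗ[L] LaurentSeries L × LaurentSeries L :=
    (LinearMap.inl L (LaurentSeries L) (LaurentSeries L)).comp
      (c₁ • (ι.toLinearMap.comp (LinearMap.mulRight L Z))) with hT
  have hTf : ∀ f, T f = (c₁ • ι (f * Z), 0) := fun f => rfl
  have hTinj : Function.Injective T := fun f g h => by
    have h1 := congrArg Prod.fst h
    simp only [hTf] at h1
    rw [Algebra.smul_def, Algebra.smul_def] at h1
    exact mul_right_cancel₀ hZ0 (ι.injective (mul_left_cancel₀ (by simpa using hc₁) h1))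
  obtain ⟨e, heU, he⟩ := exists_orth_pairs (L := L) π hq hqk (V.map T) fun p hp => by
    obtain ⟨f, hf, rfl⟩ := hp
    exact ⟨(intSpan L).smul_mem (hmem f hf) _, zero_mem _⟩
  have key : ∀ j, ∃ f ∈ V, IsRatio A π ι f (e j).1 y₁ ∧ (e j).2 = 0 := by
    intro j
    obtain ⟨f, hf, hfe⟩ := Submodule.mem_map.mp (heU j)
    rw [hTf, Prod.mk.injEq] at hfe
    exact ⟨f, hf, ⟨hy₁0, by rw [hy₁, mul_smul_comm, ← map_mul, hfe.1]⟩,
      coeffMap_subtype_injective (by rw [map_zero]; exact hfe.2.symm)⟩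
  choose f hfV hfr' hf2 using key
  have hli1 : LinearIndependent k fun j => coeffMap π (e j).1 := by
    refine LinearIndependent.of_comp (LinearMap.inl k (LaurentSeries k) (LaurentSeries k)) ?_
    have heq : (LinearMap.inl k (LaurentSeries k) (LaurentSeries k) ∘ fun j => coeffMap π (e j).1)
        = fun j => (coeffMap π (e j).1, coeffMap π (e j).2) :=
      funext fun j => by simp [hf2 j]
    rw [heq]
    exact he
  have hli : LinearIndependent k fun j => s.rd (f j) := by
    refine LinearIndependent.of_comp emb.toLinearMap ?_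
    have hΛ : Function.Injective (LinearMap.mulRight k (coeffMap π y₁)⁻¹) := fun a b h =>
      mul_right_cancel₀ (inv_ne_zero hy₁0) h
    have heq : (emb.toLinearMap ∘ fun j => s.rd (f j)) =
        (LinearMap.mulRight k (coeffMap π y₁)⁻¹ ∘ fun j => coeffMap π (e j).1) :=
      funext fun j => by simp [hs.emb_rd (hfr' j), div_eq_mul_inv]
    rw [heq]
    exact hli1.map' _ (LinearMap.ker_eq_bot.mpr hΛ)
  refine ⟨_, f, fun j => hs.mem _ _ _ (hfr' j), hfV, ?_, hli⟩
  have hliF : LinearIndependent L f := by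
    rw [Fintype.linearIndependent_iff]
    intro c hc
    by_contra hne
    push Not at hne
    obtain ⟨i₀, hi₀, hA⟩ := exists_scaled_vector A c hne
    set a : Fin _ → A := fun j => ⟨(c i₀)⁻¹ * c j, hA j⟩ with ha
    have h1 : ∑ j, HahnSeries.single 0 (a j) * (e j).1 = 0 := by
      refine coeffMap_subtype_injective (A := A) ?_
      rw [map_sum, map_zero]
      calc ∑ j, coeffMap A.subtype (HahnSeries.single 0 (a j) * (e j).1)
          = ι (∑ j, ((c i₀)⁻¹ * c j) • f j) * coeffMap A.subtype y₁ := by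
            rw [map_sum, Finset.sum_mul]
            refine Finset.sum_congr rfl fun j _ => ?_
            rw [map_mul, coeffMap_single, ← (hfr' j).eq, map_smul, Algebra.smul_def,
              algebraMap_laurentSeries_eq_single, mul_assoc]
            rfl
        _ = 0 := by
            simp only [mul_smul, ← Finset.smul_sum, hc, smul_zero, map_zero, zero_mul]
    have h2 := congrArg (coeffMap π) h1
    rw [map_sum, map_zero] at h2
    have h3 : ∑ j, π (a j) • coeffMap π (e j).1 = 0 := by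
      rw [← h2]
      refine Finset.sum_congr rfl fun j _ => ?_
      rw [map_mul, coeffMap_single, Algebra.smul_def, algebraMap_laurentSeries_eq_single]
    have h4 := Fintype.linearIndependent_iff.mp hli1 _ h3 i₀
    rw [show a i₀ = 1 from Subtype.ext (inv_mul_cancel₀ hi₀), map_one] at h4
    exact one_ne_zero h4
  refine le_of_eq (Submodule.eq_of_le_of_finrank_eq (Submodule.span_le.mpr ?_) ?_).symm
  · rintro _ ⟨j, rfl⟩
    exact hfV j
  · rw [finrank_span_eq_card hliF, Fintype.card_fin,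
      (Submodule.equivMapOfInjective T hTinj V).symm.finrank_eq]

end CoeffSheet

/-! ### Coefficients in a subfield -/

/-- All coefficients lie in `K`. -/
def CoeffIn (K : Subfield L) (x : LaurentSeries L) : Prop := ∀ i, x.coeff i ∈ K

omit [CharZero L] in
theorem CoeffIn.mul {K : Subfield L} {x y : LaurentSeries L} (hx : CoeffIn K x) (hy : CoeffIn K y) :
    CoeffIn K (x * y) := fun i => by
  rw [HahnSeries.coeff_mul]
  exact sum_mem fun p _ => mul_mem (hx _) (hy _)

/-- Apply an additive map to the coefficients. -/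
def mapCoeffs (φ : L →+ L) : LaurentSeries L →+ LaurentSeries L where
  toFun x := ⟨fun i => φ (x.coeff i), x.isPWO_support.mono fun i hi h0 => hi (by simp [h0])⟩
  map_zero' := by ext i; exact map_zero φ
  map_add' x y := by ext i; exact map_add φ _ _

omit [CharZero L] in
@[simp] theorem mapCoeffs_coeff (φ : L →+ L) (x : LaurentSeries L) (i : ℤ) :
    (mapCoeffs φ x).coeff i = φ (x.coeff i) := rfl

omit [CharZero L] in
theorem mapCoeffs_mul {K : Subfield L} {φ : L →+ L} (hφ : ∀ a ∈ K, ∀ c, φ (a * c) = a * φ c)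
    {x : LaurentSeries L} (hx : CoeffIn K x) (z : LaurentSeries L) :
    mapCoeffs φ (x * z) = x * mapCoeffs φ z := by
  ext i
  have hsub : (mapCoeffs φ z).support ⊆ z.support := fun j hj h0 => hj (by simp [h0])
  rw [mapCoeffs_coeff, HahnSeries.coeff_mul, map_sum,
    HahnSeries.coeff_mul_right' z.isPWO_support hsub]
  exact Finset.sum_congr rfl fun p _ => hφ _ (hx _) _

theorem mapCoeffs_mem_intSpan {φ : L →+ L} {z : LaurentSeries L} (hz : z ∈ intSpan L) :
    mapCoeffs φ z ∈ intSpan L := by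
  rw [mem_intSpan_iff] at hz
  induction hz using Submodule.span_induction generalizing φ with
  | mem x hx =>
    obtain ⟨y, rfl⟩ := hx
    rw [show mapCoeffs φ (coeffMap (Int.castRingHom L) y) =
      φ 1 • coeffMap (Int.castRingHom L) y from HahnSeries.ext (funext fun i => by
        rw [mapCoeffs_coeff, monoSeries_smul_coeff, coeffMap_coeff, eq_intCast,
          ← zsmul_one, map_zsmul, zsmul_eq_mul, zsmul_eq_mul, mul_one, mul_comm])]
    exact (intSpan L).smul_mem (coeffMap_mem_intSpan y) _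
  | zero => rw [map_zero]; exact zero_mem _
  | add x y _ _ hx hy => rw [map_add]; exact add_mem hx hy
  | smul c x _ hx =>
    rw [show mapCoeffs φ (c • x) = mapCoeffs (φ.comp (AddMonoidHom.mulLeft c)) x from
      HahnSeries.ext (funext fun i => by
        rw [mapCoeffs_coeff, mapCoeffs_coeff, monoSeries_smul_coeff]; rfl)]
    exact hx

/-- A normalised series: integral coefficients, one of them equal to `1`. -/
theorem exists_normalised_coeff {q : ℕ} (hq : q.Prime) (hqk : (q : k) = 0)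
    (hπ : ∀ a : A, π a = 0 ↔ ¬ IsUnit a) {x : LaurentSeries L} (hx : x ∈ intSpan L) (hx0 : x ≠ 0) :
    ∃ i, x.coeff i ≠ 0 ∧ ∀ j, (x.coeff i)⁻¹ * x.coeff j ∈ A := by
  obtain ⟨c, y, hc, hy, hy0⟩ := exists_scale_series π hq hqk hx hx0
  obtain ⟨i, hi⟩ : ∃ i, π (y.coeff i) ≠ 0 := by
    by_contra h
    push Not at h
    exact hy0 (HahnSeries.ext (funext fun i => by simpa using h i))
  have hu : IsUnit (y.coeff i) := by
    by_contra hu
    exact hi ((hπ _).mpr hu)
  have hcoeff : ∀ j, ((y.coeff j : A) : L) = c * x.coeff j := fun j => by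
    rw [← monoSeries_smul_coeff, ← hy, coeffMap_coeff]; rfl
  have hxi : x.coeff i ≠ 0 := fun h0 => hu.ne_zero (Subtype.ext (by rw [hcoeff, h0, mul_zero]; rfl))
  refine ⟨i, hxi, fun j => ?_⟩
  obtain ⟨v, hv⟩ := hu
  have h1 : (((v⁻¹ : Aˣ) : A) : L) * (y.coeff j : L) = (x.coeff i)⁻¹ * x.coeff j := by
    have hvi : (((v⁻¹ : Aˣ) : A) : L) * ((y.coeff i : A) : L) = 1 := by
      rw [← hv, ← MulMemClass.coe_mul, Units.inv_mul, OneMemClass.coe_one]
    rw [hcoeff] at hvi ⊢
    field_simp
    linear_combination x.coeff j * hvi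
  exact h1 ▸ ((((v⁻¹ : Aˣ) : A) * y.coeff j : A)).2

omit [CharZero L] in
/-- The series `x / xᵢ` over `A` of a normalised `x`. -/
theorem exists_series_normalised {K : Subfield L} {x : LaurentSeries L} (hxK : CoeffIn K x) {i : ℤ}
    (hi : x.coeff i ≠ 0) (hA : ∀ j, (x.coeff i)⁻¹ * x.coeff j ∈ A) :
    ∃ y : LaurentSeries A, coeffMap A.subtype y =
        algebraMap L (LaurentSeries L) (x.coeff i)⁻¹ * x ∧
      (∀ j, ((y.coeff j : A) : L) ∈ K) ∧ coeffMap π y ≠ 0 := by
  obtain ⟨y, hy, hy'⟩ := exists_series_over (A := A)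
    (x := algebraMap L (LaurentSeries L) (x.coeff i)⁻¹ * x)
    (a := fun j => ⟨_, hA j⟩) fun j => by
      rw [algebraMap_laurentSeries_eq_single, HahnSeries.coeff_single_zero_mul]
  refine ⟨y, hy, fun j => ?_, fun h0 => ?_⟩
  · rw [hy']
    exact mul_mem (inv_mem (hxK i)) (hxK j)
  · have h1 := congrArg (fun z : LaurentSeries k => z.coeff i) h0
    simp only [coeffMap_coeff, hy', HahnSeries.coeff_zero] at h1
    rw [show (⟨_, hA i⟩ : A) = 1 from Subtype.ext (inv_mul_cancel₀ hi), map_one] at h1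
    exact one_ne_zero h1

namespace CoeffSheet

variable {s : Sheet π F Kb} {ι : F →ₐ[L] LaurentSeries L} {emb : Kb →ₐ[k] LaurentSeries k}
  (hs : CoeffSheet s ι emb) {q : ℕ} (hq : q.Prime) (hqk : (q : k) = 0)
  (hπ : ∀ a : A, π a = 0 ↔ ¬ IsUnit a)
  (hfr : ∀ f : F, ∃ z : F, z ≠ 0 ∧ ι z ∈ intSpan L ∧ ι (f * z) ∈ intSpan L)

include hq hqk hπ hfr in
/-- A function with coefficients in `K` is a multiple in `K` of a ratio over `A ∩ K`. -/
theorem exists_ratio_over {K : Subfield L} {f : F} (hf : CoeffIn K (ι f)) (hf0 : f ≠ 0) :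
    ∃ (c : L) (y z : LaurentSeries A), c ∈ K ∧ c ≠ 0 ∧ IsRatio A π ι (c • f) y z ∧
      coeffMap π y ≠ 0 ∧ (∀ j, ((y.coeff j : A) : L) ∈ K) ∧
      ∀ j, ((z.coeff j : A) : L) ∈ K := by
  obtain ⟨z₀, hz₀, hz, hfz⟩ := hfr f
  obtain ⟨m, hm⟩ : ∃ m, (ι z₀).coeff m ≠ 0 := by
    by_contra h
    push Not at h
    exact hz₀ (ι.injective (HahnSeries.ext (funext fun j => by simpa using h j)))
  obtain ⟨φ₀, hφ₀⟩ : ∃ φ₀ : L →ₗ[K] K, φ₀ ((ι z₀).coeff m) ≠ 0 := by
    by_contra h
    push Not at h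
    exact hm ((Module.forall_dual_apply_eq_zero_iff K _).mp h)
  set φ : L →+ L := (K.subtype.toAddMonoidHom).comp φ₀.toAddMonoidHom with hφdef
  have hφ : ∀ a ∈ K, ∀ c, φ (a * c) = a * φ c := fun a ha c => by
    show ((φ₀ ((⟨a, ha⟩ : K) • c) : K) : L) = _
    rw [map_smul]
    rfl
  set z' := mapCoeffs φ (ι z₀) with hz'
  have hz'K : CoeffIn K z' := fun j => (φ₀ ((ι z₀).coeff j)).2
  have hz'0 : z' ≠ 0 := fun h => hφ₀ (Subtype.ext (by
    have := congrArg (fun x : LaurentSeries L => x.coeff m) h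
    simpa [hz', hφdef] using this))
  have hfz' : ι f * z' ∈ intSpan L := by
    rw [hz', ← mapCoeffs_mul hφ hf, ← map_mul]
    exact mapCoeffs_mem_intSpan hfz
  have hfz'0 : ι f * z' ≠ 0 := mul_ne_zero ((map_ne_zero_iff _ ι.injective).mpr hf0) hz'0
  obtain ⟨i, hi, hiA⟩ := exists_normalised_coeff hq hqk hπ (mapCoeffs_mem_intSpan (φ := φ) hz) hz'0
  obtain ⟨l, hl, hlA⟩ := exists_normalised_coeff hq hqk hπ hfz' hfz'0
  obtain ⟨z, hzeq, hzK, hz1⟩ := exists_series_normalised (π := π) hz'K hi hiA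
  obtain ⟨y, hyeq, hyK, hy1⟩ := exists_series_normalised (π := π) (hf.mul hz'K) hl hlA
  refine ⟨((ι f * z').coeff l)⁻¹ * z'.coeff i, y, z,
    mul_mem (inv_mem (hf.mul hz'K l)) (hz'K i), mul_ne_zero (inv_ne_zero hl) hi, ⟨hz1, ?_⟩,
    hy1, hyK, hzK⟩
  rw [Algebra.smul_def, map_mul ι, AlgHom.commutes, hzeq, hyeq]
  simp only [map_mul, mul_assoc]
  rw [mul_left_comm (ι f), ← mul_assoc (algebraMap L (LaurentSeries L) (z'.coeff i)), ← map_mul,
    mul_inv_cancel₀ hi, map_one, one_mul]

include hs hq hqk hπ hfr in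
theorem exists_scale_in {K : Subfield L} {f : F} (hf : CoeffIn K (ι f)) (hf0 : f ≠ 0) :
    ∃ c ∈ K, c • f ∈ s.W ∧ s.rd (c • f) ≠ 0 := by
  obtain ⟨c, y, z, hc, -, h, hy, -, -⟩ := exists_ratio_over hq hqk hπ hfr hf hf0
  exact ⟨c, hc, hs.mem _ _ _ h, hs.rd_ne_zero h hy⟩

include hs hq hqk hπ hfr in
/-- An integral function over `K` is a ratio over `A ∩ K`. -/
theorem exists_ratio_mem {K : Subfield L} {f : F} (hf : CoeffIn K (ι f)) (hfW : f ∈ s.W) :
    ∃ y z : LaurentSeries A, IsRatio A π ι f y z ∧ (∀ j, ((y.coeff j : A) : L) ∈ K) ∧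
      ∀ j, ((z.coeff j : A) : L) ∈ K := by
  rcases eq_or_ne f 0 with rfl | hf0
  · refine ⟨0, 1, ⟨by simp, by simp⟩, fun j => by simp, fun j => ?_⟩
    rcases eq_or_ne j 0 with rfl | hj
    · simp
    · simp [HahnSeries.coeff_one, hj]
  obtain ⟨c, y, z, hc, hc0, h, hy, hyK, hzK⟩ := exists_ratio_over hq hqk hπ hfr hf hf0
  have hcA : c⁻¹ ∈ A := by
    by_contra hnot
    have hcA : c ∈ A := (A.mem_or_inv_mem c).resolve_right hnot
    have hcu : π ⟨c, hcA⟩ = 0 := (hπ _).mpr fun hu => hnot <| by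
      obtain ⟨v, hv⟩ := hu
      have h1 : (((v⁻¹ : Aˣ) : A) : L) * ((v : A) : L) = 1 := by
        rw [← MulMemClass.coe_mul, Units.inv_mul, OneMemClass.coe_one]
      rw [hv] at h1
      rw [← eq_inv_of_mul_eq_one_left h1]
      exact (((v⁻¹ : Aˣ) : A)).2
    refine hs.rd_ne_zero h hy ?_
    rw [Sheet.rd_smul hcA hfW, hcu, zero_smul]
  refine ⟨HahnSeries.single 0 ⟨c⁻¹, hcA⟩ * y, z, ⟨h.red_ne, ?_⟩, fun j => ?_, hzK⟩
  · rw [map_mul, coeffMap_single, ← h.eq, ← mul_assoc, Algebra.smul_def c f, map_mul ι,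
      AlgHom.commutes, algebraMap_laurentSeries_eq_single, ← mul_assoc, HahnSeries.single_mul_single]
    simp [hc0]
  · rw [HahnSeries.coeff_single_zero_mul]
    exact mul_mem (inv_mem hc) (hyK j)

include hs in
/-- An automorphism of the coefficients preserving `A` and residues preserves the sheet. -/
theorem map_mem {σF : F → F} (σA : A →+* A) (hσπ : ∀ a, π (σA a) = π a) {σL : L →+* L}
    (hσA : ∀ a, (σA a : L) = σL a) (hσι : ∀ f, ι (σF f) = coeffMap σL (ι f))
    {f : F} (hf : f ∈ s.W) : σF f ∈ s.W ∧ s.rd (σF f) = s.rd f := by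
  obtain ⟨y, z, h, hr⟩ := hs.ratio f hf
  have hsub : ∀ x : LaurentSeries A,
      coeffMap A.subtype (coeffMap σA x) = coeffMap σL (coeffMap A.subtype x) := fun x => by
    rw [coeffMap_coeffMap, coeffMap_coeffMap]
    exact coeffMap_congr (RingHom.ext hσA) x
  have hred : ∀ x : LaurentSeries A, coeffMap π (coeffMap σA x) = coeffMap π x := fun x => by
    rw [coeffMap_coeffMap]
    exact coeffMap_congr (RingHom.ext hσπ) x
  have h' : IsRatio A π ι (σF f) (coeffMap σA y) (coeffMap σA z) :=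
    ⟨by rw [hred]; exact h.red_ne, by rw [hσι, hsub, hsub, ← h.eq, map_mul]⟩
  exact ⟨hs.mem _ _ _ h', emb.toRingHom.injective
    (show emb _ = emb _ by rw [hs.emb_rd h', hs.emb_rd h, hred, hred])⟩

include hs hq hqk hπ hfr in
/-- An automorphism moving the elements of `A ∩ K` by less than `c` moves integral functions
over `K` by less than `c`. -/
theorem move {K : Subfield L} {σF : F → F} (σA : A →+* A) (hσπ : ∀ a, π (σA a) = π a)
    {σL : L →+* L} (hσA : ∀ a, (σA a : L) = σL a)
    (hσι : ∀ f, ι (σF f) = coeffMap σL (ι f)) {c : L} (hc0 : c ≠ 0)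
    (hmove : ∀ a : A, (a : L) ∈ K → A.valuation (σL a - a) < A.valuation c)
    {f : F} (hf : CoeffIn K (ι f)) (hfW : f ∈ s.W) :
    c⁻¹ • (σF f - f) ∈ s.W ∧ s.rd (c⁻¹ • (σF f - f)) = 0 := by
  obtain ⟨y, z, h, hyK, hzK⟩ := hs.exists_ratio_mem hq hqk hπ hfr hf hfW
  have key : ∀ x : LaurentSeries A, (∀ j, ((x.coeff j : A) : L) ∈ K) →
      ∃ d : LaurentSeries A, coeffMap π d = 0 ∧ coeffMap A.subtype d =
        algebraMap L (LaurentSeries L) c⁻¹ *
          (coeffMap σL (coeffMap A.subtype x) - coeffMap A.subtype x) := by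
    intro x hx
    have hlt : ∀ j, A.valuation (c⁻¹ * (σL (x.coeff j) - x.coeff j)) < 1 := fun j => by
      rw [map_mul, map_inv₀, inv_mul_lt_one₀ (zero_lt_iff.mpr ((Valuation.ne_zero_iff _).mpr hc0))]
      exact hmove _ (hx j)
    obtain ⟨d, hd, hd'⟩ := exists_series_over (A := A)
      (x := algebraMap L (LaurentSeries L) c⁻¹ *
        (coeffMap σL (coeffMap A.subtype x) - coeffMap A.subtype x))
      (a := fun j => ⟨_, (A.valuation_le_one_iff _).mp (hlt j).le⟩) fun j => by
        rw [algebraMap_laurentSeries_eq_single, HahnSeries.coeff_single_zero_mul]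
        simp
    refine ⟨d, HahnSeries.ext (funext fun j => ?_), hd⟩
    rw [coeffMap_coeff, HahnSeries.coeff_zero, hd', hπ]
    intro hu
    have := hlt j
    rw [(A.valuation_eq_one_iff ⟨_, (A.valuation_le_one_iff _).mp (hlt j).le⟩).mp hu] at this
    exact lt_irrefl _ this
  obtain ⟨dy, hdy0, hdy⟩ := key y hyK
  obtain ⟨dz, hdz0, hdz⟩ := key z hzK
  have hred : ∀ x : LaurentSeries A, coeffMap π (coeffMap σA x) = coeffMap π x := fun x => by
    rw [coeffMap_coeffMap]
    exact coeffMap_congr (RingHom.ext hσπ) x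
  have hsub : ∀ x : LaurentSeries A,
      coeffMap A.subtype (coeffMap σA x) = coeffMap σL (coeffMap A.subtype x) := fun x => by
    rw [coeffMap_coeffMap, coeffMap_coeffMap]
    exact coeffMap_congr (RingHom.ext hσA) x
  have h' : IsRatio A π ι (c⁻¹ • (σF f - f)) (dy * z - y * dz) (coeffMap σA z * z) := by
    refine ⟨by rw [map_mul, hred]; exact mul_ne_zero h.red_ne h.red_ne, ?_⟩
    have hσ := congrArg (coeffMap σL) h.eq
    rw [map_mul] at hσ
    rw [Algebra.smul_def, map_mul ι, AlgHom.commutes, map_sub ι, hσι, map_mul (coeffMap A.subtype),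
      map_sub (coeffMap A.subtype), map_mul (coeffMap A.subtype), map_mul (coeffMap A.subtype),
      hsub, hdy, hdz]
    linear_combination (algebraMap L (LaurentSeries L) c⁻¹ * coeffMap A.subtype z) * hσ -
      (algebraMap L (LaurentSeries L) c⁻¹ * coeffMap σL (coeffMap A.subtype z)) * h.eq
  exact ⟨hs.mem _ _ _ h', hs.rd_eq_zero h'
    (by rw [map_sub, map_mul, map_mul, hdy0, hdz0, zero_mul, mul_zero, sub_zero])⟩

end CoeffSheet

end FermatLib.MazurP

end
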