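import Fermat.Agent.EC.RedTorsion

/-!
# The filtration of the kernel of reduction and its leading coefficients

For `|γ| < 1`, the points with `1 ≤ |γ² x|` are those whose image on the scaled model `x' = γ² x`,
`y' = γ³ y` has nonsingular reduction on the cusp `y² = x³`; `fLead` is the additive coordinate
`x' / y'` of that reduction.
-/

set_option autoImplicit false

noncomputable section

namespace FermatLib.MazurP

open WeierstrassCurve FermatLib.EC

variable {L : Type*} [Field L] {A : ValuationSubring L} {V : WeierstrassCurve L} {γ : L}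

/-- The point is the origin or satisfies `1 ≤ |γ² x|`. -/
def InFil (A : ValuationSubring L) (γ : L) : V.toAffine.Point → Prop
  | .zero => True
  | .some x _ _ => 1 ≤ A.valuation (γ ^ 2 * x)

/-- The leading coefficient of the parameter `x / y`, relative to `γ`. -/
def fLead (A : ValuationSubring L) (γ : L) : V.toAffine.Point → IsLocalRing.ResidueField A
  | .zero => 0
  | .some x y _ => res A (x / (γ * y))

theorem inFil_some {x y : L} {h : V.toAffine.Nonsingular x y} :
    InFil A γ (Affine.Point.some x y h) ↔ 1 ≤ A.valuation (γ ^ 2 * x) := Iff.rfl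

@[simp] theorem fLead_zero : fLead A γ (0 : V.toAffine.Point) = 0 := rfl

theorem fLead_some {x y : L} {h : V.toAffine.Nonsingular x y} :
    fLead A γ (Affine.Point.some x y h) = res A (x / (γ * y)) := rfl

section Scaled

variable (hV : IntegralAt A V) (hγ0 : γ ≠ 0) (hγ : A.valuation γ < 1)

/-- The change of variables `x' = γ² x`, `y' = γ³ y`. -/
def scaleChange (hγ0 : γ ≠ 0) : VariableChange L := ⟨(Units.mk0 γ hγ0)⁻¹, 0, 0, 0⟩

omit A in
theorem scaleChange_coeffs :
    (scaleChange hγ0 • V).a₁ = γ * V.a₁ ∧ (scaleChange hγ0 • V).a₂ = γ ^ 2 * V.a₂ ∧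
      (scaleChange hγ0 • V).a₃ = γ ^ 3 * V.a₃ ∧ (scaleChange hγ0 • V).a₄ = γ ^ 4 * V.a₄ ∧
      (scaleChange hγ0 • V).a₆ = γ ^ 6 * V.a₆ := by
  simp [scaleChange, variableChange_def]

include hV hγ in
theorem integralAt_scale : IntegralAt A (scaleChange hγ0 • V) := by
  have hA : γ ∈ A := (A.valuation_le_one_iff γ).mp hγ.le
  obtain ⟨e₁, e₂, e₃, e₄, e₆⟩ := scaleChange_coeffs (V := V) hγ0
  exact ⟨e₁ ▸ mul_mem hA hV.a₁, e₂ ▸ mul_mem (pow_mem hA 2) hV.a₂,
    e₃ ▸ mul_mem (pow_mem hA 3) hV.a₃, e₄ ▸ mul_mem (pow_mem hA 4) hV.a₄,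
    e₆ ▸ mul_mem (pow_mem hA 6) hV.a₆⟩

include hV hγ in
theorem isTangentModel_scale : IsTangentModel (redCurve A (scaleChange hγ0 • V)) 0 0 := by
  have hA : γ ∈ A := (A.valuation_le_one_iff γ).mp hγ.le
  have h0 : res A γ = 0 := (res_eq_zero_iff hA).mpr hγ
  obtain ⟨e₁, e₂, e₃, e₄, e₆⟩ := scaleChange_coeffs (V := V) hγ0
  refine ⟨?_, ?_, ?_, ?_, ?_⟩ <;> simp only [redCurve]
  · rw [e₁, res_mul hA hV.a₁, h0]; simp
  · rw [e₂, res_mul (pow_mem hA 2) hV.a₂, res_pow hA, h0]; simp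
  · rw [e₃, res_mul (pow_mem hA 3) hV.a₃, res_pow hA, h0]; simp
  · rw [e₄, res_mul (pow_mem hA 4) hV.a₄, res_pow hA, h0]; simp
  · rw [e₆, res_mul (pow_mem hA 6) hV.a₆, res_pow hA, h0]; simp

variable [DecidableEq L]

include hV hγ in
/-- The scaled point has nonsingular reduction exactly on the filtration step, with additive
coordinate `fLead`. -/
theorem scaled_spec (P : (scaleChange hγ0 • V).toAffine.Point) :
    (InE0 A P ↔ InFil A γ (vcEquiv V (scaleChange hγ0) P)) ∧
      (InE0 A P → cuspVal 0 (redPt A P) = fLead A γ (vcEquiv V (scaleChange hγ0) P) ∧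
        (InE1 A P ↔ fLead A γ (vcEquiv V (scaleChange hγ0) P) = 0)) := by
  have hT := isTangentModel_scale hV hγ0 hγ
  have hV' := integralAt_scale hV hγ0 hγ
  rcases P with _ | ⟨x, y, h⟩
  · exact ⟨iff_of_true trivial trivial, fun _ => ⟨rfl, iff_of_true trivial rfl⟩⟩
  have hx : vcX (scaleChange hγ0) x = x / γ ^ 2 := by
    simp [vcX, scaleChange, div_eq_mul_inv, mul_comm]
  have hy : vcY (scaleChange hγ0) x y = y / γ ^ 3 := by
    simp [vcY, scaleChange, div_eq_mul_inv, mul_comm]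
  have e1 : γ ^ 2 * vcX (scaleChange hγ0) x = x := by
    rw [hx, mul_div_cancel₀ _ (pow_ne_zero 2 hγ0)]
  have e2 : vcX (scaleChange hγ0) x / (γ * vcY (scaleChange hγ0) x y) = x / y := by
    rw [hx, hy]; field_simp
  rw [vcEquiv_some, inFil_some, fLead_some, e1, e2]
  have hsmooth : x ∈ A → ∀ hy : y ∈ A, res A x ≠ 0 →
      (redCurve A (scaleChange hγ0 • V)).toAffine.Nonsingular (res A x) (res A y) ∧
        res A y ≠ 0 := by
    intro hxA hyA hx0
    have he := hT.mul_eq (hV'.equation_red h.1 hxA)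
    simp only [zero_mul, sub_zero] at he
    have hy0 : res A y ≠ 0 := fun e => pow_ne_zero 3 hx0 (by rw [← he, e, zero_mul])
    refine ⟨(Affine.nonsingular_iff' _ _).mpr ⟨hV'.equation_red h.1 hxA, ?_⟩, hy0⟩
    rw [hT.a₁, hT.a₂, hT.a₃, hT.a₄]
    by_contra hc
    rw [not_or, not_not, not_not] at hc
    obtain ⟨h3, h2⟩ := hc
    exact pow_ne_zero 3 hx0 (by linear_combination -(res A x) * h3 - res A y * h2 + 2 * he)
  refine ⟨?_, fun hP => ?_⟩
  · rw [inE0_some, not_mem_iff_valuation]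
    refine ⟨fun hh => ?_, fun hh => ?_⟩
    · rcases hh with hh | ⟨hxA, -, hns⟩
      · exact hh.le
      · exact ((res_ne_zero_iff hxA).mp (hT.x_ne_zero hns)).ge
    · rcases hh.lt_or_eq with hlt | heq
      · exact Or.inl hlt
      · have hxA : x ∈ A := mem_iff_valuation.mpr heq.ge
        exact Or.inr ⟨hxA, hV'.mem_y h.1 hxA, (hsmooth hxA (hV'.mem_y h.1 hxA)
          ((res_ne_zero_iff hxA).mpr heq.symm)).1⟩
  by_cases h1 : x ∈ A
  · obtain ⟨hxA, hyA, hns⟩ := (inE0_some.mp hP).resolve_left (not_not.mpr h1)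
    have hx0 := hT.x_ne_zero hns
    have hy0 := (hsmooth hxA hyA hx0).2
    have hdiv : res A (x / y) = res A x / res A y := res_div hxA hy0
    refine ⟨?_, iff_of_false (not_not.mpr h1) (by rw [hdiv]; exact div_ne_zero hx0 hy0)⟩
    rw [redPt_some hxA hns, hdiv]
    show res A x / (res A y - 0 * res A x) = _
    rw [zero_mul, sub_zero]
  · have hr : res A (x / y) = 0 := by
      obtain ⟨hη, hη0, hν, hν1⟩ := hV'.inE1_aux h.1 h1
      have hx0 : x ≠ 0 := fun e => h1 (e ▸ A.zero_mem)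
      have hν0 : res A (y ^ 2 * x⁻¹ ^ 3) ≠ 0 := by rw [hν1]; exact one_ne_zero
      have hy0 : y ≠ 0 := fun e => by simp [e] at hν0
      rw [show x / y = y * x⁻¹ ^ 2 / (y ^ 2 * x⁻¹ ^ 3) by field_simp, res_div hη hν0, hη0,
        zero_div]
    exact ⟨by rw [redPt_of_inE1 (P := Affine.Point.some x y h) h1, hr]; rfl,
      iff_of_true h1 hr⟩

end Scaled

variable [DecidableEq L] {P Q : V.toAffine.Point}

/-- A filtration step is closed under subtraction and `fLead` is additive on it. -/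
theorem inFil_sub (hV : IntegralAt A V) (hγ0 : γ ≠ 0) (hγ : A.valuation γ < 1)
    (hP : InFil A γ P) (hQ : InFil A γ Q) :
    InFil A γ (P - Q) ∧ fLead A γ (P - Q) = fLead A γ P - fLead A γ Q := by
  classical
  have hV' := integralAt_scale hV hγ0 hγ
  have hT := isTangentModel_scale hV hγ0 hγ
  set e := vcEquiv V (scaleChange hγ0)
  obtain ⟨P', rfl⟩ := e.surjective P
  obtain ⟨Q', rfl⟩ := e.surjective Q
  have hP' := (scaled_spec hV hγ0 hγ P').1.mpr hP
  have hQ' := (scaled_spec hV hγ0 hγ Q').1.mpr hQ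
  have hmem : InE0 A (P' - Q') := (E0 hV').sub_mem hP' hQ'
  rw [← map_sub]
  refine ⟨(scaled_spec hV hγ0 hγ _).1.mp hmem, ?_⟩
  rw [← ((scaled_spec hV hγ0 hγ _).2 hmem).1, ← ((scaled_spec hV hγ0 hγ _).2 hP').1,
    ← ((scaled_spec hV hγ0 hγ _).2 hQ').1]
  exact map_sub ((hT.cuspHom rfl).comp (redHom hV')) (⟨P', hP'⟩ : E0 hV') ⟨Q', hQ'⟩

/-- The filtration step as a subgroup. -/
def filSubgroup (hV : IntegralAt A V) (hγ0 : γ ≠ 0) (hγ : A.valuation γ < 1) :
    AddSubgroup V.toAffine.Point where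
  carrier := {P | InFil A γ P}
  zero_mem' := trivial
  neg_mem' {P} hP := by
    have := (inFil_sub hV hγ0 hγ (P := 0) (Q := P) trivial hP).1
    rwa [zero_sub] at this
  add_mem' {P Q} hP hQ := by
    have hnQ := (inFil_sub hV hγ0 hγ (P := 0) (Q := Q) trivial hQ).1
    rw [zero_sub] at hnQ
    have := (inFil_sub hV hγ0 hγ (P := P) (Q := -Q) hP hnQ).1
    rwa [sub_neg_eq_add] at this

/-- `fLead` as a homomorphism. -/
def leadHom (hV : IntegralAt A V) (hγ0 : γ ≠ 0) (hγ : A.valuation γ < 1) :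
    filSubgroup hV hγ0 hγ →+ IsLocalRing.ResidueField A :=
  AddMonoidHom.ofMapSub (fun P => fLead A γ P.1)
    fun P Q => (inFil_sub hV hγ0 hγ (P := P.1) (Q := Q.1) P.2 Q.2).2

/-- On a filtration step, the leading coefficient vanishes exactly on the deeper points. -/
theorem fLead_eq_zero_iff (hV : IntegralAt A V) (hγ0 : γ ≠ 0) (hγ : A.valuation γ < 1) {x y : L}
    {h : V.toAffine.Nonsingular x y} (hP : 1 ≤ A.valuation (γ ^ 2 * x)) :
    fLead A γ (Affine.Point.some x y h) = 0 ↔ 1 < A.valuation (γ ^ 2 * x) := by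
  set e := vcEquiv V (scaleChange hγ0)
  obtain ⟨P', hP'⟩ := e.surjective (Affine.Point.some x y h)
  obtain ⟨h0, h1⟩ := scaled_spec hV hγ0 hγ P'
  have hmem : InE0 A P' := h0.mpr (hP'.symm ▸ hP)
  rw [← hP', ← (h1 hmem).2]
  rcases P' with _ | ⟨x', y', h'⟩
  · exact absurd hP'.symm (Affine.Point.some_ne_zero h)
  rw [vcEquiv_some, Affine.Point.some.injEq] at hP'
  rw [inE1_some, not_mem_iff_valuation, ← hP'.1]
  have : γ ^ 2 * vcX (scaleChange hγ0) x' = x' := by
    simp [vcX, scaleChange]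
    field_simp
  rw [this]

end FermatLib.MazurP

end
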