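import Fermat.Agent.EC.RedTorsion
import Fermat.Agent.EC.RedModel
import Fermat.Agent.EC.Torsion
import Mathlib.Algebra.Polynomial.Splits

/-!
# The reduced `p`-division polynomial of a curve with nodal reduction

In residue characteristic `p` multiplication by `p` on the nodal cubic is `t ↦ t ^ p`, so the
reduced division polynomial has degree exactly `(p² - p) / 2`. Hence exactly `(p - 1) / 2` roots of
`preΨ' p` are non-integral and the product of their values is that of `1 / p`.
-/

set_option autoImplicit false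

noncomputable section

open Polynomial

namespace FermatLib.MazurP

open WeierstrassCurve FermatLib.EC

variable {L : Type*} [Field L] {A : ValuationSubring L} {V : WeierstrassCurve L}

/-- Evaluation commutes with reduction. -/
theorem res_eval (P : A[X]) {x : L} (hx : x ∈ A) :
    (P.map (algebraMap A L)).eval x ∈ A ∧
      res A ((P.map (algebraMap A L)).eval x) =
        (P.map (IsLocalRing.residue A)).eval (res A x) := by
  have e : (P.map (algebraMap A L)).eval x = ((P.eval ⟨x, hx⟩ : A) : L) := by
    rw [eval_map]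
    exact eval₂_at_apply (algebraMap A L) (⟨x, hx⟩ : A)
  rw [e, res_coe, eval_map, res_of_mem hx]
  exact ⟨SetLike.coe_mem _, (eval₂_at_apply _ _).symm⟩

/-- A root of a monic polynomial over `A` lies in `A`. -/
theorem mem_of_monic_root {f : A[X]} (hf : f.Monic) {x : L}
    (hx : (f.map (algebraMap A L)).eval x = 0) : x ∈ A := by
  obtain ⟨a, ha⟩ := IsIntegrallyClosed.isIntegral_iff.mp
    (⟨f, hf, by rwa [eval_map] at hx⟩ : IsIntegral A x)
  exact ha ▸ a.2

/-- The residue field of a place of an algebraically closed field is infinite. -/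
theorem infinite_residueField_of_isAlgClosed [IsAlgClosed L] (A : ValuationSubring L) :
    Infinite (IsLocalRing.ResidueField A) := by
  refine not_finite_iff_infinite.mp fun hfin => ?_
  let : Fintype (IsLocalRing.ResidueField A) := Fintype.ofFinite _
  set q := Fintype.card (IsLocalRing.ResidueField A)
  have hq : 1 < q := Fintype.one_lt_card
  let f : A[X] := X ^ q + (-X + 1)
  have hdeg : (-X + 1 : A[X]).degree < (q : ℕ) := by
    refine lt_of_le_of_lt ((degree_add_le _ _).trans (max_le ?_ ?_)) (Nat.one_lt_cast.mpr hq)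
    · rw [degree_neg]; exact degree_X_le
    · exact degree_one_le.trans zero_le_one
  have hm : f.Monic := monic_X_pow_add hdeg
  have hd : f.natDegree = q := natDegree_eq_of_degree_eq_some (by
    rw [degree_add_eq_left_of_degree_lt (by rwa [degree_X_pow]), degree_X_pow])
  obtain ⟨x, hx⟩ := IsAlgClosed.exists_root (f.map (algebraMap A L)) (by
    rw [degree_eq_natDegree (hm.map _).ne_zero, hm.natDegree_map, hd]
    exact_mod_cast (by omega : q ≠ 0))
  have hxA : x ∈ A := mem_of_monic_root hm hx
  have h := (res_eval f hxA).2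
  rw [IsRoot.def] at hx
  rw [hx, res_zero] at h
  simp [f, q, FiniteField.pow_card] at h

/-- An integral point with nonzero abscissa has nonsingular reduction when the reduced curve has
its singular point at the origin. -/
theorem nonsingular_red_of_ne_zero (hV : IntegralAt A V) {α β : IsLocalRing.ResidueField A}
    (hT : IsTangentModel (redCurve A V) α β) {x y : L} (h : V.toAffine.Equation x y) (hx : x ∈ A)
    (hx0 : res A x ≠ 0) : (redCurve A V).toAffine.Nonsingular (res A x) (res A y) := by
  have he := hV.equation_red h hx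
  refine (Affine.nonsingular_iff' _ _).mpr ⟨he, ?_⟩
  rw [Affine.equation_iff, hT.a₁, hT.a₂, hT.a₃, hT.a₄, hT.a₆] at he
  rw [hT.a₁, hT.a₂, hT.a₃, hT.a₄]
  by_contra hc
  rw [not_or, not_not, not_not] at hc
  obtain ⟨h3, h2⟩ := hc
  exact pow_ne_zero 3 hx0 (by linear_combination 2 * he - (res A x) * h3 - res A y * h2)

/-- The abscissa of a nonsingular point of the nodal cubic in its multiplicative coordinate. -/
theorem node_x_eq {k : Type*} [Field k] {W : WeierstrassCurve k} {α β : k}
    (hT : IsTangentModel W α β) {x y : k} (h : W.toAffine.Nonsingular x y) :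
    x * (1 - nodeVal α β (Affine.Point.some x y h)) ^ 2 =
      (α - β) ^ 2 * nodeVal α β (Affine.Point.some x y h) := by
  have hy := hT.symm.sub_ne_zero h
  have he := hT.mul_eq h.1
  show x * (1 - (y - α * x) / (y - β * x)) ^ 2 = (α - β) ^ 2 * ((y - α * x) / (y - β * x))
  generalize hU : y - α * x = U at *
  generalize hW : y - β * x = U' at *
  have hUU : U' - U = (α - β) * x := by linear_combination -hW + hU
  field_simp
  linear_combination (x * (U' - U + (α - β) * x)) * hUU - (α - β) ^ 2 * he

variable [DecidableEq L] [IsAlgClosed L] [V.IsElliptic]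
  {α β : IsLocalRing.ResidueField A} {p : ℕ}

/-- The non-integral roots of the `p`-division polynomial. -/
def kernelRoots (A : ValuationSubring L) (V : WeierstrassCurve L) (p : ℕ) : Multiset L :=
  open Classical in (V.preΨ' p).roots.filter (· ∉ A)

omit [DecidableEq L] [IsAlgClosed L] [V.IsElliptic] in
theorem residue_charP (hp : p.Prime) (hpv : A.valuation (p : L) < 1) :
    CharP (IsLocalRing.ResidueField A) p := by
  refine (CharP.charP_iff_prime_eq_zero hp).mpr ?_
  rw [← res_natCast (A := A), res_eq_zero_iff (natCast_mem_place p)]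
  exact hpv

/-- Multiplication by `p` on the nodal reduction, as an identity of polynomials. -/
theorem red_Φ_mul (hV : IntegralAt A V) (hT : IsTangentModel (redCurve A V) α β) (hαβ : α ≠ β)
    (hp : p.Prime) (hp2 : p ≠ 2) (hpv : A.valuation (p : L) < 1) :
    C (((α - β) ^ 2) ^ (p - 1)) * (hV.model.Φ p).map (IsLocalRing.residue A) =
      X ^ p * ((hV.model.preΨ' p).map (IsLocalRing.residue A)) ^ 2 := by
  classical
  have : Fact p.Prime := ⟨hp⟩
  have : CharP (IsLocalRing.ResidueField A) p := residue_charP hp hpv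
  have := infinite_residueField_of_isAlgClosed A
  refine eq_of_infinite_eval_eq _ _ (((Set.finite_singleton (0 : IsLocalRing.ResidueField A)).infinite_compl).mono ?_)
  intro r hr
  obtain ⟨a, rfl⟩ := res_surjective (A := A) r
  have hr0 : res A a ≠ 0 := hr
  have ha : a ∈ A := mem_of_res_ne_zero hr0
  obtain ⟨b, hb⟩ := exists_nonsingular_of_isAlgClosed V.toAffine a
  have hns := nonsingular_red_of_ne_zero hV hT hb.1 ha hr0
  let Q : E0 hV := ⟨Affine.Point.some a b hb, Or.inr ⟨ha, hV.mem_y hb.1 ha, hns⟩⟩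
  set t := nodeVal α β (Affine.Point.some _ _ hns)
  have ht : redPt A (Affine.Point.some a b hb) = Affine.Point.some _ _ hns := redPt_some ha hns
  have hnode : nodeVal α β (redPt A ((p • Q : E0 hV) : V.toAffine.Point)) = t ^ p := by
    have h := congrArg (fun z : Additive (IsLocalRing.ResidueField A)ˣ =>
      ((Additive.toMul z : (IsLocalRing.ResidueField A)ˣ) : IsLocalRing.ResidueField A))
      (map_nsmul (hT.nodeHom.comp (redHom hV)) p Q)
    simpa [AddMonoidHom.comp_apply, IsTangentModel.nodeHom_apply, redHom_apply, toMul_nsmul, Q, ht,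
      t] using h
  have hx := node_x_eq hT hns
  have ht1 : t ^ p ≠ 1 := fun e => by
    have hz : (1 - t) ^ p = 0 := by rw [sub_pow_char, one_pow, e, sub_self]
    rw [pow_eq_zero_iff hp.ne_zero] at hz
    have ht1' : t = 1 := by linear_combination -hz
    exact (Affine.Point.some_ne_zero hns) ((hT.nodeVal_eq_one_iff hαβ _).mp ht1')
  obtain ⟨R, hR⟩ : ∃ R, R = ((p • Q : E0 hV) : V.toAffine.Point) := ⟨_, rfl⟩
  have hR0 : InE0 A R := hR ▸ (p • Q).2
  rw [← hR] at hnode
  have hR1 : ¬ InE1 A R := fun h1 => ht1 (by rw [← hnode, redPt_of_inE1 h1]; rfl)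
  have hQR : (p : ℤ) • Affine.Point.some a b hb = R := by
    rw [hR, natCast_zsmul, AddSubmonoidClass.coe_nsmul]
  have hΨ : (V.ΨSq (p : ℤ)).eval a ≠ 0 := fun e => hR1 (by
    rw [← hQR, (zsmul_some_eq_zero_iff hb _).mpr e]; trivial)
  obtain ⟨y', h', e⟩ := exists_zsmul_some_eq hb hΨ
  rw [hQR] at e
  rw [e] at hR0 hR1 hnode
  obtain ⟨hXA, -, hnsR⟩ := (inE0_some.mp hR0).resolve_left hR1
  rw [redPt_some hXA hnsR] at hnode
  have hXR := node_x_eq hT hnsR
  rw [hnode] at hXR
  -- the reduced abscissa of `p Q`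
  have hpow : res A ((V.Φ p).eval a / (V.ΨSq (p : ℤ)).eval a) * ((α - β) ^ 2) ^ (p - 1) =
      res A a ^ p := by
    have h1 : (res A a * (1 - t) ^ 2) ^ p = ((α - β) ^ 2 * t) ^ p := by rw [hx]
    rw [mul_pow, mul_pow, ← pow_mul, mul_comm 2 p, pow_mul (1 - t) p 2, sub_pow_char, one_pow]
      at h1
    have h2 : ((1 : IsLocalRing.ResidueField A) - t ^ p) ^ 2 ≠ 0 := pow_ne_zero _ (sub_ne_zero.mpr ht1.symm)
    refine mul_right_cancel₀ h2 ?_
    rw [h1, ← Nat.sub_add_cancel hp.one_le, pow_succ ((α - β) ^ 2) (p - 1), Nat.sub_add_cancel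
      hp.one_le]
    linear_combination (((α - β) ^ 2) ^ (p - 1)) * hXR
  have hΨ' : (V.ΨSq (p : ℤ)).eval a =
      (((hV.model.preΨ' p).map (algebraMap A L)).eval a) ^ 2 := by
    rw [← map_preΨ', hV.map_model_subtype, ΨSq_ofNat,
      if_neg (Nat.not_even_iff_odd.mpr (hp.odd_of_ne_two hp2)), mul_one, eval_pow]
  have hΦ' : (V.Φ p).eval a = ((hV.model.Φ p).map (algebraMap A L)).eval a := by
    rw [← map_Φ, hV.map_model_subtype]
  obtain ⟨hψA, hψr⟩ := res_eval (hV.model.preΨ' p) ha
  obtain ⟨-, hΦr⟩ := res_eval (hV.model.Φ p) ha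
  show (C _ * _).eval (res A a) = (X ^ p * _).eval (res A a)
  rw [eval_mul, eval_mul, eval_C, eval_pow, eval_X, eval_pow, ← hψr, ← hΦr, ← res_pow hψA, ← hΨ',
    ← hΦ', ← hpow, mul_comm (((α - β) ^ 2) ^ (p - 1)), mul_right_comm,
    ← res_mul hXA (hΨ' ▸ pow_mem hψA 2), div_mul_cancel₀ _ hΨ]

/-- Exactly `(p - 1) / 2` roots of `preΨ' p` are non-integral, of total value `1 / p`. -/
theorem kernelRoots_spec (hV : IntegralAt A V) (hT : IsTangentModel (redCurve A V) α β)
    (hαβ : α ≠ β) (hp : p.Prime) (hp2 : p ≠ 2) (hpv : A.valuation (p : L) < 1)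
    (hp0 : (p : L) ≠ 0) :
    Multiset.card (kernelRoots A V p) = (p - 1) / 2 ∧
      A.valuation (p : L) * ((kernelRoots A V p).map A.valuation).prod = 1 := by
  classical
  set φ := IsLocalRing.residue A
  set ψA := hV.model.preΨ' p with hψA
  have hodd := hp.odd_of_ne_two hp2
  have hne := Nat.not_even_iff_odd.mpr hodd
  have hψL : ψA.map (algebraMap A L) = V.preΨ' p := by
    rw [hψA, ← map_preΨ', hV.map_model_subtype]
  -- the degree of the reduced division polynomial
  have hkey := red_Φ_mul hV hT hαβ hp hp2 hpv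
  have hΦdeg : ((hV.model.Φ p).map φ).natDegree = p ^ 2 := by
    rw [← map_Φ, natDegree_Φ, Int.natAbs_natCast]
  have hK : ((α - β) ^ 2) ^ (p - 1) ≠ 0 :=
    pow_ne_zero _ (pow_ne_zero _ (sub_ne_zero.mpr hαβ))
  have hψ0 : ψA.map φ ≠ 0 := fun e => by
    rw [e, zero_pow two_ne_zero, mul_zero, mul_eq_zero] at hkey
    refine hkey.elim (fun h => hK (C_eq_zero.mp h)) fun h => ?_
    rw [h, natDegree_zero] at hΦdeg
    exact pow_ne_zero 2 hp.ne_zero hΦdeg.symm
  have hdeg : p ^ 2 = p + 2 * (ψA.map φ).natDegree := by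
    have := congrArg natDegree hkey
    rwa [natDegree_C_mul hK, hΦdeg, natDegree_mul (pow_ne_zero _ X_ne_zero) (pow_ne_zero _ hψ0),
      natDegree_X_pow, natDegree_pow] at this
  -- split the roots
  set R := (V.preΨ' p).roots with hR
  set I := R.filter (· ∈ A) with hI
  set S := kernelRoots A V p with hS
  have hS' : S = R.filter (· ∉ A) := rfl
  have hRIS : R = I + S := by rw [hI, hS', Multiset.filter_add_not]
  have hcard : Multiset.card R = (p ^ 2 - 1) / 2 := by
    rw [hR, IsAlgClosed.card_roots_eq_natDegree, natDegree_preΨ' _ hp0, if_neg hne]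
  have hprod : V.preΨ' p = C (p : L) * ((R.map fun r => X - C r).prod) := by
    conv_lhs => rw [(IsAlgClosed.splits (V.preΨ' p)).eq_prod_roots]
    rw [leadingCoeff_preΨ' _ hp0, if_neg hne]
  let inA : L → A := fun r => if h : r ∈ A then ⟨r, h⟩ else 0
  have hinA : ∀ {r}, r ∈ A → ((inA r : A) : L) = r := fun {r} h => by simp [inA, h]
  have hSA : ∀ r ∈ S, r ∉ A := fun r hr => by
    rw [hS'] at hr; exact (Multiset.mem_filter.mp hr).2
  have hinv : ∀ r ∈ S, r⁻¹ ∈ A ∧ res A r⁻¹ = 0 := fun r hr => inv_of_not_mem (hSA r hr)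
  let gA : A[X] := (I.map fun r => X - C (inA r)).prod * (S.map fun r => 1 - C (inA r⁻¹) * X).prod
  set γ : L := p * (S.map fun r => -r).prod with hγ
  have hgL : C γ * gA.map (algebraMap A L) = ψA.map (algebraMap A L) := by
    have e1 : (I.map fun r => X - C (inA r)).prod.map (algebraMap A L) =
        (I.map fun r => X - C r).prod := by
      rw [Polynomial.map_multiset_prod, Multiset.map_map]
      refine congrArg _ (Multiset.map_congr rfl fun r hr => ?_)
      simp [hinA (Multiset.mem_filter.mp hr).2]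
    have e2 : C (S.map fun r => -r).prod *
        (S.map fun r => 1 - C (inA r⁻¹) * X).prod.map (algebraMap A L) =
        (S.map fun r => X - C r).prod := by
      rw [Polynomial.map_multiset_prod, Multiset.map_map, map_multiset_prod, Multiset.map_map,
        ← Multiset.prod_map_mul]
      refine congrArg _ (Multiset.map_congr rfl fun r hr => ?_)
      have hr0 : r ≠ 0 := fun h => hSA r hr (h ▸ A.zero_mem)
      simp [hinA (hinv r hr).1]
      rw [mul_sub, ← mul_assoc, ← C_mul, mul_inv_cancel₀ hr0]
      simp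
    rw [hψL, hprod, hγ, C_mul, Polynomial.map_mul, hRIS, Multiset.map_add, Multiset.prod_add,
      e1, ← e2]
    ring
  have hgk : gA.map φ = (I.map fun r => X - C (res A r)).prod := by
    rw [Polynomial.map_mul, Polynomial.map_multiset_prod, Polynomial.map_multiset_prod,
      Multiset.map_map, Multiset.map_map, Multiset.prod_eq_one (s := S.map _), mul_one]
    · refine congrArg _ (Multiset.map_congr rfl fun r hr => ?_)
      have h := (Multiset.mem_filter.mp hr).2
      simp [inA, h, res_of_mem h, φ]
    · intro f hf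
      obtain ⟨r, hr, rfl⟩ := Multiset.mem_map.mp hf
      have h0 : φ (inA r⁻¹) = 0 := by
        rw [show inA r⁻¹ = ⟨r⁻¹, (hinv r hr).1⟩ from dif_pos (hinv r hr).1,
          ← res_of_mem (hinv r hr).1, (hinv r hr).2]
      simp [h0]
  have hgmonic : (gA.map φ).Monic := by
    rw [hgk]; exact monic_multiset_prod_of_monic _ _ fun r _ => monic_X_sub_C _
  have hinj : Function.Injective (Polynomial.map (algebraMap A L)) :=
    map_injective _ Subtype.val_injective
  have hγA : γ ∈ A := by
    by_contra hnot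
    obtain ⟨hi, hi0⟩ := inv_of_not_mem hnot
    have e' : C (⟨γ⁻¹, hi⟩ : A) * ψA = gA := hinj (by
      rw [Polynomial.map_mul, map_C, ← hgL, ← mul_assoc, ← C_mul]
      show C (γ⁻¹ * γ) * _ = _
      rw [inv_mul_cancel₀ fun h : γ = 0 => hnot (h ▸ A.zero_mem), C_1, one_mul])
    have e := e'.symm
    apply hgmonic.ne_zero
    rw [e, Polynomial.map_mul, map_C, ← res_of_mem hi, hi0, C_0, zero_mul]
  have hψk : ψA.map φ = C (res A γ) * gA.map φ := by
    have e : ψA = C (⟨γ, hγA⟩ : A) * gA := hinj (by rw [Polynomial.map_mul, map_C, ← hgL]; rfl)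
    rw [e, Polynomial.map_mul, map_C, ← res_of_mem hγA]
  have hγ0 : res A γ ≠ 0 := fun e => hψ0 (by rw [hψk, e, C_0, zero_mul])
  have hIdeg : (ψA.map φ).natDegree = Multiset.card I := by
    rw [hψk, natDegree_C_mul hγ0, hgk, show (fun r : L => X - C (res A r)) = (fun a => X - C a) ∘ res A from rfl,
      ← Multiset.map_map, natDegree_multiset_prod_X_sub_C_eq_card, Multiset.card_map]
  constructor
  · rw [hRIS, Multiset.card_add] at hcard
    rw [hIdeg] at hdeg
    obtain ⟨m, hm⟩ := hodd
    have h1 : p ^ 2 = 4 * (m * m) + 4 * m + 1 := by subst hm; ring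
    omega
  · have := (res_ne_zero_iff hγA).mp hγ0
    rwa [hγ, map_mul, map_multiset_prod, Multiset.map_map,
      show (⇑A.valuation ∘ fun r : L => -r) = ⇑A.valuation from funext A.valuation.map_neg] at this

end FermatLib.MazurP

end
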