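import Fermat.Agent.Galois.MazurP.KernelFiltration
import Fermat.Agent.Galois.MazurP.NodeDivision

/-!
# The `p`-torsion of the kernel of reduction at a nodal place over `p`

It is a line, generated by a point `P`; all its nonzero points have the same abscissa value `c`,
with `|p| c ^ ((p - 1) / 2) = 1`. The value of the abscissa of `p • Q` follows for `Q` in the
kernel of reduction.
-/

set_option autoImplicit false

noncomputable section

open Polynomial

namespace FermatLib.MazurP

open WeierstrassCurve FermatLib.EC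

variable {L : Type*} [Field L] {A : ValuationSubring L} {V : WeierstrassCurve L}

/-- The value of an evaluation of a monic integral polynomial outside `A`. -/
theorem valuation_eval_monic {f : A[X]} (hf : f.Monic) {x : L} (hx : x ∉ A) :
    A.valuation ((f.map (algebraMap A L)).eval x) = A.valuation x ^ f.natDegree := by
  have h1 : 1 < A.valuation x := not_mem_iff_valuation.mp hx
  have h0 : A.valuation x ≠ 0 := (zero_lt_one.trans h1).ne'
  rw [eval_eq_sum_range, hf.natDegree_map,
    A.valuation.map_sum_eq_of_lt (Finset.self_mem_range_succ _) fun i hi => ?_]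
  · rw [coeff_map, hf.coeff_natDegree, map_one, one_mul, map_pow]
  · have hi' : i < f.natDegree :=
      lt_of_le_of_ne (Nat.lt_succ_iff.mp (Finset.mem_range.mp (Finset.mem_sdiff.mp hi).1))
        fun e => (Finset.mem_sdiff.mp hi).2 (Finset.mem_singleton.mpr e)
    rw [coeff_map, coeff_map, hf.coeff_natDegree, map_one, one_mul, map_mul, map_pow, map_pow]
    refine lt_of_le_of_lt (mul_le_of_le_one_left' ?_) (pow_lt_pow_right₀ h1 hi')
    exact (A.valuation_le_one_iff _).mpr (f.coeff i).2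

/-- A scale at which a point outside `A` is exactly on the filtration step. -/
theorem exists_fil_scale [IsAlgClosed L] {x : L} (hx : x ∉ A) :
    ∃ γ : L, γ ≠ 0 ∧ A.valuation γ < 1 ∧ γ ^ 2 * x = 1 := by
  have hx0 : x ≠ 0 := fun h => hx (h ▸ A.zero_mem)
  obtain ⟨γ, hγ⟩ := IsAlgClosed.exists_pow_nat_eq x⁻¹ two_pos
  refine ⟨γ, fun h => inv_ne_zero hx0 (by rw [← hγ, h, zero_pow two_ne_zero]), ?_, by
    rw [hγ, inv_mul_cancel₀ hx0]⟩
  refine (pow_lt_one_iff_of_nonneg zero_le two_ne_zero).mp ?_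
  rw [← map_pow, hγ, map_inv₀]
  exact inv_lt_one_of_one_lt₀ (not_mem_iff_valuation.mp hx)

/-- The square of the leading coefficient depends only on the abscissa. -/
theorem lead_sq (hV : IntegralAt A V) {γ x y : L} {h : V.toAffine.Nonsingular x y}
    (hx : x ∉ A) (hγx : A.valuation (γ ^ 2 * x) = 1) :
    fLead A γ (Affine.Point.some x y h) ^ 2 * res A (γ ^ 2 * x) = 1 := by
  obtain ⟨hη, -, hν, hν1⟩ := hV.inE1_aux h.1 hx
  have hx0 : x ≠ 0 := fun e => hx (e ▸ A.zero_mem)
  have hν0 : res A (y ^ 2 * x⁻¹ ^ 3) ≠ 0 := by rw [hν1]; exact one_ne_zero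
  have hy0 : y ≠ 0 := fun e => by simp [e] at hν0
  have hγ0 : γ ≠ 0 := fun e => by simp [e] at hγx
  have hgA : γ ^ 2 * x ∈ A := mem_iff_valuation.mpr hγx.le
  have hsq : (x / (γ * y)) ^ 2 * (γ ^ 2 * x) = 1 / (y ^ 2 * x⁻¹ ^ 3) := by field_simp
  have hmem : x / (γ * y) ∈ A := by
    refine mem_of_quadratic (x := x / (γ * y)) (b := 0) (c := (x / (γ * y)) ^ 2) (by ring)
      A.zero_mem ?_
    have h1 : (x / (γ * y)) ^ 2 = 1 / (y ^ 2 * x⁻¹ ^ 3) / (γ ^ 2 * x) := by
      rw [← hsq, mul_div_cancel_right₀ _ (mul_ne_zero (pow_ne_zero 2 hγ0) hx0)]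
    rw [h1]
    exact div_mem_of_res_ne_zero (div_mem_of_res_ne_zero A.one_mem hν0)
      ((res_ne_zero_iff hgA).mpr hγx)
  rw [fLead_some, ← res_pow hmem, ← res_mul (pow_mem hmem 2) hgA, hsq,
    res_div A.one_mem hν0, hν1, res_one, div_one]

variable [DecidableEq L] [IsAlgClosed L] [V.IsElliptic]
  {α β : IsLocalRing.ResidueField A} {p : ℕ}

/-- The data of the line of `p`-torsion in the kernel of reduction. -/
structure KernelLine (A : ValuationSubring L) (V : WeierstrassCurve L) [DecidableEq L]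
    [V.IsElliptic] (p : ℕ) (P : V.toAffine.Point) (c : A.ValueGroup) : Prop where
  nsmul_eq : p • P = 0
  inE1 : InE1 A P
  one_lt : 1 < c
  pow_mul_eq : A.valuation (p : L) * c ^ ((p - 1) / 2) = 1
  generates : ∀ Q : V.toAffine.Point, p • Q = 0 → InE1 A Q → ∃ k : ℕ, Q = k • P
  val_eq : ∀ (x y : L) (h : V.toAffine.Nonsingular x y),
    p • Affine.Point.some x y h = 0 → x ∉ A → A.valuation x = c
  root_eq : ∀ r ∈ kernelRoots A V p, A.valuation r = c ∧
    ∃ (k : ℕ) (y : L) (h : V.toAffine.Nonsingular r y), k • P = Affine.Point.some r y h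

omit [IsAlgClosed L] in
theorem nsmul_eq_zero_iff_root (hp : p.Prime) (hp2 : p ≠ 2) {x y : L}
    (h : V.toAffine.Nonsingular x y) :
    p • Affine.Point.some x y h = 0 ↔ (V.preΨ' p).eval x = 0 := by
  rw [← natCast_zsmul, zsmul_some_eq_zero_iff h, ΨSq_ofNat,
    if_neg (Nat.not_even_iff_odd.mpr (hp.odd_of_ne_two hp2)), mul_one, eval_pow,
    pow_eq_zero_iff two_ne_zero]

omit [DecidableEq L] [IsAlgClosed L] [V.IsElliptic] in
theorem mem_kernelRoots (hp : p.Prime) (hp2 : p ≠ 2) (hp0 : (p : L) ≠ 0) {r : L} :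
    r ∈ kernelRoots A V p ↔ (V.preΨ' p).eval r = 0 ∧ r ∉ A := by
  classical
  have : V.preΨ' p ≠ 0 := fun e => hp0 (by
    have := leadingCoeff_preΨ' (R := L) V (n := p) hp0
    rw [e, leadingCoeff_zero, if_neg (Nat.not_even_iff_odd.mpr (hp.odd_of_ne_two hp2))] at this
    exact this.symm)
  rw [kernelRoots, Multiset.mem_filter, mem_roots this, IsRoot.def]

theorem exists_kernelLine (hV : IntegralAt A V) (hT : IsTangentModel (redCurve A V) α β)
    (hαβ : α ≠ β) (hp : p.Prime) (hp2 : p ≠ 2) (hpv : A.valuation (p : L) < 1)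
    (hp0 : (p : L) ≠ 0) :
    ∃ (P : V.toAffine.Point) (c : A.ValueGroup), KernelLine A V p P c := by
  classical
  obtain ⟨hcard, hprod⟩ := kernelRoots_spec hV hT hαβ hp hp2 hpv hp0
  have := Fact.mk hp
  have : CharP (IsLocalRing.ResidueField A) p := residue_charP hp hpv
  set S := kernelRoots A V p
  set m := (p - 1) / 2 with hm
  have hp3 : 3 ≤ p := lt_of_le_of_ne hp.two_le (Ne.symm hp2)
  have hpm : p = 2 * m + 1 := by
    obtain ⟨j, hj⟩ := hp.odd_of_ne_two hp2; omega
  obtain ⟨x, hxS⟩ : ∃ x, x ∈ S := Multiset.card_pos_iff_exists_mem.mp (by rw [hcard]; omega)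
  obtain ⟨hx0, hxA⟩ := (mem_kernelRoots hp hp2 hp0).mp hxS
  obtain ⟨y, hy⟩ := exists_nonsingular_of_isAlgClosed V.toAffine x
  set P := Affine.Point.some x y hy with hP
  have hpP : p • P = 0 := (nsmul_eq_zero_iff_root hp hp2 hy).mpr hx0
  obtain ⟨γ, hγ0, hγ, hγx⟩ := exists_fil_scale hxA
  let F := filSubgroup hV hγ0 hγ
  have hPF : P ∈ F := by
    show InFil A γ P
    rw [hP, inFil_some, hγx, map_one]
  have hleadP : fLead A γ P ≠ 0 := fun e => by
    have := (fLead_eq_zero_iff hV hγ0 hγ (h := hy) (by rw [hγx, map_one])).mp e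
    rw [hγx, map_one] at this
    exact this.false
  have hmul : ∀ k : ℕ, fLead A γ (k • P) = k * fLead A γ P := fun k => by
    have := map_nsmul (leadHom hV hγ0 hγ) k ⟨P, hPF⟩
    rw [nsmul_eq_mul] at this
    exact this
  have hk : ∀ k : ℕ, ¬ p ∣ k → ∃ (r s : L) (h : V.toAffine.Nonsingular r s),
      k • P = Affine.Point.some r s h ∧ A.valuation r = A.valuation x ∧ r ∈ S := by
    intro k hk
    have hne : fLead A γ (k • P) ≠ 0 := by
      rw [hmul]
      exact mul_ne_zero (fun e => hk ((CharP.cast_eq_zero_iff _ p k).mp e)) hleadP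
    have hmem : InFil A γ (k • P) := F.nsmul_mem hPF k
    obtain ⟨r, s, h, e⟩ : ∃ r s h, k • P = Affine.Point.some r s h := by
      rcases hkP : k • P with _ | ⟨r, s, h⟩
      · rw [hkP] at hne; exact absurd rfl hne
      · exact ⟨r, s, h, rfl⟩
    rw [e] at hne hmem
    have hval : A.valuation (γ ^ 2 * r) = 1 := le_antisymm
      (not_lt.mp fun hlt => hne ((fLead_eq_zero_iff hV hγ0 hγ hmem).mpr hlt)) hmem
    have hr : A.valuation r = A.valuation x := by
      have hg0 : A.valuation (γ ^ 2) ≠ 0 := A.valuation.ne_zero_iff.mpr (pow_ne_zero 2 hγ0)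
      refine mul_left_cancel₀ hg0 ?_
      rw [← map_mul, ← map_mul, hval, hγx, map_one]
    refine ⟨r, s, h, e, hr, (mem_kernelRoots hp hp2 hp0).mpr ⟨?_, ?_⟩⟩
    · rw [← nsmul_eq_zero_iff_root hp hp2 h, ← e, ← mul_nsmul', mul_comm, mul_nsmul', hpP,
        nsmul_zero]
    · rw [not_mem_iff_valuation, hr]
      exact not_mem_iff_valuation.mp hxA
  choose! r s hns hkP hkv hkS using hk
  have hndvd : ∀ k ∈ Finset.Icc 1 m, ¬ p ∣ k := fun k hk hd => by
    have := Nat.le_of_dvd (Finset.mem_Icc.mp hk).1 hd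
    have := (Finset.mem_Icc.mp hk).2
    omega
  have hinj : Set.InjOn r (Finset.Icc 1 m : Set ℕ) := by
    intro i hi j hj hij
    have hi' := hndvd i hi
    have hj' := hndvd j hj
    have hi'' := Finset.mem_Icc.mp hi
    have hj'' := Finset.mem_Icc.mp hj
    have hres : (i : IsLocalRing.ResidueField A) = j ∨ (i : IsLocalRing.ResidueField A) + j = 0 := by
      rcases (Affine.Point.X_eq_iff (h₁ := hns i hi') (h₂ := hns j hj')).mp hij with e | e
      · refine Or.inl (mul_right_cancel₀ hleadP ?_)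
        rw [← hmul, ← hmul, hkP i hi', hkP j hj', e]
      · refine Or.inr (mul_right_cancel₀ hleadP ?_)
        have hsum : (i + j) • P = 0 := by rw [add_nsmul, hkP i hi', hkP j hj', e, neg_add_cancel]
        rw [zero_mul, ← Nat.cast_add, ← hmul, hsum, fLead_zero]
    rcases hres with e | e
    · have hmod := (CharP.natCast_eq_natCast _ p).mp e
      rw [Nat.ModEq, Nat.mod_eq_of_lt (by omega : i < p), Nat.mod_eq_of_lt (by omega : j < p)]
        at hmod
      exact hmod
    · rw [← Nat.cast_add, CharP.cast_eq_zero_iff _ p] at e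
      have := Nat.le_of_dvd (by omega) e
      omega
  have hall : ∀ z ∈ S, ∃ k ∈ Finset.Icc 1 m, r k = z := by
    have hsub : (Finset.Icc 1 m).image r ⊆ S.toFinset := fun z hz => by
      obtain ⟨k, hk, rfl⟩ := Finset.mem_image.mp hz
      exact Multiset.mem_toFinset.mpr (hkS k (hndvd k hk))
    have heq := Finset.eq_of_subset_of_card_le hsub (by
      rw [Finset.card_image_of_injOn hinj, Nat.card_Icc]
      exact (Multiset.toFinset_card_le S).trans (by omega))
    intro z hz
    rw [← Multiset.mem_toFinset, ← heq, Finset.mem_image] at hz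
    exact hz
  have hroot : ∀ z ∈ S, A.valuation z = A.valuation x ∧
      ∃ (k : ℕ) (y : L) (h : V.toAffine.Nonsingular z y), k • P = Affine.Point.some z y h := by
    intro z hz
    obtain ⟨k, hk, rfl⟩ := hall z hz
    exact ⟨hkv k (hndvd k hk), k, s k, hns k (hndvd k hk), hkP k (hndvd k hk)⟩
  refine ⟨P, A.valuation x, hpP, hxA, not_mem_iff_valuation.mp hxA, ?_, ?_, ?_, hroot⟩
  · rwa [Multiset.map_congr rfl (fun z hz => (hroot z hz).1), Multiset.map_const',
      Multiset.prod_replicate, hcard] at hprod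
  · intro Q hpQ hQ
    rcases Q with _ | ⟨a, b, hab⟩
    · exact ⟨0, (zero_nsmul P).symm⟩
    obtain ⟨k, hk, rfl⟩ := hall a
      ((mem_kernelRoots hp hp2 hp0).mpr ⟨(nsmul_eq_zero_iff_root hp hp2 hab).mp hpQ, hQ⟩)
    rcases (Affine.Point.X_eq_iff (h₁ := hab) (h₂ := hns k (hndvd k hk))).mp rfl with e | e
    · exact ⟨k, by rw [e, hkP k (hndvd k hk)]⟩
    · refine ⟨p - k, ?_⟩
      have hk' : k ≤ p := by have := (Finset.mem_Icc.mp hk).2; omega
      rw [e, ← hkP k (hndvd k hk), eq_comm, ← add_eq_zero_iff_eq_neg, ← add_nsmul,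
        Nat.sub_add_cancel hk', hpP]
  · intro a b hab hpQ ha
    exact (hroot a ((mem_kernelRoots hp hp2 hp0).mpr
      ⟨(nsmul_eq_zero_iff_root hp hp2 hab).mp hpQ, ha⟩)).1

namespace KernelLine

variable {P : V.toAffine.Point} {c : A.ValueGroup}

omit [IsAlgClosed L] in
/-- Values of `Φ` and `ΨSq` at a point outside `A`. -/
theorem val_mul_prod (hV : IntegralAt A V) (hp : p.Prime) (hp2 : p ≠ 2)
    {x y : L} {h : V.toAffine.Nonsingular x y} (hx : x ∉ A)
    (hne : (V.preΨ' p).eval x ≠ 0) :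
    ∃ (X' Y' : L) (h' : V.toAffine.Nonsingular X' Y'),
      p • Affine.Point.some x y h = Affine.Point.some X' Y' h' ∧
      A.valuation X' * A.valuation ((V.preΨ' p).eval x) ^ 2 = A.valuation x ^ (p ^ 2) := by
  have hΨ : (V.ΨSq (p : ℤ)).eval x = ((V.preΨ' p).eval x) ^ 2 := by
    rw [ΨSq_ofNat, if_neg (Nat.not_even_iff_odd.mpr (hp.odd_of_ne_two hp2)), mul_one, eval_pow]
  obtain ⟨Y', h', e⟩ := exists_zsmul_some_eq h (n := (p : ℤ)) (by rw [hΨ]; exact pow_ne_zero 2 hne)
  refine ⟨_, Y', h', by rw [← natCast_zsmul]; exact e, ?_⟩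
  rw [← map_pow, ← map_mul, ← hΨ, div_mul_cancel₀ _ (by rw [hΨ]; exact pow_ne_zero 2 hne)]
  have hm : (hV.model.Φ (p : ℤ)).Monic := by
    rw [Monic, leadingCoeff_Φ]
  conv_lhs => rw [show V.Φ (p : ℤ) = (hV.model.Φ (p : ℤ)).map (algebraMap A L) by
    rw [← map_Φ, hV.map_model_subtype]]
  rw [valuation_eval_monic hm hx, natDegree_Φ, Int.natAbs_natCast]

/-- The value of the division polynomial at a point outside `A`. -/
theorem val_preΨ'_eval (hV : IntegralAt A V) (hT : IsTangentModel (redCurve A V) α β)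
    (hαβ : α ≠ β) (hp : p.Prime) (hp2 : p ≠ 2) (hpv : A.valuation (p : L) < 1)
    (hp0 : (p : L) ≠ 0) {x : L} (hx : x ∉ A) {d : A.ValueGroup}
    (hd : ∀ r ∈ kernelRoots A V p, A.valuation (x - r) = d) :
    A.valuation ((V.preΨ' p).eval x) =
      A.valuation (p : L) * A.valuation x ^ ((p ^ 2 - p) / 2) * d ^ ((p - 1) / 2) := by
  classical
  obtain ⟨hcard, -⟩ := kernelRoots_spec hV hT hαβ hp hp2 hpv hp0
  have hne := Nat.not_even_iff_odd.mpr (hp.odd_of_ne_two hp2)
  set R := (V.preΨ' p).roots with hR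
  have hsplit : R = R.filter (· ∈ A) + R.filter (· ∉ A) := (Multiset.filter_add_not _ _).symm
  have hSR : kernelRoots A V p = R.filter (· ∉ A) := rfl
  have hcardR : Multiset.card R = (p ^ 2 - 1) / 2 := by
    rw [hR, IsAlgClosed.card_roots_eq_natDegree, natDegree_preΨ' _ hp0, if_neg hne]
  have hcardI : Multiset.card (R.filter (· ∈ A)) = (p ^ 2 - p) / 2 := by
    rw [hsplit, Multiset.card_add, ← hSR, hcard] at hcardR
    obtain ⟨m, hm⟩ := hp.odd_of_ne_two hp2
    have h1 : p ^ 2 = 4 * (m * m) + 4 * m + 1 := by subst hm; ring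
    omega
  rw [(IsAlgClosed.splits (V.preΨ' p)).eq_prod_roots, leadingCoeff_preΨ' _ hp0, if_neg hne,
    eval_mul, eval_C, eval_multiset_prod, Multiset.map_map, map_mul, map_multiset_prod,
    Multiset.map_map, ← hR, hsplit, Multiset.map_add, Multiset.prod_add, mul_assoc]
  congr 2
  · rw [Multiset.map_congr rfl (g := fun _ => A.valuation x) fun r hr => ?_, Multiset.map_const',
      Multiset.prod_replicate, hcardI]
    have hr' : A.valuation r ≤ 1 := mem_iff_valuation.mp (Multiset.mem_filter.mp hr).2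
    simp only [Function.comp_apply, eval_sub, eval_X, eval_C]
    exact A.valuation.map_sub_eq_of_lt_left (hr'.trans_lt (not_mem_iff_valuation.mp hx))
  · rw [Multiset.map_congr rfl (g := fun _ => d) fun r hr => ?_, Multiset.map_const',
      Multiset.prod_replicate, ← hSR, hcard]
    simp only [Function.comp_apply, eval_sub, eval_X, eval_C]
    exact hd r (hSR ▸ hr)

/-- Above the line, multiplication by `p` raises the abscissa value to the power `p`. -/
theorem val_nsmul_of_lt (hK : KernelLine A V p P c) (hV : IntegralAt A V)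
    (hT : IsTangentModel (redCurve A V) α β) (hαβ : α ≠ β) (hp : p.Prime) (hp2 : p ≠ 2)
    (hpv : A.valuation (p : L) < 1) (hp0 : (p : L) ≠ 0) {x y : L}
    {h : V.toAffine.Nonsingular x y} (hx : x ∉ A) (hlt : A.valuation x < c) :
    ∃ (X' Y' : L) (h' : V.toAffine.Nonsingular X' Y'),
      p • Affine.Point.some x y h = Affine.Point.some X' Y' h' ∧
      A.valuation X' = A.valuation x ^ p := by
  have hψ := val_preΨ'_eval hV hT hαβ hp hp2 hpv hp0 hx (d := c) fun r hr => by
    rw [A.valuation.map_sub_eq_of_lt_right ((hK.root_eq r hr).1.symm ▸ hlt), (hK.root_eq r hr).1]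
  rw [mul_right_comm, hK.pow_mul_eq, one_mul] at hψ
  have hvx : A.valuation x ≠ 0 := (zero_lt_one.trans (not_mem_iff_valuation.mp hx)).ne'
  obtain ⟨X', Y', h', e, hv⟩ := val_mul_prod hV hp hp2 hx (h := h) fun e => by
    rw [e, map_zero] at hψ; exact pow_ne_zero _ hvx hψ.symm
  refine ⟨X', Y', h', e, ?_⟩
  rw [hψ, ← pow_mul] at hv
  refine mul_right_cancel₀ (pow_ne_zero ((p ^ 2 - p) / 2 * 2) hvx) (hv.trans ?_)
  rw [← pow_add]
  congr 1
  obtain ⟨m, hm⟩ := hp.odd_of_ne_two hp2
  have h1 : p ^ 2 = 4 * (m * m) + 4 * m + 1 := by subst hm; ring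
  omega

/-- On the line's level, either a translate by the line lies deeper, or multiplication by `p`
multiplies the abscissa value by `|p|⁻²`. -/
theorem deeper_or_val_nsmul (hK : KernelLine A V p P c) (hV : IntegralAt A V)
    (hT : IsTangentModel (redCurve A V) α β) (hαβ : α ≠ β) (hp : p.Prime) (hp2 : p ≠ 2)
    (hpv : A.valuation (p : L) < 1) (hp0 : (p : L) ≠ 0) {x y : L}
    {h : V.toAffine.Nonsingular x y} (hx : x ∉ A) (hxc : A.valuation x = c) :
    (∃ k : ℕ, ∀ (X' Y' : L) (h' : V.toAffine.Nonsingular X' Y'),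
        Affine.Point.some x y h - k • P = Affine.Point.some X' Y' h' → c < A.valuation X') ∨
    ∃ (X' Y' : L) (h' : V.toAffine.Nonsingular X' Y'),
      p • Affine.Point.some x y h = Affine.Point.some X' Y' h' ∧
      A.valuation X' * A.valuation (p : L) ^ 2 = A.valuation x := by
  by_cases hcan : ∃ r ∈ kernelRoots A V p, A.valuation (x - r) < A.valuation x
  · left
    obtain ⟨r, hr, hlt⟩ := hcan
    obtain ⟨hrc, k, s, hs, hk⟩ := hK.root_eq r hr
    obtain ⟨γ, hγ0, hγ, hγx⟩ := exists_fil_scale hx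
    have hvγ : A.valuation (γ ^ 2) * A.valuation x = 1 := by rw [← map_mul, hγx, map_one]
    have hγr : A.valuation (γ ^ 2 * r) = 1 := by rw [map_mul, hrc, ← hxc, hvγ]
    have hrA : r ∉ A := not_mem_iff_valuation.mpr (hrc ▸ hK.one_lt)
    have hres : res A (γ ^ 2 * x) = res A (γ ^ 2 * r) := by
      rw [res_eq_res_iff (mem_iff_valuation.mpr (by rw [hγx, map_one]))
        (mem_iff_valuation.mpr hγr.le), ← mul_sub, map_mul]
      calc _ < A.valuation (γ ^ 2) * A.valuation x :=
            mul_lt_mul_of_pos_left hlt (zero_lt_iff.mpr (A.valuation.ne_zero_iff.mpr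
              (pow_ne_zero 2 hγ0)))
        _ = 1 := hvγ
    have hsq : fLead A γ (Affine.Point.some x y h) ^ 2 = fLead A γ (Affine.Point.some r s hs) ^ 2 := by
      have h1 := lead_sq hV (h := h) hx (by rw [hγx, map_one])
      have h2 := lead_sq hV (h := hs) hrA hγr
      rw [← hres] at h2
      exact mul_right_cancel₀ ((res_ne_zero_iff (mem_iff_valuation.mpr
        (by rw [hγx, map_one]))).mpr (by rw [hγx, map_one])) (h1.trans h2.symm)
    have hz : InFil A γ (Affine.Point.some x y h) := by rw [inFil_some, hγx, map_one]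
    have hw : InFil A γ (Affine.Point.some r s hs) := by rw [inFil_some, hγr]
    have hfin : ∀ (j : ℕ) (Q : V.toAffine.Point), j • P = Q → InFil A γ Q →
        fLead A γ Q = fLead A γ (Affine.Point.some x y h) →
        ∀ (X' Y' : L) (h' : V.toAffine.Nonsingular X' Y'),
          Affine.Point.some x y h - j • P = Affine.Point.some X' Y' h' → c < A.valuation X' := by
      intro j Q hj hQ hl X' Y' h' e
      obtain ⟨hmem, hlead⟩ := inFil_sub hV hγ0 hγ hz hQ
      rw [← hj, e] at hmem hlead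
      rw [hj, hl, sub_self] at hlead
      have := (fLead_eq_zero_iff hV hγ0 hγ hmem).mp hlead
      rw [map_mul, ← hvγ, hxc] at this
      exact lt_of_mul_lt_mul_left' this
    rcases eq_or_eq_neg_of_sq_eq_sq _ _ hsq with e | e
    · exact ⟨k, hfin k _ hk hw e.symm⟩
    · have hk' : k % p ≤ p := (Nat.mod_lt _ hp.pos).le
      have hn : (p - k % p) • P = -Affine.Point.some r s hs := by
        rw [← hk, ← add_eq_zero_iff_eq_neg]
        conv_lhs => arg 2; rw [← Nat.mod_add_div k p, add_nsmul, mul_comm, mul_nsmul', hK.nsmul_eq,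
          nsmul_zero, add_zero]
        rw [← add_nsmul, Nat.sub_add_cancel hk', hK.nsmul_eq]
      obtain ⟨hmem, hlead⟩ := inFil_sub hV hγ0 hγ (P := 0) (Q := Affine.Point.some r s hs)
        trivial hw
      rw [zero_sub] at hmem hlead
      rw [fLead_zero, zero_sub, ← e] at hlead
      exact ⟨p - k % p, hfin _ _ hn hmem hlead⟩
  · right
    push Not at hcan
    have hψ := val_preΨ'_eval hV hT hαβ hp hp2 hpv hp0 hx (d := A.valuation x) fun r hr =>
      le_antisymm (A.valuation.map_sub_le le_rfl ((hK.root_eq r hr).1.trans hxc.symm).le)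
        (hcan r hr)
    have hvx : A.valuation x ≠ 0 := (zero_lt_one.trans (not_mem_iff_valuation.mp hx)).ne'
    obtain ⟨X', Y', h', e, hv⟩ := val_mul_prod hV hp hp2 hx (h := h) fun e => by
      rw [e, map_zero] at hψ
      exact mul_ne_zero (mul_ne_zero (A.valuation.ne_zero_iff.mpr hp0) (pow_ne_zero _ hvx))
        (pow_ne_zero _ hvx) hψ.symm
    refine ⟨X', Y', h', e, ?_⟩
    rw [hψ, mul_assoc, ← pow_add, mul_pow, ← pow_mul, ← mul_assoc] at hv
    refine mul_right_cancel₀ (pow_ne_zero (((p ^ 2 - p) / 2 + (p - 1) / 2) * 2) hvx)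
      (hv.trans ?_)
    rw [← pow_succ']
    congr 1
    obtain ⟨m, hm⟩ := hp.odd_of_ne_two hp2
    have h1 : p ^ 2 = 4 * (m * m) + 4 * m + 1 := by subst hm; ring
    omega

end KernelLine

end FermatLib.MazurP

end
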