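import Mathlib

/-!
Lattices with a reduction map in vector spaces over a valued field, such that every finite
dimensional subspace has a basis of lattice vectors with independent reductions.
-/

set_option autoImplicit false

noncomputable section

namespace FermatLib.MazurP

variable {L F k V : Type*} [Field L] [AddCommGroup F] [Module L F] [Field k] [AddCommGroup V]
  [Module k V]

/-- A lattice in `F` over the valuation ring `A` with a reduction `red` to `V` along `π`. -/
structure LatRed (A : ValuationSubring L) (π : A →+* k) (F V : Type*) [AddCommGroup F]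
    [Module L F] [AddCommGroup V] [Module k V] where
  lat : AddSubgroup F
  red : lat →+ V
  smul_mem : ∀ (a : A) (f : F), f ∈ lat → (a : L) • f ∈ lat
  red_smul : ∀ (a : A) (f : lat), red ⟨(a : L) • (f : F), smul_mem a f f.2⟩ = π a • red f
  surjective_res : Function.Surjective π
  res_eq_zero : ∀ a : A, ¬ IsUnit a → π a = 0
  exists_orth : ∀ W : Submodule L F, FiniteDimensional L W →
    ∃ (n : ℕ) (e : Fin n → lat), (∀ i, (e i : F) ∈ W) ∧
      W ≤ Submodule.span L (Set.range fun i => (e i : F)) ∧
        LinearIndependent k fun i => red (e i)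

variable {A : ValuationSubring L} {π : A →+* k}

/-- Scaling finitely many constants so that one becomes `1` and all are integral. -/
theorem exists_scale {ι : Type*} (s : Finset ι) (c : ι → L) (hc : ∃ i ∈ s, c i ≠ 0) :
    ∃ i₀ ∈ s, c i₀ ≠ 0 ∧ ∀ i ∈ s, (c i₀)⁻¹ * c i ∈ A := by
  obtain ⟨i, his, hi⟩ := hc
  obtain ⟨i₀, hs₀, hmax⟩ := Finset.exists_max_image s (fun j => A.valuation (c j)) ⟨i, his⟩
  have hne : c i₀ ≠ 0 := fun h => by
    have h1 := hmax i his
    rw [h, map_zero, le_zero_iff] at h1
    exact (Valuation.ne_zero_iff _).mpr hi h1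
  refine ⟨i₀, hs₀, hne, fun j hj => ?_⟩
  rw [← A.valuation_le_one_iff, map_mul, map_inv₀]
  exact inv_mul_le_one_of_le₀ (hmax j hj) zero_le

namespace LatRed

variable (R : LatRed A π F V)

/-- An integral multiple of a lattice vector. -/
def amul (a : A) (f : R.lat) : R.lat := ⟨(a : L) • (f : F), R.smul_mem a f f.2⟩

@[simp] theorem coe_amul (a : A) (f : R.lat) : (R.amul a f : F) = (a : L) • (f : F) := rfl

@[simp] theorem red_amul (a : A) (f : R.lat) : R.red (R.amul a f) = π a • R.red f := R.red_smul a f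

theorem red_congr {f g : R.lat} (h : (f : F) = (g : F)) : R.red f = R.red g := by
  rw [Subtype.ext h]

/-- Coefficients of a lattice vector on vectors with independent reductions are integral. -/
theorem coeff_mem {ι : Type*} [Fintype ι] {v : ι → R.lat}
    (h : LinearIndependent k fun i => R.red (v i)) {c : ι → L} {f : R.lat}
    (hf : (f : F) = ∑ i, c i • (v i : F)) : ∀ i, c i ∈ A := by
  classical
  by_contra hcon
  push Not at hcon
  obtain ⟨i, hi⟩ := hcon
  obtain ⟨i₀, -, hne, hA⟩ := exists_scale (A := A) Finset.univ c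
    ⟨i, Finset.mem_univ _, fun h0 => hi (h0 ▸ A.zero_mem)⟩
  set a : ι → A := fun j => ⟨(c i₀)⁻¹ * c j, hA j (Finset.mem_univ _)⟩
  have hinv : (c i₀)⁻¹ ∈ A := by
    rcases A.mem_or_inv_mem (c i₀) with hm | hm
    · exact absurd (by simpa [hne] using mul_mem hm (hA i (Finset.mem_univ _))) hi
    · exact hm
  have hnu : ¬ IsUnit (⟨(c i₀)⁻¹, hinv⟩ : A) := fun hu => by
    obtain ⟨w, hw⟩ := hu.exists_right_inv
    have h1 := congrArg (fun q : A => (q : L)) hw
    simp only [MulMemClass.coe_mul, OneMemClass.coe_one] at h1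
    have : c i₀ = w := by field_simp at h1; exact h1.symm
    exact hi (by simpa [hne] using mul_mem (this ▸ w.2 : c i₀ ∈ A) (hA i (Finset.mem_univ _)))
  have heq : R.amul ⟨(c i₀)⁻¹, hinv⟩ f = ∑ j, R.amul (a j) (v j) := Subtype.ext (by
    rw [AddSubmonoidClass.coe_finsetSum, coe_amul, hf, Finset.smul_sum]
    exact Finset.sum_congr rfl fun j _ => by simp [a, smul_smul])
  have h2 := congrArg R.red heq
  simp only [red_amul, map_sum, R.res_eq_zero _ hnu, zero_smul] at h2
  have h3 := (Fintype.linearIndependent_iff.mp h) _ h2.symm i₀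
  rw [show a i₀ = 1 from Subtype.ext (inv_mul_cancel₀ hne), map_one] at h3
  exact one_ne_zero h3

/-- The reduction of a lattice vector on vectors with independent reductions. -/
theorem red_eq_sum {ι : Type*} [Fintype ι] {v : ι → R.lat} {a : ι → A} {f : R.lat}
    (hf : (f : F) = ∑ i, (a i : L) • (v i : F)) : R.red f = ∑ i, π (a i) • R.red (v i) := by
  rw [← Finset.sum_congr rfl (fun i _ => R.red_amul (a i) (v i)), ← map_sum]
  exact R.red_congr (by rw [AddSubmonoidClass.coe_finsetSum]; simpa using hf)

/-- Vectors with independent reductions are independent. -/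
theorem linearIndependent_of_red {ι : Type*} [Fintype ι] {v : ι → R.lat}
    (h : LinearIndependent k fun i => R.red (v i)) :
    LinearIndependent L fun i => (v i : F) := by
  classical
  rw [Fintype.linearIndependent_iff]
  intro c hc i
  by_contra hi
  obtain ⟨i₀, -, hne, hA⟩ := exists_scale (A := A) Finset.univ c ⟨i, Finset.mem_univ _, hi⟩
  set a : ι → A := fun j => ⟨(c i₀)⁻¹ * c j, hA j (Finset.mem_univ _)⟩
  have h0 : ((0 : R.lat) : F) = ∑ j, (a j : L) • (v j : F) := by
    simp only [a, mul_smul, ← Finset.smul_sum, hc, smul_zero, ZeroMemClass.coe_zero]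
  have h2 := R.red_eq_sum h0
  rw [map_zero] at h2
  have h3 := (Fintype.linearIndependent_iff.mp h) _ h2.symm i₀
  rw [show a i₀ = 1 from Subtype.ext (inv_mul_cancel₀ hne), map_one] at h3
  exact one_ne_zero h3

/-- The reduction of a subspace. -/
def redSpace (W : Submodule L F) : Submodule k V where
  carrier := {x | ∃ f : R.lat, (f : F) ∈ W ∧ R.red f = x}
  zero_mem' := ⟨0, W.zero_mem, map_zero _⟩
  add_mem' := by
    rintro x y ⟨f, hf, rfl⟩ ⟨g, hg, rfl⟩
    exact ⟨f + g, W.add_mem hf hg, map_add _ _ _⟩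
  smul_mem' := by
    rintro c x ⟨f, hf, rfl⟩
    obtain ⟨a, rfl⟩ := R.surjective_res c
    exact ⟨R.amul a f, W.smul_mem (a : L) hf, R.red_amul a f⟩

theorem red_mem_redSpace {W : Submodule L F} {f : R.lat} (hf : (f : F) ∈ W) :
    R.red f ∈ R.redSpace W := ⟨f, hf, rfl⟩

theorem redSpace_mono {W W' : Submodule L F} (h : W ≤ W') : R.redSpace W ≤ R.redSpace W' :=
  fun _ ⟨f, hf, hx⟩ => ⟨f, h hf, hx⟩

/-- A basis of lattice vectors with independent reductions, spanning the reduction. -/
theorem exists_orth_basis (W : Submodule L F) [FiniteDimensional L W] :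
    ∃ e : Fin (Module.finrank L W) → R.lat, (∀ i, (e i : F) ∈ W) ∧
      Submodule.span L (Set.range fun i => (e i : F)) = W ∧
      LinearIndependent k (fun i => R.red (e i)) ∧
      Submodule.span k (Set.range fun i => R.red (e i)) = R.redSpace W := by
  classical
  obtain ⟨n, e, heW, hspan, hli⟩ := R.exists_orth W inferInstance
  have heq : Submodule.span L (Set.range fun i => (e i : F)) = W :=
    le_antisymm (Submodule.span_le.mpr (by rintro _ ⟨i, rfl⟩; exact heW i)) hspan
  have hn : Module.finrank L W = n := by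
    rw [← heq, finrank_span_eq_card (R.linearIndependent_of_red hli), Fintype.card_fin]
  subst hn
  refine ⟨e, heW, heq, hli, le_antisymm
    (Submodule.span_le.mpr (by rintro _ ⟨i, rfl⟩; exact R.red_mem_redSpace (heW i))) ?_⟩
  rintro x ⟨f, hf, rfl⟩
  obtain ⟨c, hc⟩ := (Submodule.mem_span_range_iff_exists_fun L).mp (hspan hf)
  have hcA := R.coeff_mem hli hc.symm
  rw [R.red_eq_sum (a := fun i => ⟨c i, hcA i⟩) hc.symm]
  exact Submodule.sum_mem _ fun i _ => Submodule.smul_mem _ _ (Submodule.subset_span ⟨i, rfl⟩)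

instance finite_redSpace (W : Submodule L F) [FiniteDimensional L W] :
    FiniteDimensional k (R.redSpace W) := by
  obtain ⟨e, -, -, -, h⟩ := R.exists_orth_basis W
  rw [← h]
  exact FiniteDimensional.span_of_finite k (Set.finite_range _)

/-- Reduction preserves dimensions. -/
theorem finrank_redSpace (W : Submodule L F) [FiniteDimensional L W] :
    Module.finrank k (R.redSpace W) = Module.finrank L W := by
  obtain ⟨e, -, -, hli, h⟩ := R.exists_orth_basis W
  rw [← h, finrank_span_eq_card hli, Fintype.card_fin]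

/-- The best approximation of `f` in a finite dimensional subspace exists. -/
theorem exists_decomp (W W₁ : Submodule L F) [FiniteDimensional L W] (h : W₁ ≤ W) {f : F}
    (hf : f ∈ W) :
    ∃ (w : F) (c : L) (r : R.lat), w ∈ W₁ ∧ (r : F) ∈ W ∧ f = w + c • (r : F) ∧
      (c = 0 ∨ R.red r ∉ R.redSpace W₁) := by
  classical
  have : FiniteDimensional L W₁ := Submodule.finiteDimensional_of_le h
  by_cases hf1 : f ∈ W₁
  · exact ⟨f, 0, 0, hf1, W.zero_mem, by simp, Or.inl rfl⟩
  set W' := W₁ ⊔ Submodule.span L {f} with hW'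
  have hW'le : W' ≤ W := sup_le h (by simpa [Submodule.span_le] using hf)
  have : FiniteDimensional L W' := Submodule.finiteDimensional_of_le hW'le
  have hlt : Module.finrank L W₁ < Module.finrank L W' :=
    Submodule.finrank_lt_finrank_of_lt (lt_of_le_of_ne le_sup_left fun he =>
      hf1 (he ▸ Submodule.mem_sup_right (Submodule.mem_span_singleton_self f)))
  rw [← R.finrank_redSpace W₁, ← R.finrank_redSpace W'] at hlt
  obtain ⟨x, hxW', hx⟩ : ∃ x ∈ R.redSpace W', x ∉ R.redSpace W₁ := by
    by_contra hcon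
    push Not at hcon
    exact (Submodule.finrank_mono (show R.redSpace W' ≤ R.redSpace W₁ from hcon)).not_gt hlt
  obtain ⟨r, hr, rfl⟩ := hxW'
  obtain ⟨w, hw, z, hz, hwz⟩ := Submodule.mem_sup.mp hr
  obtain ⟨a, rfl⟩ := Submodule.mem_span_singleton.mp hz
  have ha : a ≠ 0 := by
    rintro rfl
    rw [zero_smul, add_zero] at hwz
    exact hx (R.red_mem_redSpace (hwz ▸ hw))
  refine ⟨-(a⁻¹ • w), a⁻¹, r, W₁.neg_mem (W₁.smul_mem _ hw), hW'le hr, ?_, Or.inr hx⟩
  rw [← hwz, smul_add, smul_smul, inv_mul_cancel₀ ha, one_smul, neg_add_cancel_left]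

end LatRed

end FermatLib.MazurP
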