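import Fermat.Agent.Galois.MazurP.NodeStd
import Fermat.Agent.Galois.MazurP.KernelLine

/-!
# Torsion points differ from inertia-fixed points by points reducing to infinity

For `Y² = X (X - d) (X - u)` over `ℚ̄` with `|d| = |δ| ^ p < 1 = |u|` and `d, u, δ` fixed by
inertia.
-/

set_option autoImplicit false

noncomputable section

namespace FermatLib.MazurP

open WeierstrassCurve WeierstrassCurve.Affine FermatLib.EC
open scoped WeierstrassCurve.Affine

local notation "Qbar" => AlgebraicClosure ℚ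

variable {A : ValuationSubring Qbar}

theorem valuation_map_inertia {σ : Qbar ≃ₐ[ℚ] Qbar} (hσ : σ ∈ A.inertiaSubgroupIn ℚ) (x : Qbar) :
    A.valuation (σ x) = A.valuation x :=
  Galois.Flat.valuation_apply_eq (Galois.Flat.mem_decomposition_of_mem_inertia hσ) x

theorem valuation_inertia_sub_lt {σ : Qbar ≃ₐ[ℚ] Qbar} (hσ : σ ∈ A.inertiaSubgroupIn ℚ) (x : Qbar)
    (hx : A.valuation x ≤ 1) : A.valuation (σ x - x) < 1 :=
  Galois.Flat.valuation_apply_sub_lt_one hσ ((A.valuation_le_one_iff x).mp hx)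

/-- A square root of a fixed unit is fixed, in odd residue characteristic. -/
theorem mem_inertiaField_of_sq (h2 : A.valuation (2 : Qbar) = 1) {y : Qbar}
    (hy : A.valuation y = 1) (hy2 : y ^ 2 ∈ inertiaField A) : y ∈ inertiaField A := by
  refine mem_inertiaField_iff.mpr fun σ hσ => ?_
  have e : σ y ^ 2 = y ^ 2 := by rw [← map_pow]; exact mem_inertiaField_iff.mp hy2 σ hσ
  refine (eq_or_eq_neg_of_sq_eq_sq _ _ e).resolve_right fun h => ?_
  have hlt := valuation_inertia_sub_lt hσ y hy.le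
  rw [h, show -y - y = -(2 * y) by ring, Valuation.map_neg, map_mul, h2, one_mul, hy] at hlt
  exact hlt.false

variable {W : WeierstrassCurve.Affine ℚ}

theorem smul_point_some (σ : Qbar ≃ₐ[ℚ] Qbar) {x y : Qbar} (h : (W⁄Qbar).Nonsingular x y) :
    ∃ h', σ • (Point.some x y h : (W⁄Qbar).Point) = Point.some (σ x) (σ y) h' :=
  ⟨_, rfl⟩

theorem smul_point_of_fixed (σ : Qbar ≃ₐ[ℚ] Qbar) {x y : Qbar} (h : (W⁄Qbar).Nonsingular x y)
    (hx : σ x = x) (hy : σ y = y) : σ • (Point.some x y h : (W⁄Qbar).Point) = Point.some x y h := by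
  obtain ⟨h', e⟩ := smul_point_some σ h
  simp [e, hx, hy]

theorem mem_coords_of_fixed {x y : Qbar} (h : (W⁄Qbar).Nonsingular x y)
    (hfix : ∀ σ ∈ A.inertiaSubgroupIn ℚ,
      σ • (Point.some x y h : (W⁄Qbar).Point) = Point.some x y h) :
    x ∈ inertiaField A ∧ y ∈ inertiaField A := by
  have : ∀ σ ∈ A.inertiaSubgroupIn ℚ, σ x = x ∧ σ y = y := fun σ hσ => by
    obtain ⟨h', e⟩ := smul_point_some σ h
    simpa [e] using hfix σ hσ
  exact ⟨mem_inertiaField_iff.mpr fun σ hσ => (this σ hσ).1,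
    mem_inertiaField_iff.mpr fun σ hσ => (this σ hσ).2⟩

/-- Inertia preserves the points reducing to infinity. -/
theorem inE1_smul {σ : Qbar ≃ₐ[ℚ] Qbar} (hσ : σ ∈ A.inertiaSubgroupIn ℚ) {U : (W⁄Qbar).Point}
    (hU : InE1 A U) : InE1 A (σ • U) := by
  rcases U with _ | ⟨x, y, h⟩
  · exact trivial
  obtain ⟨h', e⟩ := smul_point_some σ h
  rw [e, inE1_some, not_mem_iff_valuation, valuation_map_inertia hσ]
  exact not_mem_iff_valuation.mp hU

variable {d u : Qbar}

/-- `1 ≤ |X|` gives nonsingular reduction. -/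
theorem inE0_of_frey05 (hM : Frey05.IsMult A.valuation (W⁄Qbar) d u) {U : (W⁄Qbar).Point}
    (hU : Frey05.InE0 A.valuation U) : InE0 A U := by
  rcases U with _ | ⟨x, y, h⟩
  · exact trivial
  have hx : 1 ≤ A.valuation x := hU x y h rfl
  rcases hx.lt_or_eq with hlt | heq
  · exact Or.inl (not_mem_iff_valuation.mpr hlt)
  obtain ⟨c, hc⟩ := IsAlgClosed.exists_pow_nat_eq (-u) two_pos
  have hxA : x ∈ A := mem_iff_valuation.mpr heq.ge
  exact Or.inr ⟨hxA, (integralAt_of_isMult hM).mem_y h.1 hxA,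
    nonsingular_red_of_ne_zero (integralAt_of_isMult hM) (isTangentModel_of_isMult hM hc).1 h.1 hxA
      ((res_ne_zero_iff hxA).mpr heq.symm)⟩

/-- A point with `1 ≤ |X|` is congruent to an inertia-fixed point. -/
theorem exists_fixed_sub_inE1 {p : ℕ} (hp : p.Prime) (hA : A.LiesOverPrime p)
    (hM : Frey05.IsMult A.valuation (W⁄Qbar) d u) (hd : d ∈ inertiaField A)
    (hu : u ∈ inertiaField A) {U : (W⁄Qbar).Point} (hU : Frey05.InE0 A.valuation U) :
    ∃ Q : (W⁄Qbar).Point, (∀ σ ∈ A.inertiaSubgroupIn ℚ, σ • Q = Q) ∧ InE1 A (U - Q) := by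
  classical
  have hV : IntegralAt A (W⁄Qbar) := integralAt_of_isMult hM
  have zero_case : InE1 A U → ∃ Q : (W⁄Qbar).Point,
      (∀ σ ∈ A.inertiaSubgroupIn ℚ, σ • Q = Q) ∧ InE1 A (U - Q) := fun h =>
    ⟨0, fun σ _ => rfl, by rwa [sub_zero]⟩
  rcases U with _ | ⟨x, y, h⟩
  · exact zero_case trivial
  by_cases hxA : x ∈ A
  swap
  · exact zero_case hxA
  obtain ⟨c, hc⟩ := IsAlgClosed.exists_pow_nat_eq (-u) two_pos
  obtain ⟨hT, -⟩ := isTangentModel_of_isMult hM hc
  have hx1 : A.valuation x = 1 := le_antisymm (mem_iff_valuation.mp hxA) (hU x y h rfl)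
  have hxr : res A x ≠ 0 := (res_ne_zero_iff hxA).mpr hx1
  have hyA := hV.mem_y h.1 hxA
  have hns := nonsingular_red_of_ne_zero hV hT h.1 hxA hxr
  have hUp : InE0 A (Point.some x y h : (W⁄Qbar).Point) := inE0_of_frey05 hM hU
  have hfin : ∀ (a b : Qbar) (hab : (W⁄Qbar).Nonsingular a b), a ∈ inertiaField A →
      b ∈ inertiaField A → a ∈ A → res A a = res A x → res A b = res A y →
      ∃ Q : (W⁄Qbar).Point, (∀ σ ∈ A.inertiaSubgroupIn ℚ, σ • Q = Q) ∧
        InE1 A ((Point.some x y h : (W⁄Qbar).Point) - Q) := by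
    intro a b hab ha hb haA hra hrb
    have hnsQ : (redCurve A (W⁄Qbar)).toAffine.Nonsingular (res A a) (res A b) := by
      rw [hra, hrb]; exact hns
    have hQ : InE0 A (Point.some a b hab : (W⁄Qbar).Point) :=
      Or.inr ⟨haA, hV.mem_y hab.1 haA, hnsQ⟩
    refine ⟨_, fun σ hσ => smul_point_of_fixed σ hab (mem_inertiaField_iff.mp ha σ hσ)
      (mem_inertiaField_iff.mp hb σ hσ), ?_⟩
    obtain ⟨hmem, hred⟩ := inE0_add_and_redPt_add hV hUp (hV.inE0_neg hQ)
    rw [sub_eq_add_neg]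
    refine (redPt_eq_zero_iff hmem).mp ?_
    rw [hred, hV.redPt_neg hQ, redPt_some hxA hns, redPt_some haA hnsQ, add_neg_eq_zero,
      Point.some.injEq]
    exact ⟨hra.symm, hrb.symm⟩
  by_cases hy0 : res A y = 0
  · -- the reduction is the point of order two
    have hdA : d ∈ A := mem_iff_valuation.mpr hM.vd.le
    have huA : u ∈ A := mem_iff_valuation.mpr hM.vu.le
    have heq : res A x = res A u := by
      have he := congrArg (res A) (hM.std.eqn h)
      rw [res_pow hyA, hy0, res_mul (mul_mem hxA (sub_mem hxA hdA)) (sub_mem hxA huA),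
        res_mul hxA (sub_mem hxA hdA), res_sub hxA hdA, res_sub hxA huA,
        (res_eq_zero_iff hdA).mpr hM.vd, sub_zero, zero_pow two_ne_zero] at he
      exact sub_eq_zero.mp ((mul_eq_zero.mp he.symm).resolve_left (mul_ne_zero hxr hxr))
    exact hfin u 0 hM.nonsing_u hu (zero_mem _) huA heq.symm (by rw [res_zero, hy0])
  obtain ⟨a, ha, haA, hxa⟩ := exists_inertiaField_sub_lt hp hA hxA
  have hra : res A a = res A x := ((res_eq_res_iff hxA haA).mpr hxa).symm
  obtain ⟨b, hb⟩ := IsAlgClosed.exists_pow_nat_eq (a * (a - d) * (a - u)) two_pos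
  obtain ⟨b, hb, hrb⟩ : ∃ b, b ^ 2 = a * (a - d) * (a - u) ∧ res A b = res A y := by
    have hns' := hM.nonsing hb
    have hbA := hV.mem_y hns'.1 haA
    have hsq : res A b ^ 2 = res A y ^ 2 := by
      have e1 := hV.equation_red hns'.1 haA
      have e2 := hV.equation_red h.1 hxA
      rw [Affine.equation_iff, hT.a₁, hT.a₂, hT.a₃, hT.a₄, hT.a₆, hra] at e1
      rw [Affine.equation_iff, hT.a₁, hT.a₂, hT.a₃, hT.a₄, hT.a₆] at e2
      linear_combination e1 - e2
    rcases eq_or_eq_neg_of_sq_eq_sq _ _ hsq with e | e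
    · exact ⟨b, hb, e⟩
    · exact ⟨-b, by rw [neg_sq, hb], by rw [res_neg hbA, e, neg_neg]⟩
  have hbA : b ∈ A := hV.mem_y (hM.nonsing hb).1 haA
  refine hfin a b (hM.nonsing hb) ha (mem_inertiaField_of_sq hM.two ?_ ?_) haA hra hrb
  · exact (res_ne_zero_iff hbA).mp (hrb ▸ hy0)
  · rw [hb]
    exact mul_mem (mul_mem ha (sub_mem ha hd)) (sub_mem ha hu)

/-- A point of order `p` differs from an inertia-fixed point by a point with `1 ≤ |X|`. -/
theorem exists_fixed_sub_inE0 {p : ℕ} (hp : p.Prime)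
    (hM : Frey05.IsMult A.valuation (W⁄Qbar) d u) (hd : d ∈ inertiaField A)
    (hu : u ∈ inertiaField A) {δ : Qbar} (hδ : A.valuation d = A.valuation δ ^ p)
    (hδK : δ ∈ inertiaField A) {T : (W⁄Qbar).Point} (hT : p • T = 0) :
    ∃ Q : (W⁄Qbar).Point, (∀ σ ∈ A.inertiaSubgroupIn ℚ, σ • Q = Q) ∧
      Frey05.InE0 A.valuation (T - Q) := by
  rcases T with _ | ⟨X, Y, h⟩
  · exact ⟨0, fun σ _ => rfl, by rw [sub_zero]; exact Frey05.inE0_zero⟩
  set v := A.valuation
  rcases le_or_gt 1 (v X) with hX | hX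
  · exact ⟨0, fun σ _ => rfl, by rw [sub_zero]; exact Frey05.inE0_some.mpr hX⟩
  have hO : ∀ σ ∈ A.inertiaSubgroupIn ℚ,
      σ • (Point.some 0 0 hM.nonsing00 : (W⁄Qbar).Point) = Point.some 0 0 hM.nonsing00 :=
    fun σ _ => smul_point_of_fixed σ _ (map_zero σ) (map_zero σ)
  rcases le_or_gt (v X) (v d) with hXd | hXd
  · rcases eq_or_ne X 0 with rfl | hX0
    · have hY : Y = 0 := by simpa using hM.std.eqn h
      subst hY
      exact ⟨_, hO, by rw [sub_self]; exact Frey05.inE0_zero⟩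
    · obtain ⟨h₃, he⟩ := hM.std.add_zeroRoot h hM.nonsing00 hX0
      refine ⟨-Point.some 0 0 hM.nonsing00, fun σ hσ => by rw [smul_neg, hO σ hσ], ?_⟩
      rw [sub_neg_eq_add, he, Frey05.inE0_some, map_div₀, map_mul, hM.vu, mul_one]
      exact (one_le_div₀ (v.pos_iff.2 hX0)).2 hXd
  obtain ⟨c, hc⟩ := IsAlgClosed.exists_pow_nat_eq (-u) two_pos
  have hplus : ∀ (U : (W⁄Qbar).Point) (a : A.ValueGroup), p • U = 0 →
      Frey05.IsPlus v d c U a → ∃ Q : (W⁄Qbar).Point,
        (∀ σ ∈ A.inertiaSubgroupIn ℚ, σ • Q = Q) ∧ Frey05.InE0 v (U - Q) := by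
    intro U a hpU hUa
    obtain ⟨j, rfl⟩ := hM.plus_torsion hc hp.two_le hδ hUa hpU
    obtain ⟨Xu, Yu, hu', -, hlo, hhi, hval, -⟩ := id hUa
    rw [hval, ← map_pow] at hlo hhi
    obtain ⟨Y', hns, hQ⟩ := hM.plus_exists hc hlo hhi
    rw [map_pow] at hQ
    refine ⟨_, fun σ hσ => ?_, hM.plus_sub_same hc hUa hQ⟩
    obtain ⟨X', Y'', h'', hQe, -, -, -, hsm⟩ := hQ
    simp only [Point.some.injEq] at hQe
    obtain ⟨rfl, rfl⟩ := hQe
    have hX0 : δ ^ j ≠ 0 := fun hz => by simp [hz] at hlo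
    have hvY : v (Y' / δ ^ j) = 1 := by
      rw [map_div₀, hM.val_Y_of_plus hc hsm, div_self (v.ne_zero_iff.2 hX0)]
    have hXK : δ ^ j ∈ inertiaField A := pow_mem hδK j
    have hYK : Y' / δ ^ j ∈ inertiaField A := mem_inertiaField_of_sq hM.two hvY (by
      rw [div_pow, hM.std.eqn hns]
      exact div_mem (mul_mem (mul_mem hXK (sub_mem hXK hd)) (sub_mem hXK hu)) (pow_mem hXK 2))
    have hY' : Y' ∈ inertiaField A := by
      have := mul_mem hYK hXK
      rwa [div_mul_cancel₀ _ hX0] at this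
    exact smul_point_of_fixed σ hns (mem_inertiaField_iff.mp hXK σ hσ)
      (mem_inertiaField_iff.mp hY' σ hσ)
  have hX0 : X ≠ 0 := fun hz => by simp [hz] at hXd
  have hp' : 0 < v X := v.pos_iff.2 hX0
  by_cases hs : v (Y - c * X) < v X
  · exact hplus _ _ hT ⟨X, Y, h, rfl, hXd, hX, rfl, hs⟩
  push Not at hs
  obtain ⟨h', hn⟩ := hM.std.neg_coords h
  have hsmall : v ((Y - c * X) * (Y + c * X)) < v X * v X := by
    rw [show (Y - c * X) * (Y + c * X) = X * (X * X - d * (X - u)) by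
      linear_combination hM.std.eqn h - X ^ 2 * hc, map_mul]
    refine mul_lt_mul_of_pos_left (v.map_sub_lt ?_ ?_) hp'
    · rw [map_mul]; exact mul_lt_of_lt_one_left hp' hX
    · rw [map_mul, hM.val_sub_u hX, mul_one]; exact hXd
  have hs' : v (-Y - c * X) < v X := by
    rw [show -Y - c * X = -(Y + c * X) by ring, Valuation.map_neg]
    by_contra hh
    push Not at hh
    rw [map_mul] at hsmall
    exact absurd hsmall (not_lt.2 (mul_le_mul' hs hh))
  obtain ⟨Q, hQ, hUQ⟩ := hplus (-Point.some X Y h) (v X) (by rw [neg_nsmul, hT, neg_zero])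
    (hn ▸ ⟨X, -Y, h', rfl, hXd, hX, rfl, hs'⟩)
  refine ⟨-Q, fun σ hσ => by rw [smul_neg, hQ σ hσ], ?_⟩
  rw [show (Point.some X Y h : (W⁄Qbar).Point) - -Q = -(-Point.some X Y h - Q) by abel]
  exact hM.mem_E0.1 (neg_mem (hM.mem_E0.2 hUQ))

end FermatLib.MazurP

end
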