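import Fermat.Agent.Galois.MazurP.Rational
import Fermat.Agent.Igusa.MonoSplit

/-!
Consequences of the axioms of a move: constants, normalised functions, divisors and chart spaces.
-/

set_option autoImplicit false

noncomputable section

open AlgebraicCurve FermatLib.Igusa FermatLib.Igusa.Mono

namespace FermatLib.MazurP

universe uL uF uk uKb

namespace MazurDatum

variable {L : Type uL} {k : Type uk} [Field L] [Field k] {A : ValuationSubring L} {π : A →+* k}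
  {F : Type uF} {Kb : Type uKb} [Field F] [Algebra L F] [Field Kb] [Algebra k Kb] {q : ℕ}
  {M : MazurDatum π F Kb q} {R : M.RatForm}

namespace RatForm.Move

variable (V : R.Move)

theorem π_c₀ : π ⟨V.c₀, V.c₀_mem⟩ = 0 :=
  M.res_eq_zero _ fun hu => V.c₀_small.ne ((A.valuation_eq_one_iff _).mp hu)

theorem smul_comm_σ (c : L) (f : F) : V.σ (c • f) = V.σL c • V.σ f := by
  rw [Algebra.smul_def, map_mul, V.comm, ← Algebra.smul_def]

/-- A unit of `K` moves by less than `c₀`. -/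
theorem exists_const {c : L} (hcK : c ∈ R.K) (hcA : c ∈ A) :
    ∃ d : A, π d = 0 ∧ V.σL c = c + V.c₀ * (d : L) := by
  obtain ⟨h1, h2⟩ := V.move₁ _ (R.algebraMap_mem c hcK) (Sheet.algebraMap_mem hcA)
  have he : V.c₀⁻¹ • (V.σ (algebraMap L F c) - algebraMap L F c) =
      algebraMap L F (V.c₀⁻¹ * (V.σL c - c)) := by
    rw [V.comm, ← map_sub, Algebra.smul_def, ← map_mul]
  rw [he] at h1 h2
  have hA := Sheet.mem_of_algebraMap_mem M.π_eq_zero h1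
  rw [Sheet.rd_algebraMap hA, map_eq_zero] at h2
  exact ⟨⟨_, hA⟩, h2, by rw [mul_inv_cancel_left₀ V.c₀_ne, add_sub_cancel]⟩

/-- `(1 + c₀) ^ n = 1 + c₀ d` with `d ≡ n`. -/
theorem exists_one_add_pow (n : ℕ) :
    ∃ d : A, π d = (n : k) ∧ (1 + V.c₀) ^ n = 1 + V.c₀ * (d : L) := by
  induction n with
  | zero => exact ⟨0, by simp, by simp⟩
  | succ n ih =>
    obtain ⟨d, hd, he⟩ := ih
    refine ⟨d + 1 + ⟨V.c₀, V.c₀_mem⟩ * d, ?_, ?_⟩
    · rw [map_add, map_add, map_mul, V.π_c₀, zero_mul, add_zero, hd, map_one, Nat.cast_succ]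
    · rw [pow_succ, he]
      push_cast
      ring

/-- `(1 + c₀) ^ z = 1 + c₀ d` with `d ≡ z`. -/
theorem exists_one_add_zpow (z : ℤ) :
    ∃ d : A, π d = (z : k) ∧ (1 + V.c₀) ^ z = 1 + V.c₀ * (d : L) := by
  obtain ⟨n, rfl | rfl⟩ := Int.eq_nat_or_neg z
  · obtain ⟨d, hd, he⟩ := V.exists_one_add_pow n
    exact ⟨d, by simpa using hd, by rw [zpow_natCast, he]⟩
  · obtain ⟨d, hd, he⟩ := V.exists_one_add_pow n
    set w : A := 1 + ⟨V.c₀, V.c₀_mem⟩ * d with hw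
    have hπw : π w = 1 := by rw [hw, map_add, map_mul, V.π_c₀, zero_mul, add_zero, map_one]
    have hu : IsUnit w := by
      by_contra h
      rw [M.res_eq_zero _ h] at hπw
      exact zero_ne_one hπw
    obtain ⟨w', hw'⟩ := hu.exists_right_inv
    have hπw' : π w' = 1 := by
      have := congrArg π hw'
      rwa [map_mul, hπw, one_mul, map_one] at this
    refine ⟨-(d * w'), by simp [hd, hπw'], ?_⟩
    rw [zpow_neg, zpow_natCast, he]
    refine inv_eq_of_mul_eq_one_right ?_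
    have := congrArg (fun a : A => (a : L)) hw'
    simp only [hw, MulMemClass.coe_mul, AddMemClass.coe_add, OneMemClass.coe_one] at this
    push_cast
    linear_combination (-(V.c₀ * (d : L))) * this

/-- The move of an element of `K` of exponent `z`. -/
theorem exists_const_mul {c : L} (hcK : c ∈ R.K) {z : ℤ}
    (hz : A.valuation c = A.valuation R.ϖ ^ z) :
    ∃ d : A, π d = (z : k) ∧ V.σL c = c * (1 + V.c₀ * (d : L)) := by
  have hϖz : R.ϖ ^ z ≠ 0 := zpow_ne_zero _ R.ϖ_ne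
  set u := c * (R.ϖ ^ z)⁻¹ with hu
  have hv : A.valuation u = 1 := by
    rw [hu, map_mul, map_inv₀, map_zpow₀, hz,
      mul_inv_cancel₀ (zpow_ne_zero _ (valuation_ϖ_pos R).ne')]
  have hu0 : u ≠ 0 := fun h => by simp [h] at hv
  have huA : u⁻¹ ∈ A := (A.valuation_le_one_iff _).mp (by rw [map_inv₀, hv, inv_one])
  obtain ⟨d, hd, hdu⟩ := V.exists_const (c := u) (mul_mem hcK (inv_mem (R.zpow_ϖ_mem_K z)))
    ((A.valuation_le_one_iff _).mp hv.le)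
  obtain ⟨e, he, hee⟩ := V.exists_one_add_zpow z
  refine ⟨e + d * ⟨u⁻¹, huA⟩ * (1 + ⟨V.c₀, V.c₀_mem⟩ * e), by simp [he, hd], ?_⟩
  have hc : c = R.ϖ ^ z * u := by rw [hu]; field_simp
  conv_lhs => rw [hc, map_mul, map_zpow₀, V.c₀_def, mul_zpow, hdu, hee]
  rw [hc]
  push_cast
  linear_combination (-(R.ϖ ^ z * (1 + V.c₀ * (e : L)) * V.c₀ * (d : L))) * (mul_inv_cancel₀ hu0)

/-- The move of a normalised rational function. -/
theorem rd_move (s : Sheet π F Kb)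
    (hσ : ∀ f ∈ s.W, V.σ f ∈ s.W ∧ s.rd (V.σ f) = s.rd f)
    (hmove : ∀ f ∈ R.FK, f ∈ s.W →
      V.c₀⁻¹ • (V.σ f - f) ∈ s.W ∧ s.rd (V.c₀⁻¹ • (V.σ f - f)) = 0)
    {f : F} (hf : f ∈ R.FK) {z : ℤ} (hfz : (R.ϖ ^ z)⁻¹ • f ∈ s.W) :
    (V.c₀ * R.ϖ ^ z)⁻¹ • (V.σ f - f) ∈ s.W ∧
      s.rd ((V.c₀ * R.ϖ ^ z)⁻¹ • (V.σ f - f)) = (z : k) • s.rd ((R.ϖ ^ z)⁻¹ • f) := by
  set f' := (R.ϖ ^ z)⁻¹ • f with hf'
  have hϖz : R.ϖ ^ z ≠ 0 := zpow_ne_zero _ R.ϖ_ne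
  have hff : f = R.ϖ ^ z • f' := by rw [hf', smul_inv_smul₀ hϖz]
  obtain ⟨d, hd, hdz⟩ := V.exists_const_mul (R.zpow_ϖ_mem_K z) (z := z) (map_zpow₀ _ _ _)
  obtain ⟨m1, m2⟩ := hmove f' (R.smul_mem_FK (inv_mem (R.zpow_ϖ_mem_K z)) hf) hfz
  obtain ⟨s1, s2⟩ := hσ f' hfz
  have heq : (V.c₀ * R.ϖ ^ z)⁻¹ • (V.σ f - f) =
      (d : L) • V.σ f' + V.c₀⁻¹ • (V.σ f' - f') := by
    rw [show V.σ f - f = (R.ϖ ^ z * V.c₀) • ((d : L) • V.σ f' + V.c₀⁻¹ • (V.σ f' - f')) by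
      have hσf : V.σ f = (R.ϖ ^ z * (1 + V.c₀ * (d : L))) • V.σ f' := by
        conv_lhs => rw [hff]
        rw [V.smul_comm_σ, hdz]
      rw [hσf]
      conv_lhs => rw [hff]
      rw [smul_add, smul_smul (R.ϖ ^ z * V.c₀) V.c₀⁻¹, mul_assoc (R.ϖ ^ z) V.c₀ V.c₀⁻¹,
        mul_inv_cancel₀ V.c₀_ne, mul_one]
      module]
    rw [mul_comm V.c₀, inv_smul_smul₀ (mul_ne_zero hϖz V.c₀_ne)]
  rw [heq]
  exact ⟨add_mem (Sheet.smul_mem d.2 s1) m1,
    by rw [Sheet.rd_add (Sheet.smul_mem d.2 s1) m1, Sheet.rd_smul d.2 s1, m2, add_zero, s2, hd]⟩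

/-- `σ f / f` reduces to `1` for a rational function normalised up to a power of `ϖ`. -/
theorem rd_σ_div (s : Sheet π F Kb)
    (hσ : ∀ f ∈ s.W, V.σ f ∈ s.W ∧ s.rd (V.σ f) = s.rd f)
    (hmove : ∀ f ∈ R.FK, f ∈ s.W →
      V.c₀⁻¹ • (V.σ f - f) ∈ s.W ∧ s.rd (V.c₀⁻¹ • (V.σ f - f)) = 0)
    {f : F} (hf : f ∈ R.FK) {z : ℤ} (hfz : (R.ϖ ^ z)⁻¹ • f ∈ s.W)
    (hfz0 : s.rd ((R.ϖ ^ z)⁻¹ • f) ≠ 0) :
    V.σ f * f⁻¹ ∈ s.W ∧ s.rd (V.σ f * f⁻¹) = 1 := by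
  obtain ⟨h1, -⟩ := V.rd_move s hσ hmove hf hfz
  set f' := (R.ϖ ^ z)⁻¹ • f with hf'
  have hf0 : f ≠ 0 := fun h => hfz0 (by rw [hf', h, smul_zero, Sheet.rd_zero])
  have hinv := Sheet.inv_mem_of_rd_ne hfz hfz0
  set D := (V.c₀ * R.ϖ ^ z)⁻¹ • (V.σ f - f) with hD
  have heq : V.σ f * f⁻¹ = 1 + algebraMap L F V.c₀ * (D * f'⁻¹) := by
    have hϖz : R.ϖ ^ z ≠ 0 := zpow_ne_zero _ R.ϖ_ne
    rw [hD, hf', smul_inv₀, inv_inv, smul_mul_smul_comm, ← Algebra.smul_def, smul_smul,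
      mul_inv, mul_assoc V.c₀⁻¹, inv_mul_cancel₀ hϖz, mul_one, mul_inv_cancel₀ V.c₀_ne, one_smul,
      sub_mul, mul_inv_cancel₀ hf0, add_sub_cancel]
  have hm := mul_mem (Sheet.algebraMap_mem (s := s) V.c₀_mem) (mul_mem h1 hinv)
  rw [heq]
  exact ⟨add_mem (one_mem _) hm, by
    rw [Sheet.rd_add (one_mem _) hm, Sheet.rd_one, Sheet.rd_mul (Sheet.algebraMap_mem V.c₀_mem)
      (mul_mem h1 hinv), Sheet.rd_algebraMap V.c₀_mem, V.π_c₀, map_zero, zero_mul, add_zero]⟩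

/-- The image of a divisor. -/
def mapDiv (D : Divisor L F) : Divisor L F := Finsupp.equivMapDomain V.place D

theorem mapDiv_place (D : Divisor L F) (v : Place L F) : V.mapDiv D (V.place v) = D v := by
  rw [mapDiv, Finsupp.equivMapDomain_apply, Equiv.symm_apply_apply]

theorem Px_place (v : Place L F) : M.Px (V.place v) = M.Px v := by
  rw [M.Px_apply, M.Px_apply]
  congr 2
  conv_lhs => rw [← V.σ_x]
  exact V.ord_place v M.x

theorem σ_mem_rr {D : Divisor L F} {n : ℕ} {f : F}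
    (hf : f ∈ riemannRochSpace (D + n • M.Px)) :
    V.σ f ∈ riemannRochSpace (V.mapDiv D + n • M.Px) := by
  rw [mem_riemannRochSpace_iff] at hf ⊢
  intro w
  obtain ⟨v, rfl⟩ := V.place.surjective w
  refine (hf v).imp (fun h => by rw [h, map_zero]) fun h => ?_
  rw [Finsupp.add_apply, Finsupp.smul_apply] at h ⊢
  rw [V.mapDiv_place, V.Px_place, V.ord_place]
  exact h

theorem σ_chart {C : M.Chart} (hC : V.σL C.c = C.c) : V.σ C.T = C.T := by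
  rw [MonoDatum.Chart.T, map_sub, V.σ_x, V.comm, hC]

/-- The divisor of `σ g / g`. -/
theorem div_σ_div {p : ℕ} (T : M.TorsData p) (v : Place L F) :
    (p : ℤ) * (V.mapDiv T.D - T.D) v = v.ord (V.σ T.g * T.g⁻¹) := by
  obtain ⟨u, rfl⟩ := V.place.surjective v
  rw [Finsupp.sub_apply, V.mapDiv_place, mul_sub, T.div, T.div,
    (V.place u).ord_mul (V.σ.injective.ne_iff' (map_zero V.σ) |>.mpr T.g_ne) (inv_ne_zero T.g_ne),
    Place.ord_inv, V.ord_place, ← sub_eq_add_neg]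

end RatForm.Move

end MazurDatum

end FermatLib.MazurP

end
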