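import Fermat.Agent.Galois.MazurP.InertiaField
import Fermat.Agent.Galois.MazurP.NodeDivision
import Fermat.Agent.EC.Frey05Component
import Fermat.Agent.EC.RedGalois

/-!
# The curve `Y² = X (X - d) (X - u)` at a place with `|d| < 1 = |u|`

Its reduction is nodal at the origin; every torsion point differs from an inertia-fixed point by a
point reducing to infinity as soon as `|d|` is a `p`-th power of the value of a fixed element; and
adding a deep point moves the abscissa by an explicit amount.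
-/

set_option autoImplicit false

noncomputable section

namespace FermatLib.MazurP

open WeierstrassCurve FermatLib.EC
open scoped WeierstrassCurve.Affine

variable {L : Type*} [Field L] {A : ValuationSubring L} {V : WeierstrassCurve L} {d u : L}

theorem integralAt_of_isMult (hM : Frey05.IsMult A.valuation V.toAffine d u) :
    IntegralAt A V := by
  have hd : d ∈ A := (A.valuation_le_one_iff d).mp hM.vd.le
  have hu : u ∈ A := (A.valuation_le_one_iff u).mp hM.vu.le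
  exact ⟨hM.std.a₁ ▸ A.zero_mem, hM.std.a₂ ▸ neg_mem (add_mem hd hu), hM.std.a₃ ▸ A.zero_mem,
    hM.std.a₄ ▸ mul_mem hd hu, hM.std.a₆ ▸ A.zero_mem⟩

theorem isTangentModel_of_isMult (hM : Frey05.IsMult A.valuation V.toAffine d u) {c : L}
    (hc : c ^ 2 = -u) :
    IsTangentModel (redCurve A V) (res A c) (-res A c) ∧ res A c ≠ -res A c := by
  have hd : d ∈ A := (A.valuation_le_one_iff d).mp hM.vd.le
  have hu : u ∈ A := (A.valuation_le_one_iff u).mp hM.vu.le
  have hvc : A.valuation c = 1 := hM.val_c hc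
  have hcA : c ∈ A := (A.valuation_le_one_iff c).mp hvc.le
  have hd0 : res A d = 0 := (res_eq_zero_iff hd).mpr hM.vd
  have hc2 : res A c * res A c = -res A u := by
    rw [← res_mul hcA hcA, ← res_neg hu, ← hc, sq]
  refine ⟨⟨?_, ?_, ?_, ?_, ?_⟩, fun h => ?_⟩
  · simp [redCurve, hM.std.a₁]
  · show res A V.a₂ = _
    rw [hM.std.a₂, res_neg (add_mem hd hu), res_add hd hu, hd0, zero_add]
    linear_combination -hc2
  · simp [redCurve, hM.std.a₃]
  · show res A V.a₄ = 0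
    rw [hM.std.a₄, res_mul hd hu, hd0, zero_mul]
  · simp [redCurve, hM.std.a₆]
  · have h2 : res A (2 : L) ≠ 0 := (res_ne_zero_iff (ofNat_mem_place 2)).mpr hM.two
    rw [res_ofNat] at h2
    have : (2 : IsLocalRing.ResidueField A) * res A c = 0 := by linear_combination h
    exact mul_ne_zero h2 ((res_ne_zero_iff hcA).mpr hvc) this

theorem Δ_ne_zero_of_isMult (hM : Frey05.IsMult A.valuation V.toAffine d u) : V.Δ ≠ 0 := by
  have h : V.Δ = 16 * (d * u * (d - u)) ^ 2 := by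
    simp only [WeierstrassCurve.Δ, b₂, b₄, b₆, b₈, hM.std.a₁, hM.std.a₂, hM.std.a₃, hM.std.a₄,
      hM.std.a₆]
    ring
  rw [h]
  refine mul_ne_zero ?_ (pow_ne_zero 2 (mul_ne_zero (mul_ne_zero hM.d0 hM.u0)
    (sub_ne_zero.mpr hM.du_ne)))
  rw [show (16 : L) = 2 ^ 4 by norm_num]
  exact pow_ne_zero 4 hM.two_ne

variable [DecidableEq L]

/-- Adding a deep point to a less deep one moves the abscissa by a known amount. -/
theorem valuation_add_sub (hM : Frey05.IsMult A.valuation V.toAffine d u) {X₁ Y₁ X₂ Y₂ X₃ Y₃ : L}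
    {h₁ : V.toAffine.Nonsingular X₁ Y₁} {h₂ : V.toAffine.Nonsingular X₂ Y₂}
    {h₃ : V.toAffine.Nonsingular X₃ Y₃}
    (he : Affine.Point.some X₁ Y₁ h₁ + Affine.Point.some X₂ Y₂ h₂ = Affine.Point.some X₃ Y₃ h₃)
    (h1 : 1 < A.valuation X₁) (h12 : A.valuation X₁ < A.valuation X₂) :
    A.valuation (X₃ / X₁ - 1) ^ 2 * A.valuation X₂ = A.valuation X₁ := by
  set v := A.valuation
  have h2' : 1 < v X₂ := h1.trans h12
  have hX₁ : X₁ ≠ 0 := fun e => by simp [e] at h1
  have hX₂ : X₂ ≠ 0 := fun e => by simp [e] at h2'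
  have hne : X₁ ≠ X₂ := fun e => h12.ne (by rw [e])
  obtain ⟨X, Y, s, h, hadd, hs, hX, -, -⟩ := hM.std.add_coords h₁ h₂ hne
  rw [he, Affine.Point.some.injEq] at hadd
  obtain ⟨rfl, -⟩ := hadd
  have hY : ∀ {X Y : L}, V.toAffine.Nonsingular X Y → 1 < v X → v Y ^ 2 = v X ^ 3 := by
    intro X Y hn hX
    rw [← map_pow, hM.std.eqn hn, map_mul, map_mul, v.map_sub_eq_of_lt_left (hM.vd.trans hX),
      v.map_sub_eq_of_lt_left (hM.vu.symm ▸ hX)]
    simp only [pow_succ, pow_zero, one_mul]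
  set N : L := 2 * (3 * X₁ ^ 2 * X₂ - X₁ ^ 3 + d * u * (X₁ + X₂) - 2 * (d + u) * X₁ * X₂) with hN
  have key : 2 * (X₃ - X₁) * (X₁ - X₂) ^ 2 = N + -(4 * (Y₁ * Y₂)) := by
    rw [hN, hX]
    linear_combination (2 * (s * (X₁ - X₂) + (Y₁ - Y₂))) * hs
      + 2 * hM.std.eqn h₁ + 2 * hM.std.eqn h₂
  have hNle : v N ≤ v X₁ ^ 2 * v X₂ := by
    have ha : (1 : A.ValueGroup) ≤ v X₁ := h1.le
    have hb : (1 : A.ValueGroup) ≤ v X₂ := h2'.le
    have hdu : v (d * u) ≤ 1 := Frey05.val_mul_le_one hM.vd.le hM.vu.le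
    have hdu' : v (d + u) ≤ 1 := v.map_add_le hM.vd.le hM.vu.le
    rw [hN, map_mul, hM.two, one_mul]
    refine v.map_sub_le (v.map_add_le (v.map_sub_le ?_ ?_) ?_) ?_
    · rw [map_mul, map_mul, map_pow]
      refine mul_le_mul' (mul_le_of_le_one_left' ?_) le_rfl
      simpa using Frey05.val_natCast_le_one (v := v) 3
    · rw [map_pow, pow_succ]
      exact mul_le_mul' le_rfl h12.le
    · rw [map_mul]
      refine (mul_le_mul' hdu (v.map_add_le h12.le le_rfl)).trans ?_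
      rw [one_mul]
      exact le_mul_of_one_le_left' (one_le_pow₀ ha)
    · rw [map_mul, map_mul, map_mul, hM.two, one_mul]
      refine mul_le_mul' ((mul_le_of_le_one_left' hdu').trans ?_) le_rfl
      rw [pow_two]
      exact le_mul_of_one_le_left' ha
  clear_value N
  have hlt : v N < v (-(4 * (Y₁ * Y₂))) := by
    rw [Valuation.map_neg, map_mul, show (4 : L) = 2 * 2 by norm_num, map_mul, hM.two, one_mul,
      one_mul, map_mul]
    refine (pow_lt_pow_iff_left₀ zero_le zero_le two_ne_zero).mp ?_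
    rw [mul_pow, hY h₁ h1, hY h₂ h2']
    refine lt_of_le_of_lt (pow_le_pow_left' hNle 2) ?_
    rw [mul_pow, ← pow_mul, show v X₁ ^ (2 * 2) = v X₁ ^ 3 * v X₁ by rw [← pow_succ],
      show v X₂ ^ 3 = v X₂ * v X₂ ^ 2 by rw [← pow_succ'], mul_assoc]
    exact mul_lt_mul_of_pos_left (mul_lt_mul_of_pos_right h12 (pow_pos (zero_lt_one.trans h2') 2))
      (pow_pos (zero_lt_one.trans h1) 3)
  have hval : v ((X₃ - X₁) * (X₁ - X₂) ^ 2) = v (Y₁ * Y₂) := by
    have h := congrArg v key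
    rw [v.map_add_eq_of_lt_right hlt, Valuation.map_neg, map_mul v (4 : L), mul_assoc, map_mul,
      hM.two, one_mul, show (4 : L) = 2 * 2 by norm_num, map_mul v (2 : L) 2, hM.two, one_mul,
      one_mul] at h
    exact h
  rw [map_mul, map_mul, map_pow, v.map_sub_eq_of_lt_right h12] at hval
  have hsq := congrArg (· ^ 2) hval
  simp only [mul_pow, hY h₁ h1, hY h₂ h2', ← pow_mul] at hsq
  have hp₁ : v X₁ ≠ 0 := (zero_lt_one.trans h1).ne'
  have hp₂ : v X₂ ≠ 0 := (zero_lt_one.trans h2').ne'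
  rw [show X₃ / X₁ - 1 = (X₃ - X₁) / X₁ by field_simp, map_div₀]
  refine mul_right_cancel₀ (mul_ne_zero (pow_ne_zero 2 hp₁) (pow_ne_zero 3 hp₂)) ?_
  calc (v (X₃ - X₁) / v X₁) ^ 2 * v X₂ * (v X₁ ^ 2 * v X₂ ^ 3)
      = (v (X₃ - X₁) / v X₁) ^ 2 * v X₁ ^ 2 * (v X₂ * v X₂ ^ 3) := mul_mul_mul_comm _ _ _ _
    _ = v (X₃ - X₁) ^ 2 * v X₂ ^ (2 * 2) := by
        rw [← mul_pow, div_mul_cancel₀ _ hp₁, ← pow_succ']
    _ = v X₁ ^ 3 * v X₂ ^ 3 := hsq
    _ = v X₁ * (v X₁ ^ 2 * v X₂ ^ 3) := by rw [← mul_assoc, ← pow_succ']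

end FermatLib.MazurP

end
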