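import Fermat.Agent.Galois.MazurP.Lead

/-!
One component of a pair subject to conditions on leading coefficients can be prescribed.
-/

set_option autoImplicit false

noncomputable section

open AlgebraicCurve FermatLib.Igusa FermatLib.Igusa.Mono

namespace FermatLib.MazurP

variable {K E : Type*} [Field K] [Field E] [Algebra K E] {g : ℕ}

variable {ι : Type*}

/-- A second component matching a given first component. -/
theorem exists_partner₁ (hE : RRField K E g) {B₁ B₂ : Divisor K E} {S : Finset ι}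
    {z₁ z₂ : ι → Place K E} (h₂ : Set.InjOn z₂ S) (a : ι → K)
    (hd : 2 * (g : ℤ) + S.card ≤ Divisor.degree B₂) {r : E} (hr : r ∈ riemannRochSpace B₁) :
    ∃ r₂, (r, r₂) ∈ condSpace hE B₁ B₂ S z₁ z₂ a (fun _ => 1) := by
  classical
  choose f hf hf1 hf0 using fun i : {i // i ∈ S} =>
    exists_lead hE (S := S.image z₂) (B := B₂) (by
      have : ((S.image z₂).card : ℤ) ≤ S.card := by exact_mod_cast Finset.card_image_le
      omega) (Finset.mem_image_of_mem z₂ i.2)
  set r₂ := ∑ i ∈ S.attach, (-(a i * lead (z₁ i.1) (B₁ (z₁ i.1)) r)) • f i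
  refine ⟨r₂, hr, Submodule.sum_mem _ fun i _ => Submodule.smul_mem _ _ (hf i), fun i hi => ?_⟩
  have hl := map_sum (leadLin hE.deg_one B₂ (z₂ i))
    (fun w : {i // i ∈ S} => (-(a w * lead (z₁ w.1) (B₁ (z₁ w.1)) r)) •
      (⟨f w, hf w⟩ : riemannRochSpace B₂)) S.attach
  simp only [map_smul, leadLin, LinearMap.coe_mk, AddHom.coe_mk, AddSubmonoidClass.coe_finsetSum,
    Submodule.coe_smul, smul_eq_mul] at hl
  simp only [r₂, one_mul, hl]
  rw [Finset.sum_eq_single ⟨i, hi⟩ (fun w _ hne => by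
    rw [hf0 w (z₂ i) (Finset.mem_image_of_mem z₂ hi) fun e =>
      hne (Subtype.ext (h₂ hi w.2 e).symm), mul_zero])
    (fun h => absurd (Finset.mem_attach _ _) h)]
  have h1 := hf1 ⟨i, hi⟩
  dsimp only at h1 ⊢
  rw [h1, mul_one, add_neg_cancel]

/-- A first component matching a given second component. -/
theorem exists_partner₂ (hE : RRField K E g) {B₁ B₂ : Divisor K E} {S : Finset ι}
    {z₁ z₂ : ι → Place K E} (h₁ : Set.InjOn z₁ S) (a : ι → K) (ha : ∀ i ∈ S, a i ≠ 0)
    (hd : 2 * (g : ℤ) + S.card ≤ Divisor.degree B₁) {r : E} (hr : r ∈ riemannRochSpace B₂) :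
    ∃ r₁, (r₁, r) ∈ condSpace hE B₁ B₂ S z₁ z₂ a (fun _ => 1) := by
  obtain ⟨r₁, -, h2, hl⟩ :=
    exists_partner₁ hE (z₁ := z₂) (z₂ := z₁) h₁ (fun i => (a i)⁻¹) hd hr
  refine ⟨r₁, h2, hr, fun i hi => ?_⟩
  have h3 := hl i hi
  dsimp only at h3 ⊢
  rw [one_mul] at h3 ⊢
  have hne := ha i hi
  field_simp at h3
  linear_combination h3

end FermatLib.MazurP

end
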