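import Fermat.Agent.Galois.MazurP.MoveLemmas
import Fermat.Agent.Galois.MazurP.Tame
import Fermat.Agent.Galois.MazurP.Products

/-!
The effect of a small move on torsion data: `σ D - D` has an element congruent to `1` modulo
`c₀`, whose first order part jumps by the free shift at each node.  Consequently the free shifts
at all nodes are congruent modulo the residue characteristic.
-/

set_option autoImplicit false

noncomputable section

open AlgebraicCurve FermatLib.Igusa FermatLib.Igusa.Mono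

namespace FermatLib.MazurP

universe uL uF uk uKb

namespace MazurDatum

variable {L : Type uL} {k : Type uk} [Field L] [Field k] [IsAlgClosed k] {A : ValuationSubring L}
  {π : A →+* k} {F : Type uF} {Kb : Type uKb} [Field F] [Algebra L F] [Field Kb] [Algebra k Kb]
  {q : ℕ} {M : MazurDatum π F Kb q}

omit [IsAlgClosed k] in
/-- Elements of the unshifted lattice. -/
theorem lat_one (x : (M.shift 1 1).lat) :
    Integral₂ M.s₁ M.s₂ (x : F) ∧ rd₂ M.s₁ M.s₂ (x : F) = (M.shift 1 1).red x := by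
  have e : (((1 : Lˣ) : L))⁻¹ • (x : F) = (x : F) := by simp
  have h1 : (((1 : Lˣ) : L))⁻¹ • (x : F) ∈ M.s₁.W := x.2.1
  have h2 : (((1 : Lˣ) : L))⁻¹ • (x : F) ∈ M.s₂.W := x.2.2
  rw [e] at h1 h2
  refine ⟨⟨h1, h2⟩, ?_⟩
  show (M.s₁.rd (x : F), M.s₂.rd (x : F)) =
    (M.s₁.rd ((((1 : Lˣ) : L))⁻¹ • (x : F)), M.s₂.rd ((((1 : Lˣ) : L))⁻¹ • (x : F)))
  rw [e]

namespace RatForm.Move

variable {R : M.RatForm} (V : R.Move) {p : ℕ} (T : M.TorsData p) (hT : R.IsRatTors T)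

include hT

omit [IsAlgClosed k] hT in
theorem exists_zpow_g (s : Sheet π F Kb) {γ : Lˣ} (hγK : (γ : L) ∈ R.K)
    (hg : (γ : L)⁻¹ • T.g ∈ s.W) (hg0 : s.rd ((γ : L)⁻¹ • T.g) ≠ 0) :
    ∃ z : ℤ, (R.ϖ ^ z)⁻¹ • T.g ∈ s.W ∧ s.rd ((R.ϖ ^ z)⁻¹ • T.g) ≠ 0 := by
  obtain ⟨z, hz⟩ := R.valueK _ hγK γ.ne_zero
  set c := (γ : L) / R.ϖ ^ z with hc
  have hv : A.valuation c = 1 := by
    rw [hc, map_div₀, hz, map_zpow₀, div_self (zpow_ne_zero _ (valuation_ϖ_pos R).ne')]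
  have hA := (A.valuation_le_one_iff _).mp hv.le
  have he : (R.ϖ ^ z)⁻¹ • T.g = c • (γ : L)⁻¹ • T.g := by
    rw [smul_smul, hc, div_mul_eq_mul_div, mul_inv_cancel₀ γ.ne_zero, one_div]
  refine ⟨z, he ▸ Sheet.smul_mem hA hg, ?_⟩
  rw [he, Sheet.rd_smul hA hg]
  refine smul_ne_zero (fun h => ?_) hg0
  exact (M.π_eq_zero _).mp h ((A.valuation_eq_one_iff _).mpr hv)

omit [IsAlgClosed k] in
theorem rd_σg : Integral₂ M.s₁ M.s₂ (V.σ T.g * T.g⁻¹) ∧
    rd₂ M.s₁ M.s₂ (V.σ T.g * T.g⁻¹) = 1 := by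
  obtain ⟨z₁, a1, b1⟩ := exists_zpow_g T M.s₁ hT.γ₁_mem T.g_mem₁ T.g_red₁
  obtain ⟨z₂, a2, b2⟩ := exists_zpow_g T M.s₂ hT.γ₂_mem T.g_mem₂ T.g_red₂
  obtain ⟨c1, d1⟩ := V.rd_σ_div M.s₁ V.mem₁ V.move₁ hT.g_mem a1 b1
  obtain ⟨c2, d2⟩ := V.rd_σ_div M.s₂ V.mem₂ V.move₂ hT.g_mem a2 b2
  exact ⟨⟨c1, c2⟩, Prod.ext d1 d2⟩

/-- The torsion data of `σ D - D`. -/
def yData : M.TorsData p where
  D := V.mapDiv T.D - T.D
  g := V.σ T.g * T.g⁻¹
  g_ne := mul_ne_zero ((V.σ.injective.ne_iff' (map_zero V.σ)).mpr T.g_ne) (inv_ne_zero T.g_ne)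
  div := V.div_σ_div T
  γ₁ := 1
  γ₂ := 1
  g_mem₁ := by simpa using (V.rd_σg T hT).1.1
  g_red₁ := by
    have h := congrArg Prod.fst (V.rd_σg T hT).2
    simp only [rd₂, Prod.fst_one] at h
    simp [h]
  g_mem₂ := by simpa using (V.rd_σg T hT).1.2
  g_red₂ := by
    have h := congrArg Prod.snd (V.rd_σg T hT).2
    simp only [rd₂, Prod.snd_one] at h
    simp [h]

omit [IsAlgClosed k] in
theorem yData_bal : (V.yData T hT).Balanced 1 (R.pw 0) 1 0 := by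
  simp [TorsData.Balanced, yData, RatForm.coe_pw]

omit [IsAlgClosed k] in
/-- The frame of `σ D - D` with roots `1`. -/
def yFrame : Frame R (V.yData T hT) where
  t := 0
  bal := V.yData_bal T hT
  e₁ := 1
  e₂ := 1
  e₁_ne := one_ne_zero
  e₂_ne := one_ne_zero
  root₁ := by
    have h := congrArg Prod.fst (V.rd_σg T hT).2
    simp only [rd₂, Prod.fst_one] at h
    simp [TorsData.gb₁, yData, h]
  root₂ := by
    have h := congrArg Prod.snd (V.rd_σg T hT).2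
    simp only [rd₂, Prod.snd_one] at h
    have hC : (V.yData T hT).balC 1 (R.pw 0) 1 0 = 1 := by
      simp [TorsData.balC, yData, RatForm.coe_pw]
    have hK : (V.yData T hT).balK (V.yData_bal T hT) = 1 := by
      simp only [TorsData.balK, hC]
      exact map_one π
    rw [hK, one_smul, one_pow]
    simp [TorsData.gb₂, yData, h]

omit [IsAlgClosed k] in
theorem yFrame_e : (V.yFrame T hT).e = 1 := rfl

/-- In large level the chart spaces of `σ D - D` reduce onto the glued functions. -/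
theorem exists_y_level [hp : Fact p.Prime] [CharP k p] : ∃ N : ℕ, 1 ≤ N ∧
    ∀ (C : M.Chart) (a b : ℕ) (r : Kb × Kb), N ≤ a + b →
      (r ∈ M.sred 1 1 (C.space (V.mapDiv T.D - T.D) a b) ↔ r ∈ C.glue a b) := by
  obtain ⟨N, hN, h⟩ := (V.yFrame T hT).exists_level
  refine ⟨N, hN, fun C a b r hab => ?_⟩
  have h1 := h C a b r hab
  rw [yFrame_e, one_mul] at h1
  rw [← h1, show R.pw (V.yFrame T hT).t = 1 from Units.ext (by simp [yFrame, RatForm.coe_pw])]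
  rfl

omit [IsAlgClosed k] in
/-- The reductions of `L(σ D + n Px)` are those of `L(D + n Px)`. -/
theorem sred_mapDiv (hp : p ≠ 0) (t : ℤ) {n : ℕ} (hn : 2 * M.gF ≤ n) :
    M.sred 1 (R.pw t) (riemannRochSpace (V.mapDiv T.D + n • M.Px)) = R.redAt T t n := by
  have := M.rrF.finite_space (T.D + n • M.Px)
  have := M.rrF.finite_space (V.mapDiv T.D + n • M.Px)
  symm
  have hdx := M.one_le_degree_Px
  have hn' : (2 * M.gF : ℤ) ≤ (n : ℤ) * Divisor.degree M.Px := by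
    have h2 : (2 * M.gF : ℤ) ≤ n := by exact_mod_cast hn
    nlinarith
  have hσ0 : Divisor.degree (V.mapDiv T.D) = 0 := by
    have h := (V.yData T hT).degree_D hp
    simpa [yData, map_sub, T.degree_D hp] using h
  refine Submodule.eq_of_le_of_finrank_eq (fun x hx => ?_) ?_
  · obtain ⟨f, hf, hfK, h1, h2, e1, e2⟩ := R.exists_rat_lift (β₁ := 1) (β₂ := R.pw t) (one_mem _)
      (R.zpow_ϖ_mem_K t) _ (hT.rat n) hx
    rw [Units.val_one, inv_one, one_smul] at h1 e1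
    rw [RatForm.coe_pw] at h2 e2
    obtain ⟨m1, r1⟩ := V.rd_move M.s₁ V.mem₁ V.move₁ hfK (z := 0) (by simpa using h1)
    obtain ⟨m2, r2⟩ := V.rd_move M.s₂ V.mem₂ V.move₂ hfK (z := t) h2
    simp only [zpow_zero, mul_one] at m1 r1
    have s1 : V.σ f = f + V.c₀ • (V.c₀⁻¹ • (V.σ f - f)) := by
      rw [smul_inv_smul₀ V.c₀_ne, add_sub_cancel]
    have s2 : (R.ϖ ^ t)⁻¹ • V.σ f =
        (R.ϖ ^ t)⁻¹ • f + V.c₀ • ((V.c₀ * R.ϖ ^ t)⁻¹ • (V.σ f - f)) := by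
      rw [smul_smul, mul_inv, mul_inv_cancel_left₀ V.c₀_ne, ← smul_add, add_sub_cancel]
    have k1 := Sheet.smul_mem (s := M.s₁) V.c₀_mem m1
    have k2 := Sheet.smul_mem (s := M.s₂) V.c₀_mem m2
    refine M.mem_sred.mpr ⟨V.σ f, V.σ_mem_rr hf, ?_, ?_, ?_, ?_⟩ <;>
      simp only [Units.val_one, inv_one, one_smul, RatForm.coe_pw]
    · rw [s1]; exact add_mem h1 k1
    · rw [s2]; exact add_mem h2 k2
    · rw [s1, Sheet.rd_add h1 k1, Sheet.rd_smul V.c₀_mem m1, V.π_c₀, zero_smul, add_zero, e1]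
    · rw [s2, Sheet.rd_add h2 k2, Sheet.rd_smul V.c₀_mem m2, V.π_c₀, zero_smul, add_zero, e2]
  · rw [M.finrank_sred, M.finrank_sred]
    have a1 := M.rrF.finrank_space (T.D + n • M.Px) (by
      rw [map_add, T.degree_D hp, map_nsmul, nsmul_eq_mul]; omega)
    have a2 := M.rrF.finrank_space (V.mapDiv T.D + n • M.Px) (by
      rw [map_add, hσ0, map_nsmul, nsmul_eq_mul]; omega)
    rw [map_add, T.degree_D hp] at a1
    rw [map_add, hσ0] at a2
    omega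

omit [IsAlgClosed k] hT in
/-- `T̄ ^ b` has poles bounded by `b` times the poles of `x` on each sheet. -/
theorem _root_.FermatLib.MazurP.MazurDatum.rd_T_pow_mem (C : M.Chart) {b m : ℕ} (h : b ≤ m) :
    (rd₂ M.s₁ M.s₂ C.T).1 ^ b ∈ riemannRochSpace (m • M.P₁) ∧
      (rd₂ M.s₁ M.s₂ C.T).2 ^ b ∈ riemannRochSpace (m • M.P₂) := by
  have h1 : (rd₂ M.s₁ M.s₂ C.T).1 ∈ riemannRochSpace M.P₁ := by
    rw [mem_riemannRochSpace_iff]
    intro v
    right
    have := C.P₁_eq v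
    omega
  have h2 : (rd₂ M.s₁ M.s₂ C.T).2 ∈ riemannRochSpace M.P₂ := by
    rw [mem_riemannRochSpace_iff]
    intro v
    right
    have := C.P₂_eq v
    omega
  exact ⟨riemannRochSpace_mono (nsmul_le_nsmul_left M.P₁_nonneg h) (pow_mem_rr h1 b),
    riemannRochSpace_mono (nsmul_le_nsmul_left M.P₂_nonneg h) (pow_mem_rr h2 b)⟩

/-- The first order part of an element of `L(σ D - D)` congruent to `1`: it is bounded on each
sheet and jumps by the free shift at each node. -/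
theorem approx_bound (hp : p ≠ 0) (C : M.Chart) {a b : ℕ} {h : F} {r : (M.shift 1 1).lat} {c : L}
    (hc : c ≠ 0) (hκ : V.c₀ / c ∈ A) (hh : h ∈ C.space (V.mapDiv T.D - T.D) a b)
    (h1 : (1 : F) = h + c • (r : F)) :
    ((rd₂ M.s₁ M.s₂ C.T ^ b * (M.shift 1 1).red r).1 ∈ riemannRochSpace ((a + b) • M.P₁) ∧
      (rd₂ M.s₁ M.s₂ C.T ^ b * (M.shift 1 1).red r).2 ∈ riemannRochSpace ((a + b) • M.P₂)) ∧
    ∀ z ∈ M.nodes, ∀ t : ℤ, R.FreeAt T t z →
      valAt z.1 (rd₂ M.s₁ M.s₂ C.T ^ b * (M.shift 1 1).red r).1 -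
          valAt z.2 (rd₂ M.s₁ M.s₂ C.T ^ b * (M.shift 1 1).red r).2 =
        π ⟨_, hκ⟩ * (t : k) * valAt z.1 ((rd₂ M.s₁ M.s₂ C.T).1 ^ b) := by
  classical
  set η := (M.shift 1 1).red r
  set τ := rd₂ M.s₁ M.s₂ C.T with hτ
  set κ := π ⟨_, hκ⟩
  obtain ⟨hr, hrred⟩ := M.lat_one r
  obtain ⟨hTb1, hTb2⟩ := M.rd_T_pow_mem C (le_add_self : b ≤ a + b)
  have hdegE := fun t : ℤ => (show ∃ n₀ : ℕ, ∀ n, n₀ ≤ n →
      2 * (M.gK : ℤ) + M.nodeCount ≤
        Divisor.degree (T.B₁ n (12 * R.e) (t * p + R.delta T)) ∧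
      2 * (M.gK : ℤ) + M.nodeCount ≤
        Divisor.degree (T.B₂ n (12 * R.e) (t * p + R.delta T)) by
    set m := 12 * R.e
    set j := t * p + R.delta T
    set d₁ := Divisor.degree ((T.num₁ m j).mapRange (fun x : ℤ => x / ((p * m : ℕ) : ℤ))
      (Int.zero_ediv _))
    set d₂ := Divisor.degree ((T.num₂ m j).mapRange (fun x : ℤ => x / ((p * m : ℕ) : ℤ))
      (Int.zero_ediv _))
    refine ⟨(2 * (M.gK : ℤ) + M.nodeCount + |d₁| + |d₂|).toNat, fun n hn => ?_⟩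
    have hn' : (2 * (M.gK : ℤ) + M.nodeCount + |d₁| + |d₂|) ≤ n :=
      (Int.self_le_toNat _).trans (by exact_mod_cast hn)
    have k1 : (n : ℤ) ≤ n * Divisor.degree M.P₁ :=
      le_mul_of_one_le_right (by positivity) M.one_le_degree_P₁
    have k2 : (n : ℤ) ≤ n * Divisor.degree M.P₂ :=
      le_mul_of_one_le_right (by positivity) M.one_le_degree_P₂
    have := neg_abs_le d₁
    have := neg_abs_le d₂
    have := abs_nonneg d₁
    have := abs_nonneg d₂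
    rw [TorsData.B₁, TorsData.B₂, map_add, map_add, map_nsmul, map_nsmul, nsmul_eq_mul,
      nsmul_eq_mul]
    omega)
  -- the products with reductions of `L(D + n Px)`
  have key : ∀ t : ℤ, ∃ N₀ : ℕ, ∀ n, N₀ ≤ n →
      2 * (M.gK : ℤ) + M.nodeCount ≤
        Divisor.degree (T.B₁ n (12 * R.e) (t * p + R.delta T)) ∧
      2 * (M.gK : ℤ) + M.nodeCount ≤
        Divisor.degree (T.B₂ n (12 * R.e) (t * p + R.delta T)) ∧
      ∀ x ∈ condSpace M.rrK (T.B₁ n (12 * R.e) (t * p + R.delta T))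
          (T.B₂ n (12 * R.e) (t * p + R.delta T)) (T.freeNodes (12 * R.e) (t * p + R.delta T))
          Prod.fst Prod.snd (fun z => -T.lam 1 (R.pw t) (12 * R.e) (t * p + R.delta T) z)
          (fun _ => 1),
        (x.1 * (τ ^ b * η).1, x.2 * ((κ * t) • τ.2 ^ b + (τ ^ b * η).2)) ∈
          condSpace M.rrK (T.B₁ (n + (a + b)) (12 * R.e) (t * p + R.delta T))
            (T.B₂ (n + (a + b)) (12 * R.e) (t * p + R.delta T))
            (T.freeNodes (12 * R.e) (t * p + R.delta T))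
            Prod.fst Prod.snd (fun z => -T.lam 1 (R.pw t) (12 * R.e) (t * p + R.delta T) z)
            (fun _ => 1) := by
    intro t
    obtain ⟨N₁, hN₁⟩ := R.exists_redAt_eq T hp hT t
    obtain ⟨N₂, hN₂⟩ := hdegE t
    refine ⟨N₁ + N₂ + 2 * M.gF, fun n hn => ⟨(hN₂ n (by omega)).1, (hN₂ n (by omega)).2,
      fun x hx => ?_⟩⟩
    rw [← hN₁ n (by omega)] at hx
    rw [← hN₁ _ (by omega), ← V.sred_mapDiv T hT hp t (by omega)]
    have := M.rrF.finite_space (T.D + n • M.Px)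
    obtain ⟨f, hf, hfK, f1, f2, e1, e2⟩ := R.exists_rat_lift (β₁ := 1) (β₂ := R.pw t) (one_mem _)
      (R.zpow_ϖ_mem_K t) _ (hT.rat n) hx
    rw [Units.val_one, inv_one, one_smul] at f1 e1
    rw [RatForm.coe_pw] at f2 e2
    obtain ⟨m1, r1⟩ := V.rd_move M.s₁ V.mem₁ V.move₁ hfK (z := 0) (by simpa using f1)
    obtain ⟨m2, r2⟩ := V.rd_move M.s₂ V.mem₂ V.move₂ hfK (z := t) f2
    simp only [zpow_zero, mul_one] at m1 r1
    set ψ := C.T ^ b * (c⁻¹ • (V.σ f - f) + f * (r : F))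
    have hψ : c⁻¹ • (V.σ f - f * h) = c⁻¹ • (V.σ f - f) + f * (r : F) := by
      rw [show f * h = f - c • (f * (r : F)) by
        rw [← mul_smul_comm, eq_sub_iff_add_eq, ← mul_add, ← h1, mul_one], sub_sub_eq_add_sub,
        add_sub_right_comm, smul_add, inv_smul_smul₀ hc]
    have hψmem : ψ ∈ riemannRochSpace (V.mapDiv T.D + (n + (a + b)) • M.Px) := by
      show C.T ^ b * (c⁻¹ • (V.σ f - f) + f * (r : F)) ∈ _
      rw [← hψ, mul_smul_comm, mul_sub]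
      refine Submodule.smul_mem _ _ (Submodule.sub_mem _ ?_ ?_)
      · have hb := M.pow_mul_mem_rr C b (V.σ_mem_rr hf)
        refine riemannRochSpace_mono (add_le_add le_rfl
          (nsmul_le_nsmul_left M.Px_nonneg (by omega : n + b ≤ n + (a + b)))) hb
      · have := mul_mem_riemannRochSpace hf (C.mem_space.mp hh)
        rw [mul_left_comm]
        refine riemannRochSpace_mono (le_of_eq ?_) this
        rw [add_smul n]
        abel
    have hT1 := pow_mem C.T_int.1 b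
    have hT2 := pow_mem C.T_int.2 b
    have hs1 : c⁻¹ • (V.σ f - f) = (V.c₀ / c) • (V.c₀⁻¹ • (V.σ f - f)) := by
      rw [smul_smul, div_mul_eq_mul_div, mul_inv_cancel₀ V.c₀_ne, one_div]
    have hs2 : (R.ϖ ^ t)⁻¹ • c⁻¹ • (V.σ f - f) =
        (V.c₀ / c) • ((V.c₀ * R.ϖ ^ t)⁻¹ • (V.σ f - f)) := by
      rw [smul_smul, smul_smul]
      congr 1
      field_simp [V.c₀_ne]
    have p1 : c⁻¹ • (V.σ f - f) + f * (r : F) ∈ M.s₁.W :=
      add_mem (hs1 ▸ Sheet.smul_mem hκ m1) (mul_mem f1 hr.1)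
    have p2 : (R.ϖ ^ t)⁻¹ • (c⁻¹ • (V.σ f - f) + f * (r : F)) ∈ M.s₂.W := by
      rw [smul_add, hs2, ← smul_mul_assoc]
      exact add_mem (Sheet.smul_mem hκ m2) (mul_mem f2 hr.2)
    refine M.mem_sred.mpr ⟨ψ, hψmem, ?_, ?_, ?_, ?_⟩ <;>
      simp only [Units.val_one, inv_one, one_smul, RatForm.coe_pw]
    · exact mul_mem hT1 p1
    · rw [← mul_smul_comm]; exact mul_mem hT2 p2
    · rw [Sheet.rd_mul hT1 p1, Sheet.rd_pow C.T_int.1, Sheet.rd_add (hs1 ▸ Sheet.smul_mem hκ m1)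
        (mul_mem f1 hr.1), Sheet.rd_mul f1 hr.1, e1, hs1, Sheet.rd_smul hκ m1, r1, Int.cast_zero,
        zero_smul, smul_zero, zero_add]
      simp only [Prod.fst_mul, Prod.pow_fst, η, ← hrred, τ]
      exact mul_left_comm _ _ _
    · rw [← mul_smul_comm, Sheet.rd_mul hT2 p2, Sheet.rd_pow C.T_int.2, smul_add,
        ← smul_mul_assoc, hs2, Sheet.rd_add (Sheet.smul_mem hκ m2) (mul_mem f2 hr.2),
        Sheet.rd_mul f2 hr.2, e2, Sheet.rd_smul hκ m2, r2, e2]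
      simp only [Prod.snd_mul, Prod.pow_snd, η, ← hrred, τ]
      change _ * (κ • (t : k) • x.2 + x.2 * M.s₂.rd (r : F)) =
        x.2 * ((κ * t) • _ + _ * M.s₂.rd (r : F))
      simp only [Algebra.smul_def, map_mul, rd₂]
      ring
  have hcard : ∀ t, ((T.freeNodes (12 * R.e) t).card : ℤ) ≤ M.nodeCount := fun s => by
    rw [MonoDatum.nodeCount, Nat.card_coe_set_eq, Set.ncard_eq_toFinset_card _ M.finite_nodes]
    exact_mod_cast Finset.card_filter_le _ _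
  have hinj₁ : ∀ t, Set.InjOn Prod.fst (T.freeNodes (12 * R.e) t : Set (Place k Kb × Place k Kb)) :=
    fun s z hz w hw => M.node_fst_injective (T.mem_freeNodes.mp hz).1 (T.mem_freeNodes.mp hw).1
  have hinj₂ : ∀ t, Set.InjOn Prod.snd (T.freeNodes (12 * R.e) t : Set (Place k Kb × Place k Kb)) :=
    fun s z hz w hw => M.node_snd_injective (T.mem_freeNodes.mp hz).1 (T.mem_freeNodes.mp hw).1
  have bound : ∀ t : ℤ, (τ ^ b * η).1 ∈ riemannRochSpace ((a + b) • M.P₁) ∧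
      (κ * t) • τ.2 ^ b + (τ ^ b * η).2 ∈ riemannRochSpace ((a + b) • M.P₂) := by
    intro t
    obtain ⟨N₀, hN₀⟩ := key t
    obtain ⟨d1, d2, hmul⟩ := hN₀ N₀ le_rfl
    set j := t * p + R.delta T
    set m := 12 * R.e
    have hc' := hcard j
    refine ⟨mem_riemannRochSpace_iff.mpr fun v => ?_, mem_riemannRochSpace_iff.mpr fun v => ?_⟩
    · obtain ⟨x₁, hx₁, hx0, hxv⟩ := M.rrK.exists_ord_eq (D := T.B₁ N₀ m j) (by omega) v
      obtain ⟨x₂, hx⟩ := exists_partner₁ M.rrK (hinj₂ j) (fun z => -T.lam 1 (R.pw t) m j z)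
        (z₁ := Prod.fst) (B₂ := T.B₂ N₀ m j) (by omega) hx₁
      rcases eq_or_ne (τ ^ b * η).1 0 with h0 | h0
      · exact Or.inl h0
      right
      have h2 := (mem_riemannRochSpace_iff.mp (hmul _ hx).1 v).resolve_left (mul_ne_zero hx0 h0)
      rw [v.ord_mul hx0 h0, hxv, T.B₁_apply, T.B₁_apply] at h2
      rw [Finsupp.smul_apply, nsmul_eq_mul]
      push_cast at h2 ⊢
      linarith
    · obtain ⟨x₂, hx₂, hx0, hxv⟩ := M.rrK.exists_ord_eq (D := T.B₂ N₀ m j) (by omega) v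
      obtain ⟨x₁, hx⟩ := exists_partner₂ M.rrK (z₂ := Prod.snd) (hinj₁ j)
        (fun z => -T.lam 1 (R.pw t) m j z) (fun z _ => neg_ne_zero.mpr (T.lam_ne z))
        (B₁ := T.B₁ N₀ m j) (by omega) hx₂
      rcases eq_or_ne ((κ * t) • τ.2 ^ b + (τ ^ b * η).2) 0 with h0 | h0
      · exact Or.inl h0
      right
      have h2 := (mem_riemannRochSpace_iff.mp (hmul _ hx).2.1 v).resolve_left (mul_ne_zero hx0 h0)
      rw [v.ord_mul hx0 h0, hxv, T.B₂_apply, T.B₂_apply] at h2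
      rw [Finsupp.smul_apply, nsmul_eq_mul]
      push_cast at h2 ⊢
      linarith
  have hη2 : (τ ^ b * η).2 ∈ riemannRochSpace ((a + b) • M.P₂) := by
    simpa using (bound 0).2
  refine ⟨⟨(bound 0).1, hη2⟩, fun z hz t hfree => ?_⟩
  obtain ⟨N₀, hN₀⟩ := key t
  obtain ⟨d1, d2, hmul⟩ := hN₀ N₀ le_rfl
  set j := t * p + R.delta T
  set m := 12 * R.e
  have hc' := hcard j
  have hzS : z ∈ T.freeNodes m j := T.mem_freeNodes.mpr ⟨hz, hfree⟩
  obtain ⟨x₁, hx₁, hx0, hxv⟩ := M.rrK.exists_ord_eq (D := T.B₁ N₀ m j) (by omega) z.1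
  obtain ⟨x₂, hx⟩ := exists_partner₁ M.rrK (hinj₂ j) (fun z => -T.lam 1 (R.pw t) m j z)
    (z₁ := Prod.fst) (B₂ := T.B₂ N₀ m j) (by omega) hx₁
  have hlx := hx.2.2 z hzS
  have hl0 := lead_ne_zero (M.rrK.deg_one z.1) hx0 hxv
  have hx₂ := hx.2.1
  have hcond := (hmul _ hx).2.2 z hzS
  obtain ⟨hz1, hz2⟩ := M.P₁_of_node hz
  have hz2' : M.P₂ z.2 = 0 := (M.supp _).mp hz2
  have hreg1 := rrSpace_nsmul_le_reg M.P₁ _ (bound t).1
  have hreg2 := rrSpace_nsmul_le_reg M.P₂ _ (bound t).2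
  have hregη := rrSpace_nsmul_le_reg M.P₂ _ hη2
  have hregT := rrSpace_nsmul_le_reg M.P₂ _ hTb2
  have hB1 : T.B₁ (N₀ + (a + b)) m j z.1 = T.B₁ N₀ m j z.1 + 0 := by
    rw [T.node_B₁ hz, T.node_B₁ hz, add_zero]
  have hB2 : T.B₂ (N₀ + (a + b)) m j z.2 = T.B₂ N₀ m j z.2 + 0 := by
    rw [T.node_B₂ hz, T.node_B₂ hz, add_zero]
  dsimp only at hcond hlx
  rw [hB1, hB2, lead_mul (M.rrK.deg_one _) (ord_of_mem_rr hx₁ _)
      ((hreg1 _ hz1).imp id fun h => by simpa using h),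
    lead_mul (M.rrK.deg_one _) (ord_of_mem_rr hx₂ _)
      ((hreg2 _ hz2').imp id fun h => by simpa using h),
    lead_zero_index, lead_zero_index, valAt_add_reg M.rrK.deg_one
      (Submodule.smul_mem _ _ hregT) hregη hz2', valAt_smul_reg M.rrK.deg_one _ hregT hz2'] at hcond
  have hT12 : valAt z.1 (τ.1 ^ b) = valAt z.2 (τ.2 ^ b) := by
    have e := C.node_val hz
    rw [valAt_pow_reg M.rrK.deg_one (P := M.P₁) (fun v hv => by
      right; rw [C.P₁_eq] at hv; simp only [τ]; omega) hz1,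
      valAt_pow_reg M.rrK.deg_one (P := M.P₂) (fun v hv => by
      right; rw [C.P₂_eq] at hv; simp only [τ]; omega) hz2', e.1]
  rw [hT12]
  refine mul_left_cancel₀ (mul_ne_zero (T.lam_ne z (β₁ := 1) (β₂ := R.pw t) (m := m) (j := j)) hl0) ?_
  linear_combination (-1 : k) * hcond +
    (valAt z.2 (τ ^ b * η).2 + κ * (t : k) * valAt z.2 (τ.2 ^ b)) * hlx

/-- An element of `L(σ D - D)` congruent to `1` modulo `c₀`. -/
theorem exists_approx [hp : Fact p.Prime] [CharP k p] (hR : R.RatLevel) : ∃ N : ℕ, 1 ≤ N ∧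
    ∀ (C : M.Chart) (a b : ℕ), N ≤ a + b → ∃ h ∈ C.space (V.mapDiv T.D - T.D) a b,
      ∃ r : (M.shift 1 1).lat, (1 : F) = h + V.c₀ • (r : F) ∧
        ((rd₂ M.s₁ M.s₂ C.T ^ b * (M.shift 1 1).red r).1 ∈ riemannRochSpace ((a + b) • M.P₁) ∧
          (rd₂ M.s₁ M.s₂ C.T ^ b * (M.shift 1 1).red r).2 ∈
            riemannRochSpace ((a + b) • M.P₂)) ∧
        ∀ z ∈ M.nodes, ∀ t : ℤ, R.FreeAt T t z →
          valAt z.1 (rd₂ M.s₁ M.s₂ C.T ^ b * (M.shift 1 1).red r).1 -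
              valAt z.2 (rd₂ M.s₁ M.s₂ C.T ^ b * (M.shift 1 1).red r).2 =
            (t : k) * valAt z.1 ((rd₂ M.s₁ M.s₂ C.T).1 ^ b) := by
  obtain ⟨N, hN, hlev⟩ := V.exists_y_level T hT
  refine ⟨N, hN, fun C a b hab => ?_⟩
  set W₁ := C.space (V.mapDiv T.D - T.D) a b
  have : FiniteDimensional L W₁ := (C.space_equiv _ a b).1
  obtain ⟨h, c, r, hh, -, h1, hr⟩ := (M.shift 1 1).exists_decomp (W₁ ⊔ L ∙ (1 : F)) W₁ le_sup_left
    (Submodule.mem_sup_right (Submodule.mem_span_singleton_self (1 : F)))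
  suffices hex : ∃ r' : (M.shift 1 1).lat, (1 : F) = h + V.c₀ • (r' : F) by
    obtain ⟨r', e⟩ := hex
    have hκ : V.c₀ / V.c₀ ∈ A := by rw [div_self V.c₀_ne]; exact one_mem A
    obtain ⟨hb, hn⟩ := V.approx_bound T hT hp.out.ne_zero C V.c₀_ne hκ hh e
    refine ⟨h, hh, r', e, hb, fun z hz t ht => ?_⟩
    rw [hn z hz t ht, show (⟨_, hκ⟩ : A) = 1 from Subtype.ext (div_self V.c₀_ne), map_one, one_mul]
  by_cases hsmall : A.valuation c ≤ A.valuation V.c₀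
  · have hA : c / V.c₀ ∈ A := by
      rw [← A.valuation_le_one_iff, map_div₀, div_le_one₀ (zero_lt_iff.mpr (by
        simpa using V.c₀_ne))]
      exact hsmall
    refine ⟨(M.shift 1 1).amul ⟨_, hA⟩ r, ?_⟩
    rw [LatRed.coe_amul, smul_smul, mul_div_cancel₀ _ V.c₀_ne]
    exact h1
  · push Not at hsmall
    have hc : c ≠ 0 := fun h0 => by simp [h0] at hsmall
    have hlt : A.valuation (V.c₀ / c) < 1 := by
      rw [map_div₀, div_lt_one₀ (zero_lt_iff.mpr (by simpa using hc))]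
      exact hsmall
    have hκ := (A.valuation_le_one_iff _).mp hlt.le
    obtain ⟨⟨b1, b2⟩, hn⟩ := V.approx_bound T hT hp.out.ne_zero C hc hκ hh h1
    refine absurd ?_ (hr.resolve_left hc)
    rw [hlev C a b _ hab, C.mem_glue, M.mem_gl_one]
    refine ⟨b1, b2, fun z hz => ?_⟩
    obtain ⟨t, ht⟩ := R.exists_freeAt T hp.out.ne_zero hT hR hz
    have := hn z hz t ht
    rw [M.res_eq_zero _ fun hu => hlt.ne ((A.valuation_eq_one_iff _).mp hu), zero_mul, zero_mul,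
      sub_eq_zero] at this
    exact this

/-- **The free shifts at all nodes are congruent** modulo the residue characteristic. -/
theorem free_congr_mod [hp : Fact p.Prime] [CharP k p] (hR : R.RatLevel)
    (hpL : A.valuation (p : L) < A.valuation V.c₀ ^ (p - 1)) {z z' : Place k Kb × Place k Kb}
    (hz : z ∈ M.nodes) (hz' : z' ∈ M.nodes) {t t' : ℤ} (ht : R.FreeAt T t z)
    (ht' : R.FreeAt T t' z') : (t : k) = (t' : k) := by
  classical
  have : CharP Kb p := charP_of_injective_algebraMap (algebraMap k Kb).injective p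
  have hp0 := hp.out.ne_zero
  obtain ⟨N₁, hN₁, happ⟩ := V.exists_approx T hT hR
  obtain ⟨N₂, hsplit⟩ := M.exists_split_level hp0
  obtain ⟨C⟩ := M.nonempty_chart
  set N := N₁ + N₂
  obtain ⟨hA, hhA, rA, eA, ⟨bA1, bA2⟩, nA⟩ := happ C N 0 (by omega)
  obtain ⟨hB, hhB, rB, eB, ⟨bB1, bB2⟩, -⟩ := happ C 0 N (by omega)
  set τ := rd₂ M.s₁ M.s₂ C.T
  set ηA := (M.shift 1 1).red rA
  set ηB := (M.shift 1 1).red rB
  simp only [pow_zero, one_mul, add_zero] at bA1 bA2 nA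
  simp only [zero_add] at bB1 bB2
  obtain ⟨iA, redA⟩ := M.lat_one rA
  obtain ⟨iB, redB⟩ := M.lat_one rB
  obtain ⟨iG, redG⟩ := V.rd_σg T hT
  set G := V.σ T.g * T.g⁻¹
  set Δ : F := (rB : F) - rA
  have iΔ : Integral₂ M.s₁ M.s₂ Δ := iB.sub iA
  have rdΔ : rd₂ M.s₁ M.s₂ Δ = ηB - ηA := by rw [rd₂_sub iB iA, redA, redB]
  have hBe : hB = 1 - V.c₀ • (rB : F) := eq_sub_of_add_eq eB.symm
  have hAB : hA = hB + V.c₀ • Δ := by
    rw [hBe, eq_sub_of_add_eq eA.symm, smul_sub]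
    abel
  have iB' : Integral₂ M.s₁ M.s₂ hB := hBe ▸ integral₂_one.sub (iB.smul V.c₀_mem)
  have rdB' : rd₂ M.s₁ M.s₂ hB = 1 := by
    rw [hBe, rd₂_sub integral₂_one (iB.smul V.c₀_mem), rd₂_one, rd₂_smul V.c₀_mem iB, V.π_c₀,
      zero_smul, sub_zero]
  set w := ηB - ηA
  have hM : ∀ i, i ≤ p → Integral₂ M.s₁ M.s₂ (G * (hB ^ (p - i) * Δ ^ i)) ∧
      rd₂ M.s₁ M.s₂ (G * (hB ^ (p - i) * Δ ^ i)) = w ^ i := fun i _ =>
    ⟨iG.mul ((iB'.pow _).mul (iΔ.pow i)), by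
      rw [rd₂_mul iG ((iB'.pow _).mul (iΔ.pow i)), rd₂_mul (iB'.pow _) (iΔ.pow i), rd₂_pow iB',
        rd₂_pow iΔ, redG, rdB', rdΔ, one_pow, one_mul, one_mul]⟩
  obtain ⟨Z, hZ, hZr, heq⟩ := exists_pow_diff hp.out hM V.c₀_mem V.π_c₀
  obtain ⟨hP, hPr⟩ := hM p le_rfl
  rw [Nat.sub_self, pow_zero, one_mul] at hP hPr
  have hlt : A.valuation ((p : L) / V.c₀ ^ (p - 1)) < 1 := by
    rw [map_div₀, map_pow, div_lt_one₀ (pow_pos (zero_lt_iff.mpr (by simpa using V.c₀_ne)) _)]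
    exact hpL
  have hm := (A.valuation_le_one_iff _).mp hlt.le
  have hwp : w ^ p ∈ C.glue (p * N) 0 ⊔ C.glue 0 (p * N) := by
    refine hsplit C N (by omega) _ ⟨((p : L) / V.c₀ ^ (p - 1)) • Z + G * Δ ^ p, ?_,
      (hZ.smul hm).add hP, ?_⟩
    · have h1 := Frame.pow_mul_mem_space (T := V.yData T hT) hp0 C hhA
      have h2 := Frame.pow_mul_mem_space (T := V.yData T hT) hp0 C hhB
      rw [mul_zero] at h1 h2
      simp only [yData, Units.val_one, inv_one, one_smul] at h1 h2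
      have hd := sub_mem (Submodule.mem_sup_left h1 : _ ∈ _ ⊔ C.space 0 0 (p * N))
        (Submodule.mem_sup_right h2)
      rw [mul_comm (hA ^ p), mul_comm (hB ^ p), hAB, heq] at hd
      have := Submodule.smul_mem _ (V.c₀ ^ p)⁻¹ hd
      rwa [smul_add, inv_smul_smul₀ (pow_ne_zero _ V.c₀_ne), smul_smul,
        show (V.c₀ ^ p)⁻¹ * ((p : L) * V.c₀) = (p : L) / V.c₀ ^ (p - 1) by
          rw [show V.c₀ ^ p = V.c₀ ^ (p - 1) * V.c₀ by
            rw [← pow_succ, Nat.sub_add_cancel hp.out.one_lt.le]]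
          field_simp [V.c₀_ne]] at this
    · rw [rd₂_add (hZ.smul hm) hP, rd₂_smul hm hZ, hPr,
        M.res_eq_zero _ (fun hu => hlt.ne ((A.valuation_eq_one_iff _).mp hu)), zero_smul, zero_add]
  obtain ⟨G₁, hG₁, G₂, hG₂, hsum⟩ := Submodule.mem_sup.mp hwp
  rw [C.glue_zero, M.mem_gl_one] at hG₁
  rw [C.mem_glue, zero_add, M.mem_gl_one] at hG₂
  set x := G₁ + ηA ^ p
  have hx : x = ηB ^ p - G₂ := by
    refine eq_sub_of_add_eq ?_
    rw [show x + G₂ = G₁ + G₂ + ηA ^ p by simp only [x]; abel, hsum,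
      show w ^ p = ηB ^ p - ηA ^ p from Prod.ext (sub_pow_char _ _) (sub_pow_char _ _),
      sub_add_cancel]
  have hxA1 : x.1 ∈ riemannRochSpace ((p * N) • M.P₁) :=
    Submodule.add_mem _ hG₁.1 (by rw [mul_comm p, mul_nsmul]; exact pow_mem_rr bA1 p)
  have hxA2 : x.2 ∈ riemannRochSpace ((p * N) • M.P₂) :=
    Submodule.add_mem _ hG₁.2.1 (by rw [mul_comm p, mul_nsmul]; exact pow_mem_rr bA2 p)
  have hxB1 : τ.1 ^ (p * N) * x.1 ∈ riemannRochSpace ((p * N) • M.P₁) := by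
    rw [hx, Prod.fst_sub, Prod.pow_fst, mul_sub]
    refine Submodule.sub_mem _ ?_ hG₂.1
    rw [mul_comm p, pow_mul, ← mul_pow, mul_nsmul]
    exact pow_mem_rr bB1 p
  have hxB2 : τ.2 ^ (p * N) * x.2 ∈ riemannRochSpace ((p * N) • M.P₂) := by
    rw [hx, Prod.snd_sub, Prod.pow_snd, mul_sub]
    refine Submodule.sub_mem _ ?_ hG₂.2.1
    rw [mul_comm p, pow_mul, ← mul_pow, mul_nsmul]
    exact pow_mem_rr bB2 p
  obtain ⟨d₁, hd₁⟩ := M.rrK.exists_eq_algebraMap (mem_rr_of_pow_mul_mem C.rd_T_ne.1 C.P₁_eq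
    (D := (0 : Divisor k Kb)) (a := p * N) (by simpa using hxA1) (by simpa using hxB1))
  obtain ⟨d₂, hd₂⟩ := M.rrK.exists_eq_algebraMap (mem_rr_of_pow_mul_mem C.rd_T_ne.2 C.P₂_eq
    (D := (0 : Divisor k Kb)) (a := p * N) (by simpa using hxA2) (by simpa using hxB2))
  have key : ∀ y ∈ M.nodes, ∀ s : ℤ, R.FreeAt T s y → (s : k) ^ p = d₁ - d₂ := by
    intro y hy s hs
    obtain ⟨hy1, hy2⟩ := M.P₁_of_node hy
    have hy2' : M.P₂ y.2 = 0 := (M.supp _).mp hy2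
    have r1 := rrSpace_nsmul_le_reg _ _ bA1
    have r2 := rrSpace_nsmul_le_reg _ _ bA2
    have g1 := rrSpace_nsmul_le_reg _ _ hG₁.1
    have g2 := rrSpace_nsmul_le_reg _ _ hG₁.2.1
    have p1 : ηA.1 ^ p ∈ Reg M.P₁ := rrSpace_nsmul_le_reg _ (N * p)
      (by rw [mul_nsmul]; exact pow_mem_rr bA1 p)
    have p2 : ηA.2 ^ p ∈ Reg M.P₂ := rrSpace_nsmul_le_reg _ (N * p)
      (by rw [mul_nsmul]; exact pow_mem_rr bA2 p)
    have e1 : valAt y.1 x.1 = d₁ := by rw [hd₁, valAt_algebraMap]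
    have e2 : valAt y.2 x.2 = d₂ := by rw [hd₂, valAt_algebraMap]
    simp only [x, Prod.fst_add, Prod.snd_add, Prod.pow_fst, Prod.pow_snd] at e1 e2
    rw [valAt_add_reg M.rrK.deg_one g1 p1 hy1, valAt_pow_reg M.rrK.deg_one r1 hy1] at e1
    rw [valAt_add_reg M.rrK.deg_one g2 p2 hy2', valAt_pow_reg M.rrK.deg_one r2 hy2',
      ← hG₁.2.2 y hy] at e2
    rw [← e1, ← e2]
    have hj := nA y hy s hs
    rw [show valAt y.1 (1 : Kb) = 1 by rw [← map_one (algebraMap k Kb), valAt_algebraMap],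
      mul_one] at hj
    rw [← hj, sub_pow_char]
    ring
  exact frobenius_inj k p ((key z hz t ht).trans (key z' hz' t' ht').symm)

end RatForm.Move

end MazurDatum

end FermatLib.MazurP

end
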