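import Fermat.Agent.Galois.MazurP.LocalPoint
import Fermat.Agent.EC.Torsion
import Mathlib.Algebra.Polynomial.Lifts

/-!
# A `p`-torsion point that is very little ramified

For `Y² = X (X - d) (X - u)` over `ℚ̄` with `|d| = |δ| ^ p < 1 = |u|`, `d, u, δ` fixed by inertia at
a place over `p ≥ 5`, some nonzero point of order `p` is fixed by inertia or by the inertia
elements fixing a wild uniformiser.
-/

set_option autoImplicit false

noncomputable section

namespace FermatLib.MazurP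

open WeierstrassCurve WeierstrassCurve.Affine FermatLib.EC Polynomial
open scoped WeierstrassCurve.Affine

local notation "Qbar" => AlgebraicClosure ℚ
local notation "Γℚ" => (AlgebraicClosure ℚ ≃ₐ[ℚ] AlgebraicClosure ℚ)

variable {A : ValuationSubring Qbar} {W : WeierstrassCurve.Affine ℚ}

/-- The candidate uniformiser attached to a point. -/
def wildPar (p : ℕ) : (W⁄Qbar).Point → Qbar
  | .zero => 0
  | .some x _ _ => (p : Qbar) * x ^ ((p - 1) / 2)

theorem wildPar_smul (p : ℕ) (σ : Γℚ) (U : (W⁄Qbar).Point) :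
    σ (wildPar p U) = wildPar p (σ • U) := by
  rcases U with _ | ⟨x, y, h⟩
  · exact map_zero σ
  obtain ⟨h', e⟩ := smul_point_some σ h
  simp [wildPar, e]

/-- An element fixed by `K₀`-polynomials: the minimal polynomial over the inertia field has at most
as many roots as any finite set stable under inertia containing the element. -/
theorem natDegree_minpoly_le_card (S : Finset Qbar) {π : Qbar} (hπ : π ∈ S)
    (hS : ∀ σ ∈ A.inertiaSubgroupIn ℚ, ∀ s ∈ S, σ s ∈ S) :
    (minpoly (inertiaField A) π).natDegree ≤ S.card := by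
  classical
  set f : Qbar[X] := ∏ s ∈ S, (X - C s) with hf
  have hfix : ∀ σ ∈ A.inertiaSubgroupIn ℚ, f.map (σ : Qbar →+* Qbar) = f := by
    intro σ hσ
    have himg : S.image σ = S := Finset.eq_of_subset_of_card_le
      (fun t ht => by obtain ⟨s, hs, rfl⟩ := Finset.mem_image.mp ht; exact hS σ hσ s hs)
      (by rw [Finset.card_image_of_injective _ σ.injective])
    rw [hf, Polynomial.map_prod]
    conv_rhs => rw [← himg, Finset.prod_image σ.injective.injOn]
    simp
  have hlift : f ∈ lifts (algebraMap (inertiaField A) Qbar) := by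
    rw [lifts_iff_coeff_lifts]
    intro n
    exact ⟨⟨f.coeff n, mem_inertiaField_iff.mpr fun σ hσ => by
      conv_rhs => rw [← hfix σ hσ]
      rw [coeff_map]; rfl⟩, rfl⟩
  have hfm : f.Monic := monic_prod_of_monic _ _ fun s _ => monic_X_sub_C s
  obtain ⟨q, hq, hdeg, hqm⟩ := lifts_and_natDegree_eq_and_monic hlift hfm
  have hroot : aeval π q = 0 := by
    rw [aeval_def, ← eval_map, hq, hf, eval_prod]
    exact Finset.prod_eq_zero hπ (by simp)
  refine (natDegree_le_natDegree (minpoly.min _ _ hqm hroot)).trans ?_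
  rw [hdeg, hf, natDegree_finsetProd_X_sub_C_eq_card]

/-- An element whose `p`-th power has the value of `p` has degree at least `p` over the inertia
field. -/
theorem le_natDegree_minpoly {p : ℕ} (hp : p.Prime) (hA : A.LiesOverPrime p) {π : Qbar}
    (hπ : A.valuation π ^ p = A.valuation (p : Qbar)) :
    p ≤ (minpoly (inertiaField A) π).natDegree := by
  set f := minpoly (inertiaField A) π
  have hint : IsIntegral (inertiaField A) π :=
    ((AlgebraicClosure.isAlgebraic ℚ).isAlgebraic π).isIntegral.tower_top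
  by_contra! hlt
  have h0 : aeval π f = 0 := minpoly.aeval _ π
  rw [aeval_eq_sum_range' hlt, Finset.sum_range fun i => f.coeff i • π ^ i] at h0
  have hv := valuation_sum_eq_sup hp hA hπ fun i => f.coeff i
  have h0' : (∑ i : Fin p, (f.coeff i : Qbar) * π ^ (i : ℕ)) = 0 := h0
  rw [h0', map_zero] at hv
  have hle := Finset.le_sup (f := fun i : Fin p => A.valuation ((f.coeff i : Qbar) * π ^ (i : ℕ)))
    (Finset.mem_univ ⟨f.natDegree, hlt⟩)
  rw [← hv, le_zero_iff, map_eq_zero] at hle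
  have hπ0 : π ≠ 0 := fun h => by
    rw [h, map_zero, zero_pow hp.ne_zero] at hπ
    exact Galois.Flat.valuation_prime_ne_zero hp hπ.symm
  refine pow_ne_zero f.natDegree hπ0 ?_
  simpa [show f.coeff f.natDegree = 1 from (minpoly.monic hint).coeff_natDegree] using hle

/-- The value of `(1 + η) ^ m - 1` for small `η` and a unit `m`. -/
theorem valuation_one_add_pow_sub_one {η : Qbar} (hη : A.valuation η < 1) {m : ℕ}
    (hm : A.valuation (m : Qbar) = 1) :
    A.valuation ((1 + η) ^ m - 1) = A.valuation η := by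
  rw [← geom_sum_mul, map_mul, add_sub_cancel_left, mul_left_eq_self₀.mpr]
  left
  have h1 : ∀ j : ℕ, A.valuation ((1 + η) ^ j - 1) < 1 := fun j => by
    rw [← geom_sum_mul, map_mul, add_sub_cancel_left]
    refine mul_lt_one_of_nonneg_of_lt_one_right ?_ zero_le hη
    refine A.valuation.map_sum_le fun i _ => ?_
    rw [map_pow]
    exact pow_le_one' (A.valuation.map_add_le (map_one _).le hη.le) i
  rw [show ∑ i ∈ Finset.range m, (1 + η) ^ i =
    (m : Qbar) + ∑ i ∈ Finset.range m, ((1 + η) ^ i - 1) by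
    rw [Finset.sum_sub_distrib]; simp, A.valuation.map_add_eq_of_lt_left, hm]
  rw [hm]
  exact A.valuation.map_sum_lt one_ne_zero fun i _ => h1 i

section Points

variable {p : ℕ}

theorem smul_nsmul_point (σ : Γℚ) (k : ℕ) (U : (W⁄Qbar).Point) : σ • (k • U) = k • (σ • U) :=
  map_nsmul (DistribSMul.toAddMonoidHom (W⁄Qbar).Point σ) k U

theorem smul_point_sub (σ : Γℚ) (U U' : (W⁄Qbar).Point) : σ • (U - U') = σ • U - σ • U' :=
  map_sub (DistribSMul.toAddMonoidHom (W⁄Qbar).Point σ) U U'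

theorem smul_point_add (σ : Γℚ) (U U' : (W⁄Qbar).Point) : σ • (U + U') = σ • U + σ • U' :=
  map_add (DistribSMul.toAddMonoidHom (W⁄Qbar).Point σ) U U'

theorem smul_point_zero (σ : Γℚ) : σ • (0 : (W⁄Qbar).Point) = 0 := rfl

/-- A point deeper than the torsion line whose `p`-th multiple is fixed, is fixed. -/
theorem smul_eq_of_deep [(W⁄Qbar).IsElliptic] (hV : IntegralAt A (W⁄Qbar))
    {P : (W⁄Qbar).Point} {c : A.ValueGroup} (hK : KernelLine A (W⁄Qbar) p P c) {σ : Γℚ}
    (hσ : σ ∈ A.inertiaSubgroupIn ℚ) {z : (W⁄Qbar).Point} (hz : InE1 A z)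
    (hR : σ • (p • z) = p • z)
    (hdeep : ∀ (X Y : Qbar) (h : (W⁄Qbar).Nonsingular X Y),
      z = Point.some X Y h → c < A.valuation X) : σ • z = z := by
  rcases z with _ | ⟨x, y, h⟩
  · rfl
  have hx : x ∉ A := hz
  obtain ⟨γ, hγ0, hγ, hγx⟩ := exists_fil_scale hx
  obtain ⟨h', e⟩ := smul_point_some σ h
  have hfilz : InFil A γ (Point.some x y h : (W⁄Qbar).Point) := by
    rw [inFil_some, hγx, map_one]
  have hfilσ : InFil A γ (Point.some (σ x) (σ y) h' : (W⁄Qbar).Point) := by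
    rw [inFil_some, map_mul, valuation_map_inertia hσ, ← map_mul, hγx, map_one]
  rw [← sub_eq_zero]
  have hD1 : InE1 A (σ • Point.some x y h - Point.some x y h) :=
    (E1 hV).sub_mem (inE1_smul hσ hz) hz
  have hDp : p • (σ • Point.some x y h - Point.some x y h) = 0 := by
    rw [nsmul_sub, ← smul_nsmul_point, hR, sub_self]
  have hDfil := (inFil_sub hV hγ0 hγ hfilσ hfilz).1
  rw [← e] at hDfil
  rcases hD : σ • Point.some x y h - Point.some x y h with _ | ⟨a, b, hab⟩
  · rfl
  exfalso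
  rw [hD] at hD1 hDp hDfil
  have hac := hK.val_eq a b hab hDp hD1
  rw [inFil_some, map_mul, hac] at hDfil
  have h1 : A.valuation (γ ^ 2) * c < A.valuation (γ ^ 2) * A.valuation x :=
    mul_lt_mul_of_pos_left (hdeep x y h rfl)
      (A.valuation.pos_iff.mpr (pow_ne_zero 2 hγ0))
  rw [← map_mul _ _ x, hγx, map_one] at h1
  exact absurd hDfil (not_le.mpr h1)

variable {d u : Qbar}

/-- The values of the coordinates of a fixed point reducing to infinity. -/
theorem even_of_fixed (hp : p.Prime) (hA : A.LiesOverPrime p)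
    (hM : Frey05.IsMult A.valuation (W⁄Qbar) d u) {X Y : Qbar} (h : (W⁄Qbar).Nonsingular X Y)
    (hfix : ∀ σ ∈ A.inertiaSubgroupIn ℚ,
      σ • (Point.some X Y h : (W⁄Qbar).Point) = Point.some X Y h)
    (hX : 1 < A.valuation X) :
    ∃ i : ℤ, i < 0 ∧ A.valuation X = A.valuation (p : Qbar) ^ (2 * i) := by
  set v := A.valuation
  obtain ⟨hXK, hYK⟩ := mem_coords_of_fixed h hfix
  have hY : v Y ^ 2 = v X ^ 3 := by
    rw [← map_pow, hM.std.eqn h, map_mul, map_mul, v.map_sub_eq_of_lt_left (hM.vd.trans hX),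
      v.map_sub_eq_of_lt_left (hM.vu.symm ▸ hX)]
    simp only [pow_succ, pow_zero, one_mul]
  have hX0 : X ≠ 0 := fun e => by simp [e] at hX
  have hY0 : Y ≠ 0 := fun e => by
    rw [e, map_zero, zero_pow two_ne_zero] at hY
    exact pow_ne_zero 3 (v.ne_zero_iff.mpr hX0) hY.symm
  obtain ⟨i, hi⟩ := exists_valuation_eq_zpow_of_mem hp hA hXK hX0
  obtain ⟨j, hj⟩ := exists_valuation_eq_zpow_of_mem hp hA hYK hY0
  rw [hi, hj, ← zpow_natCast, ← zpow_natCast _ 3, ← zpow_mul, ← zpow_mul] at hY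
  have h23 : j * 2 = i * 3 := Galois.Flat.valuation_zpow_injective hp hA hY
  refine ⟨i / 2, ?_, by rw [hi, show 2 * (i / 2) = i by omega]⟩
  rw [hi, ← zpow_zero (v (p : Qbar))] at hX
  have : i < 0 := by
    by_contra! h0
    exact absurd ((Galois.Flat.valuation_zpow_le_zpow_iff hp hA).mpr h0) (not_le.mpr hX)
  omega

/-- The main case analysis, for a point `z` reducing to infinity differing from a torsion point
`T` by a fixed point. -/
theorem peuPoint_of_sub (hp : p.Prime) (hp5 : 5 ≤ p) (hA : A.LiesOverPrime p)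
    (hM : Frey05.IsMult A.valuation (W⁄Qbar) d u) [(W⁄Qbar).IsElliptic]
    {P : (W⁄Qbar).Point} {c : A.ValueGroup} (hK : KernelLine A (W⁄Qbar) p P c)
    {T Q : (W⁄Qbar).Point} (hT : p • T = 0) (hT1 : ¬ InE1 A T)
    (hQ : ∀ σ ∈ A.inertiaSubgroupIn ℚ, σ • Q = Q) (hTQ : InE1 A (T - Q)) :
    ∃ T' : (W⁄Qbar).Point, T' ≠ 0 ∧ p • T' = 0 ∧ PeuPoint A p T' := by
  set v := A.valuation
  obtain ⟨cc, hcc⟩ := IsAlgClosed.exists_pow_nat_eq (-u) two_pos
  obtain ⟨hTM, hαβ⟩ := isTangentModel_of_isMult hM hcc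
  have hV : IntegralAt A (W⁄Qbar) := integralAt_of_isMult hM
  have hp2 : p ≠ 2 := by omega
  have hp0 : (p : Qbar) ≠ 0 := Nat.cast_ne_zero.mpr hp.ne_zero
  have hpv : v (p : Qbar) < 1 := Galois.Flat.valuation_prime_lt_one hA
  have hvp0 : v (p : Qbar) ≠ 0 := v.ne_zero_iff.mpr hp0
  set m := (p - 1) / 2 with hm
  have hpm : p = 2 * m + 1 := by
    obtain ⟨j, hj⟩ := hp.odd_of_ne_two hp2; omega
  have hT0 : T ≠ 0 := fun e => hT1 (e ▸ trivial)
  -- translation invariance
  have key : ∀ (T' z' : (W⁄Qbar).Point), T' - Q = z' → ∀ σ ∈ A.inertiaSubgroupIn ℚ,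
      σ • z' = z' → σ • T' = T' := by
    intro T' z' e σ hσ hz
    rw [← e, smul_point_sub, hQ σ hσ, sub_left_inj] at hz
    exact hz
  have hR : ∀ σ ∈ A.inertiaSubgroupIn ℚ, σ • (p • (T - Q)) = p • (T - Q) := by
    intro σ hσ
    rw [nsmul_sub, hT, zero_sub, smul_neg, smul_nsmul_point, hQ σ hσ]
  rcases hz : T - Q with _ | ⟨x, y, h⟩
  · exact ⟨T, hT0, hT, Or.inl fun σ hσ => key T _ rfl σ hσ (by rw [hz]; rfl)⟩
  rw [hz] at hTQ hR
  have hx : x ∉ A := hTQ
  have hx1 : 1 < v x := not_mem_iff_valuation.mp hx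
  have hxv0 : v x ≠ 0 := (zero_lt_one.trans hx1).ne'
  rcases lt_trichotomy (v x) c with hlt | heq | hgt
  · -- above the line
    obtain ⟨X', Y', h', hpz, hX'⟩ := hK.val_nsmul_of_lt hV hTM hαβ hp hp2 hpv hp0 (h := h) hx hlt
    obtain ⟨i, hi0, hi⟩ := even_of_fixed hp hA hM h' (fun σ hσ => hpz ▸ hR σ hσ)
      (hX'.symm ▸ one_lt_pow₀ hx1 hp.ne_zero)
    rw [hX'] at hi
    have hcm := hK.pow_mul_eq
    have hi1 : i = -1 := by
      have h1 : (v (p : Qbar) * v x ^ m) ^ p < 1 := by
        refine pow_lt_one₀ zero_le ?_ hp.ne_zero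
        rw [← hcm]
        exact mul_lt_mul_of_pos_left (pow_lt_pow_left₀ hlt zero_le (by omega))
          (zero_lt_iff.mpr hvp0)
      rw [mul_pow, pow_right_comm, hi, ← zpow_natCast, ← zpow_natCast (v (p : Qbar) ^ _) m,
        ← zpow_mul, ← zpow_add₀ hvp0, ← zpow_zero (v (p : Qbar))] at h1
      have h2 : 0 < (p : ℤ) + 2 * i * m := by
        by_contra! h0
        exact absurd ((Galois.Flat.valuation_zpow_le_zpow_iff hp hA).mpr h0) (not_le.mpr h1)
      have h3 : (p : ℤ) = 2 * m + 1 := by exact_mod_cast hpm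
      by_contra hne
      have : (i + 2) * (m : ℤ) ≤ 0 := mul_nonpos_of_nonpos_of_nonneg (by omega) (by positivity)
      have h5 : (2 : ℤ) ≤ m := by omega
      nlinarith
    subst hi1
    by_cases hfix : ∀ σ ∈ A.inertiaSubgroupIn ℚ, σ • (Point.some x y h : (W⁄Qbar).Point) = Point.some x y h
    · exact ⟨T, hT0, hT, Or.inl fun σ hσ => key T _ hz σ hσ (hfix σ hσ)⟩
    set π := wildPar p (Point.some x y h : (W⁄Qbar).Point) with hπ
    have hπv : v π ^ p = v (p : Qbar) := by
      rw [hπ, wildPar, ← hm, map_mul, map_pow, mul_pow, pow_right_comm, hi, ← zpow_natCast,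
        ← zpow_natCast (v (p : Qbar) ^ _) m, ← zpow_mul, ← zpow_add₀ hvp0]
      conv_rhs => rw [← zpow_one (v (p : Qbar))]
      congr 1
      omega
    have hπ0 : π ≠ 0 := fun e => by
      rw [e, map_zero, zero_pow hp.ne_zero] at hπv; exact hvp0 hπv.symm
    -- how inertia moves `π`
    have hmove : ∀ σ ∈ A.inertiaSubgroupIn ℚ,
        σ • (Point.some x y h : (W⁄Qbar).Point) ≠ Point.some x y h →
        v (σ π / π - 1) < 1 ∧ v (p : Qbar) < v (σ π / π - 1) ^ p := by
      intro σ hσ hne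
      obtain ⟨h₃, e⟩ := smul_point_some σ h
      rcases hD : σ • Point.some x y h - Point.some x y h with _ | ⟨a, b, hab⟩
      · exact absurd (sub_eq_zero.mp hD) hne
      have hD1 : InE1 A (σ • Point.some x y h - Point.some x y h) :=
        (E1 hV).sub_mem (inE1_smul hσ hTQ) hTQ
      have hDp : p • (σ • Point.some x y h - Point.some x y h) = 0 := by
        rw [nsmul_sub, ← smul_nsmul_point, hR σ hσ, sub_self]
      rw [hD] at hD1 hDp
      have hac : v a = c := hK.val_eq a b hab hDp hD1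
      have hsum : (Point.some x y h : (W⁄Qbar).Point) + Point.some a b hab =
          Point.some (σ x) (σ y) h₃ := by rw [← hD, ← e]; abel
      have hval := valuation_add_sub hM hsum hx1 (hac.symm ▸ hlt)
      rw [hac] at hval
      set η := σ x / x - 1 with hη
      have hη2 : v η ^ 2 < 1 := by
        by_contra! h1
        exact absurd (hval ▸ hlt) (not_lt.mpr (le_mul_of_one_le_left' h1))
      have hη1 : v η < 1 := (pow_lt_one_iff_of_nonneg zero_le two_ne_zero).mp hη2
      have hσπ : σ π / π - 1 = (1 + η) ^ m - 1 := by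
        have hx0 : x ≠ 0 := fun e => by simp [e] at hxv0
        rw [hπ, wildPar, map_mul, map_natCast, map_pow, mul_div_mul_left _ _ hp0, ← div_pow, hη,
          add_sub_cancel]
      have hm1 : v (m : Qbar) = 1 := Galois.Flat.valuation_natCast_eq_one hp hA
        (fun hd => by have := Nat.le_of_dvd (by omega) hd; omega)
      rw [hσπ, valuation_one_add_pow_sub_one hη1 hm1]
      refine ⟨hη1, ?_⟩
      -- `|p| ^ 4 c ^ p < 1`
      have hc4 : v (p : Qbar) ^ 4 * c ^ p < 1 := by
        refine (pow_lt_one_iff_of_nonneg zero_le (show m ≠ 0 by omega)).mp ?_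
        have hcp : c ^ m = (v (p : Qbar))⁻¹ := eq_inv_of_mul_eq_one_right hcm
        rw [mul_pow, ← pow_mul, pow_right_comm, hcp, inv_pow, ← div_eq_mul_inv,
          div_lt_one₀ (zero_lt_iff.mpr (pow_ne_zero _ hvp0))]
        exact pow_lt_pow_right_of_lt_one₀ (zero_lt_iff.mpr hvp0) hpv (by omega)
      by_contra! hle
      have h1 := pow_le_pow_left' hle 2
      rw [← pow_mul, mul_comm p 2, pow_mul] at h1
      have h2 : v x ^ p * v (p : Qbar) ^ 2 ≤ v (p : Qbar) ^ 4 * c ^ p := by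
        rw [← hval, mul_pow, show (4 : ℕ) = 2 + 2 from rfl, pow_add, mul_right_comm]
        exact mul_le_mul' (mul_le_mul' h1 le_rfl) le_rfl
      rw [hi] at h2
      have : v (p : Qbar) ^ (2 * (-1 : ℤ)) * v (p : Qbar) ^ 2 = 1 := by
        rw [← zpow_natCast, ← zpow_add₀ hvp0]; norm_num
      exact absurd (this ▸ h2) (not_le.mpr hc4)
    push Not at hfix
    obtain ⟨σ₀, hσ₀, hne₀⟩ := hfix
    have hcardle : (minpoly (inertiaField A) π).natDegree ≤ p := by
      classical
      set S := (Finset.range p).image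
        fun k : ℕ => wildPar p (Point.some x y h + k • P : (W⁄Qbar).Point)
      have hπS : π ∈ S := Finset.mem_image.mpr
        ⟨0, Finset.mem_range.mpr hp.pos, by rw [zero_nsmul, add_zero]⟩
      refine (natDegree_minpoly_le_card S hπS fun σ hσ s hs => ?_).trans
        (Finset.card_image_le.trans (Finset.card_range p).le)
      obtain ⟨k, -, rfl⟩ := Finset.mem_image.mp hs
      obtain ⟨j, hj⟩ := hK.generates (σ • Point.some x y h - Point.some x y h)
        (by rw [nsmul_sub, ← smul_nsmul_point, hR σ hσ, sub_self])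
        ((E1 hV).sub_mem (inE1_smul hσ hTQ) hTQ)
      obtain ⟨l, hl⟩ := hK.generates (σ • P)
        (by rw [← smul_nsmul_point, hK.nsmul_eq, smul_point_zero]) (inE1_smul hσ hK.inE1)
      refine Finset.mem_image.mpr ⟨(j + k * l) % p, Finset.mem_range.mpr (Nat.mod_lt _ hp.pos), ?_⟩
      rw [wildPar_smul]
      congr 1
      have hmod : ((j + k * l) % p) • P = (j + k * l) • P := by
        conv_rhs => rw [← Nat.mod_add_div (j + k * l) p, add_nsmul, mul_nsmul,
          hK.nsmul_eq, nsmul_zero, add_zero]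
      rw [hmod, smul_point_add, smul_nsmul_point, hl, add_nsmul, ← hj, mul_nsmul', add_comm]
      abel
    have hwild : IsWildUniformiser A p π :=
      ⟨hπv, le_antisymm hcardle (le_natDegree_minpoly hp hA hπv), σ₀, hσ₀, hmove σ₀ hσ₀ hne₀⟩
    refine ⟨T, hT0, hT, Or.inr ⟨π, hwild, fun σ hσ hσπ => key T _ hz σ hσ ?_⟩⟩
    by_contra hne
    have := (hmove σ hσ hne).2
    rw [hσπ, div_self hπ0, sub_self, map_zero, zero_pow hp.ne_zero] at this
    exact not_lt_zero this
  · -- on the line's level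
    rcases hK.deeper_or_val_nsmul hV hTM hαβ hp hp2 hpv hp0 (h := h) hx heq with
      ⟨k, hk⟩ | ⟨X', Y', h', hpz, hX'⟩
    · refine ⟨T - k • P, fun e => hT1 ?_, ?_, Or.inl fun σ hσ => key _ (Point.some x y h - k • P) ?_ σ hσ ?_⟩
      · rw [sub_eq_zero] at e
        exact e ▸ (E1 hV).nsmul_mem hK.inE1 k
      · rw [nsmul_sub, hT, ← mul_nsmul', mul_comm, mul_nsmul', hK.nsmul_eq, nsmul_zero, sub_zero]
      · exact (sub_right_comm T _ Q).trans (by rw [hz])
      · refine smul_eq_of_deep hV hK hσ ((E1 hV).sub_mem hTQ ((E1 hV).nsmul_mem hK.inE1 k)) ?_ hk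
        rw [nsmul_sub, ← mul_nsmul' (m := p) (n := k), mul_comm p k, mul_nsmul', hK.nsmul_eq, nsmul_zero, sub_zero]
        exact hR σ hσ
    · exfalso
      have hX1 : 1 < v X' := by
        have := (E1 hV).nsmul_mem (show Point.some x y h ∈ E1 hV from hTQ) p
        rw [hpz] at this
        exact not_mem_iff_valuation.mp this
      obtain ⟨i, -, hi⟩ := even_of_fixed hp hA hM h' (fun σ hσ => hpz ▸ hR σ hσ) hX1
      have hcm := hK.pow_mul_eq
      rw [← heq, ← hX', hi, ← zpow_natCast _ 2, ← zpow_add₀ hvp0, ← zpow_natCast _ ((p - 1) / 2),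
        ← zpow_mul, ← zpow_one_add₀ hvp0, ← zpow_zero (v (p : Qbar))] at hcm
      have := Galois.Flat.valuation_zpow_injective hp hA hcm
      have h2 : (2 * i + ((2 : ℕ) : ℤ)) * (((p - 1) / 2 : ℕ) : ℤ)
          = 2 * ((i + 1) * (((p - 1) / 2 : ℕ) : ℤ)) := by push_cast; ring
      rw [h2] at this
      omega
  · exact ⟨T, hT0, hT, Or.inl fun σ hσ => key T _ hz σ hσ
      (smul_eq_of_deep hV hK hσ hTQ (hR σ hσ) fun X Y hXY e => by
        rw [Point.some.injEq] at e; exact e.1 ▸ hgt)⟩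

/-- Some nonzero point of order `p` is very little ramified. -/
theorem exists_peuPoint_of_isMult (hp : p.Prime) (hp5 : 5 ≤ p) (hA : A.LiesOverPrime p)
    (hM : Frey05.IsMult A.valuation (W⁄Qbar) d u) (hd : d ∈ inertiaField A)
    (hu : u ∈ inertiaField A) {δ : Qbar} (hδ : A.valuation d = A.valuation δ ^ p)
    (hδK : δ ∈ inertiaField A) :
    ∃ T : (W⁄Qbar).Point, T ≠ 0 ∧ p • T = 0 ∧ PeuPoint A p T := by
  have : (W⁄Qbar).IsElliptic := ⟨isUnit_iff_ne_zero.mpr (Δ_ne_zero_of_isMult hM)⟩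
  obtain ⟨cc, hcc⟩ := IsAlgClosed.exists_pow_nat_eq (-u) two_pos
  obtain ⟨hTM, hαβ⟩ := isTangentModel_of_isMult hM hcc
  have hp0 : (p : Qbar) ≠ 0 := Nat.cast_ne_zero.mpr hp.ne_zero
  obtain ⟨P, c, hK⟩ := exists_kernelLine (integralAt_of_isMult hM) hTM hαβ hp (by omega)
    (Galois.Flat.valuation_prime_lt_one hA) hp0
  obtain ⟨T, hT, hT1⟩ : ∃ T : (W⁄Qbar).Point, p • T = 0 ∧ ¬ InE1 A T := by
    by_contra! hall
    have hsurj : Function.Surjective (fun k : Fin p =>
        (⟨(k : ℕ) • P, (Submodule.mem_torsionBy_iff _ _).mpr (by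
          rw [natCast_zsmul, ← mul_nsmul', mul_comm, mul_nsmul', hK.nsmul_eq, nsmul_zero])⟩ :
          Submodule.torsionBy ℤ (W⁄Qbar).Point (p : ℤ))) := fun U => by
      have hU : p • (U : (W⁄Qbar).Point) = 0 := by
        rw [← natCast_zsmul]; exact (Submodule.mem_torsionBy_iff _ _).mp U.2
      obtain ⟨k, hk⟩ := hK.generates _ hU (hall _ hU)
      refine ⟨⟨k % p, Nat.mod_lt _ hp.pos⟩, Subtype.ext ?_⟩
      show (k % p) • P = U
      rw [hk]
      conv_rhs => rw [← Nat.mod_add_div k p, add_nsmul, mul_nsmul, hK.nsmul_eq,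
        nsmul_zero, add_zero]
    have hle := Nat.card_le_card_of_surjective _ hsurj
    rw [natCard_torsionBy (W⁄Qbar) hp0, Nat.card_fin] at hle
    nlinarith
  obtain ⟨Q₁, hQ₁, h₁⟩ := exists_fixed_sub_inE0 hp hM hd hu hδ hδK hT
  obtain ⟨Q₂, hQ₂, h₂⟩ := exists_fixed_sub_inE1 hp hA hM hd hu h₁
  exact peuPoint_of_sub hp hp5 hA hM hK hT hT1
    (Q := Q₁ + Q₂) (fun σ hσ => by rw [smul_point_add, hQ₁ σ hσ, hQ₂ σ hσ]) (by rwa [← sub_sub])

end Points

end FermatLib.MazurP

end
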